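import Mathlib

/-!
# S24 helper: Ree's inequality and the parity of the genus formula

For three permutations `g₁ g₂ g₃` of a finite set with `g₁ * g₂ * g₃ = 1` generating a transitive
group, with `cyc g` the number of cycles of `g` (fixed points included):

* `ree_three` : `cyc g₁ + cyc g₂ + cyc g₃ ≤ card + 2` (Ree / Feit–Lyndon–Scott, via Scott's lemma);
* `parity_three` : `card + cyc g₁ + cyc g₂ + cyc g₃` is even (signs);
* `exists_genus_of_action` : for a transitive action of a group generated by `S`, `T` with
  `S²` and `(ST)³` acting trivially, `12 + n - 3a - 4b - 6c` is a non-negative multiple of `12`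
  (`n` points, `a`, `b` fixed points of `S`, `ST`, `c` orbits of `T`).
-/

set_option autoImplicit false

open Equiv MulAction

namespace Fermat.Agent.S24

section Ree

variable {α : Type*} [Fintype α] [DecidableEq α]

/-- The number of cycles of a permutation, fixed points included: the number of orbits of the
cyclic group it generates. -/
noncomputable def cyc (σ : Perm α) : ℕ :=
  Nat.card (orbitRel.Quotient (Subgroup.zpowers σ) α)

omit [Fintype α] [DecidableEq α] in
theorem cyc_rel_iff (σ : Perm α) (x y : α) :
    (orbitRel (Subgroup.zpowers σ) α) x y ↔ σ.SameCycle y x := by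
  rw [orbitRel_apply]
  constructor
  · rintro ⟨⟨g, hg⟩, rfl⟩
    obtain ⟨i, rfl⟩ := Subgroup.mem_zpowers_iff.mp hg
    exact ⟨i, rfl⟩
  · rintro ⟨i, hi⟩
    exact ⟨⟨σ ^ i, i, rfl⟩, hi⟩

theorem card_image_le_of_imp {ι β γ : Type*} [DecidableEq β] [DecidableEq γ] (s : Finset ι)
    (f : ι → β) (g : ι → γ) (h : ∀ x ∈ s, ∀ y ∈ s, g x = g y → f x = f y) :
    (s.image f).card ≤ (s.image g).card := by
  classical
  rcases s.eq_empty_or_nonempty with rfl | ⟨x0, hx0⟩
  · simp
  · let r : γ → ι := fun c => if hc : ∃ x ∈ s, g x = c then hc.choose else x0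
    have hr : ∀ x ∈ s, r (g x) ∈ s ∧ g (r (g x)) = g x := by
      intro x hx
      have hc : ∃ y ∈ s, g y = g x := ⟨x, hx, rfl⟩
      simp only [r, dif_pos hc]
      exact hc.choose_spec
    have hsub : s.image f ⊆ (s.image g).image (f ∘ r) := by
      intro b hb
      obtain ⟨x, hx, rfl⟩ := Finset.mem_image.mp hb
      refine Finset.mem_image.mpr ⟨g x, Finset.mem_image_of_mem g hx, ?_⟩
      exact h _ (hr x hx).1 _ hx (hr x hx).2
    exact (Finset.card_le_card hsub).trans Finset.card_image_le

/-- Orbits are the nontrivial cycles together with the fixed points. -/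
theorem cyc_add_card_support (σ : Perm α) :
    cyc σ + σ.support.card = Fintype.card α + σ.cycleFactorsFinset.card := by
  classical
  let _ : Fintype (orbitRel.Quotient (Subgroup.zpowers σ) α) := Fintype.ofFinite _
  set π : α → orbitRel.Quotient (Subgroup.zpowers σ) α := Quotient.mk'' with hπ
  have hπ_iff : ∀ x y, π x = π y ↔ σ.SameCycle y x := fun x y => by
    rw [hπ, Quotient.eq'']
    exact cyc_rel_iff σ x y
  have hsurj : Function.Surjective π := Quotient.mk''_surjective
  have h1 : cyc σ = (Finset.univ.image π).card := by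
    rw [cyc, Nat.card_eq_fintype_card, Finset.image_univ_of_surjective hsurj, Finset.card_univ]
  have h2 : (Finset.univ : Finset α) = σ.support ∪ σ.supportᶜ := by simp
  have hdisj : Disjoint (σ.support.image π) (σ.supportᶜ.image π) := by
    rw [Finset.disjoint_left]
    intro q hq1 hq2
    obtain ⟨x, hx, rfl⟩ := Finset.mem_image.mp hq1
    obtain ⟨y, hy, hxy⟩ := Finset.mem_image.mp hq2
    rw [hπ_iff] at hxy
    rw [Finset.mem_compl, Perm.mem_support, not_not] at hy
    rw [Perm.mem_support] at hx
    exact hx (hxy.apply_eq_self_iff.mpr hy)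
  have h3 : (σ.supportᶜ.image π).card = σ.supportᶜ.card := by
    apply Finset.card_image_of_injOn
    intro x hx y hy hxy
    rw [hπ_iff] at hxy
    obtain ⟨i, hi⟩ := hxy
    rw [Finset.mem_coe, Finset.mem_compl, Perm.mem_support, not_not] at hy
    rw [Perm.zpow_apply_eq_self_of_apply_eq_self hy] at hi
    exact hi.symm
  have h4 : (σ.support.image π).card = σ.cycleFactorsFinset.card := by
    have himg : σ.support.image σ.cycleOf = σ.cycleFactorsFinset := by
      ext c
      constructor
      · intro hc
        obtain ⟨x, hx, rfl⟩ := Finset.mem_image.mp hc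
        exact Perm.cycleOf_mem_cycleFactorsFinset_iff.mpr hx
      · intro hc
        obtain ⟨hcyc, -⟩ := Perm.mem_cycleFactorsFinset_iff.mp hc
        obtain ⟨a, ha⟩ := hcyc.nonempty_support
        exact Finset.mem_image.mpr ⟨a, Perm.mem_cycleFactorsFinset_support_le hc ha,
          (Perm.cycle_is_cycleOf ha hc).symm⟩
    rw [← himg]
    apply le_antisymm
    · apply card_image_le_of_imp
      intro x hx y hy hxy
      rw [hπ_iff]
      exact ((Perm.sameCycle_iff_cycleOf_eq_of_mem_support hx hy).mpr hxy).symm
    · apply card_image_le_of_imp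
      intro x hx y hy hxy
      rw [hπ_iff] at hxy
      exact (Perm.sameCycle_iff_cycleOf_eq_of_mem_support hx hy).mp hxy.symm
  rw [h1, h2, Finset.image_union, Finset.card_union_of_disjoint hdisj, h3, h4, Finset.card_compl]
  have := Finset.card_le_univ σ.support
  omega

/-- The sign of a permutation in terms of its number of cycles. -/
theorem sign_eq_neg_one_pow_cyc (σ : Perm α) :
    Perm.sign σ = (-1 : ℤˣ) ^ (Fintype.card α + cyc σ) := by
  rw [Perm.sign_of_cycleType, Perm.sum_cycleType]
  have h := cyc_add_card_support σ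
  have hk : Multiset.card σ.cycleType = σ.cycleFactorsFinset.card := by
    rw [Perm.cycleType_def, Multiset.card_map]
    rfl
  rw [hk]
  have h1 : (-1 : ℤˣ) ^ (Fintype.card α + cyc σ) =
      (-1 : ℤˣ) ^ (Fintype.card α + cyc σ + 2 * σ.support.card) := by
    rw [pow_add _ _ (2 * _), pow_mul]
    simp
  rw [h1, show Fintype.card α + cyc σ + 2 * σ.support.card =
    2 * Fintype.card α + (σ.support.card + σ.cycleFactorsFinset.card) by omega]
  rw [pow_add _ (2 * Fintype.card α), pow_mul]
  simp

/-- Parity: for three permutations with product one. -/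
theorem parity_three (g₁ g₂ g₃ : Perm α) (hprod : g₁ * g₂ * g₃ = 1) :
    Even (Fintype.card α + cyc g₁ + cyc g₂ + cyc g₃) := by
  have h := congrArg Perm.sign hprod
  rw [map_mul, map_mul, map_one, sign_eq_neg_one_pow_cyc, sign_eq_neg_one_pow_cyc,
    sign_eq_neg_one_pow_cyc, ← pow_add, ← pow_add] at h
  have h2 := (neg_one_pow_eq_one_iff_even (by decide : (-1 : ℤˣ) ≠ 1)).mp h
  obtain ⟨k, hk⟩ := h2
  exact ⟨k - Fintype.card α, by omega⟩

/-! ### The permutation representation -/

/-- The permutation operator on functions: `(permOp σ f) x = f (σ⁻¹ x)`. -/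
noncomputable def permOp (σ : Perm α) : (α → ℚ) →ₗ[ℚ] (α → ℚ) := LinearMap.funLeft ℚ ℚ σ.symm

omit [Fintype α] [DecidableEq α] in
theorem permOp_apply (σ : Perm α) (f : α → ℚ) (x : α) : permOp σ f x = f (σ.symm x) := rfl

omit [Fintype α] [DecidableEq α] in
theorem permOp_mul (σ τ : Perm α) (f : α → ℚ) : permOp (σ * τ) f = permOp σ (permOp τ f) := by
  ext x
  simp only [permOp_apply]
  rfl

omit [Fintype α] [DecidableEq α] in
theorem permOp_one (f : α → ℚ) : permOp (1 : Perm α) f = f := rfl

omit [Fintype α] in
theorem permOp_single (σ : Perm α) (x : α) :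
    permOp σ (Pi.single x (1 : ℚ)) = Pi.single (σ x) (1 : ℚ) := by
  ext z
  simp only [permOp_apply, Pi.single_apply]
  by_cases h : z = σ x
  · rw [if_pos h, if_pos (by rw [h, Equiv.symm_apply_apply])]
  · rw [if_neg h, if_neg (fun h' => h (by rw [← h', Equiv.apply_symm_apply]))]

omit [DecidableEq α] in
/-- The invariants of `permOp σ` have dimension `cyc σ`. -/
theorem finrank_ker_permOp_sub (σ : Perm α) :
    Module.finrank ℚ (LinearMap.ker (permOp σ - LinearMap.id)) = cyc σ := by
  classical
  let _ : Fintype (orbitRel.Quotient (Subgroup.zpowers σ) α) := Fintype.ofFinite _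
  set π : α → orbitRel.Quotient (Subgroup.zpowers σ) α := Quotient.mk'' with hπ
  have hπ_iff : ∀ x y, π x = π y ↔ σ.SameCycle y x := fun x y => by
    rw [hπ, Quotient.eq'']
    exact cyc_rel_iff σ x y
  have hsurj : Function.Surjective π := Quotient.mk''_surjective
  set L : (orbitRel.Quotient (Subgroup.zpowers σ) α → ℚ) →ₗ[ℚ] (α → ℚ) :=
    LinearMap.funLeft ℚ ℚ π with hL
  have hLinj : Function.Injective L := LinearMap.funLeft_injective_of_surjective ℚ ℚ π hsurj
  have hrange : LinearMap.range L = LinearMap.ker (permOp σ - LinearMap.id) := by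
    ext f
    rw [LinearMap.mem_ker]
    constructor
    · rintro ⟨g, rfl⟩
      ext x
      have hx : π (σ.symm x) = π x := (hπ_iff _ _).mpr ⟨-1, by simp [Perm.inv_def]⟩
      simp only [LinearMap.sub_apply, LinearMap.id_apply, Pi.sub_apply, Pi.zero_apply,
        permOp_apply, hL, LinearMap.funLeft_apply, hx, sub_self]
    · intro hf
      have hf' : ∀ x, f (σ.symm x) = f x := fun x => by
        have := congrFun hf x
        simpa [permOp_apply, sub_eq_zero] using this
      have hσ : ∀ x, f (σ x) = f x := fun x => by
        have := hf' (σ x)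
        rw [Equiv.symm_apply_apply] at this
        exact this.symm
      have hz : ∀ i : ℤ, ∀ x, f ((σ ^ i) x) = f x := by
        intro i
        induction i using Int.induction_on with
        | zero => intro x; simp
        | succ i ih =>
          intro x
          rw [zpow_add_one, Perm.mul_apply, ih, hσ]
        | pred i ih =>
          intro x
          rw [zpow_sub_one, Perm.mul_apply, ih, Perm.inv_def, hf']
      refine ⟨Quotient.lift f (fun a b hab => ?_), ?_⟩
      · obtain ⟨i, hi⟩ := (cyc_rel_iff σ a b).mp hab
        rw [← hi, hz]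
      · ext x
        rfl
  rw [← hrange, LinearMap.finrank_range_of_inj hLinj, Module.finrank_fintype_fun_eq_card, cyc,
    Nat.card_eq_fintype_card]

omit [DecidableEq α] in
/-- Rank–nullity for `permOp σ - 1`. -/
theorem finrank_range_permOp_sub (σ : Perm α) :
    Module.finrank ℚ (LinearMap.range (permOp σ - LinearMap.id)) + cyc σ = Fintype.card α := by
  have h := LinearMap.finrank_range_add_finrank_ker (permOp σ - LinearMap.id)
  rw [finrank_ker_permOp_sub, Module.finrank_fintype_fun_eq_card] at h
  exact h

/-- **Ree's inequality** (Scott's lemma) for three permutations with product one generating a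
transitive group. -/
theorem ree_three (g₁ g₂ g₃ : Perm α) (hprod : g₁ * g₂ * g₃ = 1)
    (htrans : ∀ x y : α, ∃ g ∈ Subgroup.closure ({g₁, g₂, g₃} : Set (Perm α)), g x = y) :
    cyc g₁ + cyc g₂ + cyc g₃ ≤ Fintype.card α + 2 := by
  classical
  rcases isEmpty_or_nonempty α with hα | ⟨⟨x0⟩⟩
  · have h0 : ∀ σ : Perm α, cyc σ = 0 := fun σ => by
      rw [cyc]
      have : IsEmpty (orbitRel.Quotient (Subgroup.zpowers σ) α) :=
        ⟨fun q => Quotient.inductionOn' q fun a => hα.false a⟩
      exact Nat.card_of_isEmpty
    rw [h0, h0, h0]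
    omega
  · set A₁ : (α → ℚ) →ₗ[ℚ] (α → ℚ) := permOp g₁ - LinearMap.id with hA₁
    set A₂ : (α → ℚ) →ₗ[ℚ] (α → ℚ) := permOp g₂ - LinearMap.id with hA₂
    set A₃ : (α → ℚ) →ₗ[ℚ] (α → ℚ) := permOp g₃ - LinearMap.id with hA₃
    have hA₁a : ∀ v, A₁ v = permOp g₁ v - v := fun v => rfl
    have hA₂a : ∀ v, A₂ v = permOp g₂ v - v := fun v => rfl
    have hA₃a : ∀ v, A₃ v = permOp g₃ v - v := fun v => rfl
    let δ : (LinearMap.range A₁ × LinearMap.range A₂ × LinearMap.range A₃) →ₗ[ℚ] (α → ℚ) :=
      (LinearMap.range A₁).subtype.coprod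
        (((permOp g₁).comp (LinearMap.range A₂).subtype).coprod
          (((permOp g₁).comp (permOp g₂)).comp (LinearMap.range A₃).subtype))
    have hδ : ∀ w, δ w = (w.1 : α → ℚ) + (permOp g₁ (w.2.1 : α → ℚ) +
        permOp g₁ (permOp g₂ (w.2.2 : α → ℚ))) := fun w => rfl
    let β : (α → ℚ) →ₗ[ℚ] (LinearMap.range A₁ × LinearMap.range A₂ × LinearMap.range A₃) :=
      A₁.rangeRestrict.prod (A₂.rangeRestrict.prod A₃.rangeRestrict)
    have hβ : ∀ v, β v = (A₁.rangeRestrict v, A₂.rangeRestrict v, A₃.rangeRestrict v) :=
      fun v => rfl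
    have h123 : ∀ v, permOp g₁ (permOp g₂ (permOp g₃ v)) = v := fun v => by
      rw [← permOp_mul, ← permOp_mul, hprod, permOp_one]
    have hδβ : ∀ v, δ (β v) = 0 := by
      intro v
      rw [hδ, hβ]
      simp only [LinearMap.codRestrict_apply, hA₁a, hA₂a, hA₃a, map_sub, h123]
      abel
    have hrange_le : LinearMap.range β ≤ LinearMap.ker δ := by
      rintro _ ⟨v, rfl⟩
      exact hδβ v
    have hC : Module.finrank ℚ (LinearMap.range A₁ × LinearMap.range A₂ × LinearMap.range A₃) =
        Module.finrank ℚ (LinearMap.range A₁) + (Module.finrank ℚ (LinearMap.range A₂) +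
          Module.finrank ℚ (LinearMap.range A₃)) := by
      rw [Module.finrank_prod, Module.finrank_prod]
    have hrnδ := LinearMap.finrank_range_add_finrank_ker δ
    have hrnβ := LinearMap.finrank_range_add_finrank_ker β
    rw [Module.finrank_fintype_fun_eq_card] at hrnβ
    have h1 : Module.finrank ℚ (LinearMap.range β) ≤ Module.finrank ℚ (LinearMap.ker δ) :=
      Submodule.finrank_mono hrange_le
    -- the kernel of `β` consists of constant functions
    have hkerβ : Module.finrank ℚ (LinearMap.ker β) ≤ 1 := by
      have hone : (fun _ => (1 : ℚ) : α → ℚ) ≠ 0 := fun h => by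
        have := congrFun h x0
        simp at this
      have hle : LinearMap.ker β ≤ Submodule.span ℚ {(fun _ => (1 : ℚ) : α → ℚ)} := by
        intro f hf
        rw [LinearMap.mem_ker, hβ] at hf
        have hf1 : permOp g₁ f = f := by
          have := congrArg (fun w => (w.1 : α → ℚ)) hf
          simpa [LinearMap.codRestrict_apply, hA₁a, sub_eq_zero] using this
        have hf2 : permOp g₂ f = f := by
          have := congrArg (fun w => (w.2.1 : α → ℚ)) hf
          simpa [LinearMap.codRestrict_apply, hA₂a, sub_eq_zero] using this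
        have hf3 : permOp g₃ f = f := by
          have := congrArg (fun w => (w.2.2 : α → ℚ)) hf
          simpa [LinearMap.codRestrict_apply, hA₃a, sub_eq_zero] using this
        have hgen : ∀ σ : Perm α, permOp σ f = f → ∀ x, f (σ x) = f x := fun σ hσ x => by
          have := congrFun hσ (σ x)
          rw [permOp_apply, Equiv.symm_apply_apply] at this
          exact this.symm
        have hinv : ∀ g ∈ Subgroup.closure ({g₁, g₂, g₃} : Set (Perm α)), ∀ x, f (g x) = f x := by
          intro g hg
          induction hg using Subgroup.closure_induction with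
          | mem σ hσ =>
            rcases hσ with rfl | rfl | rfl
            · exact hgen _ hf1
            · exact hgen _ hf2
            · exact hgen _ hf3
          | one => intro x; rfl
          | mul σ τ _ _ ihσ ihτ => intro x; rw [Perm.mul_apply, ihσ, ihτ]
          | inv σ _ ih =>
            intro x
            have := ih (σ⁻¹ x)
            rw [Perm.inv_def, Equiv.apply_symm_apply] at this
            exact this.symm
        have hconst : f = f x0 • (fun _ => (1 : ℚ) : α → ℚ) := by
          ext y
          obtain ⟨g, hg, rfl⟩ := htrans x0 y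
          simp [hinv g hg x0]
        rw [hconst]
        exact Submodule.smul_mem _ _ (Submodule.mem_span_singleton_self _)
      exact (Submodule.finrank_mono hle).trans (finrank_span_singleton hone).le
    -- the range of `δ` has codimension at most one
    have hrangeδ : Fintype.card α ≤ Module.finrank ℚ (LinearMap.range δ) + 1 := by
      have hR1 : LinearMap.range A₁ ≤ LinearMap.range δ := by
        intro w hw
        refine ⟨(⟨w, hw⟩, 0, 0), ?_⟩
        rw [hδ]
        simp
      have hR2 : LinearMap.range A₂ ≤ LinearMap.range δ := by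
        intro w hw
        refine ⟨(⟨-A₁ w, ⟨-w, by rw [map_neg]⟩⟩, ⟨w, hw⟩, 0), ?_⟩
        rw [hδ]
        simp only [hA₁a, Submodule.coe_zero, map_zero, add_zero]
        abel
      have hR3 : LinearMap.range A₃ ≤ LinearMap.range δ := by
        intro w hw
        refine ⟨(⟨-A₁ w, ⟨-w, by rw [map_neg]⟩⟩, ⟨-A₂ w, ⟨-w, by rw [map_neg]⟩⟩, ⟨w, hw⟩), ?_⟩
        rw [hδ]
        simp only [hA₁a, hA₂a, map_neg, map_sub]
        abel
      have hstep : ∀ σ : Perm α, LinearMap.range (permOp σ - LinearMap.id) ≤ LinearMap.range δ →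
          ∀ x, (Pi.single (σ x) (1 : ℚ) - Pi.single x (1 : ℚ) : α → ℚ) ∈ LinearMap.range δ := by
        intro σ hσ x
        apply hσ
        refine ⟨Pi.single x (1 : ℚ), ?_⟩
        rw [LinearMap.sub_apply, LinearMap.id_apply, permOp_single]
      have hcl : ∀ g ∈ Subgroup.closure ({g₁, g₂, g₃} : Set (Perm α)), ∀ x,
          (Pi.single (g x) (1 : ℚ) - Pi.single x (1 : ℚ) : α → ℚ) ∈ LinearMap.range δ := by
        intro g hg
        induction hg using Subgroup.closure_induction with
        | mem σ hσ =>
          rcases hσ with rfl | rfl | rfl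
          · exact hstep _ hR1
          · exact hstep _ hR2
          · exact hstep _ hR3
        | one => intro x; simp
        | mul σ τ _ _ ihσ ihτ =>
          intro x
          have h := Submodule.add_mem _ (ihσ (τ x)) (ihτ x)
          rw [Perm.mul_apply]
          convert h using 1
          abel
        | inv σ _ ih =>
          intro x
          have h := Submodule.neg_mem _ (ih (σ.symm x))
          rw [Equiv.apply_symm_apply] at h
          rw [Perm.inv_def]
          convert h using 1
          abel
      have htop : (⊤ : Submodule ℚ (α → ℚ)) ≤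
          LinearMap.range δ ⊔ Submodule.span ℚ {(Pi.single x0 (1 : ℚ) : α → ℚ)} := by
        rw [← (Pi.basisFun ℚ α).span_eq, Submodule.span_le]
        rintro _ ⟨x, rfl⟩
        rw [Pi.basisFun_apply]
        obtain ⟨g, hg, rfl⟩ := htrans x0 x
        have h := hcl g hg x0
        have h2 : (Pi.single (g x0) (1 : ℚ) : α → ℚ) =
            (Pi.single (g x0) (1 : ℚ) - Pi.single x0 (1 : ℚ)) + Pi.single x0 (1 : ℚ) := by abel
        rw [SetLike.mem_coe, h2]
        exact Submodule.add_mem _ (Submodule.mem_sup_left h)
          (Submodule.mem_sup_right (Submodule.mem_span_singleton_self _))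
      have hne : (Pi.single x0 (1 : ℚ) : α → ℚ) ≠ 0 := fun h => by
        have := congrFun h x0
        simp at this
      have h3 := Submodule.finrank_mono htop
      rw [finrank_top, Module.finrank_fintype_fun_eq_card] at h3
      have h4 := Submodule.finrank_add_le_finrank_add_finrank (LinearMap.range δ)
        (Submodule.span ℚ {(Pi.single x0 (1 : ℚ) : α → ℚ)})
      rw [finrank_span_singleton hne] at h4
      exact h3.trans h4
    have e1 := finrank_range_permOp_sub g₁
    have e2 := finrank_range_permOp_sub g₂
    have e3 := finrank_range_permOp_sub g₃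
    rw [← hA₁] at e1
    rw [← hA₂] at e2
    rw [← hA₃] at e3
    omega

/-- Orbit count of a permutation with `σ ^ p = 1`, `p` prime, in terms of its fixed points. -/
theorem mul_cyc_of_pow_prime_eq_one (σ : Perm α) (p : ℕ) (hp : p.Prime) (hσ : σ ^ p = 1) :
    p * cyc σ = Fintype.card α + (p - 1) * (Finset.univ.filter fun x => σ x = x).card := by
  have hfilter : (Finset.univ.filter fun x => σ x = x) = σ.supportᶜ := by
    ext x
    simp [Perm.mem_support]
  have hfix : (Finset.univ.filter fun x => σ x = x).card + σ.support.card = Fintype.card α := by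
    rw [hfilter, Finset.card_compl]
    have := Finset.card_le_univ σ.support
    omega
  have hall : ∀ m ∈ σ.cycleType, m = p := fun m hm => by
    have h1 : m ∣ p := (Perm.dvd_of_mem_cycleType hm).trans (orderOf_dvd_of_pow_eq_one hσ)
    have h2 := Perm.two_le_of_mem_cycleType hm
    exact ((Nat.dvd_prime hp).mp h1).resolve_left (by omega)
  have hsum : σ.cycleType.sum = Multiset.card σ.cycleType * p := by
    conv_lhs => rw [Multiset.eq_replicate_card.mpr hall]
    rw [Multiset.sum_replicate, smul_eq_mul]
  have hk : Multiset.card σ.cycleType = σ.cycleFactorsFinset.card := by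
    rw [Perm.cycleType_def, Multiset.card_map]
    rfl
  rw [Perm.sum_cycleType, hk] at hsum
  have hcyc := cyc_add_card_support σ
  obtain ⟨q, rfl⟩ : ∃ q, p = q + 1 := ⟨p - 1, by have := hp.pos; omega⟩
  rw [hsum] at hcyc hfix
  set a := (Finset.univ.filter fun x => σ x = x).card
  set k := σ.cycleFactorsFinset.card
  have e1 : k * (q + 1) = k * q + k := by ring
  rw [e1] at hcyc hfix
  have e2 : cyc σ = a + k := by omega
  rw [e2, Nat.add_sub_cancel, ← hfix]
  ring

/-- Integrality and non-negativity of the genus for a `(2, 3, ∞)` triple of permutations. -/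
theorem exists_genus_of_perm (s u t : Perm α) (hprod : s * u * t = 1)
    (htrans : ∀ x y : α, ∃ g ∈ Subgroup.closure ({s, u, t} : Set (Perm α)), g x = y)
    (hs : s ^ 2 = 1) (hu : u ^ 3 = 1) :
    ∃ g : ℕ, 12 * g + 3 * (Finset.univ.filter fun x => s x = x).card
      + 4 * (Finset.univ.filter fun x => u x = x).card + 6 * cyc t = 12 + Fintype.card α := by
  have h2 := mul_cyc_of_pow_prime_eq_one s 2 Nat.prime_two hs
  have h3 := mul_cyc_of_pow_prime_eq_one u 3 Nat.prime_three hu
  have hree := ree_three s u t hprod htrans
  obtain ⟨k, hk⟩ := parity_three s u t hprod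
  refine ⟨Fintype.card α + 1 - k, ?_⟩
  omega

end Ree

/-- Integrality and non-negativity of the genus formula for a transitive action of a group
generated by `S` and `T` on a finite set, with `S²` and `(ST)³` acting trivially: with `n` the
number of points, `a`, `b` the numbers of fixed points of `S`, `S * T` and `c` the number of
orbits of `T`, the number `12 + n - 3a - 4b - 6c` is a non-negative multiple of `12`. -/
theorem exists_genus_of_action {G X : Type*} [Group G] [MulAction G X] [Finite X]
    [MulAction.IsPretransitive G X] (S T : G) (hgen : Subgroup.closure {S, T} = ⊤)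
    (hS : ∀ x : X, (S * S) • x = x) (hST : ∀ x : X, ((S * T) ^ 3) • x = x) :
    ∃ g : ℕ, 12 * g + 3 * Nat.card {x : X // S • x = x}
      + 4 * Nat.card {x : X // (S * T) • x = x}
      + 6 * Nat.card (MulAction.orbitRel.Quotient (Subgroup.zpowers T) X) = 12 + Nat.card X := by
  classical
  let _ : Fintype X := Fintype.ofFinite X
  set ρ : G →* Perm X := MulAction.toPermHom G X with hρ
  have hρa : ∀ g x, ρ g x = g • x := fun g x => rfl
  have hprod : ρ S * ρ (S * T) * ρ T⁻¹ = 1 := by
    rw [← map_mul, ← map_mul]
    ext x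
    rw [hρa, show S * (S * T) * T⁻¹ = S * S by group, hS]
    rfl
  have htrans : ∀ x y : X,
      ∃ g ∈ Subgroup.closure ({ρ S, ρ (S * T), ρ T⁻¹} : Set (Perm X)), g x = y := by
    intro x y
    obtain ⟨g, rfl⟩ := MulAction.exists_smul_eq G x y
    refine ⟨ρ g, ?_, rfl⟩
    have hg : g ∈ Subgroup.closure ({S, T} : Set G) := by
      rw [hgen]
      trivial
    induction hg using Subgroup.closure_induction with
    | mem z hz =>
      rcases hz with rfl | rfl
      · exact Subgroup.subset_closure (by simp)
      · have : ρ z = (ρ z⁻¹)⁻¹ := by rw [map_inv, inv_inv]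
        rw [this]
        exact Subgroup.inv_mem _ (Subgroup.subset_closure (by simp))
    | one => rw [map_one]; exact Subgroup.one_mem _
    | mul a b _ _ ha hb =>
      have h := Subgroup.mul_mem _ ha hb
      rw [← map_mul] at h
      exact h
    | inv a _ ha =>
      have h := Subgroup.inv_mem _ ha
      rw [← map_inv] at h
      exact h
  have hs : (ρ S) ^ 2 = 1 := by
    ext x
    rw [pow_two, Perm.mul_apply, hρa, hρa, ← mul_smul, hS]
    rfl
  have hu : (ρ (S * T)) ^ 3 = 1 := by
    rw [← map_pow]
    ext x
    rw [hρa, hST]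
    rfl
  obtain ⟨g, hg⟩ := exists_genus_of_perm (ρ S) (ρ (S * T)) (ρ T⁻¹) hprod htrans hs hu
  refine ⟨g, ?_⟩
  have ha : (Finset.univ.filter fun x => ρ S x = x).card = Nat.card {x : X // S • x = x} := by
    rw [Nat.card_eq_fintype_card, Fintype.card_subtype]
    rfl
  have hb : (Finset.univ.filter fun x => ρ (S * T) x = x).card =
      Nat.card {x : X // (S * T) • x = x} := by
    rw [Nat.card_eq_fintype_card, Fintype.card_subtype]
    rfl
  have hc : cyc (ρ T⁻¹) = Nat.card (orbitRel.Quotient (Subgroup.zpowers T) X) := by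
    unfold cyc orbitRel.Quotient
    have hset : orbitRel (Subgroup.zpowers (ρ T⁻¹)) X = orbitRel (Subgroup.zpowers T) X := by
      ext x y
      rw [cyc_rel_iff, orbitRel_apply]
      constructor
      · rintro ⟨i, hi⟩
        refine ⟨⟨T ^ (-i), ⟨-i, rfl⟩⟩, ?_⟩
        rw [← hi, ← map_zpow, hρa, inv_zpow']
        rfl
      · rintro ⟨⟨g, hg⟩, rfl⟩
        obtain ⟨i, rfl⟩ := Subgroup.mem_zpowers_iff.mp hg
        refine ⟨-i, ?_⟩
        rw [← map_zpow, hρa, inv_zpow', neg_neg]
        rfl
    rw [hset]
  rw [← ha, ← hb, ← hc, Nat.card_eq_fintype_card]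
  exact hg

end Fermat.Agent.S24
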