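import Mathlib
import Fermat.Prelude.Def_ModularCurve_GenusNumerics

/-!
# S24, step (3): finite counting on the cosets `SL(2, ℤ) ⧸ Γ₀(N)`

`X = SL(2, ℤ) ⧸ Γ₀(N)` with the left action of `SL(2, ℤ)`.  A coset `g Γ₀(N)` is determined by
the first column `(a, c)` of `g` up to proportionality modulo `N`
(`mk_eq_mk_iff : g Γ = h Γ ↔ N ∣ a * c' - c * a'`).

* `card_fixedBy_S`  : the number of fixed points of `S` is `nuTwo N`;
* `card_fixedBy_ST` : the number of fixed points of `S * T` is `nuThree N`.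
-/

set_option autoImplicit false

namespace Fermat.Agent.S24

open Matrix Matrix.SpecialLinearGroup CongruenceSubgroup ModularGroup

open scoped MatrixGroups

/-- Two cosets of `Γ₀(N)` agree iff the first columns are proportional modulo `N`. -/
theorem mk_eq_mk_iff (N : ℕ) (g h : SL(2, ℤ)) :
    (g : SL(2, ℤ) ⧸ Gamma0 N) = h ↔ (N : ℤ) ∣ g 0 0 * h 1 0 - g 1 0 * h 0 0 := by
  have h1 : (g⁻¹ * h) 1 0 = g 0 0 * h 1 0 - g 1 0 * h 0 0 := by
    simp [Matrix.adjugate_fin_two, Matrix.mul_apply, Fin.sum_univ_two]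
    ring
  rw [QuotientGroup.eq, Gamma0_mem, ZMod.intCast_zmod_eq_zero_iff_dvd, h1]

/-- The determinant relation. -/
theorem det_rel (g : SL(2, ℤ)) : g 0 0 * g 1 1 - g 0 1 * g 1 0 = 1 := by
  have := g.det_coe
  rw [Matrix.det_fin_two] at this
  exact this

/-- The element `[[1, 0], [x, 1]]` of `SL(2, ℤ)`. -/
def lowerUnip (x : ℤ) : SL(2, ℤ) :=
  ⟨!![1, 0; x, 1], by simp [Matrix.det_fin_two]⟩

@[simp] theorem lowerUnip_00 (x : ℤ) : lowerUnip x 0 0 = 1 := rfl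
@[simp] theorem lowerUnip_10 (x : ℤ) : lowerUnip x 1 0 = x := rfl

theorem smul_mk (N : ℕ) (g h : SL(2, ℤ)) :
    g • (h : SL(2, ℤ) ⧸ Gamma0 N) = ((g * h : SL(2, ℤ)) : SL(2, ℤ) ⧸ Gamma0 N) := rfl

theorem S_mul_00 (h : SL(2, ℤ)) : (S * h) 0 0 = - h 1 0 := by
  simp [coe_S, Matrix.mul_apply, Fin.sum_univ_two]

theorem S_mul_10 (h : SL(2, ℤ)) : (S * h) 1 0 = h 0 0 := by
  simp [coe_S, Matrix.mul_apply, Fin.sum_univ_two]

theorem T_mul_00 (h : SL(2, ℤ)) : (T * h) 0 0 = h 0 0 + h 1 0 := by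
  simp [coe_T, Matrix.mul_apply, Fin.sum_univ_two]

theorem T_mul_10 (h : SL(2, ℤ)) : (T * h) 1 0 = h 1 0 := by
  simp

/-- `S` fixes the coset of `h` iff `N ∣ a² + c²` for the first column `(a, c)` of `h`. -/
theorem S_smul_mk_eq_iff (N : ℕ) (h : SL(2, ℤ)) :
    S • (h : SL(2, ℤ) ⧸ Gamma0 N) = h ↔ (N : ℤ) ∣ h 0 0 ^ 2 + h 1 0 ^ 2 := by
  rw [smul_mk, mk_eq_mk_iff, S_mul_00, S_mul_10, ← dvd_neg]
  ring_nf

/-- `S * T` fixes the coset of `h` iff `N ∣ a² + a c + c²` for the first column `(a, c)`. -/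
theorem ST_smul_mk_eq_iff (N : ℕ) (h : SL(2, ℤ)) :
    (S * T) • (h : SL(2, ℤ) ⧸ Gamma0 N) = h ↔
      (N : ℤ) ∣ h 0 0 ^ 2 + h 0 0 * h 1 0 + h 1 0 ^ 2 := by
  rw [smul_mk, mk_eq_mk_iff, mul_assoc, S_mul_00, S_mul_10, T_mul_00, T_mul_10, ← dvd_neg]
  ring_nf

/-- The map `x ↦ [[1, 0], [x, 1]] Γ₀(N)` from `ZMod N` to the coset space. -/
noncomputable def ofZMod (N : ℕ) (x : ZMod N) : SL(2, ℤ) ⧸ Gamma0 N :=
  ((lowerUnip (x.cast : ℤ) : SL(2, ℤ)) : SL(2, ℤ) ⧸ Gamma0 N)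

theorem ofZMod_injective (N : ℕ) : Function.Injective (ofZMod N) := by
  intro x y hxy
  rw [ofZMod, ofZMod, mk_eq_mk_iff] at hxy
  simp only [lowerUnip_00, lowerUnip_10, one_mul, mul_one] at hxy
  have h2 := (ZMod.intCast_zmod_eq_zero_iff_dvd _ N).mpr hxy
  rw [Int.cast_sub, ZMod.intCast_zmod_cast, ZMod.intCast_zmod_cast, sub_eq_zero] at h2
  exact h2.symm

/-- The coset of `h` is `ofZMod x` iff `c = x * a` modulo `N`. -/
theorem ofZMod_eq_mk_iff (N : ℕ) (x : ZMod N) (h : SL(2, ℤ)) :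
    ofZMod N x = (h : SL(2, ℤ) ⧸ Gamma0 N) ↔ ((h 1 0 : ℤ) : ZMod N) = x * ((h 0 0 : ℤ) : ZMod N) := by
  rw [ofZMod, mk_eq_mk_iff]
  simp only [lowerUnip_00, lowerUnip_10, one_mul]
  rw [← ZMod.intCast_zmod_eq_zero_iff_dvd, Int.cast_sub, Int.cast_mul, ZMod.intCast_zmod_cast,
    sub_eq_zero]

theorem isUnit_of_sq_add_sq {R : Type*} [CommRing R] (a b c d : R) (h1 : a * d - b * c = 1)
    (h2 : a ^ 2 + c ^ 2 = 0) : IsUnit a := by
  have hcw : c * (-(c * d + a * b) * d - b) = 1 := by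
    linear_combination (a * d + 1) * h1 - d ^ 2 * h2
  refine IsUnit.of_mul_eq_one (-a * (-(c * d + a * b) * d - b) ^ 2) ?_
  linear_combination (-(-(c * d + a * b) * d - b) ^ 2) * h2 +
    (c * (-(c * d + a * b) * d - b) + 1) * hcw

theorem isUnit_of_sq_add_mul_add_sq {R : Type*} [CommRing R] (a b c d : R)
    (h1 : a * d - b * c = 1) (h2 : a ^ 2 + a * c + c ^ 2 = 0) : IsUnit a := by
  have hcw : c * (-(c * d + a * b + b * c + 1) * d - b) = 1 := by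
    linear_combination (d * (a + c) + 1) * h1 - d ^ 2 * h2
  refine IsUnit.of_mul_eq_one (-(a + c) * (-(c * d + a * b + b * c + 1) * d - b) ^ 2) ?_
  linear_combination (-(-(c * d + a * b + b * c + 1) * d - b) ^ 2) * h2 +
    (c * (-(c * d + a * b + b * c + 1) * d - b) + 1) * hcw

/-- The determinant relation modulo `N`. -/
theorem det_rel_zmod (N : ℕ) (g : SL(2, ℤ)) :
    ((g 0 0 : ℤ) : ZMod N) * ((g 1 1 : ℤ) : ZMod N) -
      ((g 0 1 : ℤ) : ZMod N) * ((g 1 0 : ℤ) : ZMod N) = 1 := by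
  have := congrArg (Int.cast : ℤ → ZMod N) (det_rel g)
  push_cast at this
  exact this

/-- The number of fixed points of `S` on `SL(2, ℤ) ⧸ Γ₀(N)` is `nuTwo N`. -/
theorem card_fixedBy_S (N : ℕ) :
    Nat.card (MulAction.fixedBy (SL(2, ℤ) ⧸ Gamma0 N) S) = ModularCurve.nuTwo N := by
  unfold ModularCurve.nuTwo
  symm
  have hfix : ∀ x : {x : ZMod N // x ^ 2 + 1 = 0},
      ofZMod N x.1 ∈ MulAction.fixedBy (SL(2, ℤ) ⧸ Gamma0 N) S := by
    intro x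
    rw [MulAction.mem_fixedBy, ofZMod, S_smul_mk_eq_iff, ← ZMod.intCast_zmod_eq_zero_iff_dvd]
    simp only [lowerUnip_00, lowerUnip_10]
    push_cast
    linear_combination x.2
  refine Nat.card_congr (Equiv.ofBijective (fun x => ⟨ofZMod N x.1, hfix x⟩) ⟨?_, ?_⟩)
  · intro x y hxy
    exact Subtype.ext (ofZMod_injective N (congrArg Subtype.val hxy))
  · rintro ⟨y, hy⟩
    induction y using QuotientGroup.induction_on with
    | H h =>
      rw [MulAction.mem_fixedBy, S_smul_mk_eq_iff, ← ZMod.intCast_zmod_eq_zero_iff_dvd] at hy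
      push_cast at hy
      have hu : IsUnit ((h 0 0 : ℤ) : ZMod N) :=
        isUnit_of_sq_add_sq _ _ _ _ (det_rel_zmod N h) hy
      obtain ⟨u, hu⟩ := hu
      refine ⟨⟨((h 1 0 : ℤ) : ZMod N) * ↑u⁻¹, ?_⟩, ?_⟩
      · have h3 : (u : ZMod N) * ↑u⁻¹ = 1 := u.mul_inv
        rw [← hu] at hy
        linear_combination ((↑u⁻¹ : ZMod N)) ^ 2 * hy -
          ((u : ZMod N) * ↑u⁻¹ + 1) * h3
      · apply Subtype.ext
        show ofZMod N _ = _
        rw [ofZMod_eq_mk_iff]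
        show ((h 1 0 : ℤ) : ZMod N) =
          (((h 1 0 : ℤ) : ZMod N) * ↑u⁻¹) * ((h 0 0 : ℤ) : ZMod N)
        rw [← hu, mul_assoc, u.inv_mul, mul_one]

/-- The number of fixed points of `S * T` on `SL(2, ℤ) ⧸ Γ₀(N)` is `nuThree N`. -/
theorem card_fixedBy_ST (N : ℕ) :
    Nat.card (MulAction.fixedBy (SL(2, ℤ) ⧸ Gamma0 N) (S * T)) = ModularCurve.nuThree N := by
  unfold ModularCurve.nuThree
  symm
  have hfix : ∀ x : {x : ZMod N // x ^ 2 + x + 1 = 0},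
      ofZMod N x.1 ∈ MulAction.fixedBy (SL(2, ℤ) ⧸ Gamma0 N) (S * T) := by
    intro x
    rw [MulAction.mem_fixedBy, ofZMod, ST_smul_mk_eq_iff, ← ZMod.intCast_zmod_eq_zero_iff_dvd]
    simp only [lowerUnip_00, lowerUnip_10]
    push_cast
    linear_combination x.2
  refine Nat.card_congr (Equiv.ofBijective (fun x => ⟨ofZMod N x.1, hfix x⟩) ⟨?_, ?_⟩)
  · intro x y hxy
    exact Subtype.ext (ofZMod_injective N (congrArg Subtype.val hxy))
  · rintro ⟨y, hy⟩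
    induction y using QuotientGroup.induction_on with
    | H h =>
      rw [MulAction.mem_fixedBy, ST_smul_mk_eq_iff, ← ZMod.intCast_zmod_eq_zero_iff_dvd] at hy
      push_cast at hy
      have hu : IsUnit ((h 0 0 : ℤ) : ZMod N) :=
        isUnit_of_sq_add_mul_add_sq _ _ _ _ (det_rel_zmod N h) hy
      obtain ⟨u, hu⟩ := hu
      refine ⟨⟨((h 1 0 : ℤ) : ZMod N) * ↑u⁻¹, ?_⟩, ?_⟩
      · have h3 : (u : ZMod N) * ↑u⁻¹ = 1 := u.mul_inv
        rw [← hu] at hy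
        linear_combination ((↑u⁻¹ : ZMod N)) ^ 2 * hy -
          ((u : ZMod N) * ↑u⁻¹ + 1 + ((h 1 0 : ℤ) : ZMod N) * ↑u⁻¹) * h3
      · apply Subtype.ext
        show ofZMod N _ = _
        rw [ofZMod_eq_mk_iff]
        show ((h 1 0 : ℤ) : ZMod N) =
          (((h 1 0 : ℤ) : ZMod N) * ↑u⁻¹) * ((h 0 0 : ℤ) : ZMod N)
        rw [← hu, mul_assoc, u.inv_mul, mul_one]

end Fermat.Agent.S24
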