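import Mathlib
import Fermat.Prelude.Def_AlgebraicCurve_DivisorClassGroup

/-!
# S24: places of a function field and primes of a Dedekind domain

Basic facts on the order function of a place, the dictionary between places whose valuation
ring contains a Dedekind domain `B` with fraction field `F` and the nonzero primes of `B`,
and the Dedekind domain `B = ` integral closure of `K[x]` in `F`.
-/

set_option autoImplicit false

open AlgebraicCurve IsDedekindDomain IntermediateField
open scoped IntermediateField.algebraAdjoinAdjoin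

namespace Fermat.Agent.S24

variable {K F : Type*} [Field K] [Field F] [Algebra K F]

/-! ### Part A: basic facts on `Place.ord` -/

theorem sf_ord_nonneg_iff (v : Place K F) (f : F) :
    0 ≤ v.ord f ↔ f ∈ v.toValuationSubring := by
  rcases eq_or_ne f 0 with rfl | hf
  · simp [zero_mem]
  obtain ⟨π, hπ⟩ := IsDiscreteValuationRing.exists_irreducible v.toValuationSubring
  obtain ⟨u, hu⟩ := v.exists_unit_mul_zpow hf hπ
  have hπ0 : (π : F) ≠ 0 := by
    simpa [ne_eq, ZeroMemClass.coe_eq_zero] using hπ.ne_zero
  constructor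
  · intro h
    obtain ⟨n, hn⟩ := Int.eq_ofNat_of_zero_le h
    rw [hu, hn, zpow_natCast]
    exact mul_mem (u : v.toValuationSubring).2 (pow_mem π.2 n)
  · intro h
    by_contra hneg
    rw [not_le] at hneg
    obtain ⟨m, hm⟩ := Int.eq_ofNat_of_zero_le (show 0 ≤ -(v.ord f) - 1 by omega)
    have hord : v.ord f = -((m : ℤ) + 1) := by omega
    have key : (⟨f, h⟩ : v.toValuationSubring) * π ^ m * π = (u : v.toValuationSubring) := by
      apply Subtype.ext
      push_cast
      rw [hu, hord, zpow_neg, ← Nat.cast_succ, zpow_natCast, pow_succ]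
      field_simp
    have hunit : IsUnit π := isUnit_of_dvd_unit (Dvd.intro_left _ key) u.isUnit
    exact hπ.not_isUnit hunit

theorem sf_ord_nonpos_iff (v : Place K F) (f : F) :
    v.ord f ≤ 0 ↔ f⁻¹ ∈ v.toValuationSubring := by
  rw [← sf_ord_nonneg_iff, v.ord_inv]; omega

theorem sf_ord_pos_iff (v : Place K F) (f : F) :
    0 < v.ord f ↔ f⁻¹ ∉ v.toValuationSubring := by
  rw [← sf_ord_nonpos_iff]; omega

theorem sf_ord_neg_iff (v : Place K F) (f : F) :
    v.ord f < 0 ↔ f ∉ v.toValuationSubring := by
  rw [← sf_ord_nonneg_iff]; omega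

theorem sf_ord_algebraMap (v : Place K F) (a : K) : v.ord (algebraMap K F a) = 0 := by
  have h1 := (sf_ord_nonneg_iff v (algebraMap K F a)).mpr (v.algebraMap_mem' a)
  have h2 := (sf_ord_nonpos_iff v (algebraMap K F a)).mpr (by
    rw [← map_inv₀]; exact v.algebraMap_mem' a⁻¹)
  omega

/-- membership in the maximal ideal of the valuation ring, in terms of `ord`. -/
theorem sf_mem_maximalIdeal_iff_ord (v : Place K F) (a : v.toValuationSubring) :
    a ∈ IsLocalRing.maximalIdeal v.toValuationSubring ↔ a = 0 ∨ 0 < v.ord (a : F) := by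
  rw [IsLocalRing.mem_maximalIdeal, mem_nonunits_iff, sf_ord_pos_iff]
  constructor
  · intro h
    by_cases ha : a = 0
    · exact Or.inl ha
    · refine Or.inr fun hinv => h ?_
      refine IsUnit.of_mul_eq_one (⟨(a : F)⁻¹, hinv⟩ : v.toValuationSubring) ?_
      apply Subtype.ext
      have : (a : F) ≠ 0 := by simpa [ne_eq, ZeroMemClass.coe_eq_zero] using ha
      simp [this]
  · rintro (rfl | h) hu
    · exact not_isUnit_zero hu
    · obtain ⟨b, hb⟩ := hu.exists_right_inv
      apply h
      have hb' : (a : F) * (b : F) = 1 := by exact_mod_cast congrArg Subtype.val hb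
      rw [inv_eq_of_mul_eq_one_right hb']
      exact b.2

/-- the order of a sum is at least the minimum of the orders (for a nonzero sum). -/
theorem sf_ord_add_ge (v : Place K F) {f g : F} (hfg : f + g ≠ 0) (n : ℤ)
    (hf : f = 0 ∨ n ≤ v.ord f) (hg : g = 0 ∨ n ≤ v.ord g) : n ≤ v.ord (f + g) := by
  obtain ⟨π, hπ⟩ := IsDiscreteValuationRing.exists_irreducible v.toValuationSubring
  have hπ0 : (π : F) ≠ 0 := by
    simpa [ne_eq, ZeroMemClass.coe_eq_zero] using hπ.ne_zero
  have hπn : ((π : F) ^ n) ≠ 0 := zpow_ne_zero n hπ0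
  have hordπ : v.ord ((π : F) ^ n) = n := by
    rw [v.ord_zpow, v.ord_coe_irreducible hπ, mul_one]
  have aux : ∀ h : F, (h = 0 ∨ n ≤ v.ord h) → h / (π : F) ^ n ∈ v.toValuationSubring := by
    rintro h (rfl | hh)
    · simp [zero_mem]
    · by_cases h0 : h = 0
      · simp [h0, zero_mem]
      rw [← sf_ord_nonneg_iff, div_eq_mul_inv, v.ord_mul h0 (inv_ne_zero hπn), v.ord_inv, hordπ]
      omega
  have hsum : (f + g) / (π : F) ^ n ∈ v.toValuationSubring := by
    rw [add_div]; exact add_mem (aux f hf) (aux g hg)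
  rw [← sf_ord_nonneg_iff, div_eq_mul_inv, v.ord_mul hfg (inv_ne_zero hπn), v.ord_inv, hordπ]
    at hsum
  omega

/-! ### Part B: places attached to primes of a Dedekind domain -/

section dedekind

variable {B : Type*} [CommRing B] [IsDedekindDomain B] [Algebra B F] [IsFractionRing B F]
  [Algebra K B] [IsScalarTower K B F]

theorem sf_mem_ofHeightOneSpectrum_iff (P : HeightOneSpectrum B) (f : F) :
    f ∈ (Place.ofHeightOneSpectrum (K := K) (F := F) P).toValuationSubring ↔
      P.valuation F f ≤ 1 :=
  Iff.rfl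

/-- The Prelude order function of the place attached to a prime `P` of a Dedekind domain is the
`P`-adic order. -/
theorem sf_ord_ofHeightOneSpectrum (P : HeightOneSpectrum B) (f : F) :
    (Place.ofHeightOneSpectrum (K := K) (F := F) P).ord f = -WithZero.log (P.valuation F f) := by
  set v := Place.ofHeightOneSpectrum (K := K) (F := F) P with hv
  obtain ⟨π, hπ⟩ := IsDiscreteValuationRing.exists_irreducible v.toValuationSubring
  have hπ0 : (π : F) ≠ 0 := by
    simpa [ne_eq, ZeroMemClass.coe_eq_zero] using hπ.ne_zero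
  have hVπ0 : P.valuation F (π : F) ≠ 0 := (Valuation.ne_zero_iff _).mpr hπ0
  have hVu : ∀ u : v.toValuationSubringˣ, P.valuation F ((u : v.toValuationSubring) : F) = 1 := by
    intro u
    have h1 : P.valuation F ((u : v.toValuationSubring) : F) ≤ 1 :=
      (sf_mem_ofHeightOneSpectrum_iff (K := K) P _).mp (u : v.toValuationSubring).2
    have h2 : P.valuation F (((u⁻¹ : v.toValuationSubringˣ) : v.toValuationSubring) : F) ≤ 1 :=
      (sf_mem_ofHeightOneSpectrum_iff (K := K) P _).mp ((u⁻¹ : v.toValuationSubringˣ) :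
        v.toValuationSubring).2
    have h3 : ((u : v.toValuationSubring) : F) *
        (((u⁻¹ : v.toValuationSubringˣ) : v.toValuationSubring) : F) = 1 := by
      exact_mod_cast congrArg Subtype.val u.mul_inv
    have h4 : P.valuation F ((u : v.toValuationSubring) : F) *
        P.valuation F (((u⁻¹ : v.toValuationSubringˣ) : v.toValuationSubring) : F) = 1 := by
      rw [← map_mul, h3, map_one]
    exact eq_one_of_one_le_mul_left h1 h2 h4.ge
  -- general formula
  have key : ∀ g : F, g ≠ 0 →
      -WithZero.log (P.valuation F g) = v.ord g * -WithZero.log (P.valuation F (π : F)) := by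
    intro g hg
    obtain ⟨u, hu⟩ := v.exists_unit_mul_zpow hg hπ
    conv_lhs => rw [hu]
    rw [map_mul, hVu u, one_mul, map_zpow₀, WithZero.log_zpow]
    simp
  obtain ⟨ϖ, hϖ⟩ := P.valuation_exists_uniformizer F
  have hϖ0 : ϖ ≠ 0 := by
    rintro rfl
    rw [map_zero] at hϖ
    exact WithZero.exp_ne_zero hϖ.symm
  have h1 := key ϖ hϖ0
  rw [hϖ] at h1
  simp only [WithZero.log_exp, neg_neg] at h1
  have hk : 0 ≤ -WithZero.log (P.valuation F (π : F)) := by
    have : P.valuation F (π : F) ≤ 1 := (sf_mem_ofHeightOneSpectrum_iff (K := K) P _).mp π.2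
    have := (WithZero.log_le_log hVπ0 one_ne_zero).mpr this
    simpa using this
  have hk1 : -WithZero.log (P.valuation F (π : F)) = 1 := by
    rcases Int.eq_one_or_neg_one_of_mul_eq_one' h1.symm with ⟨_, h⟩ | ⟨_, h⟩
    · exact h
    · omega
  rcases eq_or_ne f 0 with rfl | hf
  · simp
  · rw [key f hf, hk1, mul_one]

theorem sf_mem_asIdeal_iff_ord (P : HeightOneSpectrum B) (b : B) :
    b ∈ P.asIdeal ↔
      b = 0 ∨ 0 < (Place.ofHeightOneSpectrum (K := K) (F := F) P).ord (algebraMap B F b) := by
  rw [sf_ord_ofHeightOneSpectrum, ← P.valuation_lt_one_iff_mem (K := F)]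
  rcases eq_or_ne b 0 with rfl | hb
  · simp
  · have hb' : algebraMap B F b ≠ 0 := by
      simpa using hb
    have h0 : P.valuation F (algebraMap B F b) ≠ 0 := (Valuation.ne_zero_iff _).mpr hb'
    rw [← WithZero.log_lt_log h0 one_ne_zero]
    simp [hb]

theorem sf_ofHeightOneSpectrum_injective :
    Function.Injective (Place.ofHeightOneSpectrum (K := K) (F := F) (R := B)) := by
  intro P Q h
  apply HeightOneSpectrum.ext
  ext b
  rw [sf_mem_asIdeal_iff_ord (K := K) (F := F), sf_mem_asIdeal_iff_ord (K := K) (F := F), h]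

/-- Every place whose valuation ring contains `B` comes from a (unique) prime of `B`. -/
theorem sf_exists_ofHeightOneSpectrum_eq (v : Place K F)
    (hB : ∀ b : B, algebraMap B F b ∈ v.toValuationSubring) :
    ∃ P : HeightOneSpectrum B, Place.ofHeightOneSpectrum (K := K) (F := F) P = v := by
  let φ : B →+* v.toValuationSubring :=
    (algebraMap B F).codRestrict v.toValuationSubring.toSubring hB
  have hφ : ∀ b : B, ((φ b : v.toValuationSubring) : F) = algebraMap B F b := fun _ => rfl
  let P₀ : Ideal B := Ideal.comap φ (IsLocalRing.maximalIdeal v.toValuationSubring)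
  have hprime : P₀.IsPrime := Ideal.comap_isPrime φ _
  have hunit : ∀ s : B, s ∉ P₀ → (algebraMap B F s)⁻¹ ∈ v.toValuationSubring := by
    intro s hs
    have hu : IsUnit (φ s) := by
      by_contra hnu
      exact hs (by
        show φ s ∈ IsLocalRing.maximalIdeal v.toValuationSubring
        rwa [IsLocalRing.mem_maximalIdeal, mem_nonunits_iff])
    obtain ⟨t, ht⟩ := hu.exists_right_inv
    have ht' : algebraMap B F s * (t : F) = 1 := by
      have := congrArg Subtype.val ht
      simpa [hφ] using this
    rw [inv_eq_of_mul_eq_one_right ht']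
    exact t.2
  have hne : P₀ ≠ ⊥ := by
    intro hbot
    apply v.ne_top'
    refine SetLike.ext fun f => ⟨fun _ => ValuationSubring.mem_top f, fun _ => ?_⟩
    obtain ⟨a, s, hs, rfl⟩ := IsFractionRing.div_surjective (A := B) f
    have hs0 : s ≠ 0 := nonZeroDivisors.ne_zero hs
    have hsP : s ∉ P₀ := by rw [hbot]; simpa using hs0
    rw [div_eq_mul_inv]
    exact mul_mem (hB a) (hunit s hsP)
  let P : HeightOneSpectrum B := ⟨P₀, hprime, hne⟩
  refine ⟨P, ?_⟩
  apply Place.ext
  rw [Place.ofHeightOneSpectrum_toValuationSubring,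
    ← HeightOneSpectrum.valuationSubringAtPrime_eq_valuationSubring]
  refine ValuationSubring.eq_of_le_of_ne_top _ ?_ v.ne_top'
  intro f hf
  have hf' : P.valuation F f ≤ 1 := by
    have := HeightOneSpectrum.valuationSubringAtPrime_le_valuation (K := F) P hf
    exact this
  obtain ⟨n, d, hnd⟩ := P.exists_primeCompl_mul_eq_of_integer f hf'
  have hd : (d : B) ∉ P₀ := d.2
  have hd0 : algebraMap B F (d : B) ≠ 0 := by
    intro h0
    have : (d : B) = 0 := by simpa using h0
    exact hd (this ▸ P₀.zero_mem)
  have : f = algebraMap B F n * (algebraMap B F (d : B))⁻¹ := by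
    rw [← hnd]; field_simp
  rw [this]
  exact mul_mem (hB n) (hunit _ hd)

end dedekind

/-! ### Part C: the Dedekind domain `B`, integral closure of `K[x]` in `F` -/

section setup
variable (K) (x : F)

/-- The polynomial ring `K[x]` inside `F`. -/
abbrev sfR : Subalgebra K F := Algebra.adjoin K {x}

/-- The integral closure of `K[x]` in `F`. -/
abbrev sfB : Subalgebra (sfR K x) F := integralClosure (sfR K x) F

/-- `x` as an element of `K[x]`. -/
def sfX : sfR K x := ⟨x, Algebra.subset_adjoin (Set.mem_singleton x)⟩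

@[simp] theorem sf_coe_sfX : ((sfX K x : sfR K x) : F) = x := rfl

/-- evaluation of polynomials at `x`, with values in `K[x]`. -/
noncomputable def sfEval : Polynomial K →ₐ[K] sfR K x :=
  (Polynomial.aeval x : Polynomial K →ₐ[K] F).codRestrict (sfR K x) (fun p => by
    rw [sfR, Algebra.adjoin_singleton_eq_range_aeval]; exact ⟨p, rfl⟩)

@[simp] theorem sf_coe_sfEval (p : Polynomial K) :
    ((sfEval K x p : sfR K x) : F) = Polynomial.aeval x p := rfl

theorem sfEval_surjective : Function.Surjective (sfEval K x) := by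
  rintro ⟨y, hy⟩
  rw [sfR, Algebra.adjoin_singleton_eq_range_aeval] at hy
  obtain ⟨p, rfl⟩ := hy
  exact ⟨p, rfl⟩

theorem sfEval_X : sfEval K x Polynomial.X = sfX K x := by
  apply Subtype.ext; simp

variable {K x} in
theorem sfEval_injective (hx : Transcendental K x) : Function.Injective (sfEval K x) := by
  intro p q h
  have h' := congrArg (Subtype.val) h
  simp only [sf_coe_sfEval] at h'
  exact (transcendental_iff_injective.mp hx) h'

variable {K x} in
/-- `K[X] ≃ K[x]` for transcendental `x`. -/
noncomputable def sfEquiv (hx : Transcendental K x) : Polynomial K ≃ₐ[K] sfR K x :=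
  AlgEquiv.ofBijective (sfEval K x) ⟨sfEval_injective hx, sfEval_surjective K x⟩

variable {K x} in
@[simp] theorem sfEquiv_apply (hx : Transcendental K x) (p : Polynomial K) :
    sfEquiv hx p = sfEval K x p := rfl

instance sfR_isPrincipalIdealRing : IsPrincipalIdealRing (sfR K x) :=
  IsPrincipalIdealRing.of_surjective (sfEval K x).toRingHom (sfEval_surjective K x)

/-- the generator `x - c` of the prime of `K[x]` at `c`. -/
def sfGen (c : K) : sfR K x := sfX K x - algebraMap K (sfR K x) c

@[simp] theorem sf_coe_sfGen (c : K) :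
    ((sfGen K x c : sfR K x) : F) = x - algebraMap K F c := rfl

theorem sfEval_X_sub_C (c : K) :
    sfEval K x (Polynomial.X - Polynomial.C c) = sfGen K x c := by
  apply Subtype.ext; simp

/-- the prime `(x - c)` of `K[x]`. -/
def sfP (c : K) : Ideal (sfR K x) := Ideal.span {sfGen K x c}

variable {K x} in
theorem sfGen_prime (hx : Transcendental K x) (c : K) : Prime (sfGen K x c) := by
  rw [← sfEval_X_sub_C, ← sfEquiv_apply hx]
  exact (MulEquiv.prime_iff (sfEquiv hx).toMulEquiv).mpr (Polynomial.prime_X_sub_C c)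

variable {K x} in
theorem sfGen_ne_zero (hx : Transcendental K x) (c : K) : sfGen K x c ≠ 0 :=
  (sfGen_prime hx c).ne_zero

variable {K x} in
theorem sfP_isPrime (hx : Transcendental K x) (c : K) : (sfP K x c).IsPrime :=
  (Ideal.span_singleton_prime (sfGen_ne_zero hx c)).mpr (sfGen_prime hx c)

variable {K x} in
theorem sfP_ne_bot (hx : Transcendental K x) (c : K) : sfP K x c ≠ ⊥ := by
  rw [sfP, Ne, Ideal.span_singleton_eq_bot]
  exact sfGen_ne_zero hx c

variable {K x} in
theorem sfP_isMaximal (hx : Transcendental K x) (c : K) : (sfP K x c).IsMaximal :=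
  (sfP_isPrime hx c).isMaximal (sfP_ne_bot hx c)

variable [CharZero K] [FiniteDimensional K⟮x⟯ F]

instance sfB_isDedekindDomain : IsDedekindDomain (sfB K x) :=
  integralClosure.isDedekindDomain (sfR K x) K⟮x⟯ F

instance sfB_isFractionRing : IsFractionRing (sfB K x) F :=
  IsIntegralClosure.isFractionRing_of_finite_extension (sfR K x) K⟮x⟯ F (sfB K x)

instance sfB_finite : Module.Finite (sfR K x) (sfB K x) :=
  IsIntegralClosure.finite (sfR K x) K⟮x⟯ F (sfB K x)

instance sfB_free : Module.Free (sfR K x) (sfB K x) :=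
  IsIntegralClosure.module_free (sfR K x) K⟮x⟯ F (sfB K x)

theorem sfB_finrank : Module.finrank (sfR K x) (sfB K x) = Module.finrank K⟮x⟯ F :=
  IsIntegralClosure.rank (sfR K x) K⟮x⟯ F (sfB K x)

/-- the place of `F / K` attached to a nonzero prime of `B`. -/
noncomputable def sfPlace (Q : HeightOneSpectrum (sfB K x)) : Place K F :=
  Place.ofHeightOneSpectrum (K := K) (F := F) Q

end setup

end Fermat.Agent.S24
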