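import Mathlib
import Fermat.Prelude.Def_ModularCurve_GenusNumerics
import Fermat.Agent.S24.Cosets

/-!
# S24, step (3): the index of `Γ₀(N)` in `SL(2, ℤ)` is `dedekindPsi N`

* `dedekindPsi_mul_of_dvd`, `dedekindPsi_mul_of_not_dvd` : the recursion for `ψ`;
* `relIndex_Gamma0_of_dvd`, `relIndex_Gamma0_of_not_dvd` : `[Γ₀(M) : Γ₀(pM)] = p` or `p + 1`;
* `index_Gamma0` : `[SL(2, ℤ) : Γ₀(N)] = dedekindPsi N` for `N ≠ 0`;
* `card_quotient_Gamma0` : `Nat.card (SL(2, ℤ) ⧸ Γ₀(N)) = dedekindPsi N` for `N ≠ 0`.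
-/

set_option autoImplicit false

namespace Fermat.Agent.S24

open Matrix Matrix.SpecialLinearGroup CongruenceSubgroup ModularGroup

open scoped MatrixGroups

/-! ### The recursion for `dedekindPsi` -/

theorem dedekindPsi_mul_of_dvd {p M : ℕ} (hp : p.Prime) (hM : 0 < M) (h : p ∣ M) :
    ModularCurve.dedekindPsi (p * M) = p * ModularCurve.dedekindPsi M := by
  unfold ModularCurve.dedekindPsi
  have hset : (p * M).divisors.filter Squarefree = M.divisors.filter Squarefree := by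
    ext d
    simp only [Finset.mem_filter, Nat.mem_divisors]
    constructor
    · rintro ⟨⟨hd, _⟩, hsq⟩
      refine ⟨⟨?_, hM.ne'⟩, hsq⟩
      by_cases hpd : p ∣ d
      · obtain ⟨e, rfl⟩ := hpd
        have he : e ∣ M := Nat.dvd_of_mul_dvd_mul_left hp.pos hd
        have hcop : Nat.Coprime p e := by
          rw [hp.coprime_iff_not_dvd]
          rintro ⟨f, rfl⟩
          have h1 : IsUnit p := hsq p ⟨f, by ring⟩
          exact hp.ne_one (Nat.isUnit_iff.mp h1)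
        exact hcop.mul_dvd_of_dvd_of_dvd h he
      · have hcop : Nat.Coprime d p := ((hp.coprime_iff_not_dvd).mpr hpd).symm
        exact hcop.dvd_of_dvd_mul_left hd
    · rintro ⟨⟨hd, _⟩, hsq⟩
      exact ⟨⟨hd.mul_left p, Nat.mul_ne_zero hp.ne_zero hM.ne'⟩, hsq⟩
  rw [hset, Finset.mul_sum]
  refine Finset.sum_congr rfl fun d hd => ?_
  have hd' : d ∣ M := (Nat.mem_divisors.mp (Finset.mem_filter.mp hd).1).1
  exact Nat.mul_div_assoc p hd'

theorem dedekindPsi_mul_of_not_dvd {p M : ℕ} (hp : p.Prime) (hM : 0 < M) (h : ¬ p ∣ M) :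
    ModularCurve.dedekindPsi (p * M) = (p + 1) * ModularCurve.dedekindPsi M := by
  unfold ModularCurve.dedekindPsi
  have hset : (p * M).divisors.filter Squarefree =
      (M.divisors.filter Squarefree) ∪ (M.divisors.filter Squarefree).image (p * ·) := by
    ext d
    simp only [Finset.mem_filter, Nat.mem_divisors, Finset.mem_union, Finset.mem_image]
    constructor
    · rintro ⟨⟨hd, _⟩, hsq⟩
      by_cases hpd : p ∣ d
      · right
        obtain ⟨e, rfl⟩ := hpd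
        exact ⟨e, ⟨⟨Nat.dvd_of_mul_dvd_mul_left hp.pos hd, hM.ne'⟩, hsq.of_mul_right⟩, rfl⟩
      · left
        have hcop : Nat.Coprime d p := ((hp.coprime_iff_not_dvd).mpr hpd).symm
        exact ⟨⟨hcop.dvd_of_dvd_mul_left hd, hM.ne'⟩, hsq⟩
    · rintro (⟨⟨hd, _⟩, hsq⟩ | ⟨e, ⟨⟨he, _⟩, hsq⟩, rfl⟩)
      · exact ⟨⟨hd.mul_left p, Nat.mul_ne_zero hp.ne_zero hM.ne'⟩, hsq⟩
      · refine ⟨⟨mul_dvd_mul_left p he, Nat.mul_ne_zero hp.ne_zero hM.ne'⟩, ?_⟩
        have hcop : Nat.Coprime p e := by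
          rw [hp.coprime_iff_not_dvd]
          exact fun hpe => h (hpe.trans he)
        exact (Nat.squarefree_mul hcop).mpr ⟨hp.squarefree, hsq⟩
  have hdisj : Disjoint (M.divisors.filter Squarefree)
      ((M.divisors.filter Squarefree).image (p * ·)) := by
    rw [Finset.disjoint_left]
    intro d hd hd2
    obtain ⟨e, _, rfl⟩ := Finset.mem_image.mp hd2
    exact h ((dvd_mul_right p e).trans (Nat.mem_divisors.mp (Finset.mem_filter.mp hd).1).1)
  rw [hset, Finset.sum_union hdisj, Finset.sum_image (fun x _ y _ hxy => Nat.eq_of_mul_eq_mul_left hp.pos hxy),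
    add_mul, one_mul, Finset.mul_sum]
  congr 1
  · refine Finset.sum_congr rfl fun d hd => ?_
    have hd' : d ∣ M := (Nat.mem_divisors.mp (Finset.mem_filter.mp hd).1).1
    exact Nat.mul_div_assoc p hd'
  · refine Finset.sum_congr rfl fun d hd => ?_
    exact Nat.mul_div_mul_left M d hp.pos

/-! ### The relative index of `Γ₀(pM)` in `Γ₀(M)` -/

theorem mem_Gamma0_iff_dvd (N : ℕ) (g : SL(2, ℤ)) : g ∈ Gamma0 N ↔ (N : ℤ) ∣ g 1 0 := by
  rw [Gamma0_mem, ZMod.intCast_zmod_eq_zero_iff_dvd]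

theorem Gamma0_mul_le (p M : ℕ) : Gamma0 (p * M) ≤ Gamma0 M := by
  intro g hg
  rw [mem_Gamma0_iff_dvd] at hg ⊢
  exact (Dvd.intro_left (p : ℤ) (by push_cast; ring)).trans hg

theorem lowerUnip_mem_Gamma0 (M : ℕ) (x : ℤ) : lowerUnip ((M : ℤ) * x) ∈ Gamma0 M := by
  rw [mem_Gamma0_iff_dvd, lowerUnip_10]
  exact dvd_mul_right _ _

theorem subgroup_smul_mk (p M : ℕ) (k : Gamma0 M) (g : SL(2, ℤ)) :
    k • (g : SL(2, ℤ) ⧸ Gamma0 (p * M)) =
      (((k : SL(2, ℤ)) * g : SL(2, ℤ)) : SL(2, ℤ) ⧸ Gamma0 (p * M)) := rfl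

/-- The relative index is the size of the orbit of the base point. -/
theorem relIndex_Gamma0_eq_ncard (p M : ℕ) :
    (Gamma0 (p * M)).relIndex (Gamma0 M) =
      (MulAction.orbit (Gamma0 M) (((1 : SL(2, ℤ)) : SL(2, ℤ) ⧸ Gamma0 (p * M)))).ncard := by
  have key : (Gamma0 (p * M)).subgroupOf (Gamma0 M) =
      MulAction.stabilizer (Gamma0 M) (((1 : SL(2, ℤ)) : SL(2, ℤ) ⧸ Gamma0 (p * M))) := by
    ext k
    rw [Subgroup.mem_subgroupOf, MulAction.mem_stabilizer_iff, subgroup_smul_mk,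
      mul_one, eq_comm, QuotientGroup.eq, inv_one, one_mul]
  rw [Subgroup.relIndex, key, MulAction.index_stabilizer]

theorem mem_orbit_Gamma0_iff (p M : ℕ) (g : SL(2, ℤ)) :
    (g : SL(2, ℤ) ⧸ Gamma0 (p * M)) ∈
      MulAction.orbit (Gamma0 M) (((1 : SL(2, ℤ)) : SL(2, ℤ) ⧸ Gamma0 (p * M))) ↔
      g ∈ Gamma0 M := by
  constructor
  · rintro ⟨k, hk⟩
    have hk' : (((k : SL(2, ℤ)) : SL(2, ℤ)) : SL(2, ℤ) ⧸ Gamma0 (p * M)) = g := by
      rw [← hk]
      show _ = k • (((1 : SL(2, ℤ)) : SL(2, ℤ) ⧸ Gamma0 (p * M)))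
      rw [subgroup_smul_mk, mul_one]
    rw [QuotientGroup.eq] at hk'
    have hk := hk'
    have h1 : (k : SL(2, ℤ))⁻¹ * g ∈ Gamma0 M := Gamma0_mul_le p M hk
    have h2 := (Gamma0 M).mul_mem k.2 h1
    rwa [mul_inv_cancel_left] at h2
  · intro hg
    refine ⟨⟨g, hg⟩, ?_⟩
    show (⟨g, hg⟩ : Gamma0 M) • (((1 : SL(2, ℤ)) : SL(2, ℤ) ⧸ Gamma0 (p * M))) = g
    rw [subgroup_smul_mk, mul_one]

/-- The coset of `[[1, 0], [M x, 1]]` in `SL(2, ℤ) ⧸ Γ₀(pM)`. -/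
noncomputable def fiberPt (p M : ℕ) (x : ZMod p) : SL(2, ℤ) ⧸ Gamma0 (p * M) :=
  ((lowerUnip ((M : ℤ) * (x.cast : ℤ)) : SL(2, ℤ)) : SL(2, ℤ) ⧸ Gamma0 (p * M))

theorem fiberPt_eq_mk_iff (p M : ℕ) (hM : M ≠ 0) (x : ZMod p) (g : SL(2, ℤ)) (c' : ℤ)
    (hg : g 1 0 = (M : ℤ) * c') :
    fiberPt p M x = (g : SL(2, ℤ) ⧸ Gamma0 (p * M)) ↔
      (c' : ZMod p) = x * ((g 0 0 : ℤ) : ZMod p) := by
  rw [fiberPt, mk_eq_mk_iff]
  simp only [lowerUnip_00, lowerUnip_10, one_mul]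
  have h1 : g 1 0 - (M : ℤ) * (x.cast : ℤ) * g 0 0 = (M : ℤ) * (c' - (x.cast : ℤ) * g 0 0) := by
    rw [hg]; ring
  have h2 : ((p * M : ℕ) : ℤ) = (M : ℤ) * (p : ℤ) := by push_cast; ring
  rw [h1, h2, mul_dvd_mul_iff_left (Int.natCast_ne_zero.mpr hM),
    ← ZMod.intCast_zmod_eq_zero_iff_dvd, Int.cast_sub, Int.cast_mul, ZMod.intCast_zmod_cast,
    sub_eq_zero]

theorem fiberPt_injective (p M : ℕ) (hM : M ≠ 0) : Function.Injective (fiberPt p M) := by
  intro x y hxy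
  have h := (fiberPt_eq_mk_iff p M hM x (lowerUnip ((M : ℤ) * (y.cast : ℤ))) (y.cast : ℤ)
    (lowerUnip_10 _)).mp hxy
  rw [lowerUnip_00, ZMod.intCast_zmod_cast, Int.cast_one, mul_one] at h
  exact h.symm

theorem fiberPt_mem_orbit (p M : ℕ) (x : ZMod p) :
    fiberPt p M x ∈
      MulAction.orbit (Gamma0 M) (((1 : SL(2, ℤ)) : SL(2, ℤ) ⧸ Gamma0 (p * M))) :=
  (mem_orbit_Gamma0_iff p M _).mpr (lowerUnip_mem_Gamma0 M _)

/-- `[Γ₀(M) : Γ₀(pM)] = p` when `p ∣ M`. -/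
theorem relIndex_Gamma0_of_dvd {p M : ℕ} (hp : p.Prime) (hM : 0 < M) (h : p ∣ M) :
    (Gamma0 (p * M)).relIndex (Gamma0 M) = p := by
  haveI : Fact p.Prime := ⟨hp⟩
  rw [relIndex_Gamma0_eq_ncard]
  have hrange : MulAction.orbit (Gamma0 M) (((1 : SL(2, ℤ)) : SL(2, ℤ) ⧸ Gamma0 (p * M))) =
      Set.range (fiberPt p M) := by
    apply Set.Subset.antisymm
    · intro y hy
      induction y using QuotientGroup.induction_on with
      | H g =>
        rw [mem_orbit_Gamma0_iff, mem_Gamma0_iff_dvd] at hy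
        obtain ⟨c', hc'⟩ := hy
        have hdet := det_rel_zmod p g
        have hc0 : ((g 1 0 : ℤ) : ZMod p) = 0 := by
          rw [hc', Int.cast_mul, Int.cast_natCast, (ZMod.natCast_eq_zero_iff M p).mpr h, zero_mul]
        rw [hc0, mul_zero, sub_zero] at hdet
        refine ⟨(c' : ZMod p) * ((g 1 1 : ℤ) : ZMod p), ?_⟩
        rw [fiberPt_eq_mk_iff p M hM.ne' _ g c' hc']
        linear_combination (-(c' : ZMod p)) * hdet
    · rintro _ ⟨x, rfl⟩
      exact fiberPt_mem_orbit p M x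
  rw [hrange, Set.ncard_range_of_injective (fiberPt_injective p M hM.ne'), Nat.card_zmod]

/-- An element of `Γ₀(M)` with first column `(p, M)`, for `p ∤ M`. -/
theorem exists_Gamma0_col {p M : ℕ} (hp : p.Prime) (h : ¬ p ∣ M) :
    ∃ g : SL(2, ℤ), g 0 0 = p ∧ g 1 0 = M := by
  have hcop : IsCoprime (p : ℤ) (M : ℤ) :=
    Nat.isCoprime_iff_coprime.mpr ((hp.coprime_iff_not_dvd).mpr h)
  obtain ⟨u, v, huv⟩ := hcop
  refine ⟨⟨!![(p : ℤ), -v; (M : ℤ), u], ?_⟩, rfl, rfl⟩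
  rw [Matrix.det_fin_two_of]
  linear_combination huv

/-- `[Γ₀(M) : Γ₀(pM)] = p + 1` when `p ∤ M`. -/
theorem relIndex_Gamma0_of_not_dvd {p M : ℕ} (hp : p.Prime) (hM : 0 < M) (h : ¬ p ∣ M) :
    (Gamma0 (p * M)).relIndex (Gamma0 M) = p + 1 := by
  haveI : Fact p.Prime := ⟨hp⟩
  rw [relIndex_Gamma0_eq_ncard]
  obtain ⟨gI, h00, h10⟩ := exists_Gamma0_col hp h
  have hgI : gI ∈ Gamma0 M := by
    rw [mem_Gamma0_iff_dvd, h10]
  have hrange : MulAction.orbit (Gamma0 M) (((1 : SL(2, ℤ)) : SL(2, ℤ) ⧸ Gamma0 (p * M))) =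
      insert ((gI : SL(2, ℤ)) : SL(2, ℤ) ⧸ Gamma0 (p * M)) (Set.range (fiberPt p M)) := by
    apply Set.Subset.antisymm
    · intro y hy
      induction y using QuotientGroup.induction_on with
      | H g =>
        rw [mem_orbit_Gamma0_iff, mem_Gamma0_iff_dvd] at hy
        obtain ⟨c', hc'⟩ := hy
        by_cases ha : ((g 0 0 : ℤ) : ZMod p) = 0
        · left
          show ((g : SL(2, ℤ)) : SL(2, ℤ) ⧸ Gamma0 (p * M)) = gI
          rw [mk_eq_mk_iff, h00, h10, hc']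
          have h1 : g 0 0 * (M : ℤ) - (M : ℤ) * c' * (p : ℤ) = (M : ℤ) * (g 0 0 - c' * p) := by
            ring
          have h2 : ((p * M : ℕ) : ℤ) = (M : ℤ) * (p : ℤ) := by push_cast; ring
          rw [h1, h2, mul_dvd_mul_iff_left (Int.natCast_ne_zero.mpr hM.ne'),
            ← ZMod.intCast_zmod_eq_zero_iff_dvd]
          push_cast
          rw [ha, ZMod.natCast_self, mul_zero, sub_zero]
        · right
          refine ⟨(c' : ZMod p) * ((g 0 0 : ℤ) : ZMod p)⁻¹, ?_⟩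
          rw [fiberPt_eq_mk_iff p M hM.ne' _ g c' hc', mul_assoc, inv_mul_cancel₀ ha, mul_one]
    · rintro y (rfl | ⟨x, rfl⟩)
      · exact (mem_orbit_Gamma0_iff p M _).mpr hgI
      · exact fiberPt_mem_orbit p M x
  have hnot : ((gI : SL(2, ℤ)) : SL(2, ℤ) ⧸ Gamma0 (p * M)) ∉ Set.range (fiberPt p M) := by
    rintro ⟨x, hx⟩
    rw [fiberPt_eq_mk_iff p M hM.ne' x gI 1 (by rw [h10, mul_one]), h00] at hx
    simp at hx
  rw [hrange, Set.ncard_insert_of_notMem hnot (Set.finite_range _),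
    Set.ncard_range_of_injective (fiberPt_injective p M hM.ne'), Nat.card_zmod]

/-! ### The index of `Γ₀(N)` -/

theorem Gamma0_one : Gamma0 1 = ⊤ := by
  rw [eq_top_iff]
  intro g _
  rw [mem_Gamma0_iff_dvd]
  exact one_dvd _

/-- `[SL(2, ℤ) : Γ₀(N)] = ψ(N)`. -/
theorem index_Gamma0 (N : ℕ) (hN : N ≠ 0) : (Gamma0 N).index = ModularCurve.dedekindPsi N := by
  induction N using Nat.strong_induction_on with
  | _ N ih =>
    rcases Nat.lt_or_ge 1 N with h1 | h1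
    · have hp : (N.minFac).Prime := Nat.minFac_prime (by omega)
      obtain ⟨M, hM⟩ := Nat.minFac_dvd N
      have hMpos : 0 < M := by
        rcases Nat.eq_zero_or_pos M with h0 | h0
        · rw [h0, mul_zero] at hM; exact absurd hM hN
        · exact h0
      have hlt : M < N := by
        have := hp.two_le
        nlinarith
      have ihM := ih M hlt hMpos.ne'
      rw [hM, ← Subgroup.relIndex_mul_index (Gamma0_mul_le N.minFac M), ihM]
      by_cases hdvd : N.minFac ∣ M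
      · rw [relIndex_Gamma0_of_dvd hp hMpos hdvd, dedekindPsi_mul_of_dvd hp hMpos hdvd]
      · rw [relIndex_Gamma0_of_not_dvd hp hMpos hdvd, dedekindPsi_mul_of_not_dvd hp hMpos hdvd]
    · have hN1 : N = 1 := by omega
      subst hN1
      rw [Gamma0_one, Subgroup.index_top, ModularCurve.dedekindPsi_one]

/-- The number of cosets of `Γ₀(N)` is `ψ(N)`. -/
theorem card_quotient_Gamma0 (N : ℕ) (hN : N ≠ 0) :
    Nat.card (SL(2, ℤ) ⧸ Gamma0 N) = ModularCurve.dedekindPsi N :=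
  index_Gamma0 N hN

theorem dedekindPsi_pos (N : ℕ) (hN : N ≠ 0) : 0 < ModularCurve.dedekindPsi N := by
  unfold ModularCurve.dedekindPsi
  refine Finset.sum_pos' (fun _ _ => Nat.zero_le _) ⟨1, ?_, ?_⟩
  · exact Finset.mem_filter.mpr ⟨Nat.one_mem_divisors.mpr hN, squarefree_one⟩
  · rw [Nat.div_one]; exact Nat.pos_of_ne_zero hN

/-- The coset space of `Γ₀(N)` is finite. -/
theorem finite_quotient_Gamma0 (N : ℕ) (hN : N ≠ 0) : Finite (SL(2, ℤ) ⧸ Gamma0 N) := by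
  apply Nat.finite_of_card_ne_zero
  rw [card_quotient_Gamma0 N hN]
  exact (dedekindPsi_pos N hN).ne'

/-! ### Interface statements (skeleton shapes) -/

instance instFiniteQuotientGamma0 (N : ℕ) [NeZero N] : Finite (SL(2, ℤ) ⧸ Gamma0 N) :=
  finite_quotient_Gamma0 N (NeZero.ne N)

theorem card_cosets (N : ℕ) [NeZero N] :
    Nat.card (SL(2, ℤ) ⧸ Gamma0 N) = ModularCurve.dedekindPsi N :=
  card_quotient_Gamma0 N (NeZero.ne N)

theorem card_fixed_S (N : ℕ) :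
    Nat.card {q : SL(2, ℤ) ⧸ Gamma0 N // ModularGroup.S • q = q} = ModularCurve.nuTwo N :=
  card_fixedBy_S N

theorem card_fixed_ST (N : ℕ) :
    Nat.card {q : SL(2, ℤ) ⧸ Gamma0 N // (ModularGroup.S * ModularGroup.T) • q = q} =
      ModularCurve.nuThree N :=
  card_fixedBy_ST N

theorem transitive_S_T (N : ℕ) (x y : SL(2, ℤ) ⧸ Gamma0 N) :
    ∃ g ∈ Subgroup.closure ({MulAction.toPerm ModularGroup.S, MulAction.toPerm ModularGroup.T} :
      Set (Equiv.Perm (SL(2, ℤ) ⧸ Gamma0 N))), g x = y := by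
  obtain ⟨γ, hγ⟩ := MulAction.exists_smul_eq SL(2, ℤ) x y
  refine ⟨MulAction.toPermHom SL(2, ℤ) (SL(2, ℤ) ⧸ Gamma0 N) γ, ?_, hγ⟩
  have h1 : γ ∈ Subgroup.closure ({ModularGroup.S, ModularGroup.T} : Set SL(2, ℤ)) := by
    rw [SpecialLinearGroup.SL2Z_generators]; exact Subgroup.mem_top γ
  have h2 := Subgroup.mem_map_of_mem (MulAction.toPermHom SL(2, ℤ) (SL(2, ℤ) ⧸ Gamma0 N)) h1
  rw [MonoidHom.map_closure, Set.image_pair] at h2
  exact h2

end Fermat.Agent.S24
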