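import Fermat.Agent.S24.ADefs
import Fermat.Agent.S28.SturmDegree
import Fermat.Agent.S28.BoundedDegree

/-!
# S24, module Dg: the degree of the function field over `ℚ̄(j)`

`j` is transcendental over `ℚ̄`, and `[ℚ̄(j(q^d), d ∣ N) : ℚ̄(j)] ≤ [SL(2,ℤ) : Γ₀(N)]`.

The bound is obtained algebraically from the rational statement
`Fermat.Agent.S28.exists_poly_of_mem_Ft` (every element of `ℚ(j(q^d), d ∣ N)` has degree at most
the index over `ℚ(j)`), the primitive element theorem (`relrank_le_of_forall_degree_le`) and the
compositum inequality `[C·B : C] ≤ [B : A]`.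
-/

set_option autoImplicit false

open AlgebraicCurve IntermediateField UpperHalfPlane ModularForm EisensteinSeries
open scoped MatrixGroups Manifold

namespace Fermat.Agent.S24

/-! ### transcendence of `j` -/

theorem dg_transcendental_jqModC (K : Type*) [Field K] :
    Transcendental K (ModularCurve.jqModC K) := by
  intro h
  obtain ⟨p, hp0, hp⟩ := h
  have hsum : ∀ m : ℤ, (Polynomial.aeval (ModularCurve.jqModC K) p).coeff m =
      ∑ i ∈ Finset.range (p.natDegree + 1), p.coeff i * (ModularCurve.jqModC K ^ i).coeff m := by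
    intro m
    rw [Polynomial.aeval_eq_sum_range, HahnSeries.coeff_sum]
    refine Finset.sum_congr rfl fun i _ => ?_
    rw [Algebra.smul_def, ModularCurve.algebraMap_laurentSeries_eq_single,
      HahnSeries.coeff_single_zero_mul]
  have key : (Polynomial.aeval (ModularCurve.jqModC K) p).coeff (-(p.natDegree : ℤ))
      = p.leadingCoeff := by
    rw [hsum, Finset.sum_eq_single p.natDegree]
    · rw [ModularCurve.coeff_jqModC_pow_self, mul_one]
      rfl
    · intro i hi hne
      rw [ModularCurve.coeff_jqModC_pow_of_lt, mul_zero]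
      have : i < p.natDegree := lt_of_le_of_ne (Nat.lt_succ_iff.mp (Finset.mem_range.mp hi)) hne
      omega
    · intro h
      exact absurd (Finset.mem_range.mpr (Nat.lt_succ_self _)) h
  rw [hp] at key
  exact hp0 (Polynomial.leadingCoeff_eq_zero.mp (by simpa using key.symm))

/-! ### the compositum inequality -/

/-- `[D : C] ≤ [B : A]` for subfields `A ≤ B`, `A ≤ C ≤ D` with `D` generated by `C` and `B`
and `B / A` finite. -/
theorem dg_relrank_sup_le {L : Type*} [Field L] (A B C D : Subfield L) (hAB : A ≤ B) (hAC : A ≤ C)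
    (hCD : C ≤ D) (hD : D ≤ Subfield.closure ((C : Set L) ∪ B))
    (n : ℕ) (h : Subfield.relrank A B ≤ (n : Cardinal)) :
    Subfield.relrank C D ≤ (n : Cardinal) := by
  rw [Subfield.relrank_eq_rank_of_le hCD]
  rw [Subfield.relrank_eq_rank_of_le hAB] at h
  letI : Algebra A C := (Subfield.inclusion hAC).toAlgebra
  have : IsScalarTower A C L := IsScalarTower.of_algebraMap_eq (fun x => rfl)
  have : Module.Finite A (Subfield.extendScalars hAB) :=
    Module.rank_lt_aleph0_iff.mp (h.trans_lt Cardinal.natCast_lt_aleph0)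
  have h1 := IntermediateField.adjoin_rank_le_of_isAlgebraic_right C (Subfield.extendScalars hAB)
  have h2 : Subfield.extendScalars hCD ≤
      IntermediateField.adjoin C ((Subfield.extendScalars hAB : IntermediateField A L) : Set L) := by
    intro x hx
    have hx' : x ∈ Subfield.closure ((C : Set L) ∪ B) := hD hx
    have hle : Subfield.closure ((C : Set L) ∪ B) ≤
        (IntermediateField.adjoin C
          ((Subfield.extendScalars hAB : IntermediateField A L) : Set L)).toSubfield := by
      rw [Subfield.closure_le]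
      rintro y (hy | hy)
      · exact (IntermediateField.adjoin C _).algebraMap_mem ⟨y, hy⟩
      · exact IntermediateField.subset_adjoin C _ hy
    exact hle hx'
  calc Module.rank C (Subfield.extendScalars hCD)
      ≤ Module.rank C (IntermediateField.adjoin C
          ((Subfield.extendScalars hAB : IntermediateField A L) : Set L)) :=
        LinearMap.rank_le_of_injective (IntermediateField.inclusion h2).toLinearMap
          (IntermediateField.inclusion_injective h2)
    _ ≤ Module.rank A (Subfield.extendScalars hAB) := h1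
    _ ≤ n := h

section Dg
variable (N : ℕ) [NeZero N]

theorem dg_coe_jBar :
    ((jBar N : ↥(ModularCurve.modularFunctionFieldBar N)) :
      LaurentSeries (AlgebraicClosure ℚ)) = ModularCurve.jqModC (AlgebraicClosure ℚ) := by
  show ModularCurve.coeffEmb (AlgebraicClosure ℚ) ModularCurve.jq = _
  rw [← ModularCurve.jqModC_rat, ModularCurve.coeffEmb, ModularCurve.coeffMap_jqModC]

theorem transcendental_jBar' : Transcendental (AlgebraicClosure ℚ) (jBar N) := by
  intro h
  apply dg_transcendental_jqModC (AlgebraicClosure ℚ)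
  rw [← dg_coe_jBar N]
  obtain ⟨p, hp0, hp⟩ := h
  refine ⟨p, hp0, ?_⟩
  have := congrArg (fun x : ↥(ModularCurve.modularFunctionFieldBar N) =>
    (x : LaurentSeries (AlgebraicClosure ℚ))) hp
  simpa using this

/-! ### the rational bound -/

omit [NeZero N] in
theorem dg_Qj_le_full :
    Fermat.Agent.S28.Qj 1 ≤ (ModularCurve.modularFunctionFieldFull N).toSubfield := by
  rw [Fermat.Agent.S28.Qj, Subfield.closure_le]
  rintro x rfl
  show Fermat.Agent.S28.jd ℚ 1 ∈ ModularCurve.modularFunctionFieldFull N
  rw [Fermat.Agent.S28.jd_one]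
  have h := ModularCurve.jqd_mem_full N (one_dvd N)
  rw [ModularCurve.qExpand_one_apply] at h
  exact h

theorem dg_relrank_full_le :
    Subfield.relrank (Fermat.Agent.S28.Qj 1) (ModularCurve.modularFunctionFieldFull N).toSubfield
      ≤ ((CongruenceSubgroup.Gamma0 N).index : Cardinal) := by
  refine @Fermat.Agent.S28.relrank_le_of_forall_degree_le (LaurentSeries ℚ) _
    (charZero_of_injective_ringHom (HahnSeries.C : ℚ →+* LaurentSeries ℚ).injective)
    (Fermat.Agent.S28.Qj 1) _ (dg_Qj_le_full N) _ ?_
  intro x hx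
  exact Fermat.Agent.S28.exists_poly_of_mem_Ft N 1 (NeZero.pos N) (one_dvd N) x
    (Fermat.Agent.S28.full_le_Ft N hx)

/-! ### base change to `ℚ̄` -/

theorem dg_rank_le :
    Module.rank ↥((AlgebraicClosure ℚ)⟮jBar N⟯) ↥(ModularCurve.modularFunctionFieldBar N) ≤
      ((CongruenceSubgroup.Gamma0 N).index : Cardinal) := by
  rw [← IntermediateField.relrank_top_right ((AlgebraicClosure ℚ)⟮jBar N⟯)]
  show Subfield.relrank ((AlgebraicClosure ℚ)⟮jBar N⟯).toSubfield
    (⊤ : IntermediateField (AlgebraicClosure ℚ) ↥(ModularCurve.modularFunctionFieldBar N)).toSubfield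
      ≤ _
  set val : ↥(ModularCurve.modularFunctionFieldBar N) →+* LaurentSeries (AlgebraicClosure ℚ) :=
    (ModularCurve.modularFunctionFieldBar N).val.toRingHom with hval
  set ce : LaurentSeries ℚ →+* LaurentSeries (AlgebraicClosure ℚ) :=
    ModularCurve.coeffEmb (AlgebraicClosure ℚ) with hce
  rw [← Subfield.relrank_map_map _ _ val]
  refine dg_relrank_sup_le ((Fermat.Agent.S28.Qj 1).map ce)
    ((ModularCurve.modularFunctionFieldFull N).toSubfield.map ce) _ _
    ((Subfield.gc_map_comap ce).monotone_l (dg_Qj_le_full N)) ?_ ?_ ?_ _ ?_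
  · -- `ce (ℚ(j)) ≤ ℚ̄(j)`
    rw [Subfield.map_le_iff_le_comap, Fermat.Agent.S28.Qj, Subfield.closure_le]
    rintro x rfl
    refine ⟨jBar N, IntermediateField.mem_adjoin_simple_self _ _, ?_⟩
    show ((jBar N : ↥(ModularCurve.modularFunctionFieldBar N)) :
      LaurentSeries (AlgebraicClosure ℚ)) = ce (Fermat.Agent.S28.jd ℚ 1)
    rw [Fermat.Agent.S28.jd_one]
    rfl
  · exact (Subfield.gc_map_comap val).monotone_l (fun x _ => trivial)
  · -- the function field is generated by `ℚ̄(j)` and `ce (ℚ(j_d))`
    rintro _ ⟨y, -, rfl⟩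
    have hy : (y : LaurentSeries (AlgebraicClosure ℚ)) ∈
        (ModularCurve.modularFunctionFieldBar N).toSubfield := y.2
    have hle : (ModularCurve.modularFunctionFieldBar N).toSubfield ≤
        Subfield.closure
          ((((AlgebraicClosure ℚ)⟮jBar N⟯).toSubfield.map val : Set _) ∪
            ((ModularCurve.modularFunctionFieldFull N).toSubfield.map ce)) := by
      show (ModularCurve.laurentBaseChange (AlgebraicClosure ℚ)
        (ModularCurve.modularFunctionFieldFull N)).toSubfield ≤ _
      rw [ModularCurve.laurentBaseChange, IntermediateField.adjoin_toSubfield, Subfield.closure_le]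
      rintro z (⟨c, rfl⟩ | ⟨x, hx, rfl⟩)
      · refine Subfield.subset_closure (Or.inl ?_)
        exact ⟨algebraMap _ _ c, ((AlgebraicClosure ℚ)⟮jBar N⟯).algebraMap_mem c, rfl⟩
      · refine Subfield.subset_closure (Or.inr ?_)
        exact ⟨x, hx, rfl⟩
    exact hle hy
  · rw [Subfield.relrank_map_map]
    exact dg_relrank_full_le N

theorem finiteDimensional_jBar' :
    FiniteDimensional (AlgebraicClosure ℚ)⟮jBar N⟯ ↥(ModularCurve.modularFunctionFieldBar N) :=
  Module.rank_lt_aleph0_iff.mp ((dg_rank_le N).trans_lt Cardinal.natCast_lt_aleph0)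

theorem finrank_jBar_le :
    Module.finrank (AlgebraicClosure ℚ)⟮jBar N⟯ ↥(ModularCurve.modularFunctionFieldBar N) ≤
      Nat.card (SL(2, ℤ) ⧸ CongruenceSubgroup.Gamma0 N) :=
  Module.finrank_le_of_rank_le (dg_rank_le N)

end Dg

end Fermat.Agent.S24
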