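import Fermat.Agent.S24.Defs

/-!
# S24: shared definitions for the analytic side

The analytic `j`-function, the embedding of the constants, the analytic model `anaRing N` of the
ring generated by the functions `j(dτ)`, `d ∣ N`, and the corresponding elements of the function
field.
-/

set_option autoImplicit false

open UpperHalfPlane ModularForm EisensteinSeries
open scoped MatrixGroups Manifold

namespace Fermat.Agent.S24

/-- The analytic `j`-function on the upper half plane, `j = E₄³ / Δ = q⁻¹ + 744 + ⋯`. -/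
noncomputable def jFun (τ : ℍ) : ℂ := E₄ τ ^ 3 / ModularForm.discriminant τ

/-- The analytic `j`-function as a function on `ℂ` (junk outside the upper half plane). -/
noncomputable def jC (z : ℂ) : ℂ := jFun (ofComplex z)

/-- `τ ↦ j(dτ)` as a function on the upper half plane. -/
noncomputable def jd (d : ℕ) : ℍ → ℂ := fun τ => jC ((d : ℂ) * (τ : ℂ))

/-- The fixed embedding of the constant field `ℚ̄` into `ℂ`. -/
noncomputable def ιc : AlgebraicClosure ℚ →+* ℂ :=
  letI : Algebra ℚ (AlgebraicClosure ℚ) := AlgebraicClosure.instAlgebra ℚ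
  (IsAlgClosed.lift : AlgebraicClosure ℚ →ₐ[ℚ] ℂ).toRingHom

/-- The analytic model of the ring generated over `ℚ̄` by the functions `j(dτ)`, `d ∣ N`. -/
def anaRing (N : ℕ) : Subring (ℍ → ℂ) :=
  Subring.closure
    (Set.range (fun c : AlgebraicClosure ℚ => (fun _ : ℍ => ιc c)) ∪
      {g | ∃ d : ℕ, d ∣ N ∧ g = jd d})

theorem const_mem_anaRing (N : ℕ) (c : AlgebraicClosure ℚ) :
    (fun _ : ℍ => ιc c) ∈ anaRing N :=
  Subring.subset_closure (Or.inl ⟨c, rfl⟩)

theorem jd_mem_anaRing {N d : ℕ} (hd : d ∣ N) : jd d ∈ anaRing N :=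
  Subring.subset_closure (Or.inr ⟨d, hd, rfl⟩)

/-- The element `j(q^d)` of the function field of `X₀(N)` over `ℚ̄`, for `d ∣ N`. -/
noncomputable def jdBar (N d : ℕ) [NeZero N] [NeZero d] (hd : d ∣ N) :
    ↥(ModularCurve.modularFunctionFieldBar N) :=
  ⟨ModularCurve.coeffEmb (AlgebraicClosure ℚ) (ModularCurve.qExpand ℚ d ModularCurve.jq),
    ModularCurve.coeffEmb_mem_laurentBaseChange (AlgebraicClosure ℚ)
      (ModularCurve.jqd_mem_full N hd)⟩

/-- Weakly holomorphic functions: holomorphic on the upper half plane, `1`-periodic, with at most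
a pole at `i∞` (some power of `Δ` kills the pole). -/
def IsWH (g : ℍ → ℂ) : Prop :=
  MDiff g ∧ (∀ τ : ℍ, g ((1 : ℝ) +ᵥ τ) = g τ) ∧
    ∃ m : ℕ, IsBoundedAtImInfty (fun τ => ModularForm.discriminant τ ^ m * g τ)

/-- Taylor expansion of a function on the upper half plane at `τ₀`, in the coordinate
`τ - τ₀`. -/
noncomputable def taylorAt (τ₀ : ℍ) (g : ℍ → ℂ) : PowerSeries ℂ :=
  PowerSeries.mk fun m => ((m.factorial : ℂ))⁻¹ * iteratedDeriv m (g ∘ ofComplex) τ₀

/-- The point `ρ = e^{2πi/3}` of the upper half plane. -/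
noncomputable def rho : ℍ := ⟨⟨-1 / 2, Real.sqrt 3 / 2⟩, by
  show 0 < Real.sqrt 3 / 2
  positivity⟩

end Fermat.Agent.S24
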