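import Mathlib
import Fermat.Agent.S24.ADefs
import Fermat.Agent.Lib.JDict

/-!
# S24, module Cj: conjugates of `j(Nτ)`

* `jd_smul_of_mem_Gamma0`: `j(dτ)` is invariant under `Gamma0 N` for `d ∣ N`;
* `mem_Gamma0_of_jd_smul_eq`: conversely, `γ ∈ SL(2, ℤ)` fixing `j(Nτ)` lies in `Gamma0 N`;
* `jd_smul_scale`: `j(d · γ(Nτ)) = j(kτ + r)` with `k ≥ 1` an integer.

All three follow from the Hermite normal form `diag(d, 1) γ = δ [a b; 0 e]` (`jc_hermite`), the
`SL(2, ℤ)`-invariance of `j`, and (for the second) the growth `|j(τ)| ∼ exp(2π Im τ)`.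
-/

set_option autoImplicit false

open UpperHalfPlane ModularForm EisensteinSeries Filter Topology
open scoped MatrixGroups Manifold

namespace Fermat.Agent.S24

/-! ### Invariance of `jFun` -/

theorem jc_levelOne_smul {F : Type*} [FunLike F ℍ ℂ] {k : ℤ} [SlashInvariantFormClass F 𝒮ℒ k]
    (g : F) (γ : SL(2, ℤ)) (z : ℍ) : g (γ • z) = denom γ z ^ k * g z := by
  have hγ : (γ : GL (Fin 2) ℝ) ∈ 𝒮ℒ := ⟨γ, rfl⟩
  exact SlashInvariantForm.slash_action_eqn'' g hγ z

theorem jc_jFun_smul (γ : SL(2, ℤ)) (τ : ℍ) : jFun (γ • τ) = jFun τ := by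
  have h4 := jc_levelOne_smul E₄ γ τ
  have h12 := jc_levelOne_smul CuspForm.discriminant γ τ
  rw [CuspForm.coe_discriminant] at h12
  have hd : denom γ τ ≠ 0 := denom_ne_zero _ τ
  have hΔ := ModularForm.discriminant_ne_zero τ
  unfold jFun
  rw [h4, h12]
  generalize denom γ τ = D at hd
  rw [zpow_ofNat, zpow_ofNat]
  field_simp

theorem jc_jFun_vadd_int (n : ℤ) (τ : ℍ) : jFun ((n : ℝ) +ᵥ τ) = jFun τ := by
  rw [← UpperHalfPlane.modular_T_zpow_smul, jc_jFun_smul]

theorem jc_jC_coe (τ : ℍ) : jC (τ : ℂ) = jFun τ := by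
  rw [jC, ofComplex_apply]

theorem jc_jC_add_int {z : ℂ} (hz : 0 < z.im) (n : ℤ) : jC (z + n) = jC z := by
  have h1 : z + n = (((n : ℝ) +ᵥ (⟨z, hz⟩ : ℍ) : ℍ) : ℂ) := by
    rw [UpperHalfPlane.coe_vadd]
    push_cast
    ring
  rw [h1, jc_jC_coe, jc_jFun_vadd_int, ← jc_jC_coe]

/-! ### Holomorphy -/

theorem jc_jFun_mdiff : MDiff jFun := by
  have h4 : MDiff (fun τ : ℍ => E₄ τ ^ 3) := (ModularFormClass.holo E₄).pow 3
  have h12 : MDiff (fun τ : ℍ => ModularForm.discriminant τ) := by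
    have h := ModularFormClass.holo CuspForm.discriminant
    rwa [CuspForm.coe_discriminant] at h
  exact h4.div h12 ModularForm.discriminant_ne_zero

theorem jc_jd_eq_vd (d : ℕ) [NeZero d] : jd d = Fermat.Agent.Lib.JDict.vd d jFun := by
  funext τ
  have hz : 0 < ((d : ℂ) * (τ : ℂ)).im := by
    have h1 : ((d : ℂ) * (τ : ℂ)).im = d * τ.im := by simp [Complex.mul_im]
    rw [h1]
    have : (0 : ℝ) < d := by exact_mod_cast NeZero.pos d
    have := τ.im_pos
    positivity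
  show jFun (ofComplex ((d : ℂ) * (τ : ℂ))) = jFun (ModularForm.heckeDiagMatrix d • τ)
  congr 1
  apply UpperHalfPlane.ext
  rw [ofComplex_apply_of_im_pos hz, ModularForm.coe_heckeDiagMatrix_smul (NeZero.ne d)]

/-- `τ ↦ j(dτ)` is holomorphic. -/
theorem jd_mdiff (d : ℕ) [NeZero d] : MDiff (jd d) := by
  rw [jc_jd_eq_vd]
  exact Fermat.Agent.Lib.JDict.vd_mdiff d jc_jFun_mdiff

/-! ### Hermite normal form -/

theorem jc_hermite (d : ℕ) (hd : 0 < d) (γ : SL(2, ℤ)) :
    ∃ (a e : ℕ) (b : ℤ), 0 < a ∧ 0 < e ∧ a * e = d ∧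
      a = Int.gcd ((d : ℤ) * γ 0 0) (γ 1 0) ∧
      ∀ τ : ℍ, jd d (γ • τ) = jC (((a : ℂ) * τ + b) / e) := by
  have hdet : γ 0 0 * γ 1 1 - γ 0 1 * γ 1 0 = 1 := by
    have h := γ.det_coe
    rwa [Matrix.det_fin_two] at h
  generalize hp : γ 0 0 = p at hdet ⊢
  generalize hq : γ 0 1 = q at hdet
  generalize hr : γ 1 0 = r at hdet ⊢
  generalize hs : γ 1 1 = s at hdet
  have hne : (d : ℤ) * p ≠ 0 ∨ r ≠ 0 := by
    by_cases h : r = 0
    · left
      rw [h, mul_zero, sub_zero] at hdet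
      have hp0 : p ≠ 0 := by
        rintro h0
        rw [h0, zero_mul] at hdet
        exact zero_ne_one hdet
      exact mul_ne_zero (by exact_mod_cast hd.ne') hp0
    · exact Or.inr h
  have hg0 : 0 < Int.gcd ((d : ℤ) * p) r := Int.gcd_pos_iff.mpr hne
  obtain ⟨P, hP⟩ := Int.gcd_dvd_left ((d : ℤ) * p) r
  obtain ⟨R, hR⟩ := Int.gcd_dvd_right ((d : ℤ) * p) r
  have hbez := Int.gcd_eq_gcd_ab ((d : ℤ) * p) r
  generalize Int.gcd ((d : ℤ) * p) r = g at hg0 hP hR hbez ⊢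
  generalize Int.gcdA ((d : ℤ) * p) r = x at hbez
  generalize Int.gcdB ((d : ℤ) * p) r = y at hbez
  have hgZ : (0 : ℤ) < g := by exact_mod_cast hg0
  have hPR : P * x + R * y = 1 := by
    have h1 : (g : ℤ) * (P * x + R * y) = g * 1 := by
      calc (g : ℤ) * (P * x + R * y) = (g * P) * x + (g * R) * y := by ring
        _ = d * p * x + r * y := by rw [← hP, ← hR]
        _ = g * 1 := by rw [mul_one]; exact hbez.symm
    exact mul_left_cancel₀ hgZ.ne' h1
  have hge : (g : ℤ) * (P * s - R * (d * q)) = d := by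
    calc (g : ℤ) * (P * s - R * (d * q)) = (g * P) * s - (g * R) * (d * q) := by ring
      _ = d * p * s - r * (d * q) := by rw [← hP, ← hR]
      _ = d * (p * s - q * r) := by ring
      _ = d := by rw [hdet, mul_one]
  have he0 : 0 < P * s - R * (d * q) := by
    by_contra hn
    push Not at hn
    have h1 : (g : ℤ) * (P * s - R * (d * q)) ≤ 0 := mul_nonpos_of_nonneg_of_nonpos hgZ.le hn
    rw [hge] at h1
    have : (0 : ℤ) < d := by exact_mod_cast hd
    omega
  obtain ⟨e, he⟩ : ∃ e : ℕ, (e : ℤ) = P * s - R * (d * q) :=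
    ⟨(P * s - R * (d * q)).toNat, Int.toNat_of_nonneg he0.le⟩
  have he0' : 0 < e := by
    have : (0 : ℤ) < e := by rw [he]; exact he0
    exact_mod_cast this
  have hae : g * e = d := by
    have : ((g * e : ℕ) : ℤ) = d := by
      push_cast
      rw [he]
      exact hge
    exact_mod_cast this
  refine ⟨g, e, x * (d * q) + y * s, hg0, he0', hae, rfl, fun τ => ?_⟩
  have hdetδ : Matrix.det !![P, -y; R, x] = 1 := by
    rw [Matrix.det_fin_two_of]
    linarith
  let δ : SL(2, ℤ) := ⟨!![P, -y; R, x], hdetδ⟩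
  have e_ne : (e : ℂ) ≠ 0 := by exact_mod_cast he0'.ne'
  have hw_im : 0 < ((((g : ℂ) * τ + ((x * (d * q) + y * s : ℤ) : ℂ)) / e)).im := by
    rw [Complex.div_natCast_im]
    have h1 : ((g : ℂ) * τ + ((x * (d * q) + y * s : ℤ) : ℂ)).im = g * τ.im := by
      simp [Complex.add_im, Complex.mul_im]
    rw [h1]
    have : (0 : ℝ) < g := by exact_mod_cast hg0
    have : (0 : ℝ) < e := by exact_mod_cast he0'
    have := τ.im_pos
    positivity
  have i1 : (g : ℂ) * P = d * p := by exact_mod_cast hP.symm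
  have i2 : (g : ℂ) * R = r := by exact_mod_cast hR.symm
  have i3 : (P : ℂ) * (x * (d * q) + y * s) - y * e = d * q := by
    have : P * (x * (d * q) + y * s) - y * (e : ℤ) = d * q := by
      rw [he]
      linear_combination ((d : ℤ) * q) * hPR
    exact_mod_cast this
  have i4 : (R : ℂ) * (x * (d * q) + y * s) + x * e = s := by
    have : R * (x * (d * q) + y * s) + x * (e : ℤ) = s := by
      rw [he]
      linear_combination (s : ℤ) * hPR
    exact_mod_cast this
  have hrs : (r : ℂ) * τ + s ≠ 0 := by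
    have h := UpperHalfPlane.denom_ne_zero (γ : GL (Fin 2) ℝ) τ
    rw [ModularGroup.denom_apply, hr, hs] at h
    exact h
  have key : ((d : ℂ) * ((γ • τ : ℍ) : ℂ))
      = ((δ • (⟨_, hw_im⟩ : ℍ) : ℍ) : ℂ) := by
    rw [coe_specialLinearGroup_apply, coe_specialLinearGroup_apply]
    simp only [algebraMap_int_eq, eq_intCast, Complex.ofReal_intCast, hp, hq, hr, hs]
    have hδ00 : δ 0 0 = P := rfl
    have hδ01 : δ 0 1 = -y := rfl
    have hδ10 : δ 1 0 = R := rfl
    have hδ11 : δ 1 1 = x := rfl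
    rw [hδ00, hδ01, hδ10, hδ11]
    show (d : ℂ) * (((p : ℂ) * τ + q) / ((r : ℂ) * τ + s))
      = ((P : ℂ) * (((g : ℂ) * τ + ((x * (d * q) + y * s : ℤ) : ℂ)) / e) + ((-y : ℤ) : ℂ))
        / ((R : ℂ) * (((g : ℂ) * τ + ((x * (d * q) + y * s : ℤ) : ℂ)) / e) + x)
    have hnum : (P : ℂ) * (((g : ℂ) * τ + ((x * (d * q) + y * s : ℤ) : ℂ)) / e) + ((-y : ℤ) : ℂ)
        = ((d : ℂ) * p * τ + d * q) / e := by
      push_cast
      field_simp
      linear_combination (τ : ℂ) * i1 + i3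
    have hden : (R : ℂ) * (((g : ℂ) * τ + ((x * (d * q) + y * s : ℤ) : ℂ)) / e) + x
        = ((r : ℂ) * τ + s) / e := by
      push_cast
      field_simp
      linear_combination (τ : ℂ) * i2 + i4
    rw [hnum, hden]
    field_simp
  show jC ((d : ℂ) * ((γ • τ : ℍ) : ℂ)) = jC _
  rw [key, jc_jC_coe, jc_jFun_smul, ← jc_jC_coe]

/-! ### Invariance under `Gamma0 N` -/

/-- invariance -/
theorem jd_smul_of_mem_Gamma0 (N d : ℕ) [NeZero N] (hd : d ∣ N) (γ : SL(2, ℤ))
    (hγ : γ ∈ CongruenceSubgroup.Gamma0 N) (τ : ℍ) : jd d (γ • τ) = jd d τ := by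
  have hd0 : 0 < d := Nat.pos_of_ne_zero
    (fun h => NeZero.ne N (by rw [h] at hd; exact Nat.eq_zero_of_zero_dvd hd))
  obtain ⟨a, e, b, ha, he, hae, hgcd, hj⟩ := jc_hermite d hd0 γ
  have hdr : (d : ℤ) ∣ γ 1 0 := by
    rw [CongruenceSubgroup.Gamma0_mem, ZMod.intCast_zmod_eq_zero_iff_dvd] at hγ
    exact (Int.natCast_dvd_natCast.mpr hd).trans hγ
  have hda : d ∣ a := by
    have h1 : (d : ℤ) ∣ (Int.gcd ((d : ℤ) * γ 0 0) (γ 1 0) : ℤ) :=
      Int.dvd_coe_gcd (dvd_mul_right _ _) hdr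
    rw [← hgcd] at h1
    exact Int.natCast_dvd_natCast.mp h1
  have had : a = d := Nat.dvd_antisymm ⟨e, hae.symm⟩ hda
  have he1 : e = 1 := by
    rw [had] at hae
    exact Nat.eq_of_mul_eq_mul_left hd0 (by rw [hae, mul_one])
  rw [hj τ, had, he1]
  have hz : 0 < ((d : ℂ) * (τ : ℂ)).im := by
    have h1 : ((d : ℂ) * (τ : ℂ)).im = d * τ.im := by simp [Complex.mul_im]
    rw [h1]
    have : (0 : ℝ) < d := by exact_mod_cast hd0
    have := τ.im_pos
    positivity
  show jC _ = jC ((d : ℂ) * (τ : ℂ))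
  rw [← jc_jC_add_int hz b]
  congr 1
  push_cast
  ring

/-! ### The conjugates at the cusp -/

/-- the conjugates at the cusp: `j(d · γ(Nτ)) = j(kτ + r)` with `k ≥ 1` an integer -/
theorem jd_smul_scale (N d : ℕ) [NeZero N] (hd : d ∣ N) (γ : SL(2, ℤ)) :
    ∃ (k : ℕ) (r : ℝ), 0 < k ∧
      ∀ τ : ℍ, jd d (γ • ofComplex ((N : ℂ) * τ)) = jFun (r +ᵥ ofComplex ((k : ℂ) * τ)) := by
  have hd0 : 0 < d := Nat.pos_of_ne_zero
    (fun h => NeZero.ne N (by rw [h] at hd; exact Nat.eq_zero_of_zero_dvd hd))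
  obtain ⟨a, e, b, ha, he, hae, hgcd, hj⟩ := jc_hermite d hd0 γ
  have heN : e ∣ N := (Dvd.intro_left a hae).trans hd
  obtain ⟨m, hm⟩ := heN
  have hm0 : 0 < m := Nat.pos_of_ne_zero (fun h => NeZero.ne N (by rw [hm, h, mul_zero]))
  refine ⟨a * m, (b : ℝ) / e, Nat.mul_pos ha hm0, fun τ => ?_⟩
  rw [hj]
  have hNτ : 0 < ((N : ℂ) * (τ : ℂ)).im := by
    have h1 : ((N : ℂ) * (τ : ℂ)).im = N * τ.im := by simp [Complex.mul_im]
    rw [h1]
    have : (0 : ℝ) < N := by exact_mod_cast NeZero.pos N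
    have := τ.im_pos
    positivity
  have hkτ : 0 < (((a * m : ℕ) : ℂ) * (τ : ℂ)).im := by
    have h1 : (((a * m : ℕ) : ℂ) * (τ : ℂ)).im = (a * m : ℕ) * τ.im := by simp [Complex.mul_im]
    rw [h1]
    have : (0 : ℝ) < (a * m : ℕ) := by exact_mod_cast Nat.mul_pos ha hm0
    have := τ.im_pos
    positivity
  have e_ne : (e : ℂ) ≠ 0 := by exact_mod_cast he.ne'
  rw [ofComplex_apply_of_im_pos hNτ, ofComplex_apply_of_im_pos hkτ, ← jc_jC_coe,
    UpperHalfPlane.coe_vadd]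
  congr 1
  show ((a : ℂ) * ((N : ℂ) * (τ : ℂ)) + b) / e = (((b : ℝ) / e : ℝ) : ℂ) + ((a * m : ℕ) : ℂ) * τ
  rw [hm]
  push_cast
  field_simp
  ring

/-! ### Growth of `j` at `i∞` -/

theorem jc_tendsto_E4 : Tendsto (fun τ : ℍ => E₄ τ) atImInfty (𝓝 1) := by
  have hper : Function.Periodic (⇑E₄ ∘ ofComplex) 1 :=
    SlashInvariantFormClass.periodic_comp_ofComplex E₄ (h := 1) (by simp)
  have han : AnalyticAt ℂ (cuspFunction 1 E₄) 0 :=
    ModularFormClass.analyticAt_cuspFunction_zero E₄ one_pos (by simp)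
  have h1 : (cuspFunction 1 E₄ ∘ fun τ : ℍ => Function.Periodic.qParam 1 τ : ℍ → ℂ)
      = fun τ : ℍ => E₄ τ := by
    funext τ
    simpa using eq_cuspFunction τ one_ne_zero hper
  have h2 := han.continuousAt.tendsto.comp (qParam_tendsto_atImInfty one_pos)
  rw [h1] at h2
  have h3 : cuspFunction 1 E₄ 0 = 1 := by
    have h4 : (qExpansion 1 E₄).coeff 0 = cuspFunction 1 E₄ 0 := by simp [qExpansion_coeff]
    rw [← h4, Fermat.Agent.Lib.JDict.qExpansion_E4]
    simp [ModularCurve.eisenstein4]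
  rw [h3] at h2
  exact h2

theorem jc_tendsto_jFun_mul_q :
    Tendsto (fun τ : ℍ => jFun τ * Function.Periodic.qParam 1 τ) atImInfty (𝓝 1) := by
  have hE := jc_tendsto_E4.pow 3
  have hD := ModularForm.tendsto_atImInfty_tprod_one_sub_eta_q_pow
  have h := hE.div hD one_ne_zero
  simp only [one_pow, div_one] at h
  refine h.congr fun τ => ?_
  have hq : Function.Periodic.qParam 1 (τ : ℂ) ≠ 0 := Function.Periodic.qParam_ne_zero _
  have hp : (∏' n, (1 - ModularForm.eta_q n τ) ^ 24) ≠ 0 := by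
    intro h0
    exact ModularForm.discriminant_ne_zero τ
      (by rw [ModularForm.discriminant_eq_q_prod, h0, mul_zero])
  simp only [Pi.div_apply]
  rw [jFun, ModularForm.discriminant_eq_q_prod]
  field_simp

theorem jc_tendsto_norm :
    Tendsto (fun τ : ℍ => ‖jFun τ‖ * Real.exp (-(2 * Real.pi) * τ.im)) atImInfty (𝓝 1) := by
  have h := jc_tendsto_jFun_mul_q.norm
  rw [norm_one] at h
  refine h.congr fun τ => ?_
  rw [norm_mul, Function.Periodic.norm_qParam]
  congr 2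
  simp

/-- if `exp (c * y) → 1` as `y → ∞` then `c = 0`. -/
theorem jc_eq_zero_of_tendsto_exp {c : ℝ}
    (h : Tendsto (fun y : ℝ => Real.exp (c * y)) atTop (𝓝 1)) : c = 0 := by
  have h1 : Tendsto (fun y : ℝ => Real.exp (c * (y + 1))) atTop (𝓝 1) :=
    h.comp (tendsto_atTop_add_const_right atTop 1 tendsto_id)
  have h2 : Tendsto (fun y : ℝ => Real.exp (c * (y + 1)) / Real.exp (c * y)) atTop (𝓝 (1 / 1)) :=
    h1.div h one_ne_zero
  have h3 : (fun y : ℝ => Real.exp (c * (y + 1)) / Real.exp (c * y)) = fun _ => Real.exp c := by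
    funext y
    rw [← Real.exp_sub]
    congr 1
    ring
  rw [h3, div_one] at h2
  have h4 := tendsto_nhds_unique h2 tendsto_const_nhds
  exact (Real.exp_eq_one_iff c).mp h4.symm

theorem jc_growth (A B : ℝ) (hA : 0 < A) (hB : 0 < B) (u v : ℝ → ℍ)
    (hu : ∀ y, 0 < y → (u y).im = A * y) (hv : ∀ y, 0 < y → (v y).im = B * y)
    (h : ∀ y, 0 < y → jFun (u y) = jFun (v y)) : A = B := by
  have hu' : Tendsto u atTop atImInfty := by
    rw [atImInfty, tendsto_comap_iff]
    refine (tendsto_id.const_mul_atTop hA).congr' ?_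
    filter_upwards [eventually_gt_atTop 0] with y hy
    simp [hu y hy]
  have hv' : Tendsto v atTop atImInfty := by
    rw [atImInfty, tendsto_comap_iff]
    refine (tendsto_id.const_mul_atTop hB).congr' ?_
    filter_upwards [eventually_gt_atTop 0] with y hy
    simp [hv y hy]
  have hNu := jc_tendsto_norm.comp hu'
  have hNv := jc_tendsto_norm.comp hv'
  have hratio := hNu.div hNv one_ne_zero
  rw [div_one] at hratio
  have hne := hNv.eventually_ne one_ne_zero
  have hc : (2 * Real.pi) * (B - A) = 0 := by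
    apply jc_eq_zero_of_tendsto_exp
    refine hratio.congr' ?_
    filter_upwards [eventually_gt_atTop 0, hne] with y hy hy0
    simp only [Function.comp_apply, Pi.div_apply] at hy0 ⊢
    rw [h y hy, hu y hy, hv y hy]
    have hm : ‖jFun (v y)‖ ≠ 0 := fun h0 => hy0 (by rw [h0, zero_mul])
    rw [mul_div_mul_left _ _ hm, ← Real.exp_sub]
    congr 1
    ring
  have hpi : (2 * Real.pi) ≠ 0 := by positivity
  have := (mul_eq_zero.mp hc).resolve_left hpi
  linarith

/-! ### Distinctness of the conjugates -/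

/-- distinctness of the conjugates of `j(Nτ)` -/
theorem mem_Gamma0_of_jd_smul_eq (N : ℕ) [NeZero N] (γ : SL(2, ℤ))
    (h : ∀ τ : ℍ, jd N (γ • τ) = jd N τ) : γ ∈ CongruenceSubgroup.Gamma0 N := by
  obtain ⟨a, e, b, ha, he, hae, hgcd, hj⟩ := jc_hermite N (NeZero.pos N) γ
  have key : ∀ τ : ℍ, jC (((a : ℂ) * τ + b) / e) = jC ((N : ℂ) * τ) :=
    fun τ => (hj τ).symm.trans (h τ)
  have haR : (0 : ℝ) < a := by exact_mod_cast ha
  have heR : (0 : ℝ) < e := by exact_mod_cast he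
  have hNR : (0 : ℝ) < N := by exact_mod_cast NeZero.pos N
  have im1 : ∀ y : ℝ, 0 < y →
      ((((a : ℂ) * ((y : ℂ) * Complex.I) + b) / e)).im = (a : ℝ) / e * y := by
    intro y hy
    rw [Complex.div_natCast_im]
    have h1 : ((a : ℂ) * ((y : ℂ) * Complex.I) + (b : ℂ)).im = a * y := by
      simp [Complex.add_im, Complex.mul_im]
    rw [h1]
    ring
  have im2 : ∀ y : ℝ, 0 < y → ((N : ℂ) * ((y : ℂ) * Complex.I)).im = (N : ℝ) * y := by
    intro y hy
    simp [Complex.mul_im]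
  have hAB : (a : ℝ) / e = N := by
    refine jc_growth ((a : ℝ) / e) N (by positivity) hNR
      (fun y => ofComplex (((a : ℂ) * ((y : ℂ) * Complex.I) + b) / e))
      (fun y => ofComplex ((N : ℂ) * ((y : ℂ) * Complex.I))) ?_ ?_ ?_
    · intro y hy
      have hpos : 0 < ((((a : ℂ) * ((y : ℂ) * Complex.I) + b) / e)).im := by
        rw [im1 y hy]; positivity
      rw [ofComplex_apply_of_im_pos hpos]
      exact im1 y hy
    · intro y hy
      have hpos : 0 < ((N : ℂ) * ((y : ℂ) * Complex.I)).im := by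
        rw [im2 y hy]; positivity
      rw [ofComplex_apply_of_im_pos hpos]
      exact im2 y hy
    · intro y hy
      have hyI : 0 < ((y : ℂ) * Complex.I).im := by simpa using hy
      exact key ⟨(y : ℂ) * Complex.I, hyI⟩
  have h1 : a = N * e := by
    have h2 : (a : ℝ) = N * e := by
      field_simp at hAB
      linarith
    exact_mod_cast h2
  have he1 : e = 1 := by
    have h2 : N * (e * e) = N * 1 := by rw [← mul_assoc, ← h1, hae, mul_one]
    have h3 := Nat.eq_of_mul_eq_mul_left (NeZero.pos N) h2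
    exact Nat.eq_one_of_mul_eq_one_right h3
  have haN : a = N := by rw [h1, he1, mul_one]
  rw [CongruenceSubgroup.Gamma0_mem, ZMod.intCast_zmod_eq_zero_iff_dvd]
  have h4 : (Int.gcd ((N : ℤ) * γ 0 0) (γ 1 0) : ℤ) ∣ γ 1 0 := Int.gcd_dvd_right _ _
  rw [← hgcd, haN] at h4
  exact h4

end Fermat.Agent.S24
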