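import Fermat.Agent.S24.ADefs

/-!
# S24, module J: the analytic `j`-function

* `jFun_mdiff`, `jFun_smul`: `j` is holomorphic and `SL(2, ℤ)`-invariant;
* `jFun_surjective`: `j` takes every complex value;
* `jFun_I`, `jFun_rho`: `j(i) = 1728`, `j(ρ) = 0`;
* `order_taylorAt_jFun_generic`, `order_taylorAt_jFun_I`, `order_taylorAt_jFun_rho`: the order of
  `j - j(τ₀)` at `τ₀` is `1` if `j(τ₀) ≠ 0, 1728`, it is `2` at `i` and `3` at `ρ`;
* `isWH_jFun`: `j` is weakly holomorphic.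

The orders come from the identity `Δ · D j = c · E₄² E₆` with `c ≠ 0` (`jf_exists_const`), which
holds because the left side is a level one modular form of weight `14`.
-/

set_option autoImplicit false

open UpperHalfPlane ModularForm EisensteinSeries Filter Topology SlashInvariantForm Derivative
open scoped MatrixGroups Manifold Real

namespace Fermat.Agent.S24

/-- A holomorphic, slash-invariant function that is bounded at `i∞` is a level one modular
form. -/
noncomputable def jf_mkForm (k : ℤ) (f : ℍ → ℂ) (hol : MDiff f)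
    (hinv : ∀ γ : SL(2, ℤ), f ∣[k] γ = f) (hbdd : IsBoundedAtImInfty f) : ModularForm 𝒮ℒ k where
  toFun := f
  slash_action_eq' := fun _ ⟨γ, hγ⟩ ↦ hγ ▸ hinv γ
  holo' := hol
  bdd_at_cusps' {c} hc := by
    rw [Subgroup.IsArithmetic.isCusp_iff_isCusp_SL2Z] at hc
    rw [OnePoint.isBoundedAt_iff_forall_SL2Z hc]
    intro γ _
    rw [hinv γ]
    exact hbdd

@[simp] theorem jf_mkForm_apply (k : ℤ) (f : ℍ → ℂ) (hol : MDiff f)
    (hinv : ∀ γ : SL(2, ℤ), f ∣[k] γ = f) (hbdd : IsBoundedAtImInfty f) (z : ℍ) :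
    jf_mkForm k f hol hinv hbdd z = f z := rfl

/-- Pointwise transformation law of a level one form. -/
theorem jf_apply_smul {k : ℤ} (g : ModularForm 𝒮ℒ k) (γ : SL(2, ℤ)) (z : ℍ) :
    g (γ • z) = denom γ z ^ k * g z := by
  have hγ : (γ : GL (Fin 2) ℝ) ∈ 𝒮ℒ := ⟨γ, rfl⟩
  exact SlashInvariantForm.slash_action_eqn'' g hγ z

theorem jf_disc_smul (γ : SL(2, ℤ)) (z : ℍ) :
    ModularForm.discriminant (γ • z) = denom γ z ^ (12 : ℤ) * ModularForm.discriminant z := by
  have hγ : (γ : GL (Fin 2) ℝ) ∈ 𝒮ℒ := ⟨γ, rfl⟩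
  exact SlashInvariantForm.slash_action_eqn'' CuspForm.discriminant hγ z

theorem jFun_mdiff : MDiff jFun := by
  have h : jFun = (fun τ => E₄ τ ^ 3) / (fun τ => ModularForm.discriminant τ) := rfl
  rw [h]
  exact (E₄.holo'.pow 3).div CuspForm.discriminant.holo' discriminant_ne_zero

theorem jFun_smul (γ : SL(2, ℤ)) (τ : ℍ) : jFun (γ • τ) = jFun τ := by
  unfold jFun
  rw [jf_apply_smul E₄ γ τ, jf_disc_smul γ τ]
  have hd : denom γ τ ≠ 0 := denom_ne_zero γ τ
  have hΔ := discriminant_ne_zero τ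
  field_simp

open Function.Periodic in
theorem jf_hasDerivAt_qParam (z : ℂ) :
    HasDerivAt (qParam 1) (2 * π * Complex.I * qParam 1 z) z := by
  have h1 : HasDerivAt (fun w : ℂ => 2 * π * Complex.I * w / (1 : ℝ)) (2 * π * Complex.I) z := by
    have := (hasDerivAt_id z).const_mul (2 * π * Complex.I)
    simpa using this
  have h2 : HasDerivAt (fun x : ℂ => Complex.exp (2 * π * Complex.I * x / (1 : ℝ)))
      (Complex.exp (2 * π * Complex.I * z / (1 : ℝ)) * (2 * π * Complex.I)) z := h1.cexp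
  have h4 : 2 * π * Complex.I * qParam 1 z =
      Complex.exp (2 * π * Complex.I * z / (1 : ℝ)) * (2 * π * Complex.I) := mul_comm _ _
  rw [h4]
  exact h2

open Function.Periodic in
theorem jf_qParam_add_one (z : ℂ) : qParam 1 (z + 1) = qParam 1 z := by
  unfold qParam
  have : 2 * π * Complex.I * (z + 1) / (1 : ℝ) =
      2 * π * Complex.I * z / (1 : ℝ) + 2 * π * Complex.I := by
    push_cast
    ring
  rw [this, Complex.exp_add, Complex.exp_two_pi_mul_I, mul_one]

/-- The normalized derivative of a holomorphic, `1`-periodic function bounded at `i∞`, in terms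
of its cusp function. -/
theorem jf_D_eq {F : ℍ → ℂ} (hper : Function.Periodic (F ∘ ofComplex) 1) (hol : MDiff F)
    (hbdd : IsBoundedAtImInfty F) (τ : ℍ) :
    normalizedDerivOfComplex F τ =
      Function.Periodic.qParam 1 (τ : ℂ) *
        deriv (cuspFunction 1 F) (Function.Periodic.qParam 1 (τ : ℂ)) := by
  have hev : (F ∘ ofComplex) =ᶠ[𝓝 (τ : ℂ)] (cuspFunction 1 F ∘ Function.Periodic.qParam 1) := by
    filter_upwards [isOpen_upperHalfPlaneSet.mem_nhds τ.im_pos] with w hw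
    have := eq_cuspFunction (h := 1) (f := F) ⟨w, hw⟩ one_ne_zero hper
    simp only [Function.comp_apply, ofComplex_apply_of_im_pos hw]
    exact this.symm
  have hq : ‖Function.Periodic.qParam 1 (τ : ℂ)‖ < 1 :=
    Function.Periodic.norm_qParam_lt_one one_pos τ.im_pos
  have hc : DifferentiableAt ℂ (cuspFunction 1 F) (Function.Periodic.qParam 1 (τ : ℂ)) :=
    differentiableAt_cuspFunction one_pos hper hol hbdd hq
  have hcomp := hc.hasDerivAt.comp (τ : ℂ) (jf_hasDerivAt_qParam (τ : ℂ))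
  rw [normalizedDerivOfComplex, hev.deriv_eq, hcomp.deriv]
  have hpi : (2 * π * Complex.I : ℂ) ≠ 0 := by
    simp [Real.pi_ne_zero]
  field_simp

/-- A holomorphic, `1`-periodic function bounded at `i∞` has a limit at `i∞`. -/
theorem jf_tendsto {F : ℍ → ℂ} (hper : Function.Periodic (F ∘ ofComplex) 1) (hol : MDiff F)
    (hbdd : IsBoundedAtImInfty F) :
    Tendsto F atImInfty (𝓝 (cuspFunction 1 F 0)) := by
  have h1 : (cuspFunction 1 F ∘ fun τ : ℍ => Function.Periodic.qParam 1 τ : ℍ → ℂ) = F := by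
    funext τ
    simpa using eq_cuspFunction τ one_ne_zero hper
  have han : AnalyticAt ℂ (cuspFunction 1 F) 0 :=
    analyticAt_cuspFunction_zero one_pos hper hol hbdd
  have h2 := han.continuousAt.tendsto.comp (qParam_tendsto_atImInfty one_pos)
  rw [h1] at h2
  exact h2

/-- The normalized derivative of a holomorphic, `1`-periodic function bounded at `i∞` tends to
zero at `i∞`. -/
theorem jf_D_tendsto {F : ℍ → ℂ} (hper : Function.Periodic (F ∘ ofComplex) 1) (hol : MDiff F)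
    (hbdd : IsBoundedAtImInfty F) :
    Tendsto (normalizedDerivOfComplex F) atImInfty (𝓝 0) := by
  have han : AnalyticAt ℂ (cuspFunction 1 F) 0 :=
    analyticAt_cuspFunction_zero one_pos hper hol hbdd
  have hq := qParam_tendsto_atImInfty one_pos
  have h2 := han.deriv.continuousAt.tendsto.comp hq
  have h3 := hq.mul h2
  rw [zero_mul] at h3
  refine h3.congr fun τ => ?_
  exact (jf_D_eq hper hol hbdd τ).symm

/-- Periodicity of the normalized derivative. -/
theorem jf_D_periodic {F : ℍ → ℂ} (hper : Function.Periodic (F ∘ ofComplex) 1) (hol : MDiff F)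
    (hbdd : IsBoundedAtImInfty F) :
    Function.Periodic (normalizedDerivOfComplex F ∘ ofComplex) 1 := by
  intro w
  by_cases hw : 0 < w.im
  · have hw' : 0 < (w + 1).im := by simpa using hw
    simp only [Function.comp_apply, ofComplex_apply_of_im_pos hw, ofComplex_apply_of_im_pos hw']
    rw [jf_D_eq hper hol hbdd, jf_D_eq hper hol hbdd]
    have : Function.Periodic.qParam 1 ((⟨w + 1, hw'⟩ : ℍ) : ℂ) =
        Function.Periodic.qParam 1 ((⟨w, hw⟩ : ℍ) : ℂ) := jf_qParam_add_one w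
    rw [this]
  · have hw' : ¬ 0 < (w + 1).im := by simpa using hw
    simp only [Function.comp_apply]
    rw [ofComplex_apply_of_im_nonpos (not_lt.mp hw), ofComplex_apply_of_im_nonpos (not_lt.mp hw')]

theorem jf_per {k : ℤ} {F : Type*} [FunLike F ℍ ℂ] [SlashInvariantFormClass F 𝒮ℒ k] (g : F) :
    Function.Periodic (g ∘ ofComplex) 1 :=
  SlashInvariantFormClass.periodic_comp_ofComplex g one_mem_strictPeriods_SL

theorem jf_bdd {k : ℤ} {F : Type*} [FunLike F ℍ ℂ] [ModularFormClass F 𝒮ℒ k] (g : F) :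
    IsBoundedAtImInfty g := ModularFormClass.bdd_at_infty g

/-- The normalised Eisenstein series tend to `1` at `i∞`. -/
theorem jf_E_tendsto {k : ℕ} (hk : 3 ≤ k) (hk2 : Even k) :
    Tendsto (E hk) atImInfty (𝓝 1) := by
  have h := jf_tendsto (jf_per (E hk)) (E hk).holo' (jf_bdd (E hk))
  have h0 : cuspFunction 1 (E hk) 0 = 1 := by
    have := E_qExpansion_coeff_zero hk hk2
    rw [qExpansion_coeff] at this
    simpa using this
  rwa [h0] at h

theorem jf_E4_tendsto : Tendsto E₄ atImInfty (𝓝 1) := jf_E_tendsto _ ⟨2, rfl⟩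

theorem jf_E6_tendsto : Tendsto E₆ atImInfty (𝓝 1) := jf_E_tendsto _ ⟨3, rfl⟩

/-- A holomorphic `SL(2, ℤ)`-invariant function that is bounded at `i∞` is constant. -/
theorem jf_const_of_invariant (h : ℍ → ℂ) (hol : MDiff h)
    (hinv : ∀ (γ : SL(2, ℤ)) (τ : ℍ), h (γ • τ) = h τ) (hbdd : IsBoundedAtImInfty h) :
    ∃ c : ℂ, ∀ τ, h τ = c := by
  have hsl : ∀ γ : SL(2, ℤ), h ∣[(0 : ℤ)] γ = h := by
    intro γ
    ext τ
    simpa [SL_slash_apply] using hinv γ τ
  obtain ⟨c, hc⟩ := ModularFormClass.levelOne_weight_zero_const (jf_mkForm 0 h hol hsl hbdd)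
  exact ⟨c, fun τ => congrFun hc τ⟩

theorem jFun_surjective (a : ℂ) : ∃ τ : ℍ, jFun τ = a := by
  by_contra hcon
  simp only [not_exists] at hcon
  -- the function `Δ / (E₄³ - a Δ)`
  have hne : ∀ τ : ℍ, E₄ τ ^ 3 - a * ModularForm.discriminant τ ≠ 0 := by
    intro τ h0
    apply hcon τ
    unfold jFun
    rw [div_eq_iff (discriminant_ne_zero τ)]
    linear_combination h0
  set h : ℍ → ℂ := fun τ => ModularForm.discriminant τ /
    (E₄ τ ^ 3 - a * ModularForm.discriminant τ) with hdef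
  have hol : MDiff h := by
    have h1 : MDiff (fun τ : ℍ => E₄ τ ^ 3 - a * ModularForm.discriminant τ) :=
      (E₄.holo'.pow 3).sub (mdifferentiable_const.mul CuspForm.discriminant.holo')
    exact CuspForm.discriminant.holo'.div h1 hne
  have hinv : ∀ (γ : SL(2, ℤ)) (τ : ℍ), h (γ • τ) = h τ := by
    intro γ τ
    have hγ : (γ : GL (Fin 2) ℝ) ∈ 𝒮ℒ := ⟨γ, rfl⟩
    have hΔ : ModularForm.discriminant (γ • τ) =
        denom γ τ ^ (12 : ℤ) * ModularForm.discriminant τ :=
      SlashInvariantForm.slash_action_eqn'' CuspForm.discriminant hγ τ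
    have hd : denom γ τ ≠ 0 := denom_ne_zero γ τ
    simp only [hdef]
    rw [jf_apply_smul E₄ γ τ, hΔ]
    have e1 : (denom γ τ ^ (4 : ℤ) * E₄ τ) ^ 3 - a * (denom γ τ ^ (12 : ℤ) *
        ModularForm.discriminant τ) = denom γ τ ^ (12 : ℤ) *
        (E₄ τ ^ 3 - a * ModularForm.discriminant τ) := by
      rw [mul_pow, ← zpow_natCast (denom γ τ ^ (4 : ℤ)) 3, ← zpow_mul]
      norm_num
      ring
    rw [e1, mul_div_mul_left _ _ (zpow_ne_zero 12 hd)]
  have hlim : Tendsto h atImInfty (𝓝 0) := by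
    have h1 : Tendsto (fun τ : ℍ => E₄ τ ^ 3 - a * ModularForm.discriminant τ) atImInfty
        (𝓝 (1 ^ 3 - a * 0)) :=
      (jf_E4_tendsto.pow 3).sub (tendsto_const_nhds.mul discriminant_isZeroAtImInfty)
    have h2 : Tendsto (fun τ : ℍ => ModularForm.discriminant τ /
        (E₄ τ ^ 3 - a * ModularForm.discriminant τ)) atImInfty (𝓝 (0 / (1 ^ 3 - a * 0))) :=
      Tendsto.div discriminant_isZeroAtImInfty h1 (by norm_num)
    simpa using h2
  obtain ⟨c, hc⟩ := jf_const_of_invariant h hol hinv (hlim.isBigO_one ℝ)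
  have hc0 : c = 0 := by
    have : Tendsto h atImInfty (𝓝 c) := by
      have : h = fun _ => c := funext hc
      rw [this]
      exact tendsto_const_nhds
    exact tendsto_nhds_unique this hlim
  have := hc UpperHalfPlane.I
  rw [hc0, hdef] at this
  simp only [div_eq_zero_iff] at this
  rcases this with h1 | h1
  · exact discriminant_ne_zero _ h1
  · exact hne _ h1

theorem S_smul_I : ModularGroup.S • UpperHalfPlane.I = UpperHalfPlane.I := by
  rw [modular_S_smul]
  apply UpperHalfPlane.ext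
  simp

theorem jf_rho_coe : (rho : ℂ) = ⟨-1 / 2, Real.sqrt 3 / 2⟩ := rfl

theorem jf_rho_sq : (rho : ℂ) ^ 2 + (rho : ℂ) + 1 = 0 := by
  have h3 : Real.sqrt 3 * Real.sqrt 3 = 3 := Real.mul_self_sqrt (by norm_num)
  rw [jf_rho_coe]
  apply Complex.ext
  · simp [pow_two]
    nlinarith
  · simp [pow_two]
    ring

theorem ST_smul_rho : (ModularGroup.S * ModularGroup.T) • rho = rho := by
  rw [mul_smul, modular_T_smul, modular_S_smul]
  apply UpperHalfPlane.ext
  have h := jf_rho_sq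
  have hne : (-(((1 : ℝ) +ᵥ rho : ℍ) : ℂ)) ≠ 0 := by
    intro h0
    have := congrArg Complex.im h0
    simp [jf_rho_coe] at this
  show (-(((1 : ℝ) +ᵥ rho : ℍ) : ℂ))⁻¹ = (rho : ℂ)
  apply inv_eq_of_mul_eq_one_right
  simp only [coe_vadd]
  push_cast
  linear_combination -h

theorem jf_E6_I : E₆ UpperHalfPlane.I = 0 := by
  have h := jf_apply_smul E₆ ModularGroup.S UpperHalfPlane.I
  rw [S_smul_I, ModularGroup.denom_S] at h
  have hI : ((UpperHalfPlane.I : ℍ) : ℂ) ^ (6 : ℤ) = -1 := by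
    rw [UpperHalfPlane.coe_I]
    have : (Complex.I : ℂ) ^ (6 : ℤ) = Complex.I ^ (6 : ℕ) := by norm_cast
    rw [this, show (6 : ℕ) = 4 + 2 by norm_num, pow_add, Complex.I_pow_four, Complex.I_sq]
    ring
  rw [hI] at h
  have : (2 : ℂ) * E₆ UpperHalfPlane.I = 0 := by linear_combination h
  simpa using this

set_option backward.isDefEq.respectTransparency false in
theorem jf_denom_T (z : ℍ) : denom ModularGroup.T z = 1 := by
  simp [ModularGroup.T, ModularGroup.denom_apply]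

theorem jf_E4_rho : E₄ rho = 0 := by
  have h1 := jf_apply_smul E₄ ModularGroup.S (ModularGroup.T • rho)
  have h2 := jf_apply_smul E₄ ModularGroup.T rho
  rw [← mul_smul, ST_smul_rho, h2, ModularGroup.denom_S] at h1
  rw [jf_denom_T, one_zpow, one_mul, modular_T_smul] at h1
  have hr := jf_rho_sq
  have e : (((1 : ℝ) +ᵥ rho : ℍ) : ℂ) ^ (4 : ℤ) = -(rho : ℂ) - 1 := by
    have : (((1 : ℝ) +ᵥ rho : ℍ) : ℂ) ^ (4 : ℤ) = (((1 : ℝ) +ᵥ rho : ℍ) : ℂ) ^ (4 : ℕ) := by
      norm_cast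
    rw [this, coe_vadd]
    push_cast
    linear_combination ((rho : ℂ) ^ 2 + 3 * (rho : ℂ) + 2) * hr
  rw [e] at h1
  have h3 : ((rho : ℂ) + 2) * E₄ rho = 0 := by linear_combination h1
  rcases mul_eq_zero.mp h3 with h4 | h4
  · exfalso
    have := congrArg Complex.im h4
    simp [jf_rho_coe] at this
  · exact h4

theorem jFun_I : jFun UpperHalfPlane.I = 1728 := by
  have h := discriminant_eq_E₄_cube_sub_E₆_sq UpperHalfPlane.I
  rw [jf_E6_I] at h
  have hΔ := discriminant_ne_zero UpperHalfPlane.I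
  unfold jFun
  rw [div_eq_iff hΔ, h]
  ring

theorem jFun_rho : jFun rho = 0 := by
  unfold jFun
  rw [jf_E4_rho]
  simp

theorem jf_disc_per : Function.Periodic (ModularForm.discriminant ∘ ofComplex) 1 :=
  jf_per CuspForm.discriminant

theorem jf_disc_bdd : IsBoundedAtImInfty ModularForm.discriminant :=
  jf_bdd CuspForm.discriminant

theorem jf_disc_mdiff : MDiff ModularForm.discriminant := CuspForm.discriminant.holo'

/-- `E₄³` as a modular form of weight `12`. -/
noncomputable def jf_E43 : ModularForm 𝒮ℒ 12 := ModularForm.mcast (by decide) (E₄.pow 3)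

theorem jf_E43_apply (z : ℍ) : jf_E43 z = E₄ z ^ 3 := by
  simp only [jf_E43, coe_mcast, ModularForm.coe_pow, Pi.pow_apply]

theorem jFun_mul_disc : jFun * ModularForm.discriminant = jf_E43 := by
  ext τ
  simp only [Pi.mul_apply, jFun, jf_E43_apply]
  exact div_mul_cancel₀ _ (discriminant_ne_zero τ)

/-- The function `Δ · D j`. -/
noncomputable def jf_W : ℍ → ℂ :=
  fun τ => ModularForm.discriminant τ * normalizedDerivOfComplex jFun τ

theorem jf_W_mdiff : MDiff jf_W :=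
  jf_disc_mdiff.mul (normalizedDerivOfComplex_mdifferentiable jFun_mdiff)

theorem jf_Dj_slash (γ : SL(2, ℤ)) :
    normalizedDerivOfComplex jFun ∣[(2 : ℤ)] γ = normalizedDerivOfComplex jFun := by
  have h0 : jFun ∣[(0 : ℤ)] γ = jFun := by
    ext τ
    simpa [SL_slash_apply] using jFun_smul γ τ
  have h := normalizedDerivOfComplex_SL_slash (k := 0) jFun_mdiff (γ := γ)
  rw [h0] at h
  conv_rhs => rw [h]
  ext τ
  simp

theorem jf_disc_slash (γ : SL(2, ℤ)) :
    ModularForm.discriminant ∣[(12 : ℤ)] γ = ModularForm.discriminant := by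
  have hγ : (γ : GL (Fin 2) ℝ) ∈ 𝒮ℒ := ⟨γ, rfl⟩
  exact SlashInvariantFormClass.slash_action_eq CuspForm.discriminant _ hγ

theorem jf_W_slash (γ : SL(2, ℤ)) : jf_W ∣[(14 : ℤ)] γ = jf_W := by
  have h := mul_slash_SL2 12 2 γ ModularForm.discriminant (normalizedDerivOfComplex jFun)
  rw [jf_disc_slash, jf_Dj_slash] at h
  exact h

theorem jf_W_eq (τ : ℍ) : jf_W τ = normalizedDerivOfComplex jf_E43 τ -
    E₄ τ ^ 3 * (normalizedDerivOfComplex ModularForm.discriminant τ / ModularForm.discriminant τ) := by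
  have h := normalizedDerivOfComplex_mul jFun ModularForm.discriminant jFun_mdiff jf_disc_mdiff
  rw [jFun_mul_disc] at h
  have h2 := congrFun h τ
  simp only [Pi.add_apply, Pi.mul_apply] at h2
  have hΔ := discriminant_ne_zero τ
  rw [h2, jf_W]
  unfold jFun
  field_simp
  ring

theorem jf_W_bdd : IsBoundedAtImInfty jf_W := by
  have h1 : IsBoundedAtImInfty (normalizedDerivOfComplex jf_E43) :=
    (jf_D_tendsto (jf_per jf_E43) jf_E43.holo' (jf_bdd jf_E43)).isBigO_one ℝ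
  have h2 : IsBoundedAtImInfty (fun τ => E₄ τ ^ 3) := by
    have := jf_bdd jf_E43
    exact this.congr' (by filter_upwards with τ using jf_E43_apply τ) (by rfl)
  have h3 : IsBoundedAtImInfty (fun τ => normalizedDerivOfComplex ModularForm.discriminant τ /
      ModularForm.discriminant τ) := by
    have hz : IsZeroAtImInfty (normalizedDerivOfComplex ModularForm.discriminant) :=
      jf_D_tendsto jf_disc_per jf_disc_mdiff jf_disc_bdd
    have hO := hz.exp_decay_atImInfty one_pos (jf_D_periodic jf_disc_per jf_disc_mdiff jf_disc_bdd)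
      (normalizedDerivOfComplex_mdifferentiable jf_disc_mdiff) (hz.isBigO_one ℝ)
    have hO2 : normalizedDerivOfComplex ModularForm.discriminant =O[atImInfty]
        ModularForm.discriminant := hO.trans (by simpa using exp_isBigO_discriminant)
    exact (Asymptotics.div_isBoundedUnder_of_isBigO hO2).isBigO_one ℝ
  have h4 := h1.sub (h2.mul h3)
  exact h4.congr' (by filter_upwards with τ using (jf_W_eq τ).symm) (by rfl)

/-- `E₄² E₆` as a modular form of weight `14`. -/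
noncomputable def jf_E4E6 : ModularForm 𝒮ℒ 14 :=
  ModularForm.mcast (by decide) ((E₄.pow 2).mul E₆)

theorem jf_E4E6_apply (z : ℍ) : jf_E4E6 z = E₄ z ^ 2 * E₆ z := by
  simp only [jf_E4E6, coe_mcast, ModularForm.coe_mul, ModularForm.coe_pow, Pi.mul_apply,
    Pi.pow_apply]

theorem jf_finrank14 : Module.finrank ℂ (ModularForm 𝒮ℒ 14) = 1 := by
  have h := dimension_level_one 14 ⟨7, rfl⟩
  have h2 : Module.rank ℂ (ModularForm 𝒮ℒ 14) = 1 := by
    rw [if_pos (by decide)] at h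
    exact h.trans (by norm_num)
  exact Module.rank_eq_one_iff_finrank_eq_one.mp h2

theorem jf_E4E6_ne : jf_E4E6 ≠ 0 := by
  intro h0
  have h1 : Tendsto (fun τ : ℍ => E₄ τ ^ 2 * E₆ τ) atImInfty (𝓝 (1 ^ 2 * 1)) :=
    (jf_E4_tendsto.pow 2).mul jf_E6_tendsto
  have h2 : (fun τ : ℍ => E₄ τ ^ 2 * E₆ τ) = fun _ => 0 := by
    funext τ
    rw [← jf_E4E6_apply, h0]
    rfl
  rw [h2] at h1
  have := tendsto_nhds_unique h1 tendsto_const_nhds
  norm_num at this

theorem jf_upper_preconnected : IsPreconnected upperHalfPlaneSet :=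
  (convex_halfSpace_im_gt 0).isPreconnected

theorem jf_diffOn {g : ℍ → ℂ} (hg : MDiff g) :
    DifferentiableOn ℂ (g ∘ ofComplex) upperHalfPlaneSet :=
  UpperHalfPlane.mdifferentiable_iff.mp hg

theorem jf_analyticAt {g : ℍ → ℂ} (hg : MDiff g) (τ : ℍ) : AnalyticAt ℂ (g ∘ ofComplex) τ :=
  (jf_diffOn hg).analyticAt (isOpen_upperHalfPlaneSet.mem_nhds τ.im_pos)

/-- The key identity `Δ · D j = c · E₄² E₆` with `c ≠ 0`. -/
theorem jf_exists_const : ∃ c : ℂ, c ≠ 0 ∧ ∀ τ : ℍ,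
    ModularForm.discriminant τ * normalizedDerivOfComplex jFun τ = c * (E₄ τ ^ 2 * E₆ τ) := by
  obtain ⟨c, hc⟩ := (finrank_eq_one_iff_of_nonzero' jf_E4E6 jf_E4E6_ne).mp jf_finrank14
    (jf_mkForm 14 jf_W jf_W_mdiff jf_W_slash jf_W_bdd)
  have hc' : ∀ τ : ℍ, ModularForm.discriminant τ * normalizedDerivOfComplex jFun τ =
      c * (E₄ τ ^ 2 * E₆ τ) := by
    intro τ
    have := congrArg (fun f : ModularForm 𝒮ℒ 14 => f τ) hc
    simp only [jf_mkForm_apply] at this
    exact this.symm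
  refine ⟨c, ?_, hc'⟩
  rintro rfl
  have hD : ∀ τ : ℍ, normalizedDerivOfComplex jFun τ = 0 := by
    intro τ
    have := hc' τ
    rw [zero_mul] at this
    exact (mul_eq_zero.mp this).resolve_left (discriminant_ne_zero τ)
  have hderiv : upperHalfPlaneSet.EqOn (deriv (jFun ∘ ofComplex)) 0 := by
    intro z hz
    have := hD ⟨z, hz⟩
    unfold normalizedDerivOfComplex at this
    have hpi : ((2 * π * Complex.I : ℂ))⁻¹ ≠ 0 := by
      simp [Real.pi_ne_zero]
    exact (mul_eq_zero.mp this).resolve_left hpi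
  have heq := isOpen_upperHalfPlaneSet.is_const_of_deriv_eq_zero jf_upper_preconnected
    (jf_diffOn jFun_mdiff) hderiv UpperHalfPlane.I.im_pos rho.im_pos
  simp only [Function.comp_apply, ofComplex_apply] at heq
  rw [jFun_I, jFun_rho] at heq
  norm_num at heq

/-- The order of the Taylor expansion is the analytic order. -/
theorem jf_order_taylorAt (τ₀ : ℍ) {g : ℍ → ℂ} (hg : AnalyticAt ℂ (g ∘ ofComplex) τ₀) (n : ℕ)
    (h : analyticOrderAt (g ∘ ofComplex) (τ₀ : ℂ) = n) : (taylorAt τ₀ g).order = n := by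
  rw [analyticOrderAt_eq_nat_iff_iteratedDeriv_eq_zero hg] at h
  rw [PowerSeries.order_eq_nat]
  refine ⟨?_, fun i hi => ?_⟩
  · simp only [taylorAt, PowerSeries.coeff_mk]
    exact mul_ne_zero (inv_ne_zero (Nat.cast_ne_zero.mpr (Nat.factorial_ne_zero n))) h.2
  · simp only [taylorAt, PowerSeries.coeff_mk, h.1 i hi, mul_zero]

/-- The functions `E₄`, `E₆`, `Δ` on `ℂ`. -/
noncomputable def jf_e4 : ℂ → ℂ := (E₄ : ℍ → ℂ) ∘ ofComplex

noncomputable def jf_e6 : ℂ → ℂ := (E₆ : ℍ → ℂ) ∘ ofComplex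

noncomputable def jf_dl : ℂ → ℂ := ModularForm.discriminant ∘ ofComplex

theorem jf_e4_an (τ : ℍ) : AnalyticAt ℂ jf_e4 τ := jf_analyticAt E₄.holo' τ

theorem jf_e6_an (τ : ℍ) : AnalyticAt ℂ jf_e6 τ := jf_analyticAt E₆.holo' τ

theorem jf_dl_an (τ : ℍ) : AnalyticAt ℂ jf_dl τ := jf_analyticAt jf_disc_mdiff τ

theorem jf_dl_ne (z : ℂ) : jf_dl z ≠ 0 := discriminant_ne_zero _

theorem jf_dlinv_an (τ : ℍ) : AnalyticAt ℂ jf_dl⁻¹ τ := (jf_dl_an τ).inv (jf_dl_ne _)

theorem jf_dlinv_order (τ : ℍ) : analyticOrderAt jf_dl⁻¹ (τ : ℂ) = 0 :=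
  (jf_dlinv_an τ).analyticOrderAt_eq_zero.mpr (inv_ne_zero (jf_dl_ne _))

theorem jf_jC_an (τ : ℍ) : AnalyticAt ℂ jC τ := jf_analyticAt jFun_mdiff τ

theorem jf_jC_eq : jC = jf_e4 ^ 3 * jf_dl⁻¹ := by
  funext z
  simp [jC, jFun, jf_e4, jf_dl, div_eq_mul_inv]

theorem jf_jC_sub_eq : (fun z => jC z - 1728) = jf_e6 ^ 2 * jf_dl⁻¹ := by
  funext z
  have h := discriminant_eq_E₄_cube_sub_E₆_sq (ofComplex z)
  have hΔ := discriminant_ne_zero (ofComplex z)
  simp only [jC, jFun, jf_e6, jf_dl, Pi.mul_apply, Pi.pow_apply, Pi.inv_apply,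
    Function.comp_apply]
  field_simp
  rw [h]
  ring

theorem jf_order_jC (τ : ℍ) :
    analyticOrderAt jC (τ : ℂ) = 3 • analyticOrderAt jf_e4 (τ : ℂ) := by
  rw [jf_jC_eq, analyticOrderAt_mul ((jf_e4_an τ).pow 3) (jf_dlinv_an τ),
    analyticOrderAt_pow (jf_e4_an τ), jf_dlinv_order, add_zero]

theorem jf_order_jC_sub (τ : ℍ) :
    analyticOrderAt (fun z => jC z - 1728) (τ : ℂ) = 2 • analyticOrderAt jf_e6 (τ : ℂ) := by
  rw [jf_jC_sub_eq, analyticOrderAt_mul ((jf_e6_an τ).pow 2) (jf_dlinv_an τ),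
    analyticOrderAt_pow (jf_e6_an τ), jf_dlinv_order, add_zero]

theorem jf_deriv_jC : ∃ κ : ℂ, κ ≠ 0 ∧ ∀ τ : ℍ,
    deriv jC (τ : ℂ) = κ * (E₄ τ ^ 2 * E₆ τ) / ModularForm.discriminant τ := by
  obtain ⟨c, hc0, hc⟩ := jf_exists_const
  have hpi : (2 * π * Complex.I : ℂ) ≠ 0 := by
    simp [Real.pi_ne_zero]
  refine ⟨2 * π * Complex.I * c, mul_ne_zero hpi hc0, fun τ => ?_⟩
  have h := hc τ
  have hΔ := discriminant_ne_zero τ
  unfold normalizedDerivOfComplex at h
  have e : deriv jC (τ : ℂ) = deriv (jFun ∘ ofComplex) (τ : ℂ) := rfl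
  rw [e, eq_div_iff hΔ]
  field_simp at h
  linear_combination h

theorem jf_order_deriv_jC (τ : ℍ) :
    analyticOrderAt (deriv jC) (τ : ℂ) =
      2 • analyticOrderAt jf_e4 (τ : ℂ) + analyticOrderAt jf_e6 (τ : ℂ) := by
  obtain ⟨κ, hκ, h⟩ := jf_deriv_jC
  have hev : deriv jC =ᶠ[𝓝 (τ : ℂ)] (fun _ => κ) * (jf_e4 ^ 2 * jf_e6) * jf_dl⁻¹ := by
    filter_upwards [isOpen_upperHalfPlaneSet.mem_nhds τ.im_pos] with w hw
    have := h ⟨w, hw⟩
    simp only [Pi.mul_apply, Pi.pow_apply, Pi.inv_apply, jf_e4, jf_e6, jf_dl,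
      Function.comp_apply, ofComplex_apply_of_im_pos hw]
    rw [div_eq_mul_inv] at this
    exact this
  have hκan : AnalyticAt ℂ (fun _ : ℂ => κ) (τ : ℂ) := analyticAt_const
  have hκo : analyticOrderAt (fun _ : ℂ => κ) (τ : ℂ) = 0 :=
    hκan.analyticOrderAt_eq_zero.mpr hκ
  rw [analyticOrderAt_congr hev,
    analyticOrderAt_mul (hκan.mul (((jf_e4_an τ).pow 2).mul (jf_e6_an τ))) (jf_dlinv_an τ),
    analyticOrderAt_mul hκan (((jf_e4_an τ).pow 2).mul (jf_e6_an τ)),
    analyticOrderAt_mul ((jf_e4_an τ).pow 2) (jf_e6_an τ),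
    analyticOrderAt_pow (jf_e4_an τ), jf_dlinv_order, hκo, add_zero, zero_add]

theorem jf_e4_coe (τ : ℍ) : jf_e4 τ = E₄ τ := by
  show E₄ (ofComplex (τ : ℂ)) = E₄ τ
  rw [ofComplex_apply]

theorem jf_e6_coe (τ : ℍ) : jf_e6 τ = E₆ τ := by
  show E₆ (ofComplex (τ : ℂ)) = E₆ τ
  rw [ofComplex_apply]

theorem jf_e4_I_ne : E₄ UpperHalfPlane.I ≠ 0 := by
  intro h0
  have h := discriminant_eq_E₄_cube_sub_E₆_sq UpperHalfPlane.I
  rw [jf_E6_I, h0] at h
  exact discriminant_ne_zero _ (by rw [h]; norm_num)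

theorem jf_e6_rho_ne : E₆ rho ≠ 0 := by
  intro h0
  have h := discriminant_eq_E₄_cube_sub_E₆_sq rho
  rw [jf_E4_rho, h0] at h
  exact discriminant_ne_zero _ (by rw [h]; norm_num)

theorem jf_order_e6_ne_top (τ : ℍ) : analyticOrderAt jf_e6 (τ : ℂ) ≠ ⊤ := by
  have han : AnalyticOnNhd ℂ jf_e6 upperHalfPlaneSet :=
    (jf_diffOn E₆.holo').analyticOnNhd isOpen_upperHalfPlaneSet
  refine han.analyticOrderAt_ne_top_of_isPreconnected jf_upper_preconnected rho.im_pos τ.im_pos ?_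
  have : analyticOrderAt jf_e6 (rho : ℂ) = 0 := by
    rw [(jf_e6_an rho).analyticOrderAt_eq_zero]
    rw [jf_e6_coe]
    exact jf_e6_rho_ne
  rw [this]
  exact ENat.zero_ne_top

theorem jf_order_e4_ne_top (τ : ℍ) : analyticOrderAt jf_e4 (τ : ℂ) ≠ ⊤ := by
  have han : AnalyticOnNhd ℂ jf_e4 upperHalfPlaneSet :=
    (jf_diffOn E₄.holo').analyticOnNhd isOpen_upperHalfPlaneSet
  refine han.analyticOrderAt_ne_top_of_isPreconnected jf_upper_preconnected
    UpperHalfPlane.I.im_pos τ.im_pos ?_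
  have : analyticOrderAt jf_e4 ((UpperHalfPlane.I : ℍ) : ℂ) = 0 := by
    rw [(jf_e4_an UpperHalfPlane.I).analyticOrderAt_eq_zero]
    rw [jf_e4_coe]
    exact jf_e4_I_ne
  rw [this]
  exact ENat.zero_ne_top

theorem jf_jC_coe (τ : ℍ) : jC (τ : ℂ) = jFun τ := by
  simp [jC]

/-- orders of `j - j(τ₀)` -/
theorem order_taylorAt_jFun_generic (τ₀ : ℍ) (h0 : jFun τ₀ ≠ 0) (h1 : jFun τ₀ ≠ 1728) :
    (taylorAt τ₀ (fun τ => jFun τ - jFun τ₀)).order = 1 := by
  have hfun : ((fun τ => jFun τ - jFun τ₀) ∘ ofComplex) = fun z => jC z - jC (τ₀ : ℂ) := by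
    funext z
    simp [jC]
  have han : AnalyticAt ℂ ((fun τ => jFun τ - jFun τ₀) ∘ ofComplex) (τ₀ : ℂ) := by
    rw [hfun]
    exact (jf_jC_an τ₀).sub analyticAt_const
  refine jf_order_taylorAt τ₀ han 1 ?_
  rw [hfun]
  have hd : deriv jC (τ₀ : ℂ) ≠ 0 := by
    obtain ⟨κ, hκ, h⟩ := jf_deriv_jC
    rw [h τ₀]
    have hΔ := discriminant_ne_zero τ₀
    have h4 : E₄ τ₀ ≠ 0 := by
      intro h4
      apply h0
      simp [jFun, h4]
    have h6 : E₆ τ₀ ≠ 0 := by
      intro h6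
      apply h1
      have h := discriminant_eq_E₄_cube_sub_E₆_sq τ₀
      rw [h6] at h
      unfold jFun
      rw [div_eq_iff hΔ, h]
      ring
    exact div_ne_zero (mul_ne_zero hκ (mul_ne_zero (pow_ne_zero 2 h4) h6)) hΔ
  have := (jf_jC_an τ₀).analyticOrderAt_sub_eq_one_of_deriv_ne_zero hd
  exact_mod_cast this

theorem order_taylorAt_jFun_I :
    (taylorAt UpperHalfPlane.I (fun τ => jFun τ - 1728)).order = 2 := by
  have hfun : ((fun τ => jFun τ - 1728) ∘ ofComplex) = fun z => jC z - 1728 := by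
    funext z
    simp [jC]
  have han : AnalyticAt ℂ ((fun τ => jFun τ - 1728) ∘ ofComplex)
      ((UpperHalfPlane.I : ℍ) : ℂ) := by
    rw [hfun]
    exact (jf_jC_an _).sub analyticAt_const
  refine jf_order_taylorAt _ han 2 ?_
  rw [hfun, jf_order_jC_sub]
  have h1 := (jf_jC_an UpperHalfPlane.I).analyticOrderAt_deriv_add_one
  rw [jf_jC_coe, jFun_I, jf_order_jC_sub, jf_order_deriv_jC] at h1
  have h4 : analyticOrderAt jf_e4 ((UpperHalfPlane.I : ℍ) : ℂ) = 0 := by
    rw [(jf_e4_an UpperHalfPlane.I).analyticOrderAt_eq_zero]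
    rw [jf_e4_coe]
    exact jf_e4_I_ne
  rw [h4] at h1
  have htop := jf_order_e6_ne_top UpperHalfPlane.I
  generalize analyticOrderAt jf_e6 ((UpperHalfPlane.I : ℍ) : ℂ) = o at h1 htop ⊢
  lift o to ℕ using htop
  simp only [nsmul_eq_mul, Nat.cast_ofNat, mul_zero, zero_add] at h1 ⊢
  norm_cast at h1 ⊢
  omega

theorem order_taylorAt_jFun_rho : (taylorAt rho jFun).order = 3 := by
  have han : AnalyticAt ℂ (jFun ∘ ofComplex) (rho : ℂ) := jf_jC_an rho
  refine jf_order_taylorAt _ han 3 ?_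
  show analyticOrderAt jC (rho : ℂ) = 3
  rw [jf_order_jC]
  have h1 := (jf_jC_an rho).analyticOrderAt_deriv_add_one
  rw [jf_jC_coe, jFun_rho] at h1
  simp only [sub_zero] at h1
  rw [show (fun x => jC x) = jC from rfl, jf_order_jC, jf_order_deriv_jC] at h1
  have h6 : analyticOrderAt jf_e6 (rho : ℂ) = 0 := by
    rw [(jf_e6_an rho).analyticOrderAt_eq_zero]
    rw [jf_e6_coe]
    exact jf_e6_rho_ne
  rw [h6] at h1
  have htop := jf_order_e4_ne_top rho
  generalize analyticOrderAt jf_e4 (rho : ℂ) = o at h1 htop ⊢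
  lift o to ℕ using htop
  simp only [nsmul_eq_mul, Nat.cast_ofNat, add_zero] at h1 ⊢
  norm_cast at h1 ⊢
  omega

/-- `j` is weakly holomorphic. -/
theorem isWH_jFun : IsWH jFun := by
  refine ⟨jFun_mdiff, fun τ => ?_, 1, ?_⟩
  · rw [← modular_T_smul]
    exact jFun_smul _ _
  · have h : (fun τ => ModularForm.discriminant τ ^ 1 * jFun τ) = jf_E43 := by
      funext τ
      rw [pow_one, jf_E43_apply, jFun]
      exact mul_div_cancel₀ _ (discriminant_ne_zero τ)
    rw [h]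
    exact jf_bdd jf_E43

end Fermat.Agent.S24
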