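import Mathlib
import Fermat.Agent.S24.ADefs
import Fermat.Agent.S23.Nice
import Fermat.Agent.Lib.JDict

/-!
# S24, module Q: Laurent q-expansions of weakly holomorphic 1-periodic functions

`whSubring` is the ring of weakly holomorphic functions on the upper half plane (holomorphic,
`1`-periodic, at most a pole at `i∞`), and `qLaurent : whSubring →+* LaurentSeries ℂ` is the
(injective) Laurent `q`-expansion, defined as `qExpansion (Δ^m g) / qExpansion(Δ)^m`.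
-/

set_option autoImplicit false

open UpperHalfPlane ModularForm Filter
open scoped Manifold MatrixGroups

noncomputable section

namespace Fermat.Agent.S24

local notation "Δ" => ModularForm.discriminant

/-! ### Periodicity -/

theorem ql_periodic_of_vadd {g : ℍ → ℂ} (h : ∀ τ : ℍ, g ((1 : ℝ) +ᵥ τ) = g τ) :
    Function.Periodic (g ∘ ofComplex) 1 := by
  intro w
  by_cases hw : 0 < w.im
  · have hw1 : 0 < (w + 1).im := by simpa using hw
    simp only [Function.comp_apply, ofComplex_apply_of_im_pos hw1, ofComplex_apply_of_im_pos hw]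
    rw [← h ⟨w, hw⟩]
    congr 1
    apply UpperHalfPlane.ext
    rw [coe_vadd]
    simp [add_comm]
  · have hw' : w.im ≤ 0 := not_lt.mp hw
    have hw1 : (w + 1).im ≤ 0 := by simpa using hw'
    simp only [Function.comp_apply]
    rw [ofComplex_apply_eq_of_im_nonpos hw1 hw']

theorem ql_vadd_of_periodic {g : ℍ → ℂ} (h : Function.Periodic (g ∘ ofComplex) 1) (τ : ℍ) :
    g ((1 : ℝ) +ᵥ τ) = g τ := by
  have h1 := h (τ : ℂ)
  simp only [Function.comp_apply, ofComplex_apply] at h1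
  rw [← h1]
  congr 1
  apply UpperHalfPlane.ext
  have h2 : 0 < ((τ : ℂ) + 1).im := by simpa using τ.im_pos
  rw [coe_vadd, ofComplex_apply_of_im_pos h2]
  simp [add_comm]

/-! ### `Δ` is nice -/

theorem ql_delta_nice : Fermat.Agent.S23.Nice Δ where
  holo := CuspForm.discriminant.holo'
  per := SlashInvariantFormClass.periodic_comp_ofComplex CuspForm.discriminant
    one_mem_strictPeriods_SL
  bdd := discriminant_isZeroAtImInfty.isBoundedAtImInfty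

theorem ql_delta_vadd (τ : ℍ) : Δ ((1 : ℝ) +ᵥ τ) = Δ τ :=
  ql_vadd_of_periodic ql_delta_nice.per τ

/-! ### Weakly holomorphic functions form a ring -/

theorem ql_nice {g : ℍ → ℂ} (hg : IsWH g) {m : ℕ}
    (hb : IsBoundedAtImInfty (fun τ => Δ τ ^ m * g τ)) :
    Fermat.Agent.S23.Nice (fun τ => Δ τ ^ m * g τ) where
  holo := (ql_delta_nice.holo.pow m).mul hg.1
  per := ql_periodic_of_vadd fun τ => by
    show Δ ((1 : ℝ) +ᵥ τ) ^ m * g ((1 : ℝ) +ᵥ τ) = Δ τ ^ m * g τ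
    rw [hg.2.1 τ, ql_delta_vadd τ]
  bdd := hb

theorem ql_bdd_succ {g : ℍ → ℂ} {m : ℕ} (hb : IsBoundedAtImInfty (fun τ => Δ τ ^ m * g τ)) :
    IsBoundedAtImInfty (fun τ => Δ τ ^ (m + 1) * g τ) := by
  have e : (fun τ => Δ τ ^ (m + 1) * g τ) = Δ * (fun τ => Δ τ ^ m * g τ) := by
    funext τ
    simp only [Pi.mul_apply, pow_succ]
    ring
  rw [e]
  exact ql_delta_nice.bdd.mul hb

theorem ql_bdd_add {g : ℍ → ℂ} {m : ℕ} (hb : IsBoundedAtImInfty (fun τ => Δ τ ^ m * g τ))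
    (k : ℕ) : IsBoundedAtImInfty (fun τ => Δ τ ^ (m + k) * g τ) := by
  induction k with
  | zero => simpa using hb
  | succ k ih => exact ql_bdd_succ ih

theorem ql_bdd_const (c : ℂ) : IsBoundedAtImInfty (fun _ : ℍ => c) := by
  rw [UpperHalfPlane.isBoundedAtImInfty_iff]
  exact ⟨‖c‖, 0, fun _ _ => le_rfl⟩

theorem ql_isWH_const (c : ℂ) : IsWH (fun _ : ℍ => c) :=
  ⟨fun _ => mdifferentiableAt_const, fun _ => rfl, 0, by
    simpa using ql_bdd_const c⟩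

theorem ql_isWH_zero : IsWH (0 : ℍ → ℂ) := ql_isWH_const 0

theorem ql_isWH_one : IsWH (1 : ℍ → ℂ) := ql_isWH_const 1

theorem ql_isWH_mul {g₁ g₂ : ℍ → ℂ} (h₁ : IsWH g₁) (h₂ : IsWH g₂) : IsWH (g₁ * g₂) := by
  obtain ⟨hm₁, hp₁, m₁, hb₁⟩ := h₁
  obtain ⟨hm₂, hp₂, m₂, hb₂⟩ := h₂
  refine ⟨hm₁.mul hm₂, fun τ => by simp only [Pi.mul_apply, hp₁ τ, hp₂ τ], m₁ + m₂, ?_⟩
  have e : (fun τ => Δ τ ^ (m₁ + m₂) * (g₁ * g₂) τ)
      = (fun τ => Δ τ ^ m₁ * g₁ τ) * (fun τ => Δ τ ^ m₂ * g₂ τ) := by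
    funext τ
    simp only [Pi.mul_apply, pow_add]
    ring
  rw [e]
  exact hb₁.mul hb₂

theorem ql_isWH_add {g₁ g₂ : ℍ → ℂ} (h₁ : IsWH g₁) (h₂ : IsWH g₂) : IsWH (g₁ + g₂) := by
  obtain ⟨hm₁, hp₁, m₁, hb₁⟩ := h₁
  obtain ⟨hm₂, hp₂, m₂, hb₂⟩ := h₂
  refine ⟨hm₁.add hm₂, fun τ => by simp only [Pi.add_apply, hp₁ τ, hp₂ τ], m₁ + m₂, ?_⟩
  have h1 := ql_bdd_add hb₁ m₂
  have h2 := ql_bdd_add hb₂ m₁
  have e : (fun τ => Δ τ ^ (m₁ + m₂) * (g₁ + g₂) τ)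
      = (fun τ => Δ τ ^ (m₁ + m₂) * g₁ τ) + (fun τ => Δ τ ^ (m₂ + m₁) * g₂ τ) := by
    funext τ
    simp only [Pi.add_apply, add_comm m₂ m₁]
    ring
  rw [e]
  exact h1.add h2

theorem ql_isWH_neg {g : ℍ → ℂ} (h : IsWH g) : IsWH (-g) := by
  have e : -g = (fun _ : ℍ => (-1 : ℂ)) * g := by
    funext τ
    simp
  rw [e]
  exact ql_isWH_mul (ql_isWH_const _) h

/-- The ring of weakly holomorphic functions. -/
def whSubring : Subring (ℍ → ℂ) where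
  carrier := {g | IsWH g}
  mul_mem' := fun h₁ h₂ => ql_isWH_mul h₁ h₂
  one_mem' := ql_isWH_one
  add_mem' := fun h₁ h₂ => ql_isWH_add h₁ h₂
  zero_mem' := ql_isWH_zero
  neg_mem' := fun h => ql_isWH_neg h

theorem ql_mem_whSubring {g : ℍ → ℂ} : g ∈ whSubring ↔ IsWH g := Iff.rfl

/-! ### The Laurent expansion -/

/-- The `q`-expansion of `Δ` as a Laurent series. -/
def qlD : LaurentSeries ℂ := HahnSeries.ofPowerSeries ℤ ℂ (qExpansion 1 Δ)

theorem qlD_ne_zero : qlD ≠ 0 := by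
  intro h
  have h1 : qExpansion 1 Δ = 0 := by
    apply HahnSeries.ofPowerSeries_injective (Γ := ℤ)
    rw [map_zero]
    exact h
  have h2 := discriminant_qExpansion_coeff_one
  rw [h1] at h2
  simp at h2

/-- The Laurent expansion computed with the exponent `m`. -/
def qlAux (m : ℕ) (g : ℍ → ℂ) : LaurentSeries ℂ :=
  qlD⁻¹ ^ m * HahnSeries.ofPowerSeries ℤ ℂ (qExpansion 1 (fun τ => Δ τ ^ m * g τ))

theorem qlAux_succ {g : ℍ → ℂ} (hg : IsWH g) {m : ℕ}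
    (hb : IsBoundedAtImInfty (fun τ => Δ τ ^ m * g τ)) : qlAux (m + 1) g = qlAux m g := by
  have hN := ql_nice hg hb
  have e : (fun τ => Δ τ ^ (m + 1) * g τ) = Δ * (fun τ => Δ τ ^ m * g τ) := by
    funext τ
    simp only [Pi.mul_apply, pow_succ]
    ring
  have hD : HahnSeries.ofPowerSeries ℤ ℂ (qExpansion 1 Δ) = qlD := rfl
  rw [qlAux, qlAux, e, ql_delta_nice.qExpansion_mul hN, map_mul, hD, pow_succ, mul_assoc,
    inv_mul_cancel_left₀ qlD_ne_zero]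

theorem qlAux_add {g : ℍ → ℂ} (hg : IsWH g) {m : ℕ}
    (hb : IsBoundedAtImInfty (fun τ => Δ τ ^ m * g τ)) (k : ℕ) :
    qlAux (m + k) g = qlAux m g := by
  induction k with
  | zero => rfl
  | succ k ih =>
    rw [← ih]
    exact qlAux_succ hg (ql_bdd_add hb k)

theorem qlAux_eq {g : ℍ → ℂ} (hg : IsWH g) {m m' : ℕ}
    (hb : IsBoundedAtImInfty (fun τ => Δ τ ^ m * g τ))
    (hb' : IsBoundedAtImInfty (fun τ => Δ τ ^ m' * g τ)) : qlAux m g = qlAux m' g := by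
  rw [← qlAux_add hg hb m', ← qlAux_add hg hb' m, add_comm]

open Classical in
/-- The Laurent `q`-expansion of a function on the upper half plane (junk unless the function
is weakly holomorphic). -/
def qlFun (g : ℍ → ℂ) : LaurentSeries ℂ :=
  if h : ∃ m : ℕ, IsBoundedAtImInfty (fun τ => Δ τ ^ m * g τ) then qlAux h.choose g else 0

theorem qlFun_eq {g : ℍ → ℂ} (hg : IsWH g) {m : ℕ}
    (hb : IsBoundedAtImInfty (fun τ => Δ τ ^ m * g τ)) : qlFun g = qlAux m g := by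
  have h : ∃ m : ℕ, IsBoundedAtImInfty (fun τ => Δ τ ^ m * g τ) := ⟨m, hb⟩
  rw [qlFun, dif_pos h]
  exact qlAux_eq hg h.choose_spec hb

theorem qlFun_of_bdd {g : ℍ → ℂ} (hg : IsWH g) (hb : IsBoundedAtImInfty g) :
    qlFun g = HahnSeries.ofPowerSeries ℤ ℂ (qExpansion 1 g) := by
  have e : (fun τ => Δ τ ^ 0 * g τ) = g := by
    funext τ
    simp
  have hb' : IsBoundedAtImInfty (fun τ => Δ τ ^ 0 * g τ) := by
    rw [e]
    exact hb
  rw [qlFun_eq hg hb', qlAux, e, pow_zero, one_mul]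

theorem qlFun_mul {g₁ g₂ : ℍ → ℂ} (h₁ : IsWH g₁) (h₂ : IsWH g₂) :
    qlFun (g₁ * g₂) = qlFun g₁ * qlFun g₂ := by
  obtain ⟨m₁, hb₁⟩ := h₁.2.2
  obtain ⟨m₂, hb₂⟩ := h₂.2.2
  have e : (fun τ => Δ τ ^ (m₁ + m₂) * (g₁ * g₂) τ)
      = (fun τ => Δ τ ^ m₁ * g₁ τ) * (fun τ => Δ τ ^ m₂ * g₂ τ) := by
    funext τ
    simp only [Pi.mul_apply, pow_add]
    ring
  have hb : IsBoundedAtImInfty (fun τ => Δ τ ^ (m₁ + m₂) * (g₁ * g₂) τ) := by
    rw [e]
    exact hb₁.mul hb₂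
  rw [qlFun_eq (ql_isWH_mul h₁ h₂) hb, qlFun_eq h₁ hb₁, qlFun_eq h₂ hb₂, qlAux, qlAux, qlAux, e,
    (ql_nice h₁ hb₁).qExpansion_mul (ql_nice h₂ hb₂), map_mul, pow_add]
  ring

theorem qlFun_add {g₁ g₂ : ℍ → ℂ} (h₁ : IsWH g₁) (h₂ : IsWH g₂) :
    qlFun (g₁ + g₂) = qlFun g₁ + qlFun g₂ := by
  obtain ⟨m₁, hb₁⟩ := h₁.2.2
  obtain ⟨m₂, hb₂⟩ := h₂.2.2
  have hb₁' := ql_bdd_add hb₁ m₂
  have hb₂' : IsBoundedAtImInfty (fun τ => Δ τ ^ (m₁ + m₂) * g₂ τ) := by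
    rw [add_comm]
    exact ql_bdd_add hb₂ m₁
  have e : (fun τ => Δ τ ^ (m₁ + m₂) * (g₁ + g₂) τ)
      = (fun τ => Δ τ ^ (m₁ + m₂) * g₁ τ) + (fun τ => Δ τ ^ (m₁ + m₂) * g₂ τ) := by
    funext τ
    simp only [Pi.add_apply]
    ring
  have hb : IsBoundedAtImInfty (fun τ => Δ τ ^ (m₁ + m₂) * (g₁ + g₂) τ) := by
    rw [e]
    exact hb₁'.add hb₂'
  rw [qlFun_eq (ql_isWH_add h₁ h₂) hb, qlFun_eq h₁ hb₁', qlFun_eq h₂ hb₂', qlAux, qlAux, qlAux, e,
    (ql_nice h₁ hb₁').qExpansion_add (ql_nice h₂ hb₂'), map_add, mul_add]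

/-- The Laurent `q`-expansion of weakly holomorphic functions, as a ring homomorphism. -/
def qLaurent : whSubring →+* LaurentSeries ℂ where
  toFun g := qlFun g.1
  map_one' := by
    show qlFun (1 : ℍ → ℂ) = 1
    rw [qlFun_of_bdd ql_isWH_one (ql_bdd_const 1),
      UpperHalfPlane.qExpansion_one 1, map_one]
  map_mul' g₁ g₂ := qlFun_mul g₁.2 g₂.2
  map_zero' := by
    show qlFun (0 : ℍ → ℂ) = 0
    rw [qlFun_of_bdd ql_isWH_zero (ql_bdd_const 0),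
      UpperHalfPlane.qExpansion_zero 1, map_zero]
  map_add' g₁ g₂ := qlFun_add g₁.2 g₂.2

theorem ql_qLaurent_apply (g : whSubring) : qLaurent g = qlFun g.1 := rfl

theorem ql_qLaurent_eq_qlAux (g : ℍ → ℂ) (hg : IsWH g) {m : ℕ}
    (hb : IsBoundedAtImInfty (fun τ => Δ τ ^ m * g τ)) :
    qLaurent ⟨g, hg⟩ = qlAux m g := qlFun_eq hg hb

theorem qLaurent_injective : Function.Injective qLaurent := by
  rw [injective_iff_map_eq_zero]
  rintro ⟨g, hg⟩ h0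
  obtain ⟨m, hb⟩ := hg.2.2
  rw [ql_qLaurent_eq_qlAux g hg hb, qlAux, mul_eq_zero] at h0
  have h1 : HahnSeries.ofPowerSeries ℤ ℂ (qExpansion 1 (fun τ => Δ τ ^ m * g τ)) = 0 := by
    rcases h0 with h0 | h0
    · exact absurd h0 (pow_ne_zero _ (inv_ne_zero qlD_ne_zero))
    · exact h0
  have h2 : qExpansion 1 (fun τ => Δ τ ^ m * g τ) = 0 := by
    apply HahnSeries.ofPowerSeries_injective (Γ := ℤ)
    rw [map_zero]
    exact h1
  have h3 := (ql_nice hg hb).eq_zero_of_qExpansion_eq_zero h2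
  apply Subtype.ext
  funext τ
  have h4 := congrFun h3 τ
  simp only [Pi.zero_apply, mul_eq_zero] at h4
  rcases h4 with h4 | h4
  · exact absurd h4 (pow_ne_zero _ (discriminant_ne_zero τ))
  · exact h4

theorem qLaurent_of_bounded (g : ℍ → ℂ) (hg : IsWH g) (hb : IsBoundedAtImInfty g) :
    qLaurent ⟨g, hg⟩ = HahnSeries.ofPowerSeries ℤ ℂ (qExpansion 1 g) :=
  qlFun_of_bdd hg hb

theorem qLaurent_const (c : ℂ) (h : IsWH fun _ => c) :
    qLaurent ⟨fun _ => c, h⟩ = HahnSeries.C c := by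
  rw [qLaurent_of_bounded _ h (ql_bdd_const c),
    Fermat.Agent.S23.Nice.qExpansion_const, HahnSeries.ofPowerSeries_C]

/-! ### The coefficientwise twist -/

/-- coefficientwise twist of a Laurent series: the coefficient of `q^n` is multiplied by
`ζ^n`. -/
def ql_twistFun (ζ : ℂ) (f : LaurentSeries ℂ) : LaurentSeries ℂ :=
  ⟨fun n => ζ ^ n * f.coeff n, f.isPWO_support.mono fun n hn => by
    simp only [Function.mem_support, ne_eq] at hn
    exact fun h => hn (by rw [h, mul_zero])⟩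

theorem ql_twistFun_coeff (ζ : ℂ) (f : LaurentSeries ℂ) (n : ℤ) :
    (ql_twistFun ζ f).coeff n = ζ ^ n * f.coeff n := rfl

/-- coefficientwise twist, a ring homomorphism for `ζ ≠ 0` -/
def twist (ζ : ℂ) (hζ : ζ ≠ 0) : LaurentSeries ℂ →+* LaurentSeries ℂ where
  toFun := ql_twistFun ζ
  map_one' := by
    ext n
    rw [ql_twistFun_coeff, HahnSeries.coeff_one]
    split_ifs with h
    · subst h
      simp
    · simp
  map_mul' x y := by
    ext a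
    rw [ql_twistFun_coeff, HahnSeries.coeff_mul, HahnSeries.coeff_mul, Finset.mul_sum]
    refine Finset.sum_congr ?_ ?_
    · ext ij
      simp only [Finset.mem_antidiagonal, HahnSeries.mem_support, ql_twistFun_coeff, ne_eq,
        mul_eq_zero, zpow_ne_zero _ hζ, false_or]
    · intro ij hij
      rw [Finset.mem_antidiagonal] at hij
      rw [ql_twistFun_coeff, ql_twistFun_coeff, ← hij.2.2, zpow_add₀ hζ]
      ring
  map_zero' := by
    ext n
    simp [ql_twistFun_coeff]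
  map_add' x y := by
    ext n
    simp [ql_twistFun_coeff, mul_add]

theorem twist_coeff (ζ : ℂ) (hζ : ζ ≠ 0) (f : LaurentSeries ℂ) (n : ℤ) :
    (twist ζ hζ f).coeff n = ζ ^ n * f.coeff n := rfl

theorem ql_ofPowerSeries_coeff_neg (p : PowerSeries ℂ) {n : ℤ} (hn : n < 0) :
    (HahnSeries.ofPowerSeries ℤ ℂ p).coeff n = 0 := by
  rw [HahnSeries.ofPowerSeries_apply]
  apply HahnSeries.embDomain_of_notMem_range
  rintro ⟨k, hk⟩
  have : (0 : ℤ) ≤ n := by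
    rw [← hk]
    exact Int.natCast_nonneg k
  omega

theorem ql_twist_ofPowerSeries (ζ : ℂ) (hζ : ζ ≠ 0) (p : PowerSeries ℂ) :
    twist ζ hζ (HahnSeries.ofPowerSeries ℤ ℂ p)
      = HahnSeries.ofPowerSeries ℤ ℂ (PowerSeries.rescale ζ p) := by
  ext n
  rw [twist_coeff]
  rcases lt_or_ge n 0 with hn | hn
  · rw [ql_ofPowerSeries_coeff_neg _ hn, ql_ofPowerSeries_coeff_neg _ hn, mul_zero]
  · obtain ⟨k, rfl⟩ := Int.eq_ofNat_of_zero_le hn
    rw [HahnSeries.ofPowerSeries_apply_coeff, HahnSeries.ofPowerSeries_apply_coeff,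
      PowerSeries.coeff_rescale, zpow_natCast]

/-! ### Affine changes of variable -/

theorem ql_tendsto_vadd (r : ℝ) : Tendsto (fun τ : ℍ => r +ᵥ τ) atImInfty atImInfty := by
  rw [atImInfty, tendsto_comap_iff]
  have e : (UpperHalfPlane.im ∘ fun τ : ℍ => r +ᵥ τ) = UpperHalfPlane.im := by
    funext τ
    simp [vadd_im]
  rw [e]
  exact tendsto_comap

theorem ql_coe_scale {k : ℕ} (hk : 0 < k) (τ : ℍ) :
    ((ofComplex ((k : ℂ) * τ) : ℍ) : ℂ) = (k : ℂ) * τ := by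
  have h : 0 < ((k : ℂ) * (τ : ℂ)).im := by
    simp only [Complex.mul_im, Complex.natCast_re, Complex.natCast_im, zero_mul, add_zero]
    exact mul_pos (by exact_mod_cast hk) τ.im_pos
  rw [ofComplex_apply_of_im_pos h]

theorem ql_im_scale {k : ℕ} (hk : 0 < k) (τ : ℍ) :
    (ofComplex ((k : ℂ) * τ) : ℍ).im = k * τ.im := by
  have h := congrArg Complex.im (ql_coe_scale hk τ)
  simpa using h

theorem ql_tendsto_scale {k : ℕ} (hk : 0 < k) :
    Tendsto (fun τ : ℍ => ofComplex ((k : ℂ) * τ)) atImInfty atImInfty := by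
  rw [atImInfty, tendsto_comap_iff]
  have e : (UpperHalfPlane.im ∘ fun τ : ℍ => ofComplex ((k : ℂ) * τ))
      = fun τ : ℍ => (k : ℝ) * τ.im := by
    funext τ
    exact ql_im_scale hk τ
  rw [e]
  exact Tendsto.const_mul_atTop (by exact_mod_cast hk) tendsto_comap

theorem ql_mdiff_affine {g : ℍ → ℂ} (hg : MDiff g) (a : ℝ) (ha : 0 < a) (b : ℝ) :
    MDiff (fun τ : ℍ => g (ofComplex ((a : ℂ) * τ + b))) := by
  rw [UpperHalfPlane.mdifferentiable_iff] at hg ⊢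
  have hmaps : ∀ z ∈ {z : ℂ | 0 < z.im}, (a : ℂ) * z + b ∈ {z : ℂ | 0 < z.im} := by
    intro z hz
    simp only [Set.mem_ofPred_eq] at hz ⊢
    simp only [Complex.add_im, Complex.mul_im, Complex.ofReal_re, Complex.ofReal_im, zero_mul,
      add_zero]
    exact mul_pos ha hz
  have h1 : DifferentiableOn ℂ (fun z => (g ∘ ofComplex) ((a : ℂ) * z + b)) {z | 0 < z.im} :=
    hg.comp (by fun_prop) hmaps
  refine h1.congr fun z hz => ?_
  simp only [Function.comp_apply]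
  rw [ofComplex_apply_of_im_pos hz]

theorem ql_vadd_eq (r : ℝ) (τ : ℍ) : r +ᵥ τ = ofComplex (((1 : ℝ) : ℂ) * τ + r) := by
  apply UpperHalfPlane.ext
  have h : 0 < (((1 : ℝ) : ℂ) * (τ : ℂ) + r).im := by
    simpa using τ.im_pos
  rw [coe_vadd, ofComplex_apply_of_im_pos h]
  push_cast
  ring

theorem ql_mdiff_vadd {g : ℍ → ℂ} (hg : MDiff g) (r : ℝ) : MDiff (fun τ : ℍ => g (r +ᵥ τ)) := by
  have e : (fun τ : ℍ => g (r +ᵥ τ)) = fun τ : ℍ => g (ofComplex (((1 : ℝ) : ℂ) * τ + r)) := by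
    funext τ
    rw [ql_vadd_eq]
  rw [e]
  exact ql_mdiff_affine hg 1 one_pos r

theorem ql_mdiff_scale {g : ℍ → ℂ} (hg : MDiff g) {k : ℕ} (hk : 0 < k) :
    MDiff (fun τ : ℍ => g (ofComplex ((k : ℂ) * τ))) := by
  have h := ql_mdiff_affine hg (k : ℝ) (by exact_mod_cast hk) 0
  have e : (fun τ : ℍ => g (ofComplex ((k : ℂ) * τ)))
      = fun τ : ℍ => g (ofComplex ((((k : ℝ)) : ℂ) * τ + (0 : ℝ))) := by
    funext τ
    congr 2
    push_cast
    ring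
  rw [e]
  exact h

theorem ql_per_vadd {g : ℍ → ℂ} (hg : ∀ τ : ℍ, g ((1 : ℝ) +ᵥ τ) = g τ) (r : ℝ) (τ : ℍ) :
    g (r +ᵥ ((1 : ℝ) +ᵥ τ)) = g (r +ᵥ τ) := by
  rw [vadd_comm]
  exact hg _

theorem ql_per_scale {g : ℍ → ℂ} (hg : ∀ τ : ℍ, g ((1 : ℝ) +ᵥ τ) = g τ) (k : ℕ)
    (τ : ℍ) : g (ofComplex ((k : ℂ) * ((1 : ℝ) +ᵥ τ : ℍ))) = g (ofComplex ((k : ℂ) * τ)) := by
  have hper := (ql_periodic_of_vadd hg).nat_mul k
  have h1 := hper ((k : ℂ) * τ)
  simp only [Function.comp_apply] at h1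
  rw [← h1]
  congr 2
  rw [coe_vadd]
  push_cast
  ring

/-! ### Comparison of `Δ` with its affine transforms -/

theorem ql_delta_isBigO_exp :
    Δ =O[atImInfty] fun τ : ℍ => Real.exp (-2 * Real.pi * τ.im) := by
  have h := CuspFormClass.exp_decay_atImInfty (h := 1) CuspForm.discriminant one_pos
    one_mem_strictPeriods_SL
  simpa using h

theorem ql_delta_isBigO_vadd (r : ℝ) : Δ =O[atImInfty] fun τ : ℍ => Δ (r +ᵥ τ) := by
  have h1 := ql_delta_isBigO_exp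
  have h2 := exp_isBigO_discriminant.comp_tendsto (ql_tendsto_vadd r)
  have e : ((fun τ : ℍ => Real.exp (-2 * Real.pi * τ.im)) ∘ fun τ : ℍ => r +ᵥ τ)
      = fun τ : ℍ => Real.exp (-2 * Real.pi * τ.im) := by
    funext τ
    simp [vadd_im]
  rw [e] at h2
  exact h1.trans h2

theorem ql_delta_pow_isBigO_scale {k : ℕ} (hk : 0 < k) :
    (fun τ : ℍ => Δ τ ^ k) =O[atImInfty] fun τ : ℍ => Δ (ofComplex ((k : ℂ) * τ)) := by
  have h1 := ql_delta_isBigO_exp.pow k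
  have h2 := exp_isBigO_discriminant.comp_tendsto (ql_tendsto_scale hk)
  have e : ((fun τ : ℍ => Real.exp (-2 * Real.pi * τ.im)) ∘
      fun τ : ℍ => ofComplex ((k : ℂ) * τ))
      = fun τ : ℍ => Real.exp (-2 * Real.pi * τ.im) ^ k := by
    funext τ
    simp only [Function.comp_apply]
    rw [ql_im_scale hk, ← Real.exp_nat_mul]
    congr 1
    ring
  rw [e] at h2
  exact h1.trans h2

theorem ql_bdd_comp {g : ℍ → ℂ} {m M : ℕ} {φ : ℍ → ℍ} (hφ : Tendsto φ atImInfty atImInfty)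
    (hΔ : (fun τ => Δ τ ^ M) =O[atImInfty] fun τ => Δ (φ τ) ^ m)
    (hb : IsBoundedAtImInfty (fun τ => Δ τ ^ m * g τ)) :
    IsBoundedAtImInfty (fun τ => Δ τ ^ M * g (φ τ)) := by
  have h1 : (fun τ => Δ (φ τ) ^ m * g (φ τ)) =O[atImInfty] (1 : ℍ → ℝ) :=
    Asymptotics.IsBigO.comp_tendsto hb hφ
  have h2 : (fun τ => Δ τ ^ M * g (φ τ)) =O[atImInfty] fun τ => Δ (φ τ) ^ m * g (φ τ) :=
    hΔ.mul (Asymptotics.isBigO_refl _ _)
  exact h2.trans h1

theorem ql_bdd_vadd {g : ℍ → ℂ} {m : ℕ} (hb : IsBoundedAtImInfty (fun τ => Δ τ ^ m * g τ))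
    (r : ℝ) : IsBoundedAtImInfty (fun τ => Δ τ ^ m * g (r +ᵥ τ)) :=
  ql_bdd_comp (ql_tendsto_vadd r) ((ql_delta_isBigO_vadd r).pow m) hb

theorem ql_bdd_scale {g : ℍ → ℂ} {m : ℕ} (hb : IsBoundedAtImInfty (fun τ => Δ τ ^ m * g τ))
    {k : ℕ} (hk : 0 < k) :
    IsBoundedAtImInfty (fun τ : ℍ => Δ τ ^ (k * m) * g (ofComplex ((k : ℂ) * τ))) := by
  refine ql_bdd_comp (ql_tendsto_scale hk) ?_ hb
  have h := (ql_delta_pow_isBigO_scale hk).pow m
  simpa only [← pow_mul] using h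

theorem isWH_vadd (r : ℝ) {g : ℍ → ℂ} (hg : IsWH g) : IsWH (fun τ => g (r +ᵥ τ)) := by
  obtain ⟨hm, hp, m, hb⟩ := hg
  exact ⟨ql_mdiff_vadd hm r, ql_per_vadd hp r, m, ql_bdd_vadd hb r⟩

theorem isWH_scale (k : ℕ) (hk : 0 < k) {g : ℍ → ℂ} (hg : IsWH g) :
    IsWH (fun τ : ℍ => g (ofComplex ((k : ℂ) * τ))) := by
  obtain ⟨hm, hp, m, hb⟩ := hg
  exact ⟨ql_mdiff_scale hm hk, ql_per_scale hp k, k * m, ql_bdd_scale hb hk⟩

/-! ### `q`-expansions of translates and dilates of nice functions -/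

open Fermat.Agent.S23 in
theorem ql_nice_vadd {F : ℍ → ℂ} (hF : Nice F) (r : ℝ) : Nice (fun τ => F (r +ᵥ τ)) where
  holo := ql_mdiff_vadd hF.holo r
  per := ql_periodic_of_vadd (ql_per_vadd (ql_vadd_of_periodic hF.per) r)
  bdd := Asymptotics.IsBigO.comp_tendsto hF.bdd (ql_tendsto_vadd r)

open Fermat.Agent.S23 in
theorem ql_nice_scale {F : ℍ → ℂ} (hF : Nice F) {k : ℕ} (hk : 0 < k) :
    Nice (fun τ : ℍ => F (ofComplex ((k : ℂ) * τ))) where
  holo := ql_mdiff_scale hF.holo hk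
  per := ql_periodic_of_vadd (ql_per_scale (ql_vadd_of_periodic hF.per) k)
  bdd := Asymptotics.IsBigO.comp_tendsto hF.bdd (ql_tendsto_scale hk)

theorem ql_qParam_vadd (r : ℝ) (τ : ℍ) :
    Function.Periodic.qParam 1 ((r +ᵥ τ : ℍ) : ℂ)
      = Complex.exp (2 * Real.pi * Complex.I * r) * Function.Periodic.qParam 1 (τ : ℂ) := by
  rw [Function.Periodic.qParam, Function.Periodic.qParam, ← Complex.exp_add, coe_vadd]
  congr 1
  push_cast
  ring

open Fermat.Agent.S23 in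
theorem ql_qExpansion_vadd {F : ℍ → ℂ} (hF : Nice F) (r : ℝ) :
    qExpansion 1 (fun τ => F (r +ᵥ τ))
      = PowerSeries.rescale (Complex.exp (2 * Real.pi * Complex.I * r)) (qExpansion 1 F) := by
  ext n
  rw [PowerSeries.coeff_rescale]
  symm
  refine Fermat.Agent.Lib.JDict.qExpansion_coeff_unique_fun (f := fun τ => F (r +ᵥ τ))
    (c := fun n => Complex.exp (2 * Real.pi * Complex.I * r) ^ n * (qExpansion 1 F).coeff n)
    (ql_nice_vadd hF r).analyticAt (fun τ => ?_) n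
  have h := hasSum_qExpansion one_pos hF.per hF.holo hF.bdd (r +ᵥ τ)
  refine h.congr_fun fun m => ?_
  rw [ql_qParam_vadd, smul_eq_mul, smul_eq_mul, mul_pow]
  ring

theorem ql_scale_eq_vd (F : ℍ → ℂ) {k : ℕ} (hk : 0 < k) :
    (fun τ : ℍ => F (ofComplex ((k : ℂ) * τ))) = Fermat.Agent.Lib.JDict.vd k F := by
  funext τ
  rw [Fermat.Agent.Lib.JDict.vd]
  congr 1
  apply UpperHalfPlane.ext
  rw [ql_coe_scale hk, ModularForm.coe_heckeDiagMatrix_smul hk.ne']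

open Fermat.Agent.S23 in
theorem ql_qExpand_ofPowerSeries {F : ℍ → ℂ} (hF : Nice F) (k : ℕ) [NeZero k] :
    ModularCurve.qExpand ℂ k (HahnSeries.ofPowerSeries ℤ ℂ (qExpansion 1 F))
      = HahnSeries.ofPowerSeries ℤ ℂ (qExpansion 1 (fun τ : ℍ => F (ofComplex ((k : ℂ) * τ)))) := by
  have hk : 0 < k := NeZero.pos k
  have hkZ : (0 : ℤ) < k := by exact_mod_cast hk
  rw [ql_scale_eq_vd F hk]
  ext n
  rcases lt_or_ge n 0 with hn | hn
  · rw [ql_ofPowerSeries_coeff_neg _ hn]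
    by_cases hdvd : (k : ℤ) ∣ n
    · obtain ⟨j, rfl⟩ := hdvd
      have hj : j < 0 := by
        by_contra hj
        have : 0 ≤ (k : ℤ) * j := mul_nonneg hkZ.le (not_lt.mp hj)
        omega
      rw [ModularCurve.qExpand_coeff_mul, ql_ofPowerSeries_coeff_neg _ hj]
    · exact ModularCurve.qExpand_coeff_of_not_dvd k _ hdvd
  · obtain ⟨n', rfl⟩ := Int.eq_ofNat_of_zero_le hn
    rw [HahnSeries.ofPowerSeries_apply_coeff,
      Fermat.Agent.Lib.JDict.qExpansion_vd_coeff hk.ne' hF.per hF.holo hF.bdd]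
    by_cases hdvd : k ∣ n'
    · rw [if_pos hdvd]
      obtain ⟨j, rfl⟩ := hdvd
      rw [Nat.mul_div_cancel_left j hk]
      have e : ((k * j : ℕ) : ℤ) = (k : ℤ) * (j : ℤ) := by push_cast; ring
      rw [e, ModularCurve.qExpand_coeff_mul, HahnSeries.ofPowerSeries_apply_coeff]
    · rw [if_neg hdvd]
      exact ModularCurve.qExpand_coeff_of_not_dvd k _ (fun h => hdvd (Int.natCast_dvd_natCast.mp h))

/-! ### Laurent expansions of translates and dilates -/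

theorem ql_ratio {A B P Q : LaurentSeries ℂ} {m M : ℕ} (hA : A ≠ 0) (hB : B ≠ 0)
    (h : B ^ m * P = A ^ M * Q) : A⁻¹ ^ M * P = B⁻¹ ^ m * Q := by
  rw [inv_pow, inv_pow, inv_mul_eq_div, inv_mul_eq_div,
    div_eq_div_iff (pow_ne_zero _ hA) (pow_ne_zero _ hB)]
  rw [mul_comm P, mul_comm Q]
  exact h

theorem ql_twist_qlAux (ζ : ℂ) (hζ : ζ ≠ 0) (m : ℕ) (g : ℍ → ℂ) :
    twist ζ hζ (qlAux m g) = (twist ζ hζ qlD)⁻¹ ^ m *
      twist ζ hζ (HahnSeries.ofPowerSeries ℤ ℂ (qExpansion 1 (fun τ => Δ τ ^ m * g τ))) := by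
  rw [qlAux, map_mul, map_pow, map_inv₀]

theorem ql_qExpand_qlAux (k : ℕ) [NeZero k] (m : ℕ) (g : ℍ → ℂ) :
    ModularCurve.qExpand ℂ k (qlAux m g) = (ModularCurve.qExpand ℂ k qlD)⁻¹ ^ m *
      ModularCurve.qExpand ℂ k
        (HahnSeries.ofPowerSeries ℤ ℂ (qExpansion 1 (fun τ => Δ τ ^ m * g τ))) := by
  rw [qlAux, map_mul, map_pow, map_inv₀]

theorem ql_twist_qlD (r : ℝ) :
    twist (Complex.exp (2 * Real.pi * Complex.I * r)) (Complex.exp_ne_zero _) qlD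
      = HahnSeries.ofPowerSeries ℤ ℂ (qExpansion 1 (fun τ => Δ (r +ᵥ τ))) := by
  rw [qlD, ql_twist_ofPowerSeries, ← ql_qExpansion_vadd ql_delta_nice r]

theorem qLaurent_vadd (r : ℝ) (g : ℍ → ℂ) (hg : IsWH g) :
    qLaurent ⟨fun τ => g (r +ᵥ τ), isWH_vadd r hg⟩ =
      twist (Complex.exp (2 * Real.pi * Complex.I * r)) (Complex.exp_ne_zero _)
        (qLaurent ⟨g, hg⟩) := by
  obtain ⟨m, hb⟩ := hg.2.2
  have hbr := ql_bdd_vadd hb r
  have hgr := isWH_vadd r hg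
  -- the nice functions involved
  have hN := ql_nice hg hb
  have hNr := ql_nice hgr hbr
  have hΔr := ql_nice_vadd ql_delta_nice r
  have hNs := ql_nice_vadd hN r
  have hA : qlD ≠ 0 := qlD_ne_zero
  have hB : HahnSeries.ofPowerSeries ℤ ℂ (qExpansion 1 (fun τ => Δ (r +ᵥ τ))) ≠ 0 := by
    rw [← ql_twist_qlD r]
    exact (map_ne_zero _).mpr hA
  rw [ql_qLaurent_eq_qlAux _ hgr hbr, ql_qLaurent_eq_qlAux _ hg hb, ql_twist_qlAux, ql_twist_qlD,
    ql_twist_ofPowerSeries, ← ql_qExpansion_vadd hN r]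
  rw [qlAux]
  refine ql_ratio hA hB ?_
  rw [qlD, ← map_pow, ← map_pow, ← map_mul, ← map_mul,
    ← Fermat.Agent.S23.Nice.qExpansion_pow ql_delta_nice,
    ← Fermat.Agent.S23.Nice.qExpansion_pow hΔr]
  have e1 := (hΔr.pow m).qExpansion_mul hNr
  have e2 := (ql_delta_nice.pow m).qExpansion_mul hNs
  rw [← e1, ← e2]
  have e3 : ((fun τ => Δ (r +ᵥ τ)) ^ m * fun τ => Δ τ ^ m * g (r +ᵥ τ))
      = (Δ ^ m * fun τ => Δ (r +ᵥ τ) ^ m * g (r +ᵥ τ)) := by
    funext τ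
    simp only [Pi.mul_apply, Pi.pow_apply]
    ring
  rw [e3]

theorem ql_qExpand_qlD (k : ℕ) [NeZero k] :
    ModularCurve.qExpand ℂ k qlD
      = HahnSeries.ofPowerSeries ℤ ℂ
          (qExpansion 1 (fun τ : ℍ => Δ (ofComplex ((k : ℂ) * τ)))) := by
  rw [qlD, ql_qExpand_ofPowerSeries ql_delta_nice k]

theorem qLaurent_scale (k : ℕ) [NeZero k] (g : ℍ → ℂ) (hg : IsWH g) :
    qLaurent ⟨fun τ : ℍ => g (ofComplex ((k : ℂ) * τ)), isWH_scale k (NeZero.pos k) hg⟩ =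
      ModularCurve.qExpand ℂ k (qLaurent ⟨g, hg⟩) := by
  have hk : 0 < k := NeZero.pos k
  obtain ⟨m, hb⟩ := hg.2.2
  have hbk := ql_bdd_scale hb hk
  have hgk := isWH_scale k hk hg
  have hN := ql_nice hg hb
  have hNk := ql_nice hgk hbk
  have hΔk := ql_nice_scale ql_delta_nice hk
  have hNs := ql_nice_scale hN hk
  have hA : qlD ≠ 0 := qlD_ne_zero
  have hB : HahnSeries.ofPowerSeries ℤ ℂ
      (qExpansion 1 (fun τ : ℍ => Δ (ofComplex ((k : ℂ) * τ)))) ≠ 0 := by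
    rw [← ql_qExpand_qlD k]
    exact (map_ne_zero _).mpr hA
  rw [ql_qLaurent_eq_qlAux _ hgk hbk, ql_qLaurent_eq_qlAux _ hg hb, ql_qExpand_qlAux,
    ql_qExpand_qlD, ql_qExpand_ofPowerSeries hN k]
  rw [qlAux]
  refine ql_ratio hA hB ?_
  rw [qlD, ← map_pow, ← map_pow, ← map_mul, ← map_mul,
    ← Fermat.Agent.S23.Nice.qExpansion_pow ql_delta_nice,
    ← Fermat.Agent.S23.Nice.qExpansion_pow hΔk]
  have e1 := (hΔk.pow m).qExpansion_mul hNk
  have e2 := (ql_delta_nice.pow (k * m)).qExpansion_mul hNs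
  rw [← e1, ← e2]
  have e3 : ((fun τ : ℍ => Δ (ofComplex ((k : ℂ) * τ))) ^ m *
        fun τ : ℍ => Δ τ ^ (k * m) * g (ofComplex ((k : ℂ) * τ)))
      = (Δ ^ (k * m) * fun τ : ℍ =>
          Δ (ofComplex ((k : ℂ) * τ)) ^ m * g (ofComplex ((k : ℂ) * τ))) := by
    funext τ
    simp only [Pi.mul_apply, Pi.pow_apply]
    ring
  rw [e3]

end Fermat.Agent.S24
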