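import Fermat.Agent.S24.JFun
import Fermat.Agent.S24.QLaurent
import Fermat.Prelude.Def_ModularCurve_X0ModL

/-!
# S24, module J (second part): the Laurent `q`-expansion of the analytic `j`-function

`qLaurent_jFun : qLaurent ⟨jFun, isWH_jFun⟩ = coeffEmb ℂ jq`.
-/

set_option autoImplicit false

open UpperHalfPlane ModularForm EisensteinSeries
open scoped MatrixGroups Manifold

namespace Fermat.Agent.S24

open Fermat.Agent.Lib.JDict in
/-- `j` is weakly holomorphic with the expected Laurent expansion. -/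
theorem qLaurent_jFun :
    qLaurent ⟨jFun, isWH_jFun⟩ = ModularCurve.coeffEmb ℂ ModularCurve.jq := by
  have hfun : (fun τ => ModularForm.discriminant τ ^ 1 * jFun τ) = (E₄ : ℍ → ℂ) ^ 3 := by
    funext τ
    rw [pow_one, jFun, Pi.pow_apply]
    exact mul_div_cancel₀ _ (discriminant_ne_zero τ)
  have hb : IsBoundedAtImInfty (fun τ => ModularForm.discriminant τ ^ 1 * jFun τ) := by
    have h : (fun τ => ModularForm.discriminant τ ^ 1 * jFun τ) = jf_E43 := by
      funext τ
      rw [pow_one, jf_E43_apply, jFun]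
      exact mul_div_cancel₀ _ (discriminant_ne_zero τ)
    rw [h]
    exact jf_bdd jf_E43
  have hq : qExpansion 1 (fun τ => ModularForm.discriminant τ ^ 1 * jFun τ) =
      toC ModularCurve.eisenstein4 ^ 3 := by
    have hN : Fermat.Agent.S23.Nice (E₄ : ℍ → ℂ) := ⟨E₄.holo', jf_per E₄, jf_bdd E₄⟩
    rw [hfun, hN.qExpansion_pow, qExpansion_E4]
  rw [ql_qLaurent_eq_qlAux jFun isWH_jFun hb, qlAux, hq, pow_one,
    inv_mul_eq_iff_eq_mul₀ qlD_ne_zero, qlD, qExpansion_discriminant,
    ← ModularCurve.jqModC_rat, ModularCurve.coeffEmb, ModularCurve.coeffMap_jqModC,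
    ModularCurve.jqModC]
  have h1 : toC ModularCurve.eisenstein4 ^ 3 =
      toC ModularCurve.dedekindEtaUnit * toC ModularCurve.jNum := by
    rw [toC, toC, toC, ← map_pow, ← map_mul, ModularCurve.jNum]
    congr 1
    calc ModularCurve.eisenstein4 ^ 3
        = ModularCurve.eisenstein4 ^ 3 *
          (ModularCurve.dedekindEtaUnit * ModularCurve.dedekindEtaUnitInv) := by
            rw [ModularCurve.dedekindEtaUnit_mul_inv, mul_one]
      _ = _ := by ring
  have h2 : toC (PowerSeries.X * ModularCurve.dedekindEtaUnit) =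
      PowerSeries.X * toC ModularCurve.dedekindEtaUnit := by
    rw [toC, map_mul, PowerSeries.map_X]
  rw [h1, h2, map_mul, map_mul, HahnSeries.ofPowerSeries_X]
  have h3 : (HahnSeries.single (1 : ℤ) (1 : ℂ)) * HahnSeries.single (-1 : ℤ) (1 : ℂ) = 1 := by
    rw [HahnSeries.single_mul_single]
    simp
  calc (HahnSeries.ofPowerSeries ℤ ℂ) (toC ModularCurve.dedekindEtaUnit) *
        (HahnSeries.ofPowerSeries ℤ ℂ) (toC ModularCurve.jNum)
      = (HahnSeries.single (1 : ℤ) (1 : ℂ) * HahnSeries.single (-1 : ℤ) (1 : ℂ)) *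
        ((HahnSeries.ofPowerSeries ℤ ℂ) (toC ModularCurve.dedekindEtaUnit) *
        (HahnSeries.ofPowerSeries ℤ ℂ) (toC ModularCurve.jNum)) := by rw [h3, one_mul]
    _ = _ := by ring

end Fermat.Agent.S24
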