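import Fermat.Agent.S24.ADefs
import Fermat.Agent.S24.QLaurent
import Fermat.Agent.S24.JConj
import Fermat.Agent.S23.TNForm
import Fermat.Agent.S28.LevelOneInt
import Fermat.Agent.Lib.JDict
import Fermat.Prelude.Thm_ModularCurve_coeffMap_qExpand

/-!
# S24, module Rz: realization of the formal function field by analytic functions

The function field `F = ℚ̄(j(q^d), d ∣ N) ⊆ ℚ̄((q))` and the analytic ring
`anaRing N = ℚ̄[j(dτ), d ∣ N] ⊆ (ℍ → ℂ)` are both quotients of the polynomial ring
`ℚ̄[X_d, d ∣ N]`, with the same kernel (compare both inside `ℂ((q))` through `qLaurent`).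
Hence every injective ring hom `Θ : anaRing N →+* E` into a field lifts to `F`.
-/

set_option autoImplicit false

open AlgebraicCurve IntermediateField UpperHalfPlane ModularForm EisensteinSeries
open scoped MatrixGroups Manifold

namespace Fermat.Agent.S24

/-! ### the Laurent expansion of `j` (private copies, independent of module J) -/

theorem rz_delta_mul_jFun :
    (fun τ : ℍ => ModularForm.discriminant τ ^ 1 * jFun τ) = (⇑E₄) ^ 3 := by
  funext τ
  rw [pow_one, jFun, Pi.pow_apply, mul_div_cancel₀ _ (ModularForm.discriminant_ne_zero τ)]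

theorem rz_isWH_jFun : IsWH jFun := by
  refine ⟨jc_jFun_mdiff, fun τ => ?_, 1, ?_⟩
  · have := jc_jFun_vadd_int 1 τ
    simpa using this
  · rw [rz_delta_mul_jFun]
    exact ((Fermat.Agent.S23.nice_levelOne E₄).pow 3).bdd

theorem rz_qLaurent_jFun :
    qLaurent ⟨jFun, rz_isWH_jFun⟩ = ModularCurve.coeffEmb ℂ ModularCurve.jq := by
  have hN := Fermat.Agent.S23.nice_levelOne E₄
  have hb : IsBoundedAtImInfty (fun τ : ℍ => ModularForm.discriminant τ ^ 1 * jFun τ) := by
    rw [rz_delta_mul_jFun]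
    exact (hN.pow 3).bdd
  have hD : qlD = Fermat.Agent.S28.Dq ℂ := by
    rw [qlD, Fermat.Agent.Lib.JDict.qExpansion_discriminant]
    rfl
  have hE : HahnSeries.ofPowerSeries ℤ ℂ (qExpansion 1 ((⇑E₄) ^ 3)) = Fermat.Agent.S28.E4q ℂ ^ 3 := by
    rw [hN.qExpansion_pow 3, Fermat.Agent.Lib.JDict.qExpansion_E4, map_pow]
    rfl
  have hj : ModularCurve.coeffEmb ℂ ModularCurve.jq = ModularCurve.jqModC ℂ := by
    rw [← ModularCurve.jqModC_rat, ModularCurve.coeffEmb, ModularCurve.coeffMap_jqModC]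
  have hD0 : Fermat.Agent.S28.Dq ℂ ≠ 0 := hD ▸ qlD_ne_zero
  rw [ql_qLaurent_eq_qlAux jFun rz_isWH_jFun hb, qlAux, rz_delta_mul_jFun, hE, hD, hj,
    ← Fermat.Agent.S28.levelOneInt_jq_mul_Dq ℂ, pow_one, mul_comm (ModularCurve.jqModC ℂ),
    inv_mul_cancel_left₀ hD0]

section Rz
variable (N : ℕ) [NeZero N]

/-- index type: the divisors of `N` -/
abbrev rzIdx (N : ℕ) : Type := {d : ℕ // d ∣ N}

theorem rz_neZero {N : ℕ} [NeZero N] (d : rzIdx N) : NeZero d.1 :=
  ⟨ne_zero_of_dvd_ne_zero (NeZero.ne N) d.2⟩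

/-- the generators `j(q^d)` of the function field -/
noncomputable def rzGenF (d : rzIdx N) : ↥(ModularCurve.modularFunctionFieldBar N) :=
  haveI := rz_neZero d
  jdBar N d.1 d.2

theorem rzGenF_eq (d : ℕ) [NeZero d] (hd : d ∣ N) : rzGenF N ⟨d, hd⟩ = jdBar N d hd := rfl

/-- evaluation of polynomials at the generators of the function field -/
noncomputable def rzEvF : MvPolynomial (rzIdx N) (AlgebraicClosure ℚ) →ₐ[AlgebraicClosure ℚ]
    ↥(ModularCurve.modularFunctionFieldBar N) :=
  MvPolynomial.aeval (rzGenF N)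

/-- constants as a ring hom into the analytic ring -/
noncomputable def rzConst : AlgebraicClosure ℚ →+* anaRing N where
  toFun c := ⟨fun _ => ιc c, const_mem_anaRing N c⟩
  map_one' := Subtype.ext (funext fun _ => map_one ιc)
  map_mul' a b := Subtype.ext (funext fun _ => map_mul ιc a b)
  map_zero' := Subtype.ext (funext fun _ => map_zero ιc)
  map_add' a b := Subtype.ext (funext fun _ => map_add ιc a b)

/-- the generators `j(dτ)` of the analytic ring -/
noncomputable def rzGenA (d : rzIdx N) : anaRing N := ⟨jd d.1, jd_mem_anaRing d.2⟩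

/-- evaluation of polynomials at the generators of the analytic ring -/
noncomputable def rzEvA : MvPolynomial (rzIdx N) (AlgebraicClosure ℚ) →+* anaRing N :=
  MvPolynomial.eval₂Hom (rzConst N) (rzGenA N)

omit [NeZero N] in
theorem rzEvA_C (c : AlgebraicClosure ℚ) : rzEvA N (MvPolynomial.C c) = rzConst N c := by
  simp [rzEvA]

omit [NeZero N] in
theorem rzEvA_X (d : rzIdx N) : rzEvA N (MvPolynomial.X d) = rzGenA N d := by
  simp [rzEvA]

theorem rzEvF_C (c : AlgebraicClosure ℚ) :
    rzEvF N (MvPolynomial.C c) = algebraMap _ _ c := by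
  simp [rzEvF]

theorem rzEvF_X (d : rzIdx N) : rzEvF N (MvPolynomial.X d) = rzGenF N d := by
  simp [rzEvF]

theorem rz_evA_surjective : Function.Surjective (rzEvA N) := by
  have key : ∀ g ∈ anaRing N, ∃ P, ((rzEvA N P : anaRing N) : ℍ → ℂ) = g := by
    intro g hg
    induction hg using Subring.closure_induction with
    | mem x hx =>
      rcases hx with ⟨c, rfl⟩ | ⟨d, hd, rfl⟩
      · exact ⟨MvPolynomial.C c, by rw [rzEvA_C]; rfl⟩
      · exact ⟨MvPolynomial.X ⟨d, hd⟩, by rw [rzEvA_X]; rfl⟩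
    | zero => exact ⟨0, by simp⟩
    | one => exact ⟨1, by simp⟩
    | add x y _ _ hx hy =>
      obtain ⟨P, rfl⟩ := hx
      obtain ⟨Q, rfl⟩ := hy
      exact ⟨P + Q, by simp⟩
    | neg x _ hx =>
      obtain ⟨P, rfl⟩ := hx
      exact ⟨-P, by simp⟩
    | mul x y _ _ hx hy =>
      obtain ⟨P, rfl⟩ := hx
      obtain ⟨Q, rfl⟩ := hy
      exact ⟨P * Q, by simp⟩
  rintro ⟨g, hg⟩
  obtain ⟨P, hP⟩ := key g hg
  exact ⟨P, Subtype.ext hP⟩

/-- the function field is generated, as a field over `ℚ̄`, by the `j(q^d)` -/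
theorem rz_le_adjoin :
    ModularCurve.modularFunctionFieldBar N ≤
      IntermediateField.adjoin (AlgebraicClosure ℚ)
        (Set.range fun d : rzIdx N => ((rzGenF N d : ↥(ModularCurve.modularFunctionFieldBar N)) :
          LaurentSeries (AlgebraicClosure ℚ))) := by
  set T := IntermediateField.adjoin (AlgebraicClosure ℚ)
        (Set.range fun d : rzIdx N => ((rzGenF N d : ↥(ModularCurve.modularFunctionFieldBar N)) :
          LaurentSeries (AlgebraicClosure ℚ))) with hT
  show ModularCurve.laurentBaseChange (AlgebraicClosure ℚ) (ModularCurve.modularFunctionFieldFull N)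
    ≤ T
  rw [ModularCurve.laurentBaseChange, IntermediateField.adjoin_le_iff]
  rintro _ ⟨x, hx, rfl⟩
  have hle : (ModularCurve.modularFunctionFieldFull N).toSubfield ≤
      T.toSubfield.comap (ModularCurve.coeffEmb (AlgebraicClosure ℚ)) := by
    rw [ModularCurve.modularFunctionFieldFull, IntermediateField.adjoin_toSubfield,
      Subfield.closure_le]
    rintro y (⟨c, rfl⟩ | ⟨d, hne, hd, rfl⟩)
    · show ModularCurve.coeffEmb (AlgebraicClosure ℚ) (algebraMap ℚ (LaurentSeries ℚ) c) ∈ T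
      have : ModularCurve.coeffEmb (AlgebraicClosure ℚ) (algebraMap ℚ (LaurentSeries ℚ) c)
          = algebraMap (AlgebraicClosure ℚ) (LaurentSeries (AlgebraicClosure ℚ))
            (algebraMap ℚ (AlgebraicClosure ℚ) c) := by
        rw [ModularCurve.algebraMap_apply_eq_single, ModularCurve.algebraMap_laurentSeries_eq_single,
          ModularCurve.coeffEmb, ModularCurve.coeffMap_single]
      rw [this]
      exact T.algebraMap_mem _
    · show ModularCurve.coeffEmb (AlgebraicClosure ℚ) (ModularCurve.qExpand ℚ d ModularCurve.jq) ∈ T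
      exact IntermediateField.subset_adjoin _ _ ⟨⟨d, hd⟩, rfl⟩
  exact hle hx

theorem rz_exists_frac (f : ↥(ModularCurve.modularFunctionFieldBar N)) :
    ∃ PQ : MvPolynomial (rzIdx N) (AlgebraicClosure ℚ) × MvPolynomial (rzIdx N) (AlgebraicClosure ℚ),
      rzEvF N PQ.2 ≠ 0 ∧ f = rzEvF N PQ.1 / rzEvF N PQ.2 := by
  have hf := rz_le_adjoin N f.2
  rw [IntermediateField.mem_adjoin_range_iff] at hf
  obtain ⟨r, s, hrs⟩ := hf
  have hval : ∀ P : MvPolynomial (rzIdx N) (AlgebraicClosure ℚ),
      MvPolynomial.aeval (fun d : rzIdx N =>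
        ((rzGenF N d : ↥(ModularCurve.modularFunctionFieldBar N)) :
          LaurentSeries (AlgebraicClosure ℚ))) P
        = ((rzEvF N P : ↥(ModularCurve.modularFunctionFieldBar N)) :
          LaurentSeries (AlgebraicClosure ℚ)) := by
    intro P
    have := MvPolynomial.comp_aeval (rzGenF N) (ModularCurve.modularFunctionFieldBar N).val
      (R := AlgebraicClosure ℚ)
    have h2 := congrArg (fun φ => φ P) this
    simp only [AlgHom.comp_apply] at h2
    exact h2.symm
  rw [hval, hval] at hrs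
  have hfeq : f = rzEvF N r / rzEvF N s := by
    apply Subtype.ext
    rw [hrs]
    simp
  by_cases hs : rzEvF N s = 0
  · refine ⟨(0, 1), by simp, ?_⟩
    rw [hfeq, hs]
    simp
  · exact ⟨(r, s), hs, hfeq⟩

/-- a chosen numerator -/
noncomputable def rzNum (f : ↥(ModularCurve.modularFunctionFieldBar N)) :
    MvPolynomial (rzIdx N) (AlgebraicClosure ℚ) :=
  (Classical.choose (rz_exists_frac N f)).1

/-- a chosen denominator -/
noncomputable def rzDen (f : ↥(ModularCurve.modularFunctionFieldBar N)) :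
    MvPolynomial (rzIdx N) (AlgebraicClosure ℚ) :=
  (Classical.choose (rz_exists_frac N f)).2

theorem rzDen_ne (f : ↥(ModularCurve.modularFunctionFieldBar N)) : rzEvF N (rzDen N f) ≠ 0 :=
  (Classical.choose_spec (rz_exists_frac N f)).1

theorem rz_eq_div (f : ↥(ModularCurve.modularFunctionFieldBar N)) :
    f = rzEvF N (rzNum N f) / rzEvF N (rzDen N f) :=
  (Classical.choose_spec (rz_exists_frac N f)).2

/-! ### comparison of the two kernels inside `ℂ((q))` -/

theorem rz_isWH_const (c : ℂ) : IsWH (fun _ : ℍ => c) := by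
  refine ⟨mdifferentiable_const, fun _ => rfl, 0, ?_⟩
  simp only [pow_zero, one_mul]
  exact Filter.const_boundedAtFilter _ c

theorem rz_jd_eq (d : ℕ) : jd d = fun τ : ℍ => jFun (ofComplex ((d : ℂ) * τ)) := rfl

theorem rz_anaRing_le : anaRing N ≤ whSubring := by
  rw [anaRing, Subring.closure_le]
  rintro g (⟨c, rfl⟩ | ⟨d, hd, rfl⟩)
  · exact rz_isWH_const _
  · exact isWH_scale d (Nat.pos_of_ne_zero (ne_zero_of_dvd_ne_zero (NeZero.ne N) hd)) rz_isWH_jFun

/-- the analytic ring inside `ℂ((q))` -/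
noncomputable def rzκA : anaRing N →+* LaurentSeries ℂ :=
  qLaurent.comp (Subring.inclusion (rz_anaRing_le N))

theorem rzκA_injective : Function.Injective (rzκA N) := by
  intro a b hab
  have := qLaurent_injective hab
  exact Subring.inclusion_injective (rz_anaRing_le N) this

/-- the function field inside `ℂ((q))` -/
noncomputable def rzκF : ↥(ModularCurve.modularFunctionFieldBar N) →+* LaurentSeries ℂ :=
  (ModularCurve.coeffMap ιc).comp (ModularCurve.modularFunctionFieldBar N).val.toRingHom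

omit [NeZero N] in
theorem rzκF_injective : Function.Injective (rzκF N) := (rzκF N).injective

theorem rz_ιc_comp : ιc.comp (algebraMap ℚ (AlgebraicClosure ℚ)) = algebraMap ℚ ℂ :=
  Subsingleton.elim _ _

theorem rz_comp_eq : (rzκF N).comp (rzEvF N : MvPolynomial (rzIdx N) (AlgebraicClosure ℚ) →+*
      ↥(ModularCurve.modularFunctionFieldBar N)) = (rzκA N).comp (rzEvA N) := by
  refine MvPolynomial.ringHom_ext ?_ ?_
  · intro c
    show rzκF N (rzEvF N (MvPolynomial.C c)) = rzκA N (rzEvA N (MvPolynomial.C c))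
    rw [rzEvF_C, rzEvA_C]
    show ModularCurve.coeffMap ιc (algebraMap (AlgebraicClosure ℚ)
        (LaurentSeries (AlgebraicClosure ℚ)) c) = qLaurent ⟨fun _ => ιc c, _⟩
    rw [qLaurent_const, ModularCurve.algebraMap_laurentSeries_eq_single,
      ModularCurve.coeffMap_single]
    rfl
  · intro d
    show rzκF N (rzEvF N (MvPolynomial.X d)) = rzκA N (rzEvA N (MvPolynomial.X d))
    rw [rzEvF_X, rzEvA_X]
    have := rz_neZero d
    show ModularCurve.coeffMap ιc (ModularCurve.coeffEmb (AlgebraicClosure ℚ)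
        (ModularCurve.qExpand ℚ d.1 ModularCurve.jq)) =
      qLaurent ⟨fun τ : ℍ => jFun (ofComplex ((d.1 : ℂ) * τ)), _⟩
    have h1 := qLaurent_scale d.1 jFun rz_isWH_jFun
    rw [rz_qLaurent_jFun] at h1
    rw [h1, ModularCurve.coeffEmb, ModularCurve.coeffMap_coeffMap, rz_ιc_comp,
      ModularCurve.coeffMap_qExpand]
    rfl

theorem rz_evF_eq_zero_iff (P : MvPolynomial (rzIdx N) (AlgebraicClosure ℚ)) :
    rzEvF N P = 0 ↔ rzEvA N P = 0 := by
  have h := congrArg (fun φ => φ P) (rz_comp_eq N)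
  simp only [RingHom.comp_apply] at h
  constructor
  · intro hP
    apply rzκA_injective N
    rw [map_zero, ← h]
    show rzκF N (rzEvF N P) = 0
    rw [hP, map_zero]
  · intro hP
    apply rzκF_injective N
    rw [map_zero]
    have h' : rzκF N (rzEvF N P) = rzκA N (rzEvA N P) := h
    rw [h', hP, map_zero]

/-! ### the lift -/

theorem rz_lift_eq {E : Type} [Field E] (Θ : anaRing N →+* E) (hΘ : Function.Injective Θ)
    (f : ↥(ModularCurve.modularFunctionFieldBar N))
    (P Q : MvPolynomial (rzIdx N) (AlgebraicClosure ℚ)) (hQ : rzEvF N Q ≠ 0)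
    (hf : f = rzEvF N P / rzEvF N Q) :
    Θ (rzEvA N (rzNum N f)) / Θ (rzEvA N (rzDen N f)) = Θ (rzEvA N P) / Θ (rzEvA N Q) := by
  have hne : ∀ Q : MvPolynomial (rzIdx N) (AlgebraicClosure ℚ), rzEvF N Q ≠ 0 →
      Θ (rzEvA N Q) ≠ 0 := by
    intro Q hQ h0
    rw [← map_zero Θ] at h0
    exact hQ ((rz_evF_eq_zero_iff N Q).mpr (hΘ h0))
  have h1 : rzEvF N (rzNum N f) / rzEvF N (rzDen N f) = rzEvF N P / rzEvF N Q := by
    rw [← rz_eq_div, hf]
  rw [div_eq_div_iff (rzDen_ne N f) hQ] at h1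
  have h2 : rzEvF N (rzNum N f * Q - P * rzDen N f) = 0 := by
    rw [map_sub, map_mul, map_mul, h1, sub_self]
  rw [rz_evF_eq_zero_iff] at h2
  have h3 := congrArg Θ h2
  simp only [map_zero, map_sub, map_mul, sub_eq_zero] at h3
  rw [div_eq_div_iff (hne _ (rzDen_ne N f)) (hne _ hQ)]
  exact h3

/-- a ring hom on the analytic ring lifts to the function field -/
noncomputable def liftAna {E : Type} [Field E] (Θ : anaRing N →+* E) (hΘ : Function.Injective Θ) :
    ↥(ModularCurve.modularFunctionFieldBar N) →+* E where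
  toFun f := Θ (rzEvA N (rzNum N f)) / Θ (rzEvA N (rzDen N f))
  map_one' := by
    rw [rz_lift_eq N Θ hΘ 1 1 1 (by simp) (by simp)]
    simp
  map_mul' f g := by
    have hf := rz_eq_div N f
    have hg := rz_eq_div N g
    rw [rz_lift_eq N Θ hΘ (f * g) (rzNum N f * rzNum N g) (rzDen N f * rzDen N g)
      (by rw [map_mul]; exact mul_ne_zero (rzDen_ne N f) (rzDen_ne N g))
      (by rw [map_mul, map_mul, ← div_mul_div_comm, ← hf, ← hg])]
    rw [map_mul, map_mul, map_mul, map_mul, div_mul_div_comm]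
  map_zero' := by
    rw [rz_lift_eq N Θ hΘ 0 0 1 (by simp) (by simp)]
    simp
  map_add' f g := by
    have hf := rz_eq_div N f
    have hg := rz_eq_div N g
    have hne : ∀ Q : MvPolynomial (rzIdx N) (AlgebraicClosure ℚ), rzEvF N Q ≠ 0 →
        Θ (rzEvA N Q) ≠ 0 := by
      intro Q hQ h0
      rw [← map_zero Θ] at h0
      exact hQ ((rz_evF_eq_zero_iff N Q).mpr (hΘ h0))
    rw [rz_lift_eq N Θ hΘ (f + g) (rzNum N f * rzDen N g + rzNum N g * rzDen N f)
      (rzDen N f * rzDen N g)
      (by rw [map_mul]; exact mul_ne_zero (rzDen_ne N f) (rzDen_ne N g))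
      (by
        rw [map_add, map_mul, map_mul, map_mul]
        conv_lhs => rw [hf, hg]
        rw [div_add_div _ _ (rzDen_ne N f) (rzDen_ne N g)]
        ring)]
    rw [map_add, map_mul, map_mul, map_mul, map_add, map_mul, map_mul, map_mul,
      div_add_div _ _ (hne _ (rzDen_ne N f)) (hne _ (rzDen_ne N g))]
    ring

theorem liftAna_apply {E : Type} [Field E] (Θ : anaRing N →+* E) (hΘ : Function.Injective Θ)
    (f : ↥(ModularCurve.modularFunctionFieldBar N)) :
    liftAna N Θ hΘ f = Θ (rzEvA N (rzNum N f)) / Θ (rzEvA N (rzDen N f)) := rfl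

/-- the lift on polynomial expressions in the generators -/
theorem liftAna_evF {E : Type} [Field E] (Θ : anaRing N →+* E) (hΘ : Function.Injective Θ)
    (P : MvPolynomial (rzIdx N) (AlgebraicClosure ℚ)) :
    liftAna N Θ hΘ (rzEvF N P) = Θ (rzEvA N P) := by
  rw [liftAna_apply, rz_lift_eq N Θ hΘ (rzEvF N P) P 1 (by simp) (by simp)]
  simp

theorem liftAna_const {E : Type} [Field E] (Θ : anaRing N →+* E) (hΘ : Function.Injective Θ)
    (c : AlgebraicClosure ℚ) :
    liftAna N Θ hΘ (algebraMap _ _ c) = Θ ⟨_, const_mem_anaRing N c⟩ := by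
  rw [← rzEvF_C, liftAna_evF, rzEvA_C]
  rfl

theorem liftAna_jdBar {E : Type} [Field E] (Θ : anaRing N →+* E) (hΘ : Function.Injective Θ)
    (d : ℕ) [NeZero d] (hd : d ∣ N) :
    liftAna N Θ hΘ (jdBar N d hd) = Θ ⟨_, jd_mem_anaRing hd⟩ := by
  rw [← rzGenF_eq N d hd, ← rzEvF_X, liftAna_evF, rzEvA_X]
  rfl

/-- every element of the function field is a quotient of elements of the analytic ring, uniformly
in the lift -/
theorem exists_fraction (f : ↥(ModularCurve.modularFunctionFieldBar N)) :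
    ∃ g h : anaRing N, h ≠ 0 ∧ ∀ {E : Type} [Field E] (Θ : anaRing N →+* E)
      (hΘ : Function.Injective Θ), liftAna N Θ hΘ f = Θ g / Θ h := by
  refine ⟨rzEvA N (rzNum N f), rzEvA N (rzDen N f), ?_, fun Θ hΘ => rfl⟩
  intro h0
  exact rzDen_ne N f ((rz_evF_eq_zero_iff N _).mpr h0)

theorem ringHom_ext_Fb {E : Type} [Field E] (φ ψ : ↥(ModularCurve.modularFunctionFieldBar N) →+* E)
    (hc : ∀ c : AlgebraicClosure ℚ, φ (algebraMap _ _ c) = ψ (algebraMap _ _ c))
    (hj : ∀ (d : ℕ) [NeZero d] (hd : d ∣ N), φ (jdBar N d hd) = ψ (jdBar N d hd)) : φ = ψ := by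
  have hcomp : φ.comp (rzEvF N : MvPolynomial (rzIdx N) (AlgebraicClosure ℚ) →+*
      ↥(ModularCurve.modularFunctionFieldBar N)) = ψ.comp (rzEvF N : MvPolynomial (rzIdx N)
        (AlgebraicClosure ℚ) →+* ↥(ModularCurve.modularFunctionFieldBar N)) := by
    refine MvPolynomial.ringHom_ext ?_ ?_
    · intro c
      show φ (rzEvF N (MvPolynomial.C c)) = ψ (rzEvF N (MvPolynomial.C c))
      rw [rzEvF_C]
      exact hc c
    · intro d
      show φ (rzEvF N (MvPolynomial.X d)) = ψ (rzEvF N (MvPolynomial.X d))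
      rw [rzEvF_X]
      have := rz_neZero d
      exact hj d.1 d.2
  have hP : ∀ P : MvPolynomial (rzIdx N) (AlgebraicClosure ℚ),
      φ (rzEvF N P) = ψ (rzEvF N P) := fun P => congrArg (fun χ => χ P) hcomp
  refine RingHom.ext fun f => ?_
  rw [rz_eq_div N f, map_div₀, map_div₀, hP, hP]

theorem jBar_eq_jdBar_one : jBar N = jdBar N 1 (one_dvd N) := by
  apply Subtype.ext
  show ModularCurve.coeffEmb (AlgebraicClosure ℚ) ModularCurve.jq =
    ModularCurve.coeffEmb (AlgebraicClosure ℚ) (ModularCurve.qExpand ℚ 1 ModularCurve.jq)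
  rw [ModularCurve.qExpand_one_apply]

end Rz

end Fermat.Agent.S24
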