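import Mathlib

/-!
# S24: counting distinct embeddings

`sys_card_le_finrank`: pairwise distinct ring homomorphisms `F → E` which agree on the constants
`K` and on `x` are at most `[F : K(x)]` many.
-/

set_option autoImplicit false

open IntermediateField

namespace Fermat.Agent.S24

/-- Ring homomorphisms agreeing on `K` and on `x` agree on `K(x)`. -/
theorem sys_eq_on_adjoin {K F E : Type*} [Field K] [Field F] [Algebra K F] [Field E]
    (x : F) (φ ψ : F →+* E)
    (hK : ∀ c : K, φ (algebraMap K F c) = ψ (algebraMap K F c)) (hx : φ x = ψ x)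
    (y : F) (hy : y ∈ K⟮x⟯) : φ y = ψ y := by
  let L : IntermediateField K F :=
    { RingHom.eqLocusField φ ψ with
      algebraMap_mem' := fun c => hK c }
  have hL : K⟮x⟯ ≤ L := adjoin_simple_le_iff.mpr hx
  exact hL hy

/-- Pairwise distinct ring homomorphisms `F → E` which agree on the constants `K` and on `x`
are at most `[F : K(x)]` many. -/
theorem sys_card_le_finrank {K F E : Type*} [Field K] [Field F] [Algebra K F] [Field E]
    (x : F) [FiniteDimensional K⟮x⟯ F] {ι : Type*} [Finite ι] (φ : ι → F →+* E)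
    (hinj : Function.Injective φ)
    (hK : ∀ (i j : ι) (c : K), φ i (algebraMap K F c) = φ j (algebraMap K F c))
    (hx : ∀ i j : ι, φ i x = φ j x) : Nat.card ι ≤ Module.finrank K⟮x⟯ F := by
  rcases isEmpty_or_nonempty ι with hι | ⟨⟨i₀⟩⟩
  · simp
  letI : Algebra K⟮x⟯ E := ((φ i₀).comp (algebraMap K⟮x⟯ F)).toAlgebra
  let ψ : ι → (F →ₐ[K⟮x⟯] E) := fun i =>
    { φ i with
      commutes' := fun y =>
        sys_eq_on_adjoin x (φ i) (φ i₀) (hK i i₀) (hx i i₀) (y : F) y.2 }
  have hψ : Function.Injective ψ := by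
    intro i j h
    apply hinj
    ext f
    exact congrArg (fun a : F →ₐ[K⟮x⟯] E => a f) h
  calc Nat.card ι ≤ Nat.card (F →ₐ[K⟮x⟯] E) := Nat.card_le_card_of_injective ψ hψ
    _ ≤ Module.finrank K⟮x⟯ F := card_algHom_le_finrank K⟮x⟯ F E

end Fermat.Agent.S24
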