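import Fermat.Agent.S24.QLaurent
import Fermat.Agent.S24.JConj
import Fermat.Agent.S24.JFun
import Fermat.Agent.S24.JFunQ
import Fermat.Agent.S24.Real
import Fermat.Agent.S24.Degree
import Fermat.Agent.S24.CosetsIndex
import Fermat.Agent.S24.SysCard

/-!
# S24: the Laurent system at the cusps (fibre over `j = ∞`)

For a coset `q = γ Γ₀(N)` the ring homomorphism `φ_q` sends `f` to the Laurent `q`-expansion of
`τ ↦ f (γ⁻¹ • (N τ))`.  These are `[SL(2,ℤ) : Γ₀(N)]` pairwise distinct homomorphisms agreeing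
on `ℚ̄(j)`, with `1/j` of order `N`, and `φ_{Tq} = twist(e^{-2πi/N}) ∘ φ_q`.
-/

set_option autoImplicit false

open AlgebraicCurve IntermediateField UpperHalfPlane ModularForm EisensteinSeries
open scoped MatrixGroups Manifold

noncomputable section

namespace Fermat.Agent.S24

/-! ### General lemmas on Laurent series -/

theorem sc_order_eq {y : LaurentSeries ℂ} {n : ℤ} (h1 : y.coeff n ≠ 0)
    (h2 : ∀ k < n, y.coeff k = 0) : y.order = n := by
  have hy : y ≠ 0 := by
    rintro rfl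
    simp at h1
  have hle : y.order ≤ n := HahnSeries.order_le_of_coeff_ne_zero h1
  have h3 := (mt HahnSeries.coeff_order_eq_zero.mp hy)
  by_contra hne
  exact h3 (h2 _ (lt_of_le_of_ne hle hne))

theorem sc_order_inv {y : LaurentSeries ℂ} (hy : y ≠ 0) : y⁻¹.order = -y.order := by
  have h := HahnSeries.order_mul hy (inv_ne_zero hy)
  rw [mul_inv_cancel₀ hy, HahnSeries.order_one] at h
  omega

theorem sc_order_twist (ζ : ℂ) (hζ : ζ ≠ 0) (y : LaurentSeries ℂ) :
    (twist ζ hζ y).order = y.order := by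
  by_cases hy : y = 0
  · subst hy
    simp
  · apply sc_order_eq
    · rw [twist_coeff]
      exact mul_ne_zero (zpow_ne_zero _ hζ) ((mt HahnSeries.coeff_order_eq_zero.mp hy))
    · intro k hk
      rw [twist_coeff, HahnSeries.coeff_eq_zero_of_lt_order hk, mul_zero]

theorem sc_twist_C (ζ : ℂ) (hζ : ζ ≠ 0) (c : ℂ) :
    twist ζ hζ (HahnSeries.C c) = HahnSeries.C c := by
  ext n
  rw [twist_coeff, HahnSeries.C_apply, HahnSeries.coeff_single]
  split_ifs with h
  · subst h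
    simp
  · simp

theorem sc_adjoin_inv {K F : Type*} [Field K] [Field F] [Algebra K F] (x : F) :
    K⟮x⁻¹⟯ = K⟮x⟯ := by
  apply le_antisymm
  · rw [adjoin_simple_le_iff]
    exact inv_mem (mem_adjoin_simple_self K x)
  · rw [adjoin_simple_le_iff]
    have h := inv_mem (mem_adjoin_simple_self K x⁻¹)
    rwa [inv_inv] at h

theorem sc_transport {K F : Type*} [Field K] [Field F] [Algebra K F]
    (E₁ E₂ : IntermediateField K F) (h : E₁ = E₂) [FiniteDimensional E₂ F] :
    FiniteDimensional E₁ F ∧ Module.finrank E₁ F = Module.finrank E₂ F := by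
  subst h
  exact ⟨inferInstance, rfl⟩

/-! ### The substitution `τ ↦ γ⁻¹ • (N τ)` -/

/-- the substitution `τ ↦ γ⁻¹ • (N τ)` -/
def scSub (N : ℕ) (γ : SL(2, ℤ)) (τ : ℍ) : ℍ := γ⁻¹ • ofComplex ((N : ℂ) * τ)

/-- composition with the substitution, as a ring homomorphism -/
def scComp (N : ℕ) (γ : SL(2, ℤ)) : (ℍ → ℂ) →+* (ℍ → ℂ) where
  toFun g := fun τ => g (scSub N γ τ)
  map_one' := rfl
  map_mul' _ _ := rfl
  map_zero' := rfl
  map_add' _ _ := rfl

theorem sc_comp_apply (N : ℕ) (γ : SL(2, ℤ)) (g : ℍ → ℂ) (τ : ℍ) :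
    scComp N γ g τ = g (γ⁻¹ • ofComplex ((N : ℂ) * τ)) := rfl

theorem sc_scale_surjective (N : ℕ) [NeZero N] (w : ℍ) :
    ∃ τ : ℍ, ofComplex ((N : ℂ) * τ) = w := by
  have hN : (0 : ℝ) < N := by exact_mod_cast NeZero.pos N
  have hNC : (N : ℂ) ≠ 0 := by exact_mod_cast NeZero.ne N
  have him : 0 < ((w : ℂ) / (N : ℂ)).im := by
    rw [Complex.div_natCast_im]
    exact div_pos w.im_pos hN
  refine ⟨⟨_, him⟩, ?_⟩
  apply UpperHalfPlane.ext
  rw [ql_coe_scale (NeZero.pos N)]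
  show (N : ℂ) * ((w : ℂ) / (N : ℂ)) = w
  field_simp

theorem sc_sub_surjective (N : ℕ) [NeZero N] (γ : SL(2, ℤ)) :
    Function.Surjective (scSub N γ) := by
  intro w
  obtain ⟨τ, hτ⟩ := sc_scale_surjective N (γ • w)
  refine ⟨τ, ?_⟩
  rw [scSub, hτ, inv_smul_smul]

theorem sc_isWH (N : ℕ) [NeZero N] (γ : SL(2, ℤ)) {g : ℍ → ℂ} (hg : g ∈ anaRing N) :
    IsWH (scComp N γ g) := by
  have hle : anaRing N ≤ whSubring.comap (scComp N γ) := by
    rw [anaRing, Subring.closure_le]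
    rintro g (⟨c, rfl⟩ | ⟨d, hd, rfl⟩)
    · exact ql_isWH_const (ιc c)
    · show IsWH (scComp N γ (jd d))
      obtain ⟨k, r, hk, h⟩ := jd_smul_scale N d hd γ⁻¹
      have e : scComp N γ (jd d)
          = fun τ : ℍ => (fun τ' : ℍ => jFun (r +ᵥ τ')) (ofComplex ((k : ℂ) * τ)) := by
        funext τ
        exact h τ
      rw [e]
      exact isWH_scale k hk (isWH_vadd r isWH_jFun)
  exact hle hg

/-- the restriction of the substitution to the analytic ring -/
def scRestr (N : ℕ) [NeZero N] (γ : SL(2, ℤ)) : anaRing N →+* whSubring :=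
  ((scComp N γ).comp (anaRing N).subtype).codRestrict whSubring (fun g => sc_isWH N γ g.2)

/-- the Laurent expansion of `g ∘ γ⁻¹` in the local parameter `q^(1/N)` -/
def scTheta (N : ℕ) [NeZero N] (γ : SL(2, ℤ)) : anaRing N →+* LaurentSeries ℂ :=
  qLaurent.comp (scRestr N γ)

theorem sc_theta_apply (N : ℕ) [NeZero N] (γ : SL(2, ℤ)) (g : anaRing N) :
    scTheta N γ g = qLaurent ⟨scComp N γ g.1, sc_isWH N γ g.2⟩ := rfl

theorem sc_theta_injective (N : ℕ) [NeZero N] (γ : SL(2, ℤ)) :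
    Function.Injective (scTheta N γ) := by
  intro g g' h
  have h1 : scRestr N γ g = scRestr N γ g' := qLaurent_injective h
  apply Subtype.ext
  funext w
  obtain ⟨τ, rfl⟩ := sc_sub_surjective N γ w
  exact congrFun (congrArg Subtype.val h1) τ

/-- the Laurent point of the function field attached to a coset -/
def scPhi (N : ℕ) [NeZero N] (q : SL(2, ℤ) ⧸ CongruenceSubgroup.Gamma0 N) :
    ↥(ModularCurve.modularFunctionFieldBar N) →+* LaurentSeries ℂ :=
  liftAna N (scTheta N q.out) (sc_theta_injective N q.out)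

theorem sc_phi_const (N : ℕ) [NeZero N] (q : SL(2, ℤ) ⧸ CongruenceSubgroup.Gamma0 N)
    (c : AlgebraicClosure ℚ) :
    scPhi N q (algebraMap _ _ c) = HahnSeries.C (ιc c) := by
  rw [scPhi, liftAna_const, sc_theta_apply]
  exact qLaurent_const (ιc c) _

theorem sc_phi_jdBar (N : ℕ) [NeZero N] (q : SL(2, ℤ) ⧸ CongruenceSubgroup.Gamma0 N)
    (d : ℕ) [NeZero d] (hd : d ∣ N) :
    scPhi N q (jdBar N d hd)
      = qLaurent ⟨scComp N q.out (jd d), sc_isWH N q.out (jd_mem_anaRing hd)⟩ := by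
  rw [scPhi, liftAna_jdBar]
  rfl

/-! ### The value at `j` -/

theorem sc_jd_one (τ : ℍ) : jd 1 τ = jFun τ := by
  show jC (((1 : ℕ) : ℂ) * (τ : ℂ)) = jFun τ
  rw [Nat.cast_one, one_mul, jc_jC_coe]

/-- the common value of all `φ_q` at `j` -/
def scJ (N : ℕ) [NeZero N] : LaurentSeries ℂ :=
  ModularCurve.qExpand ℂ N (ModularCurve.coeffEmb ℂ ModularCurve.jq)

theorem sc_phi_jBar (N : ℕ) [NeZero N] (q : SL(2, ℤ) ⧸ CongruenceSubgroup.Gamma0 N) :
    scPhi N q (jBar N) = scJ N := by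
  have e : (⟨scComp N q.out (jd 1), sc_isWH N q.out (jd_mem_anaRing (one_dvd N))⟩ : whSubring)
      = ⟨fun τ : ℍ => jFun (ofComplex ((N : ℂ) * τ)), isWH_scale N (NeZero.pos N) isWH_jFun⟩ := by
    apply Subtype.ext
    funext τ
    show jd 1 (q.out⁻¹ • ofComplex ((N : ℂ) * τ)) = jFun (ofComplex ((N : ℂ) * τ))
    rw [sc_jd_one, jFun_smul]
  rw [jBar_eq_jdBar_one, sc_phi_jdBar, e, qLaurent_scale N jFun isWH_jFun, qLaurent_jFun, scJ]

theorem sc_order_J (N : ℕ) [NeZero N] : (scJ N).order = -(N : ℤ) := by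
  have hN : (0 : ℤ) < N := by exact_mod_cast NeZero.pos N
  apply sc_order_eq
  · have e : (-(N : ℤ)) = (N : ℤ) * (-1) := by ring
    rw [e, scJ, ModularCurve.qExpand_coeff_mul, ModularCurve.coeffEmb_coeff,
      ModularCurve.coeff_jq_neg_one]
    simp
  · intro k hk
    by_cases hdvd : (N : ℤ) ∣ k
    · obtain ⟨j, rfl⟩ := hdvd
      have hj : j < -1 := by
        by_contra hj
        have h1 : -1 ≤ j := not_lt.mp hj
        nlinarith
      rw [scJ, ModularCurve.qExpand_coeff_mul, ModularCurve.coeffEmb_coeff,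
        ModularCurve.coeff_jq_of_lt hj, map_zero]
    · exact ModularCurve.qExpand_coeff_of_not_dvd N _ hdvd

theorem sc_J_ne_zero (N : ℕ) [NeZero N] : scJ N ≠ 0 := by
  intro h
  have h1 := sc_order_J N
  rw [h, HahnSeries.order_zero] at h1
  have hN : (0 : ℤ) < N := by exact_mod_cast NeZero.pos N
  omega

/-! ### Distinctness -/

theorem sc_phi_injective (N : ℕ) [NeZero N] : Function.Injective (scPhi N) := by
  intro q q' h
  have h1 : scPhi N q (jdBar N N dvd_rfl) = scPhi N q' (jdBar N N dvd_rfl) := by rw [h]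
  rw [sc_phi_jdBar, sc_phi_jdBar] at h1
  have h2 := qLaurent_injective h1
  have h3 : ∀ w : ℍ, jd N (q.out⁻¹ • w) = jd N (q'.out⁻¹ • w) := by
    intro w
    obtain ⟨τ, rfl⟩ := sc_scale_surjective N w
    exact congrFun (congrArg Subtype.val h2) τ
  have h4 : q.out⁻¹ * q'.out ∈ CongruenceSubgroup.Gamma0 N := by
    apply mem_Gamma0_of_jd_smul_eq
    intro τ
    have h5 := h3 (q'.out • τ)
    rw [inv_smul_smul] at h5
    rw [mul_smul]
    exact h5
  rw [← q.out_eq', ← q'.out_eq']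
  exact QuotientGroup.eq.mpr h4

theorem sc_card_eq (N : ℕ) [NeZero N] :
    Nat.card (SL(2, ℤ) ⧸ CongruenceSubgroup.Gamma0 N)
      = Module.finrank (AlgebraicClosure ℚ)⟮(jBar N)⁻¹⟯
          ↥(ModularCurve.modularFunctionFieldBar N) := by
  have := finiteDimensional_jBar' N
  obtain ⟨hfd, hrank⟩ := sc_transport _ _ (sc_adjoin_inv (K := AlgebraicClosure ℚ) (jBar N))
  have := hfd
  apply le_antisymm
  · refine sys_card_le_finrank (K := AlgebraicClosure ℚ) ((jBar N)⁻¹) (scPhi N)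
      (sc_phi_injective N) (fun i j c => ?_) (fun i j => ?_)
    · rw [sc_phi_const, sc_phi_const]
    · rw [map_inv₀, map_inv₀, sc_phi_jBar, sc_phi_jBar]
  · rw [hrank]
    exact finrank_jBar_le N

/-! ### The action of `T` -/

/-- `e^{-2πi/N}` -/
def scZeta (N : ℕ) : ℂ := Complex.exp (2 * Real.pi * Complex.I * ((-1 / (N : ℝ) : ℝ) : ℂ))

theorem sc_zeta_ne_zero (N : ℕ) : scZeta N ≠ 0 := Complex.exp_ne_zero _

theorem sc_out_T (N : ℕ) (q : SL(2, ℤ) ⧸ CongruenceSubgroup.Gamma0 N) :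
    ∃ δ ∈ CongruenceSubgroup.Gamma0 N,
      (ModularGroup.T • q).out = ModularGroup.T * q.out * δ := by
  refine ⟨(ModularGroup.T * q.out)⁻¹ * (ModularGroup.T • q).out, ?_, by group⟩
  apply QuotientGroup.eq.mp
  rw [QuotientGroup.out_eq']
  conv_rhs => rw [← q.out_eq']
  rfl

theorem sc_jd_T (N : ℕ) [NeZero N] (q : SL(2, ℤ) ⧸ CongruenceSubgroup.Gamma0 N) (d : ℕ)
    (hd : d ∣ N) (w : ℍ) :
    jd d ((ModularGroup.T • q).out⁻¹ • w) = jd d (q.out⁻¹ • ((-1 : ℝ) +ᵥ w)) := by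
  obtain ⟨δ, hδ, h⟩ := sc_out_T N q
  rw [h, mul_inv_rev, mul_inv_rev, mul_smul, mul_smul,
    jd_smul_of_mem_Gamma0 N d hd δ⁻¹ (inv_mem hδ)]
  congr 2
  have h1 := UpperHalfPlane.modular_T_zpow_smul w (-1)
  simpa using h1

theorem sc_phi_T (N : ℕ) [NeZero N] (q : SL(2, ℤ) ⧸ CongruenceSubgroup.Gamma0 N) :
    scPhi N (ModularGroup.T • q)
      = (twist (scZeta N) (sc_zeta_ne_zero N)).comp (scPhi N q) := by
  apply ringHom_ext_Fb
  · intro c
    rw [RingHom.comp_apply, sc_phi_const, sc_phi_const, sc_twist_C]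
  · intro d _ hd
    rw [RingHom.comp_apply, sc_phi_jdBar, sc_phi_jdBar]
    have hG := sc_isWH N q.out (jd_mem_anaRing hd)
    have h1 := qLaurent_vadd (-1 / (N : ℝ)) (scComp N q.out (jd d)) hG
    have h2 : twist (scZeta N) (sc_zeta_ne_zero N) (qLaurent ⟨scComp N q.out (jd d), hG⟩)
        = qLaurent ⟨fun τ => scComp N q.out (jd d) ((-1 / (N : ℝ)) +ᵥ τ),
            isWH_vadd (-1 / (N : ℝ)) hG⟩ := h1.symm
    rw [h2]
    have e : (⟨scComp N (ModularGroup.T • q).out (jd d),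
          sc_isWH N (ModularGroup.T • q).out (jd_mem_anaRing hd)⟩ : whSubring)
        = ⟨fun τ => scComp N q.out (jd d) ((-1 / (N : ℝ)) +ᵥ τ),
            isWH_vadd (-1 / (N : ℝ)) hG⟩ := by
      apply Subtype.ext
      funext τ
      show jd d ((ModularGroup.T • q).out⁻¹ • ofComplex ((N : ℂ) * τ))
        = jd d (q.out⁻¹ • ofComplex ((N : ℂ) * (((-1 / (N : ℝ)) +ᵥ τ : ℍ) : ℂ)))
      rw [sc_jd_T N q d hd]
      congr 2
      apply UpperHalfPlane.ext
      have hNC : (N : ℂ) ≠ 0 := by exact_mod_cast NeZero.ne N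
      rw [coe_vadd, ql_coe_scale (NeZero.pos N), ql_coe_scale (NeZero.pos N), coe_vadd]
      push_cast
      field_simp
    rw [e]

theorem sc_phi_iter (N : ℕ) [NeZero N] (k : ℕ) (q : SL(2, ℤ) ⧸ CongruenceSubgroup.Gamma0 N)
    (f : ↥(ModularCurve.modularFunctionFieldBar N)) (n : ℤ) :
    (scPhi N ((MulAction.toPerm ModularGroup.T :
        Equiv.Perm (SL(2, ℤ) ⧸ CongruenceSubgroup.Gamma0 N))^[k] q) f).coeff n
      = (scZeta N ^ n) ^ k * (scPhi N q f).coeff n := by
  induction k with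
  | zero => simp
  | succ k ih =>
    rw [Function.iterate_succ_apply']
    show (scPhi N (ModularGroup.T • _) f).coeff n = _
    rw [sc_phi_T, RingHom.comp_apply, twist_coeff, ih, pow_succ]
    ring

theorem sc_zeta_pow_eq_one (N : ℕ) [NeZero N] (n : ℤ) (w : ℕ)
    (h : (scZeta N ^ n) ^ w = 1) : (N : ℤ) ∣ (w : ℤ) * n := by
  have hNC : (N : ℂ) ≠ 0 := by exact_mod_cast NeZero.ne N
  rw [scZeta, ← Complex.exp_int_mul, ← Complex.exp_nat_mul, Complex.exp_eq_one_iff] at h
  obtain ⟨m, hm⟩ := h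
  have hpi : (2 * (Real.pi : ℂ) * Complex.I) ≠ 0 := Complex.two_pi_I_ne_zero
  have h1 : ((w : ℂ) * (n : ℂ)) = -(m : ℂ) * (N : ℂ) := by
    have h2 : (w : ℂ) * ((n : ℂ) * (2 * (Real.pi : ℂ) * Complex.I * ((-1 / (N : ℝ) : ℝ) : ℂ)))
        = (2 * (Real.pi : ℂ) * Complex.I) * (-((w : ℂ) * (n : ℂ)) / (N : ℂ)) := by
      push_cast
      ring
    rw [h2, mul_comm (m : ℂ)] at hm
    have h3 := mul_left_cancel₀ hpi hm
    field_simp at h3
    linear_combination -h3
  have h4 : ((w : ℤ) * n : ℤ) = -m * (N : ℤ) := by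
    exact_mod_cast h1
  exact ⟨-m, by rw [h4]; ring⟩

/-! ### The Laurent system at the cusps -/

/-- fibre over `j = ∞` (the cusps, `T`-orbits) -/
theorem exists_laurentSystem_infty (N : ℕ) [NeZero N] :
    ∃ S : LaurentSystem (AlgebraicClosure ℚ) (jBar N)⁻¹ ℂ
        (SL(2, ℤ) ⧸ CongruenceSubgroup.Gamma0 N),
      S.e₀ = N ∧ S.π = MulAction.toPerm ModularGroup.T := by
  refine ⟨{
    φ := scPhi N
    base := ιc
    map_const := fun q c => sc_phi_const N q c
    injective := sc_phi_injective N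
    map_x := fun i j => by rw [map_inv₀, map_inv₀, sc_phi_jBar, sc_phi_jBar]
    e₀ := N
    e₀_pos := NeZero.pos N
    order_x := fun q => by
      rw [map_inv₀, sc_phi_jBar, sc_order_inv (sc_J_ne_zero N), sc_order_J, neg_neg]
    card_eq := sc_card_eq N
    π := MulAction.toPerm ModularGroup.T
    order_π := fun q f => by
      show (scPhi N (ModularGroup.T • q) f).order = _
      rw [sc_phi_T, RingHom.comp_apply, sc_order_twist]
    dvd := fun q f hf => by
      set w := Function.minimalPeriod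
        (MulAction.toPerm ModularGroup.T :
          Equiv.Perm (SL(2, ℤ) ⧸ CongruenceSubgroup.Gamma0 N)) q with hw
      have hy : scPhi N q f ≠ 0 := by
        rw [Ne, map_eq_zero]
        exact hf
      have h1 := sc_phi_iter N w q f (scPhi N q f).order
      rw [hw, Function.iterate_minimalPeriod, ← hw] at h1
      have h2 : (scZeta N ^ (scPhi N q f).order) ^ w = 1 := by
        have h3 := (mt HahnSeries.coeff_order_eq_zero.mp hy)
        have h4 : ((scZeta N ^ (scPhi N q f).order) ^ w - 1) * (scPhi N q f).coeff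
            (scPhi N q f).order = 0 := by
          rw [sub_mul, one_mul, ← h1, sub_self]
        rcases mul_eq_zero.mp h4 with h5 | h5
        · exact sub_eq_zero.mp h5
        · exact absurd h5 h3
      exact sc_zeta_pow_eq_one N _ w h2 }, rfl, rfl⟩

end Fermat.Agent.S24
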