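import Mathlib
import Fermat.Prelude.Def_AlgebraicCurve_CanonicalDivisor

/-!
# Kaehler differentials of a function field and orders at places (S24)

For a function field `F` over an algebraically closed field `K` of characteristic zero
(`F` algebraic over `K(x)`), every place `v` has residue field `K`, admits a power series
expansion `O_v → K⟦X⟧` along a uniformizer, and the order of a differential `d y` at `v` is
`ord_v y - 1` whenever `ord_v y ≠ 0`.
-/

set_option autoImplicit false
set_option linter.unusedSectionVars false

open AlgebraicCurve KaehlerDifferential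

namespace Fermat.Agent.S24

noncomputable section

/-! ### Power series expansion along a parameter -/

section Expansion

variable {K A : Type*} [Field K] [CommRing A] [IsDomain A] [Algebra K A]
variable (ρ : A →ₐ[K] K) (t : A) (hker : ∀ a : A, ρ a = 0 → ∃ b : A, a = t * b)

/-- The quotient `(a - ρ a) / t`. -/
def expShift (a : A) : A :=
  Classical.choose (hker (a - algebraMap K A (ρ a)) (by simp))

theorem expShift_spec (a : A) :
    a = algebraMap K A (ρ a) + t * expShift ρ t hker a := by
  have h := Classical.choose_spec (hker (a - algebraMap K A (ρ a)) (by simp))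
  rw [expShift, ← h]
  ring

theorem expShift_unique (ht : t ≠ 0) (hρt : ρ t = 0) {a b : A} {c : K}
    (h : a = algebraMap K A c + t * b) : ρ a = c ∧ expShift ρ t hker a = b := by
  have h1 : ρ a = c := by
    rw [h, map_add, map_mul, hρt, zero_mul, add_zero, AlgHom.commutes]
    rfl
  refine ⟨h1, ?_⟩
  have h2 := expShift_spec ρ t hker a
  rw [h1] at h2
  have h3 : t * expShift ρ t hker a = t * b := by
    have : algebraMap K A c + t * expShift ρ t hker a = algebraMap K A c + t * b := by
      rw [← h2, ← h]
    exact add_left_cancel this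
  exact mul_left_cancel₀ ht h3

/-- The coefficients of the expansion. -/
def expCoeff (a : A) (n : ℕ) : K := ρ ((expShift ρ t hker)^[n] a)

/-- The expansion of `a` as a power series. -/
def expFun (a : A) : PowerSeries K := PowerSeries.mk (expCoeff ρ t hker a)

theorem expFun_eq (a : A) :
    expFun ρ t hker a =
      PowerSeries.C (ρ a) + PowerSeries.X * expFun ρ t hker (expShift ρ t hker a) := by
  ext n
  cases n with
  | zero => simp [expFun, expCoeff]
  | succ n =>
    simp only [expFun, expCoeff, PowerSeries.coeff_mk, map_add, PowerSeries.coeff_C,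
      Nat.succ_ne_zero, if_false, zero_add, PowerSeries.coeff_succ_X_mul,
      Function.iterate_succ_apply]

variable (ht : t ≠ 0) (hρt : ρ t = 0)

include ht hρt

theorem expShift_add (a b : A) :
    expShift ρ t hker (a + b) = expShift ρ t hker a + expShift ρ t hker b := by
  refine (expShift_unique ρ t hker ht hρt (c := ρ a + ρ b) ?_).2
  have ha := expShift_spec ρ t hker a
  have hb := expShift_spec ρ t hker b
  rw [map_add]
  linear_combination ha + hb

theorem expShift_algebraMap_mul (c : K) (a : A) :
    expShift ρ t hker (algebraMap K A c * a) = algebraMap K A c * expShift ρ t hker a := by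
  refine (expShift_unique ρ t hker ht hρt (c := c * ρ a) ?_).2
  have ha := expShift_spec ρ t hker a
  rw [map_mul]
  linear_combination (algebraMap K A c) * ha

theorem expShift_t_mul (a : A) : expShift ρ t hker (t * a) = a := by
  refine (expShift_unique ρ t hker ht hρt (c := 0) ?_).2
  rw [map_zero, zero_add]

theorem expShift_mul (a b : A) :
    expShift ρ t hker (a * b) =
      algebraMap K A (ρ a) * expShift ρ t hker b + algebraMap K A (ρ b) * expShift ρ t hker a
        + t * (expShift ρ t hker a * expShift ρ t hker b) := by
  refine (expShift_unique ρ t hker ht hρt (c := ρ a * ρ b) ?_).2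
  have ha := expShift_spec ρ t hker a
  have hb := expShift_spec ρ t hker b
  rw [map_mul]
  linear_combination b * ha + (algebraMap K A (ρ a) + t * expShift ρ t hker a
    - t * expShift ρ t hker a) * hb + t * expShift ρ t hker a * hb

theorem expCoeff_add (n : ℕ) (a b : A) :
    expCoeff ρ t hker (a + b) n = expCoeff ρ t hker a n + expCoeff ρ t hker b n := by
  induction n generalizing a b with
  | zero => simp [expCoeff]
  | succ n ih =>
    have := ih (expShift ρ t hker a) (expShift ρ t hker b)
    simp only [expCoeff, Function.iterate_succ_apply] at this ⊢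
    rw [expShift_add ρ t hker ht hρt, this]

theorem expFun_add (a b : A) :
    expFun ρ t hker (a + b) = expFun ρ t hker a + expFun ρ t hker b := by
  ext n
  simp only [expFun, PowerSeries.coeff_mk, map_add]
  exact expCoeff_add ρ t hker ht hρt n a b

theorem expFun_zero : expFun ρ t hker 0 = 0 := by
  have h := expFun_add ρ t hker ht hρt 0 0
  rw [add_zero] at h
  exact left_eq_add.mp h

theorem expCoeff_algebraMap_mul (n : ℕ) (c : K) (a : A) :
    expCoeff ρ t hker (algebraMap K A c * a) n = c * expCoeff ρ t hker a n := by
  induction n generalizing a with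
  | zero => simp [expCoeff]
  | succ n ih =>
    have := ih (expShift ρ t hker a)
    simp only [expCoeff, Function.iterate_succ_apply] at this ⊢
    rw [expShift_algebraMap_mul ρ t hker ht hρt, this]

theorem expFun_algebraMap_mul (c : K) (a : A) :
    expFun ρ t hker (algebraMap K A c * a) = PowerSeries.C c * expFun ρ t hker a := by
  ext n
  simp only [expFun, PowerSeries.coeff_mk, PowerSeries.coeff_C_mul]
  exact expCoeff_algebraMap_mul ρ t hker ht hρt n c a

theorem expFun_t_mul (a : A) :
    expFun ρ t hker (t * a) = PowerSeries.X * expFun ρ t hker a := by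
  rw [expFun_eq, expShift_t_mul ρ t hker ht hρt, map_mul, hρt, zero_mul, map_zero, zero_add]

theorem expFun_mul_sub (a b : A) :
    expFun ρ t hker (a * b) - expFun ρ t hker a * expFun ρ t hker b =
      PowerSeries.X ^ 2 * (expFun ρ t hker (expShift ρ t hker a * expShift ρ t hker b)
        - expFun ρ t hker (expShift ρ t hker a) * expFun ρ t hker (expShift ρ t hker b)) := by
  have h1 := expFun_eq ρ t hker (a * b)
  have h2 := expFun_eq ρ t hker a
  have h3 := expFun_eq ρ t hker b
  rw [expShift_mul ρ t hker ht hρt, expFun_add ρ t hker ht hρt, expFun_add ρ t hker ht hρt,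
    expFun_algebraMap_mul ρ t hker ht hρt, expFun_algebraMap_mul ρ t hker ht hρt,
    expFun_t_mul ρ t hker ht hρt, map_mul, map_mul] at h1
  rw [h1, h2, h3]
  ring

theorem expFun_mul (a b : A) :
    expFun ρ t hker (a * b) = expFun ρ t hker a * expFun ρ t hker b := by
  suffices h : ∀ n : ℕ, ∀ a b : A, PowerSeries.coeff n
      (expFun ρ t hker (a * b) - expFun ρ t hker a * expFun ρ t hker b) = 0 by
    rw [← sub_eq_zero]
    ext n
    rw [h n a b, map_zero]
  intro n
  induction n using Nat.strong_induction_on with
  | _ n ih =>
    intro a b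
    rw [expFun_mul_sub ρ t hker ht hρt, PowerSeries.coeff_X_pow_mul']
    split_ifs with hn
    · exact ih (n - 2) (by omega) _ _
    · rfl

theorem expFun_algebraMap (c : K) : expFun ρ t hker (algebraMap K A c) = PowerSeries.C c := by
  rw [expFun_eq]
  have h := (expShift_unique ρ t hker ht hρt (a := algebraMap K A c) (b := 0) (c := c)
    (by rw [mul_zero, add_zero]))
  rw [h.1, h.2, expFun_zero ρ t hker ht hρt, mul_zero, add_zero]

/-- The expansion as a `K`-algebra homomorphism. -/
def expHom : A →ₐ[K] PowerSeries K where
  toFun := expFun ρ t hker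
  map_one' := by
    have h := expFun_algebraMap ρ t hker ht hρt 1
    rwa [map_one, map_one] at h
  map_mul' := expFun_mul ρ t hker ht hρt
  map_zero' := expFun_zero ρ t hker ht hρt
  map_add' := expFun_add ρ t hker ht hρt
  commutes' c := by
    rw [expFun_algebraMap ρ t hker ht hρt]
    rfl

theorem expHom_t : expHom ρ t hker ht hρt t = PowerSeries.X := by
  have h := expFun_t_mul ρ t hker ht hρt 1
  rw [mul_one] at h
  show expFun ρ t hker t = _
  rw [h]
  have h1 : expFun ρ t hker 1 = 1 := (expHom ρ t hker ht hρt).map_one
  rw [h1, mul_one]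

theorem constantCoeff_expHom (a : A) :
    PowerSeries.constantCoeff (expHom ρ t hker ht hρt a) = ρ a := by
  show PowerSeries.constantCoeff (expFun ρ t hker a) = _
  rw [expFun_eq]
  simp

theorem order_expHom (a w : A) (n : ℕ) (hw : ρ w ≠ 0) (ha : a = t ^ n * w) :
    (expHom ρ t hker ht hρt a).order = n := by
  rw [ha, map_mul, map_pow, expHom_t, PowerSeries.order_mul, PowerSeries.order_X_pow]
  have h0 : (expHom ρ t hker ht hρt w).order = 0 := by
    have hc : PowerSeries.coeff 0 (expHom ρ t hker ht hρt w) ≠ 0 := by
      rw [PowerSeries.coeff_zero_eq_constantCoeff_apply, constantCoeff_expHom]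
      exact hw
    have := PowerSeries.order_le 0 hc
    simpa using this
  rw [h0, add_zero]

end Expansion

/-! ### Places: basic facts -/

section PlaceBasics

open IntermediateField Polynomial

variable {K F : Type*} [Field K] [Field F] [Algebra K F]

/-- The order of `u * π ^ n` for a unit `u` and a uniformizer `π`. -/
theorem place_ord_unit_mul_pow (v : Place K F) {π : v.toValuationSubring} (hπ : Irreducible π)
    (u : v.toValuationSubringˣ) (n : ℕ) :
    v.ord ((((u : v.toValuationSubring) * π ^ n : v.toValuationSubring)) : F) = n := by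
  have h := v.ord_unit_smul_zpow u hπ (n : ℤ)
  rw [zpow_natCast] at h
  rw [← h]
  push_cast
  rfl

/-- The inverse of a unit of the valuation ring lies in the valuation ring. -/
theorem place_inv_mem_of_isUnit (v : Place K F) (a : v.toValuationSubring) (hu : IsUnit a) :
    (a : F)⁻¹ ∈ v.toValuationSubring := by
  obtain ⟨b, hb⟩ := hu.exists_right_inv
  have h1 : (a : F) * (b : F) = 1 := by
    have := congrArg (Subtype.val : v.toValuationSubring → F) hb
    simpa using this
  rw [inv_eq_of_mul_eq_one_right h1]
  exact b.2

/-- If `F` is algebraic over `K(x)`, no place contains `K(x)`. -/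
theorem place_not_adjoin_le (v : Place K F) (x : F) [Algebra.IsAlgebraic K⟮x⟯ F] :
    ¬ (∀ y ∈ K⟮x⟯, y ∈ v.toValuationSubring) := by
  intro h
  apply v.ne_top'
  have hle : K⟮x⟯.toSubring ≤ v.toValuationSubring.toSubring := fun y hy => h y hy
  let alg : Algebra K⟮x⟯ v.toValuationSubring := (Subring.inclusion hle).toAlgebra
  have : IsScalarTower K⟮x⟯ v.toValuationSubring F :=
    IsScalarTower.of_algebraMap_eq (fun _ => rfl)
  ext y
  simp only [ValuationSubring.mem_top, iff_true]
  have hy : IsIntegral K⟮x⟯ y := (Algebra.IsAlgebraic.isAlgebraic y).isIntegral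
  have hy' : IsIntegral v.toValuationSubring y := hy.tower_top
  obtain ⟨a, ha⟩ := IsIntegrallyClosed.isIntegral_iff.mp hy'
  rw [← ha]
  exact a.2

/-- Values of nonzero polynomials at `x` are units when all `x - c` are units. -/
theorem place_isUnit_aeval [IsAlgClosed K] (v : Place K F) (x : v.toValuationSubring)
    (h : ∀ c : K, IsUnit (x - algebraMap K v.toValuationSubring c)) (p : K[X]) (hp : p ≠ 0) :
    IsUnit (aeval x p) := by
  have hsplit := (IsAlgClosed.splits p).eq_prod_roots
  rw [hsplit, map_mul, aeval_C, map_multiset_prod, Multiset.map_map]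
  refine IsUnit.mul ?_ ?_
  · exact (isUnit_iff_ne_zero.mpr (leadingCoeff_ne_zero.mpr hp)).map _
  · refine Multiset.prod_induction _ _ (fun a b ha hb => ha.mul hb) isUnit_one ?_
    intro a ha
    obtain ⟨c, -, rfl⟩ := Multiset.mem_map.mp ha
    simpa using h c

/-- A nonzero non-unit `z` of the valuation ring with `F` algebraic over `K(z)`. -/
theorem place_exists_param [IsAlgClosed K] (v : Place K F) (x : F) [Algebra.IsAlgebraic K⟮x⟯ F] :
    ∃ z : v.toValuationSubring, z ≠ 0 ∧ ¬ IsUnit z ∧ Algebra.IsAlgebraic K⟮(z : F)⟯ F := by
  by_cases hx : x ∈ v.toValuationSubring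
  · -- some `x - c` is a non-unit
    have hex : ∃ c : K, ¬ IsUnit ((⟨x, hx⟩ : v.toValuationSubring) -
        algebraMap K v.toValuationSubring c) := by
      by_contra hcon
      push Not at hcon
      apply place_not_adjoin_le v x
      intro y hy
      obtain ⟨r, s, rfl⟩ := (mem_adjoin_simple_iff K _).mp hy
      by_cases hs : s = 0
      · rw [hs, map_zero, div_zero]
        exact zero_mem _
      · have hu := place_isUnit_aeval v ⟨x, hx⟩ hcon s hs
        have h1 : (aeval x r : F) = ((aeval (⟨x, hx⟩ : v.toValuationSubring) r :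
            v.toValuationSubring) : F) :=
          (aeval_algebraMap_apply F (⟨x, hx⟩ : v.toValuationSubring) r)
        have h2 : (aeval x s : F) = ((aeval (⟨x, hx⟩ : v.toValuationSubring) s :
            v.toValuationSubring) : F) :=
          (aeval_algebraMap_apply F (⟨x, hx⟩ : v.toValuationSubring) s)
        rw [h1, h2, div_eq_mul_inv]
        exact mul_mem (Subtype.property _) (place_inv_mem_of_isUnit v _ hu)
    obtain ⟨c, hc⟩ := hex
    have hKz : K⟮x - algebraMap K F c⟯ = K⟮x⟯ := by
      apply le_antisymm
      · rw [adjoin_simple_le_iff]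
        exact sub_mem (mem_adjoin_simple_self K x) (IntermediateField.algebraMap_mem _ c)
      · rw [adjoin_simple_le_iff]
        have := add_mem (mem_adjoin_simple_self K (x - algebraMap K F c))
          (IntermediateField.algebraMap_mem K⟮x - algebraMap K F c⟯ c)
        rwa [sub_add_cancel] at this
    refine ⟨⟨x, hx⟩ - algebraMap K v.toValuationSubring c, ?_, hc, ?_⟩
    · intro h0
      apply place_not_adjoin_le v x
      intro y hy
      have hxc : x = algebraMap K F c := by
        have := congrArg (Subtype.val : v.toValuationSubring → F) h0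
        simpa [sub_eq_zero] using this
      have hbot : K⟮x⟯ = ⊥ := by
        rw [adjoin_simple_eq_bot_iff, hxc]
        exact IntermediateField.algebraMap_mem _ c
      rw [hbot, mem_bot] at hy
      obtain ⟨a, rfl⟩ := hy
      exact v.algebraMap_mem' a
    · have hcoe : ((⟨x, hx⟩ - algebraMap K v.toValuationSubring c : v.toValuationSubring) : F)
          = x - algebraMap K F c := rfl
      rw [hcoe, hKz]
      infer_instance
  · have hx' : x⁻¹ ∈ v.toValuationSubring :=
      (v.toValuationSubring.mem_or_inv_mem x).resolve_left hx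
    have hx0 : x ≠ 0 := fun h => hx (h ▸ zero_mem _)
    have hKz : K⟮x⁻¹⟯ = K⟮x⟯ := by
      apply le_antisymm
      · rw [adjoin_simple_le_iff]
        exact inv_mem (mem_adjoin_simple_self K x)
      · rw [adjoin_simple_le_iff]
        have := inv_mem (mem_adjoin_simple_self K x⁻¹)
        rwa [inv_inv] at this
    refine ⟨⟨x⁻¹, hx'⟩, ?_, ?_, ?_⟩
    · intro h0
      have := congrArg (Subtype.val : v.toValuationSubring → F) h0
      exact inv_ne_zero hx0 this
    · intro hu
      apply hx
      have := place_inv_mem_of_isUnit v _ hu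
      rwa [inv_inv] at this
    · show Algebra.IsAlgebraic K⟮x⁻¹⟯ F
      rw [hKz]
      infer_instance

end PlaceBasics

/-! ### The residue field of a place is `K` -/

section Residue

open IntermediateField Polynomial
open scoped IntermediateField.algebraAdjoinAdjoin

variable {K F : Type*} [Field K] [Field F] [Algebra K F]

/-- Clearing common powers of `z` from a linear relation with polynomial coefficients. -/
theorem diff_divX_aux (z : F) (hz : z ≠ 0) (n : ℕ) (w : ℕ → F) :
    ∀ (m : ℕ) (p : ℕ → K[X]), (∑ i ∈ Finset.range n, (p i).natDegree) ≤ m →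
      (∃ i ∈ Finset.range n, p i ≠ 0) →
      ∑ i ∈ Finset.range n, aeval z (p i) * w i = 0 →
      ∃ p' : ℕ → K[X], (∃ i ∈ Finset.range n, (p' i).coeff 0 ≠ 0) ∧
        ∑ i ∈ Finset.range n, aeval z (p' i) * w i = 0 := by
  intro m
  induction m with
  | zero =>
    intro p hm hne hsum
    obtain ⟨i, hi, hpi⟩ := hne
    refine ⟨p, ⟨i, hi, ?_⟩, hsum⟩
    have hdeg : (p i).natDegree = 0 := by
      have := Finset.single_le_sum (f := fun j => (p j).natDegree)
        (fun j _ => Nat.zero_le _) hi
      omega
    intro h0
    apply hpi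
    rw [eq_C_of_natDegree_eq_zero hdeg, h0, C_0]
  | succ m ih =>
    intro p hm hne hsum
    by_cases hc : ∃ i ∈ Finset.range n, (p i).coeff 0 ≠ 0
    · exact ⟨p, hc, hsum⟩
    · push Not at hc
      have hX : ∀ i ∈ Finset.range n, p i = X * (p i).divX := by
        intro i hi
        have := X_mul_divX_add (p i)
        rw [hc i hi, C_0, add_zero] at this
        exact this.symm
      apply ih (fun i => (p i).divX)
      · obtain ⟨i, hi, hpi⟩ := hne
        have hlt : ∑ j ∈ Finset.range n, ((p j).divX).natDegree
            < ∑ j ∈ Finset.range n, (p j).natDegree := by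
          apply Finset.sum_lt_sum
          · intro j _
            exact natDegree_divX_le
          · refine ⟨i, hi, ?_⟩
            rw [natDegree_divX_eq_natDegree_tsub_one]
            have : 0 < (p i).natDegree := by
              by_contra h0
              have h00 : (p i).natDegree = 0 := by omega
              apply hpi
              rw [eq_C_of_natDegree_eq_zero h00, hc i hi, C_0]
            omega
        omega
      · obtain ⟨i, hi, hpi⟩ := hne
        refine ⟨i, hi, ?_⟩
        intro h0
        apply hpi
        rw [hX i hi, h0, mul_zero]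
      · have : z * ∑ i ∈ Finset.range n, aeval z ((p i).divX) * w i = 0 := by
          rw [Finset.mul_sum, ← hsum]
          apply Finset.sum_congr rfl
          intro i hi
          conv_rhs => rw [hX i hi]
          rw [map_mul, aeval_X]
          ring
        exact (mul_eq_zero.mp this).resolve_left hz

/-- Residues of elements of the valuation ring are algebraic over `K`. -/
theorem place_residue_isAlgebraic [IsAlgClosed K] (v : Place K F) (x : F)
    [Algebra.IsAlgebraic K⟮x⟯ F] (u : v.toValuationSubring) :
    IsAlgebraic K (IsLocalRing.residue v.toValuationSubring u) := by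
  obtain ⟨z, hz0, hzu, hzalg⟩ := place_exists_param v x
  have hualg : IsAlgebraic K⟮(z : F)⟯ (u : F) := Algebra.IsAlgebraic.isAlgebraic _
  have hualg' : IsAlgebraic (Algebra.adjoin K {(z : F)}) (u : F) :=
    (IsFractionRing.isAlgebraic_iff (Algebra.adjoin K {(z : F)}) K⟮(z : F)⟯ F).mpr hualg
  obtain ⟨P, hP0, hP⟩ := hualg'
  have hcoef : ∀ i, ∃ q : K[X], aeval (z : F) q = (P.coeff i : F) := by
    intro i
    have h1 := (P.coeff i).2
    have h2 : ((P.coeff i : Algebra.adjoin K {(z : F)}) : F) ∈ (aeval (R := K) (z : F)).range := by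
      rw [← Algebra.adjoin_singleton_eq_range_aeval]
      exact h1
    exact h2
  choose p hp using hcoef
  set n := P.natDegree + 1 with hn
  have hsum : ∑ i ∈ Finset.range n, aeval (z : F) (p i) * (u : F) ^ i = 0 := by
    rw [aeval_eq_sum_range] at hP
    rw [← hP]
    apply Finset.sum_congr rfl
    intro i _
    rw [hp i]
    rfl
  have hne : ∃ i ∈ Finset.range n, p i ≠ 0 := by
    refine ⟨P.natDegree, Finset.mem_range.mpr (Nat.lt_succ_self _), ?_⟩
    intro h0
    have := hp P.natDegree
    rw [h0, map_zero] at this
    exact (leadingCoeff_ne_zero.mpr hP0) (Subtype.ext this.symm)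
  have hzF : (z : F) ≠ 0 := fun h => hz0 (Subtype.ext h)
  obtain ⟨p', ⟨i₀, hi₀, hi₀'⟩, hsum'⟩ :=
    diff_divX_aux (z : F) hzF n (fun i => (u : F) ^ i) _ p le_rfl hne hsum
  have hsumA : ∑ i ∈ Finset.range n, aeval z (p' i) * u ^ i = 0 := by
    apply Subtype.ext
    have h0 : ((0 : v.toValuationSubring) : F) = 0 := rfl
    rw [h0, ← hsum']
    push_cast
    apply Finset.sum_congr rfl
    intro i _
    have : (aeval (z : F)) (p' i) = ((aeval z (p' i) : v.toValuationSubring) : F) :=
      aeval_algebraMap_apply F z (p' i)
    rw [this]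
  have hres := congrArg (IsLocalRing.residue v.toValuationSubring) hsumA
  rw [map_sum, map_zero] at hres
  have hzres : IsLocalRing.residue v.toValuationSubring z = 0 :=
    (IsLocalRing.residue_eq_zero_iff _).mpr (by rwa [IsLocalRing.mem_maximalIdeal, mem_nonunits_iff])
  have hq : ∀ q : K[X], IsLocalRing.residue v.toValuationSubring (aeval z q)
      = algebraMap K (IsLocalRing.ResidueField v.toValuationSubring) (q.coeff 0) := by
    intro q
    have h1 := aeval_algHom_apply (IsScalarTower.toAlgHom K v.toValuationSubring
      (IsLocalRing.ResidueField v.toValuationSubring)) z q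
    have h2 : (IsScalarTower.toAlgHom K v.toValuationSubring
      (IsLocalRing.ResidueField v.toValuationSubring)) z = 0 := hzres
    rw [h2] at h1
    rw [coeff_zero_eq_aeval_zero', h1]
    rfl
  refine ⟨∑ i ∈ Finset.range n, C ((p' i).coeff 0) * X ^ i, ?_, ?_⟩
  · intro h0
    have := congrArg (fun q => q.coeff i₀) h0
    simp only [finsetSum_coeff, coeff_C_mul, coeff_X_pow, coeff_zero] at this
    rw [Finset.sum_eq_single i₀] at this
    · simp only [if_true, mul_one] at this
      exact hi₀' this
    · intro b _ hb
      rw [if_neg (Ne.symm hb), mul_zero]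
    · intro h
      exact absurd hi₀ h
  · rw [map_sum, ← hres]
    apply Finset.sum_congr rfl
    intro i _
    rw [map_mul, map_pow, aeval_C, aeval_X, map_mul, map_pow, hq]

/-- The residue field of a place of a function field over an algebraically closed field is the
base field. -/
theorem place_residue_bijective [IsAlgClosed K] (v : Place K F) (x : F)
    [Algebra.IsAlgebraic K⟮x⟯ F] :
    Function.Bijective (algebraMap K v.ResidueField) := by
  have halg : Algebra.IsAlgebraic K v.ResidueField := by
    refine ⟨fun r => ?_⟩
    obtain ⟨u, rfl⟩ := IsLocalRing.residue_surjective r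
    exact place_residue_isAlgebraic v x u
  exact IsAlgClosed.algebraMap_bijective_of_isIntegral

/-- Every place of a function field over an algebraically closed field has degree one. -/
theorem place_deg_eq_one [IsAlgClosed K] (v : Place K F) (x : F)
    [Algebra.IsAlgebraic K⟮x⟯ F] : v.deg = 1 := by
  have hbij := place_residue_bijective v x
  have e : K ≃ₗ[K] v.ResidueField :=
    LinearEquiv.ofBijective (Algebra.linearMap K v.ResidueField) hbij
  rw [Place.deg, ← e.finrank_eq, Module.finrank_self]

end Residue

/-! ### Expansion at a place and differentials -/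

section PlaceExpansion

open IntermediateField

variable {K F : Type*} [Field K] [Field F] [Algebra K F]

/-- The residue map of a place with residue field `K`, with values in `K`. -/
def placeRes (v : Place K F) (hbij : Function.Bijective (algebraMap K v.ResidueField)) :
    v.toValuationSubring →ₐ[K] K :=
  ((AlgEquiv.ofBijective (Algebra.ofId K v.ResidueField) hbij).symm :
    v.ResidueField →ₐ[K] K).comp
    (IsScalarTower.toAlgHom K v.toValuationSubring v.ResidueField)

theorem placeRes_eq_zero_iff (v : Place K F)
    (hbij : Function.Bijective (algebraMap K v.ResidueField)) (a : v.toValuationSubring) :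
    placeRes v hbij a = 0 ↔ ¬ IsUnit a := by
  have h1 : placeRes v hbij a = (AlgEquiv.ofBijective (Algebra.ofId K v.ResidueField) hbij).symm
      (IsLocalRing.residue _ a) := rfl
  rw [h1, EmbeddingLike.map_eq_zero_iff, IsLocalRing.residue_eq_zero_iff,
    IsLocalRing.mem_maximalIdeal, mem_nonunits_iff]

theorem placeRes_ker (v : Place K F) (hbij : Function.Bijective (algebraMap K v.ResidueField))
    {π : v.toValuationSubring} (hπ : Irreducible π) :
    ∀ a : v.toValuationSubring, placeRes v hbij a = 0 → ∃ b : v.toValuationSubring, a = π * b := by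
  intro a ha
  rw [placeRes_eq_zero_iff] at ha
  have h1 : a ∈ IsLocalRing.maximalIdeal v.toValuationSubring := by
    rwa [IsLocalRing.mem_maximalIdeal, mem_nonunits_iff]
  rw [hπ.maximalIdeal_eq, Ideal.mem_span_singleton'] at h1
  obtain ⟨b, hb⟩ := h1
  exact ⟨b, by rw [← hb, mul_comm]⟩

/-- The power series expansion at a place along the uniformizer `π`. -/
def placeExp (v : Place K F) (hbij : Function.Bijective (algebraMap K v.ResidueField))
    {π : v.toValuationSubring} (hπ : Irreducible π) :
    v.toValuationSubring →ₐ[K] PowerSeries K :=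
  expHom (placeRes v hbij) π (placeRes_ker v hbij hπ) hπ.ne_zero
    ((placeRes_eq_zero_iff v hbij π).mpr hπ.not_isUnit)

theorem placeExp_pi (v : Place K F) (hbij : Function.Bijective (algebraMap K v.ResidueField))
    {π : v.toValuationSubring} (hπ : Irreducible π) :
    placeExp v hbij hπ π = PowerSeries.X :=
  expHom_t _ _ _ _ _

/-- The expansion has the same order as the element. -/
theorem placeExp_order (v : Place K F) (hbij : Function.Bijective (algebraMap K v.ResidueField))
    {π : v.toValuationSubring} (hπ : Irreducible π) (a : v.toValuationSubring) (ha : a ≠ 0) :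
    ∃ n : ℕ, v.ord (a : F) = n ∧ (placeExp v hbij hπ a).order = n := by
  obtain ⟨n, u, rfl⟩ := IsDiscreteValuationRing.eq_unit_mul_pow_irreducible ha hπ
  refine ⟨n, place_ord_unit_mul_pow v hπ u n, ?_⟩
  refine order_expHom _ _ _ _ _ _ (u : v.toValuationSubring) n ?_ (mul_comm _ _)
  rw [Ne, placeRes_eq_zero_iff, not_not]
  exact u.isUnit

theorem placeExp_ne_zero (v : Place K F) (hbij : Function.Bijective (algebraMap K v.ResidueField))
    {π : v.toValuationSubring} (hπ : Irreducible π) (a : v.toValuationSubring) (ha : a ≠ 0) :
    placeExp v hbij hπ a ≠ 0 := by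
  obtain ⟨n, -, hn⟩ := placeExp_order v hbij hπ a ha
  intro h0
  rw [h0, PowerSeries.order_zero] at hn
  exact ENat.top_ne_natCast n hn

/-- The order of the derivative of a power series of positive order, in characteristic zero. -/
theorem order_derivative_of_pos [CharZero K] (f : PowerSeries K) (n : ℕ) (hn : 0 < n)
    (hf : f.order = n) : (PowerSeries.derivative K f).order = (n - 1 : ℕ) := by
  rw [PowerSeries.order_eq_nat] at hf ⊢
  obtain ⟨h1, h2⟩ := hf
  refine ⟨?_, fun i hi => ?_⟩
  · rw [PowerSeries.coeff_derivative, Nat.sub_add_cancel hn]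
    refine mul_ne_zero h1 ?_
    have h3 : (n - 1) + 1 = n := Nat.sub_add_cancel hn
    have : ((n - 1 : ℕ) : K) + 1 = (n : K) := by exact_mod_cast h3
    rw [this]
    exact Nat.cast_ne_zero.mpr (by omega)
  · rw [PowerSeries.coeff_derivative, h2 (i + 1) (by omega), zero_mul]

/-- The key relation: a linear relation between `d u` and `d π` in `Ω[F/K]` is reflected by the
expansions. -/
theorem place_key (v : Place K F) (hbij : Function.Bijective (algebraMap K v.ResidueField))
    {π : v.toValuationSubring} (hπ : Irreducible π) (u s a : v.toValuationSubring)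
    (h : (s : F) • D K F (u : F) = (a : F) • D K F (π : F)) :
    placeExp v hbij hπ s * PowerSeries.derivative K (placeExp v hbij hπ u)
      = placeExp v hbij hπ a := by
  let algθ : Algebra v.toValuationSubring (PowerSeries K) :=
    (placeExp v hbij hπ).toRingHom.toAlgebra
  have : IsScalarTower K v.toValuationSubring (PowerSeries K) :=
    IsScalarTower.of_algebraMap_eq (fun c => ((placeExp v hbij hπ).commutes c).symm)
  let δ : Derivation K v.toValuationSubring (PowerSeries K) :=
    (PowerSeries.derivative K).compAlgebraMap v.toValuationSubring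
  have hδ : ∀ y : v.toValuationSubring, δ y = PowerSeries.derivative K (placeExp v hbij hπ y) :=
    fun y => rfl
  let ω₀ : Ω[v.toValuationSubring⁄K] := s • D K _ u - a • D K _ π
  have hmap : KaehlerDifferential.map K K v.toValuationSubring F ω₀ = 0 := by
    simp only [ω₀, map_sub, map_smul, KaehlerDifferential.map_D]
    rw [sub_eq_zero]
    exact h
  obtain ⟨c, hc⟩ := (IsLocalizedModule.eq_zero_iff (nonZeroDivisors v.toValuationSubring)
    (KaehlerDifferential.map K K v.toValuationSubring F)).mp hmap
  have hc' : (c : v.toValuationSubring) • ω₀ = 0 := hc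
  have hL := congrArg δ.liftKaehlerDifferential hc'
  rw [map_smul, map_zero] at hL
  have hc0 : placeExp v hbij hπ (c : v.toValuationSubring) ≠ 0 :=
    placeExp_ne_zero v hbij hπ _ (nonZeroDivisors.ne_zero c.2)
  have hL' : placeExp v hbij hπ (c : v.toValuationSubring) * δ.liftKaehlerDifferential ω₀ = 0 := hL
  have hL0 : δ.liftKaehlerDifferential ω₀ = 0 := (mul_eq_zero.mp hL').resolve_left hc0
  simp only [ω₀, map_sub, map_smul, Derivation.liftKaehlerDifferential_comp_D, hδ] at hL0
  have hπ' : PowerSeries.derivative K (placeExp v hbij hπ π) = 1 := by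
    rw [placeExp_pi]
    exact PowerSeries.derivative_X
  rw [hπ'] at hL0
  have e1 : s • PowerSeries.derivative K (placeExp v hbij hπ u)
      = placeExp v hbij hπ s * PowerSeries.derivative K (placeExp v hbij hπ u) := rfl
  have e2 : a • (1 : PowerSeries K) = placeExp v hbij hπ a * 1 := rfl
  rw [e1, e2, mul_one, sub_eq_zero] at hL0
  exact hL0

end PlaceExpansion

/-! ### The module of differentials of a function field -/

section Differentials

open IntermediateField Polynomial

variable {K F : Type*} [Field K] [Field F] [Algebra K F]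

/-- Differentials of elements of `K(x)` are multiples of `d x`. -/
theorem D_mem_span_of_mem_adjoin (x y : F) (hy : y ∈ K⟮x⟯) :
    D K F y ∈ Submodule.span F {D K F x} := by
  obtain ⟨r, s, rfl⟩ := (mem_adjoin_simple_iff K _).mp hy
  rw [Derivation.leibniz_div, Derivation.map_aeval, Derivation.map_aeval]
  refine Submodule.smul_mem _ _ (Submodule.sub_mem _ ?_ ?_)
  · exact Submodule.smul_mem _ _ (Submodule.smul_mem _ _ (Submodule.mem_span_singleton_self _))
  · exact Submodule.smul_mem _ _ (Submodule.smul_mem _ _ (Submodule.mem_span_singleton_self _))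

/-- Chain rule modulo `d x` for polynomials with coefficients in `K(x)`. -/
theorem D_aeval_sub_mem_span (x y : F) (Q : Polynomial K⟮x⟯) :
    D K F (aeval y Q) - aeval y (derivative Q) • D K F y ∈ Submodule.span F {D K F x} := by
  induction Q using Polynomial.induction_on' with
  | add p q hp hq =>
    have : D K F (aeval y (p + q)) - aeval y (derivative (p + q)) • D K F y
        = (D K F (aeval y p) - aeval y (derivative p) • D K F y)
          + (D K F (aeval y q) - aeval y (derivative q) • D K F y) := by
      rw [map_add, map_add, derivative_add, map_add, add_smul]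
      abel
    rw [this]
    exact Submodule.add_mem _ hp hq
  | monomial n a =>
    have h1 : aeval y (monomial n a) = (a : F) * y ^ n := by
      rw [aeval_monomial]
      rfl
    have h2 : aeval y (derivative (monomial n a)) = (a : F) * (n : F) * y ^ (n - 1) := by
      rw [derivative_monomial, aeval_monomial, map_mul, map_natCast]
      rfl
    have h3 : D K F ((a : F) * y ^ n) - ((a : F) * (n : F) * y ^ (n - 1)) • D K F y
        = y ^ n • D K F (a : F) := by
      rw [Derivation.leibniz, Derivation.leibniz_pow]
      have e : (a : F) • (n • y ^ (n - 1) • D K F y)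
          = ((a : F) * (n : F) * y ^ (n - 1)) • D K F y := by
        rw [← Nat.cast_smul_eq_nsmul F, smul_smul, smul_smul, mul_assoc]
      rw [e]
      abel
    rw [h1, h2, h3]
    exact Submodule.smul_mem _ _ (D_mem_span_of_mem_adjoin x _ a.2)

/-- If `F` is algebraic over `K(x)` (characteristic zero), every differential is a multiple of
`d x`. -/
theorem D_mem_span [CharZero K] (x : F) [Algebra.IsAlgebraic K⟮x⟯ F] (y : F) :
    D K F y ∈ Submodule.span F {D K F x} := by
  have hint : IsIntegral K⟮x⟯ y := (Algebra.IsAlgebraic.isAlgebraic y).isIntegral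
  have hsep : (minpoly K⟮x⟯ y).Separable := (minpoly.irreducible hint).separable
  have h0 : aeval y (minpoly K⟮x⟯ y) = 0 := minpoly.aeval _ _
  have hne : aeval y (derivative (minpoly K⟮x⟯ y)) ≠ 0 := hsep.aeval_derivative_ne_zero h0
  have hmem := D_aeval_sub_mem_span x y (minpoly K⟮x⟯ y)
  rw [h0, map_zero, zero_sub] at hmem
  have h2 := Submodule.smul_mem _ (-(aeval y (derivative (minpoly K⟮x⟯ y)))⁻¹) hmem
  rw [smul_neg, neg_smul, neg_neg, smul_smul, inv_mul_cancel₀ hne, one_smul] at h2
  exact h2

theorem span_D_eq_top [CharZero K] (x : F) [Algebra.IsAlgebraic K⟮x⟯ F] :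
    Submodule.span F {D K F x} = ⊤ := by
  rw [eq_top_iff, ← KaehlerDifferential.span_range_derivation K F, Submodule.span_le]
  rintro _ ⟨y, rfl⟩
  exact D_mem_span x y

end Differentials

/-! ### Orders of differentials at places -/

section OrdDifferential

open IntermediateField

variable {K F : Type*} [Field K] [Field F] [Algebra K F]

/-- The coordinate differential of a place is `d π` for a uniformizer `π`. -/
theorem place_dCoord (v : Place K F) :
    ∃ π : v.toValuationSubring, Irreducible π ∧ v.dCoord = D K F (π : F) :=
  ⟨_, (IsDiscreteValuationRing.exists_irreducible v.toValuationSubring).choose_spec, rfl⟩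

/-- Elements of nonnegative order lie in the valuation ring. -/
theorem place_mem_of_ord_nonneg (v : Place K F) {f : F} (hf : 0 ≤ v.ord f) :
    f ∈ v.toValuationSubring := by
  rcases eq_or_ne f 0 with rfl | hf0
  · exact zero_mem _
  obtain ⟨π, hπ⟩ := IsDiscreteValuationRing.exists_irreducible v.toValuationSubring
  obtain ⟨u, hu⟩ := v.exists_unit_mul_zpow hf0 hπ
  obtain ⟨n, hn⟩ := Int.eq_ofNat_of_zero_le hf
  rw [hu, hn, zpow_natCast]
  exact mul_mem (Subtype.property _) (pow_mem (Subtype.property _) _)

theorem place_ord_neg (v : Place K F) (f : F) : v.ord (-f) = v.ord f := by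
  rcases eq_or_ne f 0 with rfl | hf0
  · rw [neg_zero]
  have h1 : v.ord (-1 : F) = 0 := by
    have h := v.ord_mul (f := (-1 : F)) (g := -1) (by simp) (by simp)
    rw [show (-1 : F) * -1 = 1 by ring, v.ord_one] at h
    omega
  have h2 := v.ord_mul (f := (-1 : F)) (g := f) (by simp) hf0
  rw [h1, zero_add, neg_one_mul] at h2
  exact h2

variable [IsAlgClosed K] [CharZero K]

/-- `d π ≠ 0` for a uniformizer `π` of a place. -/
theorem place_D_uniformizer_ne_zero (x : F) [Algebra.IsAlgebraic K⟮x⟯ F] (v : Place K F)
    {π : v.toValuationSubring} (hπ : Irreducible π) : D K F (π : F) ≠ 0 := by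
  intro h0
  have hbij := place_residue_bijective v x
  have h := place_key v hbij hπ π 1 0 (by rw [h0, smul_zero, smul_zero])
  rw [map_one, map_zero, one_mul, placeExp_pi, PowerSeries.derivative_X] at h
  exact one_ne_zero h

/-- The module of differentials of a function field having a place is nonzero. -/
theorem kaehler_nontrivial_of_place (x : F) [Algebra.IsAlgebraic K⟮x⟯ F] (v : Place K F) :
    Nontrivial Ω[F⁄K] := by
  obtain ⟨π, hπ, -⟩ := place_dCoord v
  exact ⟨⟨_, 0, place_D_uniformizer_ne_zero x v hπ⟩⟩

/-- Every differential is a multiple of `d π`. -/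
theorem place_span_D_uniformizer (x : F) [Algebra.IsAlgebraic K⟮x⟯ F] (v : Place K F)
    {π : v.toValuationSubring} (hπ : Irreducible π) :
    Submodule.span F {D K F (π : F)} = ⊤ := by
  have hx := span_D_eq_top (K := K) x
  have hπx : D K F (π : F) ∈ Submodule.span F {D K F x} := D_mem_span x _
  obtain ⟨c, hc⟩ := Submodule.mem_span_singleton.mp hπx
  have hc0 : c ≠ 0 := by
    rintro rfl
    rw [zero_smul] at hc
    exact place_D_uniformizer_ne_zero x v hπ hc.symm
  rw [eq_top_iff, ← hx, Submodule.span_le, Set.singleton_subset_iff]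
  refine Submodule.mem_span_singleton.mpr ⟨c⁻¹, ?_⟩
  rw [← hc, smul_smul, inv_mul_cancel₀ hc0, one_smul]

/-- The coordinate differential of every place generates the module of differentials. -/
theorem place_dCoordGenerates (x : F) [Algebra.IsAlgebraic K⟮x⟯ F] (v : Place K F) :
    v.DCoordGenerates := by
  obtain ⟨π, hπ, hd⟩ := place_dCoord v
  refine ⟨?_⟩
  rw [hd]
  exact place_span_D_uniformizer x v hπ

/-- `d x ≠ 0` as soon as the function field has a place. -/
theorem D_ne_zero_of_place (x : F) [Algebra.IsAlgebraic K⟮x⟯ F] (v : Place K F) :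
    D K F x ≠ 0 := by
  intro h0
  have := kaehler_nontrivial_of_place x v
  obtain ⟨ω, hω⟩ := exists_ne (0 : Ω[F⁄K])
  have hmem : ω ∈ Submodule.span F {D K F x} := by
    rw [span_D_eq_top (K := K) x]
    exact Submodule.mem_top
  rw [h0, Submodule.span_zero_singleton] at hmem
  exact hω hmem

/-- The coefficient of `d y` with respect to `d π`, for `y` in the valuation ring of positive
order, has order `ord y - 1`. -/
theorem place_ord_coeff (x : F) [Algebra.IsAlgebraic K⟮x⟯ F] (v : Place K F)
    {π : v.toValuationSubring} (hπ : Irreducible π) (y : F) (hy : 0 < v.ord y) (h : F)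
    (hh : D K F y = h • D K F (π : F)) : v.ord h = v.ord y - 1 := by
  have hbij := place_residue_bijective v x
  have hyA : y ∈ v.toValuationSubring := place_mem_of_ord_nonneg v hy.le
  have hy0 : (⟨y, hyA⟩ : v.toValuationSubring) ≠ 0 := by
    intro h0
    have : y = 0 := congrArg Subtype.val h0
    rw [this, v.ord_zero] at hy
    exact lt_irrefl _ hy
  obtain ⟨n, hn1, hn2⟩ := placeExp_order v hbij hπ ⟨y, hyA⟩ hy0
  have hn1' : v.ord y = n := hn1
  have hnpos : 0 < n := by omega
  obtain ⟨a, s, hs, has⟩ := IsFractionRing.div_surjective (A := v.toValuationSubring) h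
  have hs0 : s ≠ 0 := nonZeroDivisors.ne_zero hs
  have hsF : (s : F) ≠ 0 := fun h0 => hs0 (Subtype.ext h0)
  have hrel : (s : F) • D K F ((⟨y, hyA⟩ : v.toValuationSubring) : F)
      = (a : F) • D K F (π : F) := by
    show (s : F) • D K F y = _
    rw [hh, smul_smul, ← has]
    congr 1
    show (s : F) * ((a : F) / (s : F)) = (a : F)
    field_simp
  have hkey := place_key v hbij hπ ⟨y, hyA⟩ s a hrel
  have hder := order_derivative_of_pos (placeExp v hbij hπ ⟨y, hyA⟩) n hnpos hn2
  have ha0 : a ≠ 0 := by
    rintro rfl
    rw [map_zero] at hkey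
    rcases mul_eq_zero.mp hkey with h1 | h1
    · exact placeExp_ne_zero v hbij hπ s hs0 h1
    · rw [h1, PowerSeries.order_zero] at hder
      exact ENat.top_ne_natCast _ hder
  obtain ⟨m, hm1, hm2⟩ := placeExp_order v hbij hπ a ha0
  obtain ⟨k, hk1, hk2⟩ := placeExp_order v hbij hπ s hs0
  have hord := congrArg PowerSeries.order hkey
  rw [PowerSeries.order_mul, hk2, hder, hm2] at hord
  have hnat : k + (n - 1) = m := by exact_mod_cast hord
  have haF : (a : F) ≠ 0 := fun h0 => ha0 (Subtype.ext h0)
  have hh' : h = (a : F) * (s : F)⁻¹ := by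
    rw [← has, div_eq_mul_inv]
    rfl
  rw [hh', v.ord_mul haF (inv_ne_zero hsF), v.ord_inv, hm1, hk1, hn1']
  omega

/-- **Order of an exact differential.** At a place `v` of a function field over an algebraically
closed field of characteristic zero, `ord_v (d y) = ord_v y - 1` whenever `ord_v y ≠ 0`. -/
theorem place_ordDifferential_D (x : F) [Algebra.IsAlgebraic K⟮x⟯ F] (v : Place K F) (y : F)
    (hy : v.ord y ≠ 0) : v.ordDifferential (D K F y) = v.ord y - 1 := by
  have := place_dCoordGenerates x v
  have := kaehler_nontrivial_of_place x v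
  obtain ⟨π, hπ, hd⟩ := place_dCoord v
  -- the case of positive order
  have key : ∀ z : F, 0 < v.ord z → v.ordDifferential (D K F z) = v.ord z - 1 := by
    intro z hz
    obtain ⟨h, hh⟩ := v.exists_eq_smul_dCoord (D K F z)
    have hcoef : v.differentialCoeff (D K F z) = h := v.differentialCoeff_unique hh
    rw [Place.ordDifferential, hcoef]
    rw [hd] at hh
    exact place_ord_coeff x v hπ z hz h hh
  rcases lt_or_gt_of_ne hy with hneg | hpos
  · have hy0 : y ≠ 0 := by
      rintro rfl
      rw [v.ord_zero] at hneg
      exact lt_irrefl _ hneg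
    have hinv : 0 < v.ord y⁻¹ := by
      rw [v.ord_inv]
      omega
    have h1 := key y⁻¹ hinv
    have h2 : D K F y = (-(y ^ 2)) • D K F y⁻¹ := by
      have := Derivation.leibniz_inv (D K F) y⁻¹
      rw [inv_inv] at this
      rw [this]
    have hcoef : v.differentialCoeff (D K F y⁻¹) ≠ 0 := by
      intro h0
      have hzero : v.ordDifferential (D K F y⁻¹) = 0 := by
        rw [Place.ordDifferential, h0, v.ord_zero]
      have hsm := v.differentialCoeff_smul_dCoord (D K F y⁻¹)
      rw [h0, zero_smul] at hsm
      -- then `d y⁻¹ = 0`, so the coefficient relation gives order `ord y⁻¹ - 1`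
      have hh : D K F y⁻¹ = (0 : F) • D K F (π : F) := by rw [zero_smul, ← hsm]
      have := place_ord_coeff x v hπ y⁻¹ hinv 0 hh
      rw [v.ord_zero] at this
      have h3 := place_D_uniformizer_ne_zero x v hπ
      -- `ord y⁻¹ = 1`, and `d y⁻¹ = 0` contradicts the key relation
      have hbij := place_residue_bijective v x
      have hyA : y⁻¹ ∈ v.toValuationSubring := place_mem_of_ord_nonneg v hinv.le
      have hrel : ((1 : v.toValuationSubring) : F) • D K F ((⟨y⁻¹, hyA⟩ : v.toValuationSubring) : F)
          = ((0 : v.toValuationSubring) : F) • D K F (π : F) := by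
        show (1 : F) • D K F y⁻¹ = (0 : F) • _
        rw [one_smul, zero_smul, ← hsm]
      have hkey := place_key v hbij hπ ⟨y⁻¹, hyA⟩ 1 0 hrel
      rw [map_one, map_zero, one_mul] at hkey
      have hy0' : (⟨y⁻¹, hyA⟩ : v.toValuationSubring) ≠ 0 := by
        intro h0
        exact inv_ne_zero hy0 (congrArg Subtype.val h0)
      obtain ⟨n, hn1, hn2⟩ := placeExp_order v hbij hπ ⟨y⁻¹, hyA⟩ hy0'
      have hn1' : v.ord y⁻¹ = n := hn1
      have hder := order_derivative_of_pos (placeExp v hbij hπ ⟨y⁻¹, hyA⟩) n (by omega) hn2
      rw [hkey, PowerSeries.order_zero] at hder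
      exact ENat.top_ne_natCast _ hder
    have hc : -(y ^ 2) ≠ 0 := neg_ne_zero.mpr (pow_ne_zero 2 hy0)
    rw [h2, v.ordDifferential_smul hc hcoef, h1, place_ord_neg, v.ord_inv, pow_two,
      v.ord_mul hy0 hy0]
    ring
  · exact key y hpos

/-- The order of `d x` at a zero of `x - c`. -/
theorem place_ordDifferential_D_sub (x : F) [Algebra.IsAlgebraic K⟮x⟯ F] (v : Place K F) (c : K)
    (h : v.ord (x - algebraMap K F c) ≠ 0) :
    v.ordDifferential (D K F x) = v.ord (x - algebraMap K F c) - 1 := by
  have h1 := place_ordDifferential_D x v (x - algebraMap K F c) h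
  rwa [map_sub, Derivation.map_algebraMap, sub_zero] at h1

/-- The coefficient of a nonzero differential with respect to the coordinate differential is
nonzero. -/
theorem place_differentialCoeff_ne_zero (x : F) [Algebra.IsAlgebraic K⟮x⟯ F] (v : Place K F)
    {ω : Ω[F⁄K]} (hω : ω ≠ 0) : v.differentialCoeff ω ≠ 0 := by
  have := place_dCoordGenerates x v
  intro h0
  have hsm := v.differentialCoeff_smul_dCoord ω
  rw [h0, zero_smul] at hsm
  exact hω hsm.symm

/-- Orders of differentials are additive under scaling. -/
theorem place_ordDifferential_smul (x : F) [Algebra.IsAlgebraic K⟮x⟯ F] (v : Place K F)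
    {c : F} (hc : c ≠ 0) {ω : Ω[F⁄K]} (hω : ω ≠ 0) :
    v.ordDifferential (c • ω) = v.ord c + v.ordDifferential ω := by
  have := place_dCoordGenerates x v
  have := kaehler_nontrivial_of_place x v
  exact v.ordDifferential_smul hc (place_differentialCoeff_ne_zero x v hω)

/-- Every nonzero differential is `g • d x` with `g ≠ 0`, and its order at any place is
`ord g + ord (d x)`. -/
theorem exists_eq_smul_D (x : F) [Algebra.IsAlgebraic K⟮x⟯ F] (ω : Ω[F⁄K]) (hω : ω ≠ 0) :
    ∃ g : F, g ≠ 0 ∧ ω = g • D K F x ∧
      ∀ v : Place K F, v.ordDifferential ω = v.ord g + v.ordDifferential (D K F x) := by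
  have hmem : ω ∈ Submodule.span F {D K F x} := by
    rw [span_D_eq_top (K := K) x]
    exact Submodule.mem_top
  obtain ⟨g, hg⟩ := Submodule.mem_span_singleton.mp hmem
  have hg0 : g ≠ 0 := by
    rintro rfl
    rw [zero_smul] at hg
    exact hω hg.symm
  refine ⟨g, hg0, hg.symm, fun v => ?_⟩
  rw [← hg]
  exact place_ordDifferential_smul x v hg0 (D_ne_zero_of_place x v)

end OrdDifferential

end

end Fermat.Agent.S24
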