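import Fermat.Agent.S24.SumFormula

/-!
# S24: principal divisors have finite support and degree zero

For `F` finite over `K(x)` with `K` algebraically closed of characteristic zero and `f ≠ 0` in
`F`: the orders of `f` at the places of `F / K` vanish for all but finitely many places and add up
to zero.  (`f` is either constant or transcendental; in the latter case `F` is finite over
`K(f)` and the zeros of `f` and of `f⁻¹` are both counted by `[F : K(f)]`.)
-/

set_option autoImplicit false
set_option linter.unusedSectionVars false
set_option linter.unusedVariables false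
set_option linter.style.haveILetI false

open AlgebraicCurve IntermediateField

namespace Fermat.Agent.S24

universe u v

section A4

variable {K : Type u} {F : Type v} [Field K] [Field F] [Algebra K F]

open scoped IntermediateField.algebraAdjoinAdjoin in
/-- `F` finite over `K(x)` and `f` transcendental over `K`: then `F` is algebraic over `K(f)`. -/
theorem a4_isAlgebraic_of_transcendental (x : F) [FiniteDimensional K⟮x⟯ F] {f : F}
    (hf : Transcendental K f) : Algebra.IsAlgebraic K⟮f⟯ F := by
  have h0 : Algebra.IsAlgebraic K⟮x⟯ F := inferInstance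
  have h1 : Algebra.IsAlgebraic (Algebra.adjoin K ({x} : Set F)) F :=
    (IsFractionRing.comap_isAlgebraic_iff (A := Algebra.adjoin K ({x} : Set F))
      (K := K⟮x⟯) (C := F)).mpr h0
  have h2 : Algebra.trdeg K F ≤ 1 := by
    have h := Algebra.IsAlgebraic.trdeg_le_cardinalMk K ({x} : Set F)
    simpa using h
  have h3 : IsTranscendenceBasis K (fun _ : PUnit.{v + 1} => f) :=
    AlgebraicIndependent.isTranscendenceBasis_of_trdeg_le_of_finite
      (algebraicIndependent_unique_type_iff.mpr hf) (by simpa using h2)
  have h4 := h3.isAlgebraic_field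
  rwa [Set.range_const] at h4

/-- `F` finite over `K(x)` and `f` transcendental over `K`: then `F` is finite over `K(f)`. -/
theorem a4_finiteDimensional_of_transcendental (x : F) [FiniteDimensional K⟮x⟯ F] {f : F}
    (hf : Transcendental K f) : FiniteDimensional K⟮f⟯ F := by
  have halg := a4_isAlgebraic_of_transcendental x hf
  -- the intermediate field `E = K(f)(x)`
  have hxint : IsIntegral K⟮f⟯ x := Algebra.IsIntegral.isIntegral x
  have hE : FiniteDimensional K⟮f⟯ K⟮f⟯⟮x⟯ := IntermediateField.adjoin.finiteDimensional hxint
  have hle : K⟮x⟯ ≤ (K⟮f⟯⟮x⟯).restrictScalars K := by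
    rw [adjoin_simple_le_iff]
    exact mem_adjoin_simple_self K⟮f⟯ x
  letI : Algebra K⟮x⟯ K⟮f⟯⟮x⟯ := (IntermediateField.inclusion hle).toRingHom.toAlgebra
  haveI : IsScalarTower K⟮x⟯ K⟮f⟯⟮x⟯ F := IsScalarTower.of_algebraMap_eq fun _ => rfl
  haveI : Module.Finite K⟮f⟯⟮x⟯ F := Module.Finite.of_restrictScalars_finite K⟮x⟯ K⟮f⟯⟮x⟯ F
  exact Module.Finite.trans K⟮f⟯⟮x⟯ F

/-- over an algebraically closed field, algebraic elements are constants -/
theorem a4_mem_range_of_isAlgebraic [IsAlgClosed K] {f : F} (hf : IsAlgebraic K f) :
    ∃ c : K, algebraMap K F c = f := by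
  have hint : IsIntegral K f := hf.isIntegral
  have hdeg : (minpoly K f).degree = 1 :=
    IsAlgClosed.degree_eq_one_of_irreducible K (minpoly.irreducible hint)
  exact minpoly.mem_range_of_degree_eq_one K f hdeg

theorem a4_support_subset (f : F) :
    (Function.support fun P : Place K F => P.ord f) ⊆ zeroPlaces K f ∪ zeroPlaces K f⁻¹ := by
  intro P hP
  have h : P.ord f ≠ 0 := hP
  rcases lt_or_gt_of_ne h with h1 | h1
  · right
    show 0 < P.ord f⁻¹
    rw [P.ord_inv]
    omega
  · left
    exact h1

variable [IsAlgClosed K] [CharZero K]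

/-- A4: principal divisors have finite support. -/
theorem ord_support_finite (x : F) (hx : Transcendental K x) [FiniteDimensional K⟮x⟯ F]
    (f : F) (hf : f ≠ 0) : (Function.support fun P : Place K F => P.ord f).Finite := by
  by_cases hfa : IsAlgebraic K f
  · obtain ⟨c, rfl⟩ := a4_mem_range_of_isAlgebraic hfa
    have h : (Function.support fun P : Place K F => P.ord (algebraMap K F c)) = ∅ := by
      ext P
      simp [sf_ord_algebraMap]
    rw [h]
    exact Set.finite_empty
  · have hft : Transcendental K f := hfa
    haveI := a4_finiteDimensional_of_transcendental x hft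
    haveI := sf_finiteDimensional_inv (K := K) f
    exact ((zeroPlaces_finite f hft).union
      (zeroPlaces_finite f⁻¹ (sf_transcendental_inv hft))).subset (a4_support_subset f)

/-- A4: principal divisors have degree zero. -/
theorem finsum_ord_eq_zero (x : F) (hx : Transcendental K x) [FiniteDimensional K⟮x⟯ F]
    (f : F) (hf : f ≠ 0) : ∑ᶠ P : Place K F, P.ord f = 0 := by
  by_cases hfa : IsAlgebraic K f
  · obtain ⟨c, rfl⟩ := a4_mem_range_of_isAlgebraic hfa
    simp [sf_ord_algebraMap]
  · have hft : Transcendental K f := hfa
    haveI := a4_finiteDimensional_of_transcendental x hft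
    haveI := sf_finiteDimensional_inv (K := K) f
    have hZ := zeroPlaces_finite f hft
    have hZ' := zeroPlaces_finite f⁻¹ (sf_transcendental_inv hft)
    have hdisj : Disjoint (zeroPlaces K f) (zeroPlaces K f⁻¹) := by
      rw [Set.disjoint_left]
      intro P h1 h2
      have h1' : 0 < P.ord f := h1
      have h2' : 0 < P.ord f⁻¹ := h2
      rw [P.ord_inv] at h2'
      omega
    have h1 : ∑ᶠ P : Place K F, P.ord f =
        ∑ᶠ P ∈ zeroPlaces K f ∪ zeroPlaces K f⁻¹, P.ord f := by
      rw [finsum_mem_def, Set.indicator_eq_self.mpr (a4_support_subset f)]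
    have h2 : ∑ᶠ P ∈ zeroPlaces K f⁻¹, P.ord f = -∑ᶠ P ∈ zeroPlaces K f⁻¹, P.ord f⁻¹ := by
      rw [← finsum_mem_neg_distrib _ hZ']
      exact finsum_mem_congr rfl fun P _ => by rw [P.ord_inv, neg_neg]
    rw [h1, finsum_mem_union hdisj hZ hZ', h2, finsum_ord_zeroPlaces f hft,
      finsum_ord_zeroPlaces f⁻¹ (sf_transcendental_inv hft), sf_finrank_inv f]
    ring

end A4

section A4extra

variable {K : Type u} {F : Type v} [Field K] [Field F] [Algebra K F]

/-- If `F` is algebraic over `K(x)` with `x` transcendental, it is algebraic over `K(f)` for every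
transcendental `f`. -/
theorem a4_isAlgebraic {x f : F} (hx : Transcendental K x) [Algebra.IsAlgebraic K⟮x⟯ F]
    (hf : Transcendental K f) : Algebra.IsAlgebraic K⟮f⟯ F := by
  have hxi : AlgebraicIndependent K (fun _ : PUnit.{v + 1} => x) :=
    algebraicIndependent_unique_type_iff.mpr hx
  have hxb : IsTranscendenceBasis K (fun _ : PUnit.{v + 1} => x) := by
    rw [hxi.isTranscendenceBasis_iff_isAlgebraic, Set.range_const]
    exact IntermediateField.isAlgebraic_adjoin_iff_top.mp inferInstance
  have htr : Cardinal.mk PUnit.{v + 1} = Algebra.trdeg K F := hxb.cardinalMk_eq_trdeg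
  have hfi : AlgebraicIndependent K (fun _ : PUnit.{v + 1} => f) :=
    algebraicIndependent_unique_type_iff.mpr hf
  have hfb : IsTranscendenceBasis K (fun _ : PUnit.{v + 1} => f) :=
    hfi.isTranscendenceBasis_of_trdeg_le_of_finite htr.ge
  have h := hfb.isAlgebraic_field
  rwa [Set.range_const] at h

/-- If `F` is finite over `K(x)`, it is finite over `K(f)` for every transcendental `f`. -/
theorem a4_finiteDimensional {x f : F} (hx : Transcendental K x) [FiniteDimensional K⟮x⟯ F]
    (hf : Transcendental K f) : FiniteDimensional K⟮f⟯ F :=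
  a4_finiteDimensional_of_transcendental x hf

/-- Over an algebraically closed field, an element of an extension field is constant or
transcendental. -/
theorem a4_const_or_transcendental [IsAlgClosed K] (f : F) :
    (∃ c : K, f = algebraMap K F c) ∨ Transcendental K f := by
  by_cases h : IsAlgebraic K f
  · obtain ⟨c, hc⟩ := a4_mem_range_of_isAlgebraic h
    exact Or.inl ⟨c, hc.symm⟩
  · exact Or.inr h

end A4extra

end Fermat.Agent.S24
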