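import Mathlib
import Fermat.Prelude.Def_AlgebraicCurve_CanonicalDivisor
import Fermat.Prelude.Def_ModularCurve_GenusNumerics
import Fermat.Prelude.Def_ModularCurve_ArithmeticGalois

/-!
# S24: shared definitions

Shared vocabulary for the computation of the genus of the function field of `X₀(N)`:
places cut out by ring homomorphisms into Laurent series, zero places of a function,
number of orbits of a permutation, full systems of Laurent points above `x = 0`.
-/

set_option autoImplicit false

open AlgebraicCurve IntermediateField

namespace Fermat.Agent.S24

/-- `P` is the place of `F / K` cut out by the ring homomorphism `φ : F → L((s))`: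
its valuation ring consists of the `f` with `φ f` of nonnegative order. -/
def IsPlaceOf {K F L : Type*} [Field K] [Field F] [Algebra K F] [Field L]
    (P : Place K F) (φ : F →+* LaurentSeries L) : Prop :=
  ∀ f : F, f ∈ P.toValuationSubring ↔ 0 ≤ (φ f).order

/-- The places of `F / K` at which `x` vanishes. -/
def zeroPlaces (K : Type*) {F : Type*} [Field K] [Field F] [Algebra K F] (x : F) :
    Set (Place K F) :=
  {P | 0 < P.ord x}

/-- The number of orbits (cycles, fixed points included) of a permutation. -/
noncomputable def orbCount {X : Type*} (π : Equiv.Perm X) : ℕ :=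
  Nat.card (MulAction.orbitRel.Quotient (Subgroup.zpowers π) X)

/-- A full system of Laurent-series points of `F / K` above `x = 0`: as many pairwise distinct
ring homomorphisms `F → L((s))` as the degree `[F : K(x)]`, all agreeing on `K(x)`, constant on
`K`, with `x` of order `e₀ > 0`, together with a permutation `π` of the index set under which
orders are invariant and such that the orders taken by the `i`-th homomorphism are divisible by
`e₀ / (length of the π-orbit of i)`. -/
structure LaurentSystem (K : Type*) {F : Type*} [Field K] [Field F] [Algebra K F] (x : F)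
    (L : Type*) [Field L] (ι : Type*) where
  /-- the homomorphisms -/
  φ : ι → F →+* LaurentSeries L
  /-- the embedding of the constants -/
  base : K →+* L
  map_const : ∀ (i : ι) (c : K), φ i (algebraMap K F c) = HahnSeries.C (base c)
  injective : Function.Injective φ
  map_x : ∀ i j : ι, φ i x = φ j x
  /-- the order of `x` -/
  e₀ : ℕ
  e₀_pos : 0 < e₀
  order_x : ∀ i : ι, (φ i x).order = (e₀ : ℤ)
  card_eq : Nat.card ι = Module.finrank K⟮x⟯ F
  /-- the symmetry -/
  π : Equiv.Perm ι
  order_π : ∀ (i : ι) (f : F), (φ (π i) f).order = (φ i f).order
  dvd : ∀ (i : ι) (f : F), f ≠ 0 →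
    (e₀ : ℤ) ∣ (Function.minimalPeriod π i : ℤ) * (φ i f).order

/-- The element `j` of the function field of `X₀(N)` over `ℚ̄`. -/
noncomputable def jBar (N : ℕ) [NeZero N] : ↥(ModularCurve.modularFunctionFieldBar N) :=
  ⟨ModularCurve.coeffEmb (AlgebraicClosure ℚ) ModularCurve.jq,
    ModularCurve.coeffEmb_mem_laurentBaseChange (AlgebraicClosure ℚ)
      (by
        have h := ModularCurve.jqd_mem_full N (one_dvd N)
        rwa [ModularCurve.qExpand_one_apply] at h)⟩

end Fermat.Agent.S24
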