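import Fermat.Agent.S24.SumFormulaBase
import Fermat.Agent.S24.Defs
import Fermat.Agent.S24.Differential

/-!
# S24: the sum formula for a function field over an algebraically closed field

For `F` finite over `K(x)`, `K` algebraically closed of characteristic zero:
places are centred at a unique value of `x` or at infinity, the zero places of `x` are finite
in number and their orders add up to `[F : K(x)]`; norm formula and approximation at the zero
places of `x`; finiteness of `F` over `K(f)` for non-constant `f`.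
-/

set_option autoImplicit false
set_option linter.unusedSectionVars false
set_option linter.style.haveILetI false

open AlgebraicCurve IsDedekindDomain IntermediateField
open scoped IntermediateField.algebraAdjoinAdjoin

namespace Fermat.Agent.S24

variable {K F : Type*} [Field K] [Field F] [Algebra K F]

theorem sf_ord_neg (v : Place K F) (f : F) : v.ord (-f) = v.ord f := by
  rcases eq_or_ne f 0 with rfl | hf
  · simp
  have h1 : (-1 : F) = algebraMap K F (-1) := by simp
  rw [neg_eq_neg_one_mul, v.ord_mul (by simp) hf, h1, sf_ord_algebraMap, zero_add]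

theorem sf_adjoin_sub (x : F) (c : K) : K⟮x - algebraMap K F c⟯ = K⟮x⟯ := by
  apply le_antisymm
  · rw [adjoin_simple_le_iff]
    exact sub_mem (mem_adjoin_simple_self K x) (IntermediateField.algebraMap_mem _ c)
  · rw [adjoin_simple_le_iff]
    have h := add_mem (mem_adjoin_simple_self K (x - algebraMap K F c))
      (IntermediateField.algebraMap_mem K⟮x - algebraMap K F c⟯ c)
    simpa using h

theorem sf_adjoin_inv (x : F) : K⟮x⁻¹⟯ = K⟮x⟯ := by
  apply le_antisymm
  · rw [adjoin_simple_le_iff]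
    exact inv_mem (mem_adjoin_simple_self K x)
  · rw [adjoin_simple_le_iff]
    have h := inv_mem (mem_adjoin_simple_self K x⁻¹)
    simpa using h

theorem sf_transcendental_sub {x : F} (hx : Transcendental K x) (c : K) :
    Transcendental K (x - algebraMap K F c) := by
  intro h
  apply hx
  have := h.add (isAlgebraic_algebraMap (R := K) (A := F) c)
  simpa using this

theorem sf_transcendental_inv {x : F} (hx : Transcendental K x) : Transcendental K x⁻¹ := by
  intro h
  apply hx
  have := h.inv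
  simpa using this

theorem sf_finiteDimensional_sub (x : F) [h : FiniteDimensional K⟮x⟯ F] (c : K) :
    FiniteDimensional K⟮x - algebraMap K F c⟯ F := by
  rw [sf_adjoin_sub]; exact h

theorem sf_finiteDimensional_inv (x : F) [h : FiniteDimensional K⟮x⟯ F] :
    FiniteDimensional K⟮x⁻¹⟯ F := by
  rw [sf_adjoin_inv]; exact h

theorem sf_finrank_sub (x : F) (c : K) :
    Module.finrank K⟮x - algebraMap K F c⟯ F = Module.finrank K⟮x⟯ F := by
  rw [sf_adjoin_sub]

theorem sf_finrank_inv (x : F) : Module.finrank K⟮x⁻¹⟯ F = Module.finrank K⟮x⟯ F := by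
  rw [sf_adjoin_inv]


theorem sf_ord_div (v : Place K F) {f g : F} (hf : f ≠ 0) (hg : g ≠ 0) :
    v.ord (f / g) = v.ord f - v.ord g := by
  rw [div_eq_mul_inv, v.ord_mul hf (inv_ne_zero hg), v.ord_inv]; ring

theorem sf_ord_pow (v : Place K F) (f : F) (n : ℕ) : v.ord (f ^ n) = n * v.ord f := by
  rw [← zpow_natCast, v.ord_zpow]

theorem sf_inertiaDeg_eq_one_of_surjective {R S : Type*} [CommRing R] [CommRing S] [Algebra R S]
    (p : Ideal R) (q : Ideal S) [q.LiesOver p] [hp : p.IsMaximal] [q.IsMaximal]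
    (h : ∀ b : S, ∃ a : R, b - algebraMap R S a ∈ q) : q.inertiaDeg R = 1 := by
  rw [Ideal.inertiaDeg_eq_of_isMaximal p q]
  have hsurj : Function.Surjective (algebraMap (R ⧸ p) (S ⧸ q)) := by
    intro w
    obtain ⟨b, rfl⟩ := Ideal.Quotient.mk_surjective w
    obtain ⟨a, ha⟩ := h b
    refine ⟨Ideal.Quotient.mk _ a, ?_⟩
    rw [Ideal.Quotient.algebraMap_mk_of_liesOver]
    symm
    rw [Ideal.Quotient.eq]
    exact ha
  have hinj : Function.Injective (algebraMap (R ⧸ p) (S ⧸ q)) :=
    FaithfulSMul.algebraMap_injective _ _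
  have : Nontrivial (R ⧸ p) := Ideal.Quotient.nontrivial_iff.mpr hp.ne_top
  have e := LinearEquiv.ofBijective (Algebra.linearMap (R ⧸ p) (S ⧸ q)) ⟨hinj, hsurj⟩
  rw [← e.finrank_eq, Module.finrank_self]

section zeros

variable (x : F)

/-- if `x` is integral at `v`, the whole ring `B` is. -/
theorem sfB_mem_of_ord_nonneg (v : Place K F) (h : 0 ≤ v.ord x) (b : sfB K x) :
    (b : F) ∈ v.toValuationSubring := by
  have hR' : ∀ r : F, r ∈ Algebra.adjoin K {x} → r ∈ v.toValuationSubring := by
    intro r hr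
    induction hr using Algebra.adjoin_induction with
    | mem y hy =>
      rw [Set.mem_singleton_iff.mp hy]; exact (sf_ord_nonneg_iff v x).mp h
    | algebraMap a => exact v.algebraMap_mem' a
    | add y z _ _ hy hz => exact add_mem hy hz
    | mul y z _ _ hy hz => exact mul_mem hy hz
  have hR : ∀ r : sfR K x, (r : F) ∈ v.toValuationSubring := fun r => hR' r r.2
  let φ : sfR K x →+* v.toValuationSubring :=
    (algebraMap (sfR K x) F).codRestrict v.toValuationSubring.toSubring hR
  have hint : IsIntegral (sfR K x) (b : F) := b.2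
  have h2 : IsIntegral v.toValuationSubring (b : F) :=
    IsIntegral.map_of_comp_eq φ (RingHom.id F) (by ext; rfl) hint
  obtain ⟨y, hy⟩ := IsIntegrallyClosed.isIntegral_iff.mp h2
  rw [← hy]; exact y.2

variable [CharZero K] [FiniteDimensional K⟮x⟯ F]

/-- places at which `x` is integral come from primes of `B`. -/
theorem sf_exists_sfPlace_eq (v : Place K F) (h : 0 ≤ v.ord x) :
    ∃ Q : HeightOneSpectrum (sfB K x), sfPlace K x Q = v :=
  sf_exists_ofHeightOneSpectrum_eq v (sfB_mem_of_ord_nonneg x v h)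

theorem sfPlace_injective : Function.Injective (sfPlace K x) :=
  sf_ofHeightOneSpectrum_injective

theorem sfPlace_ord (Q : HeightOneSpectrum (sfB K x)) (f : F) :
    (sfPlace K x Q).ord f = -WithZero.log (Q.valuation F f) :=
  sf_ord_ofHeightOneSpectrum Q f

theorem sf_mem_asIdeal_iff (Q : HeightOneSpectrum (sfB K x)) (b : sfB K x) :
    b ∈ Q.asIdeal ↔ b = 0 ∨ 0 < (sfPlace K x Q).ord (b : F) :=
  sf_mem_asIdeal_iff_ord Q b

theorem sfPlace_ord_nonneg (Q : HeightOneSpectrum (sfB K x)) (b : sfB K x) :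
    0 ≤ (sfPlace K x Q).ord (b : F) := by
  rw [sf_ord_nonneg_iff]
  exact (sf_mem_ofHeightOneSpectrum_iff (K := K) Q _).mpr (Q.valuation_le_one b)

/-- the element `x - c` of `B`. -/
def sfGenB (c : K) : sfB K x := algebraMap (sfR K x) (sfB K x) (sfGen K x c)

@[simp] theorem sf_coe_sfGenB (c : K) :
    ((sfGenB x c : sfB K x) : F) = x - algebraMap K F c := rfl

theorem sfP_map (c : K) :
    (sfP K x c).map (algebraMap (sfR K x) (sfB K x)) = Ideal.span {sfGenB x c} := by
  rw [sfP, Ideal.map_span, Set.image_singleton]; rfl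

variable {x}

theorem sfGenB_ne_zero (hx : Transcendental K x) (c : K) : sfGenB x c ≠ 0 := by
  intro h
  apply sfGen_ne_zero hx c
  apply Subtype.ext
  have := congrArg (fun b : sfB K x => (b : F)) h
  simpa using this

theorem sfP_map_ne_bot (hx : Transcendental K x) (c : K) :
    (sfP K x c).map (algebraMap (sfR K x) (sfB K x)) ≠ ⊥ := by
  rw [sfP_map, Ne, Ideal.span_singleton_eq_bot]
  exact sfGenB_ne_zero hx c

theorem sf_liesOver_iff (hx : Transcendental K x) (c : K) (Q : Ideal (sfB K x)) [hQ : Q.IsPrime] :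
    Q.LiesOver (sfP K x c) ↔ sfGenB x c ∈ Q := by
  constructor
  · intro h
    have h1 : sfGen K x c ∈ sfP K x c := Ideal.subset_span (Set.mem_singleton _)
    rw [h.over] at h1
    exact h1
  · intro h
    refine ⟨(sfP_isMaximal hx c).eq_of_le ?_ ?_⟩
    · exact (Ideal.comap_isPrime (algebraMap (sfR K x) (sfB K x)) Q).ne_top
    · rw [sfP, Ideal.span_le, Set.singleton_subset_iff]
      exact h

/-- a prime of `B` over `(x - c)`, as a height one prime. -/
def sfPrimeOver (hx : Transcendental K x) (c : K) (Q : (sfP K x c).primesOver (sfB K x)) :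
    HeightOneSpectrum (sfB K x) :=
  ⟨Q.1, Q.2.1, fun h => sfGenB_ne_zero hx c (by
    have h1 := (sf_liesOver_iff hx c Q.1 (hQ := Q.2.1)).mp Q.2.2
    rw [h] at h1
    exact h1)⟩

@[simp] theorem sfPrimeOver_asIdeal (hx : Transcendental K x) (c : K)
    (Q : (sfP K x c).primesOver (sfB K x)) : (sfPrimeOver hx c Q).asIdeal = Q.1 := rfl

theorem sfPrimeOver_injective (hx : Transcendental K x) (c : K) :
    Function.Injective (sfPrimeOver (F := F) hx c) := by
  intro Q Q' h
  apply Subtype.ext
  have := congrArg HeightOneSpectrum.asIdeal h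
  simpa using this

theorem sfPlace_ord_gen (hx : Transcendental K x) (c : K)
    (Q : (sfP K x c).primesOver (sfB K x)) :
    (sfPlace K x (sfPrimeOver hx c Q)).ord (x - algebraMap K F c) =
      (Q.1.ramificationIdx (sfR K x) : ℤ) := by
  rw [sfPlace_ord]
  have h1 : (sfPrimeOver hx c Q).valuation F (x - algebraMap K F c) =
      (sfPrimeOver hx c Q).intValuation (sfGenB x c) :=
    (sfPrimeOver hx c Q).valuation_of_algebraMap (K := F) (sfGenB x c)
  rw [h1, HeightOneSpectrum.intValuation_eq_exp_neg_multiplicity _ (sfGenB_ne_zero hx c),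
    WithZero.log_exp, neg_neg]
  have h2 := Ideal.IsDedekindDomain.ramificationIdx_eq_multiplicity (sfP K x c) Q.1
    (sfP_map_ne_bot hx c)
  rw [h2, sfP_map]
  rfl

variable [IsAlgClosed K]

/-- residues of elements of `B` are constants. -/
theorem sf_exists_sub_mem (Q : HeightOneSpectrum (sfB K x)) (b : sfB K x) :
    ∃ a : K, b - algebraMap K (sfB K x) a ∈ Q.asIdeal := by
  set v := sfPlace K x Q with hv
  have hb : (b : F) ∈ v.toValuationSubring := by
    rw [← sf_ord_nonneg_iff]; exact sfPlace_ord_nonneg x Q b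
  obtain ⟨a, ha⟩ := (place_residue_bijective v x).2
    (IsLocalRing.residue v.toValuationSubring ⟨(b : F), hb⟩)
  refine ⟨a, ?_⟩
  have h1 : IsLocalRing.residue v.toValuationSubring
      (⟨(b : F), hb⟩ - algebraMap K v.toValuationSubring a) = 0 := by
    rw [map_sub, ← ha]
    exact sub_eq_zero.mpr rfl
  rw [IsLocalRing.residue_eq_zero_iff, sf_mem_maximalIdeal_iff_ord] at h1
  rw [sf_mem_asIdeal_iff]
  rcases h1 with h1 | h1
  · left
    apply Subtype.ext
    have := congrArg (fun y : v.toValuationSubring => (y : F)) h1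
    simpa using this
  · right
    exact h1

theorem sf_inertiaDeg_eq_one (hx : Transcendental K x) (c : K)
    (Q : (sfP K x c).primesOver (sfB K x)) : Q.1.inertiaDeg (sfR K x) = 1 := by
  have hpm := sfP_isMaximal hx c
  have hQm : Q.1.IsMaximal := (sfPrimeOver hx c Q).isMaximal
  refine sf_inertiaDeg_eq_one_of_surjective (sfP K x c) Q.1 fun b => ?_
  obtain ⟨a, ha⟩ := sf_exists_sub_mem (sfPrimeOver hx c Q) b
  exact ⟨algebraMap K (sfR K x) a, ha⟩

/-- the place attached to a prime of `B` over `(x - c)`. -/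
noncomputable def sfZeroPlace (hx : Transcendental K x) (c : K)
    (Q : (sfP K x c).primesOver (sfB K x)) : Place K F :=
  sfPlace K x (sfPrimeOver hx c Q)

theorem sfZeroPlace_injective (hx : Transcendental K x) (c : K) :
    Function.Injective (sfZeroPlace (F := F) hx c) :=
  (sfPlace_injective x).comp (sfPrimeOver_injective hx c)

theorem sf_finite_primesOver (hx : Transcendental K x) (c : K) :
    Finite ((sfP K x c).primesOver (sfB K x)) := by
  have := sfP_isMaximal hx c
  infer_instance

theorem sf_sum_ord_primesOver (hx : Transcendental K x) (c : K) :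
    ∑ᶠ Q : (sfP K x c).primesOver (sfB K x),
        (sfZeroPlace hx c Q).ord (x - algebraMap K F c) =
      (Module.finrank K⟮x⟯ F : ℤ) := by
  have := sfP_isMaximal hx c
  have h := Ideal.sum_ramification_inertia_eq_finrank (sfP K x c) (sfB K x)
  rw [sfB_finrank] at h
  rw [finsum_eq_sum_of_fintype, ← h]
  push_cast
  refine Finset.sum_congr rfl fun Q _ => ?_
  rw [sfZeroPlace, sfPlace_ord_gen, sf_inertiaDeg_eq_one hx c Q, Nat.cast_one, mul_one]

theorem sf_zero_iff (hx : Transcendental K x) (c : K) (v : Place K F) :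
    0 < v.ord (x - algebraMap K F c) ↔
      ∃ Q : (sfP K x c).primesOver (sfB K x), sfZeroPlace hx c Q = v := by
  constructor
  · intro h
    have hx0 : 0 ≤ v.ord x := by
      rw [sf_ord_nonneg_iff]
      have h1 : x - algebraMap K F c ∈ v.toValuationSubring :=
        (sf_ord_nonneg_iff v _).mp h.le
      have h2 := add_mem h1 (v.algebraMap_mem' c)
      simpa using h2
    obtain ⟨Q₀, rfl⟩ := sf_exists_sfPlace_eq x v hx0
    have hmem : sfGenB x c ∈ Q₀.asIdeal := (sf_mem_asIdeal_iff x Q₀ _).mpr (Or.inr h)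
    have := Q₀.isPrime
    have hlies : Q₀.asIdeal.LiesOver (sfP K x c) := (sf_liesOver_iff hx c Q₀.asIdeal).mpr hmem
    exact ⟨⟨Q₀.asIdeal, Q₀.isPrime, hlies⟩, rfl⟩
  · rintro ⟨Q, rfl⟩
    have h1 := (sf_liesOver_iff hx c Q.1 (hQ := Q.2.1)).mp Q.2.2
    rcases (sf_mem_asIdeal_iff x (sfPrimeOver hx c Q) (sfGenB x c)).mp h1 with h2 | h2
    · exact absurd h2 (sfGenB_ne_zero hx c)
    · exact h2

theorem sf_zeroPlaces_eq_range (hx : Transcendental K x) (c : K) :
    zeroPlaces K (x - algebraMap K F c) = Set.range (sfZeroPlace hx c) := by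
  ext v
  exact sf_zero_iff hx c v

theorem sf_zeroPlaces_sub_finite (hx : Transcendental K x) (c : K) :
    (zeroPlaces K (x - algebraMap K F c)).Finite := by
  rw [sf_zeroPlaces_eq_range hx c]
  have := sf_finite_primesOver (F := F) hx c
  exact Set.finite_range _

theorem sf_finsum_ord_zeroPlaces_sub (hx : Transcendental K x) (c : K) :
    ∑ᶠ P ∈ zeroPlaces K (x - algebraMap K F c), P.ord (x - algebraMap K F c) =
      (Module.finrank K⟮x⟯ F : ℤ) := by
  rw [sf_zeroPlaces_eq_range hx c, finsum_mem_range (sfZeroPlace_injective hx c)]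
  exact sf_sum_ord_primesOver hx c

end zeros


section approx

variable (x : F) [CharZero K] [FiniteDimensional K⟮x⟯ F]

theorem sfPlace_ord_coe (Q : HeightOneSpectrum (sfB K x)) (b : sfB K x) :
    (sfPlace K x Q).ord (b : F) = -WithZero.log (Q.intValuation b) := by
  rw [sfPlace_ord]
  have h1 : Q.valuation F (b : F) = Q.intValuation b := Q.valuation_of_algebraMap (K := F) b
  rw [h1]

theorem sf_mem_pow_iff (Q : HeightOneSpectrum (sfB K x)) (b : sfB K x) (n : ℕ) :
    b ∈ Q.asIdeal ^ n ↔ b = 0 ∨ (n : ℤ) ≤ (sfPlace K x Q).ord (b : F) := by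
  rw [← Q.intValuation_le_pow_iff_mem, sfPlace_ord_coe]
  rcases eq_or_ne b 0 with rfl | hb
  · simp
  · have h0 : Q.intValuation b ≠ 0 := Q.intValuation_ne_zero b hb
    rw [← WithZero.log_le_log h0 WithZero.exp_ne_zero, WithZero.log_exp]
    simp only [hb, false_or]
    omega

variable {x}
variable [IsAlgClosed K]

theorem sf_exists_ord_eq_one (hx : Transcendental K x) (c : K)
    (Q₀ : (sfP K x c).primesOver (sfB K x)) :
    ∃ y : sfB K x, (sfZeroPlace hx c Q₀).ord (y : F) = 1 ∧
      ∀ Q : (sfP K x c).primesOver (sfB K x), Q ≠ Q₀ → (sfZeroPlace hx c Q).ord (y : F) = 0 := by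
  classical
  have hpm := sfP_isMaximal hx c
  obtain ⟨π, hπ⟩ := (sfPrimeOver hx c Q₀).intValuation_exists_uniformizer
  have hordπ : (sfZeroPlace hx c Q₀).ord (π : F) = 1 := by
    rw [sfZeroPlace, sfPlace_ord_coe, hπ, WithZero.log_exp]; norm_num
  obtain ⟨y, hy⟩ := IsDedekindDomain.exists_forall_sub_mem_ideal
    (s := (Finset.univ : Finset ((sfP K x c).primesOver (sfB K x))))
    (fun Q => Q.1) (fun Q => if Q = Q₀ then 2 else 1)
    (fun Q _ => Ideal.prime_of_isPrime (sfPrimeOver hx c Q).ne_bot Q.2.1)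
    (fun Q _ Q' _ hne h => hne (Subtype.ext h))
    (fun Q => if Q.1 = Q₀ then π else 1)
  refine ⟨y, ?_, ?_⟩
  · have h1 := hy Q₀ (Finset.mem_univ _)
    simp only [if_true] at h1
    have h2 := (sf_mem_pow_iff x (sfPrimeOver hx c Q₀) (y - π) 2).mp h1
    change _ ∨ (2 : ℤ) ≤ (sfZeroPlace hx c Q₀).ord ((y : F) - (π : F)) at h2
    rcases h2 with h2 | h2
    · have : y = π := sub_eq_zero.mp h2
      rw [this]; exact hordπ
    · have hπ0 : (π : F) ≠ 0 := by
        intro h0
        rw [h0] at hordπ
        simp at hordπ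
      have hy0 : (y : F) ≠ 0 := by
        intro h0
        rw [h0, zero_sub, sf_ord_neg] at h2
        omega
      have hge : (1 : ℤ) ≤ (sfZeroPlace hx c Q₀).ord (y : F) := by
        have h3 : (π : F) + ((y : F) - (π : F)) = (y : F) := by ring
        have h4 := sf_ord_add_ge (sfZeroPlace hx c Q₀) (f := (π : F)) (g := (y : F) - (π : F))
          (by rw [h3]; exact hy0) 1 (Or.inr (by omega)) (Or.inr (by omega))
        rwa [h3] at h4
      have hlt : ¬ (2 : ℤ) ≤ (sfZeroPlace hx c Q₀).ord (y : F) := by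
        intro h5
        have h3 : (y : F) + -((y : F) - (π : F)) = (π : F) := by ring
        have h4 := sf_ord_add_ge (sfZeroPlace hx c Q₀) (f := (y : F)) (g := -((y : F) - (π : F)))
          (by rw [h3]; exact hπ0) 2 (Or.inr h5) (Or.inr (by rw [sf_ord_neg]; exact h2))
        rw [h3] at h4
        omega
      omega
  · intro Q hQ
    have h1 := hy Q (Finset.mem_univ _)
    simp only [if_neg hQ, pow_one] at h1
    have hne : (Q : (sfP K x c).primesOver (sfB K x)) ≠ Q₀ := hQ
    have h1' : y - 1 ∈ Q.1 := by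
      have : ¬ ((⟨Q, Finset.mem_univ _⟩ : (Finset.univ : Finset ((sfP K x c).primesOver
          (sfB K x)))).1 = Q₀) := hQ
      simpa [this] using h1
    have hynot : y ∉ Q.1 := by
      intro hyQ
      have : (1 : sfB K x) ∈ Q.1 := by
        have := Q.1.sub_mem hyQ h1'
        simpa using this
      exact Q.2.1.ne_top ((Ideal.eq_top_iff_one _).mpr this)
    have h2 := (sf_mem_asIdeal_iff x (sfPrimeOver hx c Q) y).not.mp hynot
    have h3 := sfPlace_ord_nonneg x (sfPrimeOver hx c Q) y
    push Not at h2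
    have h4 : (sfZeroPlace hx c Q).ord (y : F) ≤ 0 := h2.2
    have h5 : 0 ≤ (sfZeroPlace hx c Q).ord (y : F) := h3
    omega

end approx

section norm

open UniqueFactorizationMonoid

variable (x : F) [CharZero K] [FiniteDimensional K⟮x⟯ F]

instance sfR_charZero : CharZero (sfR K x) :=
  charZero_of_injective_algebraMap (FaithfulSMul.algebraMap_injective K (sfR K x))

instance sfR_fractionRing_charZero : CharZero (FractionRing (sfR K x)) :=
  charZero_of_injective_algebraMap (IsFractionRing.injective (sfR K x) (FractionRing (sfR K x)))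

theorem sfPlace_ord_eq_count (Q : HeightOneSpectrum (sfB K x)) (b : sfB K x) (hb : b ≠ 0) :
    (sfPlace K x Q).ord (b : F) = ((normalizedFactors (Ideal.span {b})).count Q.asIdeal : ℤ) := by
  classical
  have h1 : (sfPlace K x Q).ord (b : F) = -WithZero.log (Q.intValuation b) := by
    rw [sfPlace_ord]
    have h1 : Q.valuation F (b : F) = Q.intValuation b := Q.valuation_of_algebraMap (K := F) b
    rw [h1]
  have hI : (Ideal.span {b} : Ideal (sfB K x)) ≠ 0 := by
    rw [Ne, Ideal.zero_eq_bot, Ideal.span_singleton_eq_bot]; exact hb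
  rw [h1, Q.intValuation_if_neg hb, WithZero.log_exp, neg_neg,
    Ideal.count_associates_factors_eq hI Q.isPrime Q.ne_bot]

variable {x}
variable [IsAlgClosed K]

/-- the multiplicity of `(x - c)` in the relative norm of a prime ideal. -/
theorem sf_count_relNorm_prime (hx : Transcendental K x) (c : K) (q : Ideal (sfB K x))
    (hq : Prime q) :
    (normalizedFactors (Ideal.relNorm (sfR K x) q)).count (sfP K x c) =
      ∑ᶠ Q : (sfP K x c).primesOver (sfB K x), (normalizedFactors q).count Q.1 := by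
  classical
  have hpm := sfP_isMaximal hx c
  have hqp : q.IsPrime := Ideal.isPrime_of_prime hq
  have hq0 : q ≠ ⊥ := hq.ne_zero
  have hnf : normalizedFactors q = {q} := by
    rw [normalizedFactors_irreducible hq.irreducible, normalize_eq]
  have hpP : Prime (sfP K x c) := Ideal.prime_of_isPrime (sfP_ne_bot hx c) (sfP_isPrime hx c)
  by_cases hlies : q.LiesOver (sfP K x c)
  · have hqm : q.IsMaximal := hqp.isMaximal hq0
    let Q₁ : (sfP K x c).primesOver (sfB K x) := ⟨q, hqp, hlies⟩
    rw [Ideal.relNorm_eq_pow_of_isMaximal q (sfP K x c), sf_inertiaDeg_eq_one hx c Q₁, pow_one,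
      normalizedFactors_irreducible hpP.irreducible, normalize_eq, Multiset.count_singleton_self]
    rw [finsum_eq_single _ Q₁]
    · rw [hnf]; simp [Q₁]
    · intro Q hQ
      rw [hnf, Multiset.count_singleton, if_neg]
      intro h; exact hQ (Subtype.ext h)
  · have hrhs : ∑ᶠ Q : (sfP K x c).primesOver (sfB K x), (normalizedFactors q).count Q.1 = 0 := by
      apply finsum_eq_zero_of_forall_eq_zero
      intro Q
      rw [hnf, Multiset.count_singleton, if_neg]
      intro h
      exact hlies (h ▸ Q.2.2)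
    rw [hrhs, Multiset.count_eq_zero]
    have hne : Ideal.relNorm (sfR K x) q ≠ ⊥ := by rwa [Ne, Ideal.relNorm_eq_bot_iff]
    rw [Ideal.mem_normalizedFactors_iff hne]
    rintro ⟨-, hle⟩
    have hup : (q.under (sfR K x)).IsPrime := inferInstance
    obtain ⟨s, hs⟩ := Ideal.exists_relNorm_eq_pow_of_isPrime q (q.under (sfR K x))
    rw [hs] at hle
    have hle' : q.under (sfR K x) ≤ sfP K x c := (sfP_isPrime hx c).le_of_pow_le hle
    have hunder0 : q.under (sfR K x) ≠ ⊥ := by
      intro h0
      apply hne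
      have := Ideal.relNorm_le_comap (sfR K x) q
      exact le_bot_iff.mp (this.trans (le_of_eq h0))
    have hmax : (q.under (sfR K x)).IsMaximal := hup.isMaximal hunder0
    exact hlies ⟨(hmax.eq_of_le hpm.ne_top hle').symm⟩

theorem sf_count_relNorm (hx : Transcendental K x) (c : K) (I : Ideal (sfB K x)) (hI : I ≠ ⊥) :
    (normalizedFactors (Ideal.relNorm (sfR K x) I)).count (sfP K x c) =
      ∑ᶠ Q : (sfP K x c).primesOver (sfB K x), (normalizedFactors I).count Q.1 := by
  classical
  have hfin := sf_finite_primesOver (F := F) hx c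
  revert hI
  refine UniqueFactorizationMonoid.induction_on_prime I ?_ ?_ ?_
  · intro h; exact absurd rfl h
  · intro J hJ _
    have hJ1 : J = ⊤ := Ideal.isUnit_iff.mp hJ
    have h1 : normalizedFactors (⊤ : Ideal (sfB K x)) = 0 := by
      rw [← Ideal.one_eq_top]; exact normalizedFactors_one
    have h2 : normalizedFactors (⊤ : Ideal (sfR K x)) = 0 := by
      rw [← Ideal.one_eq_top]; exact normalizedFactors_one
    rw [hJ1, Ideal.relNorm_top, h1, h2]
    simp
  · intro a q ha hq ih _
    have hq0 : q ≠ 0 := hq.ne_zero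
    have hra : Ideal.relNorm (sfR K x) a ≠ 0 := by
      rwa [Ne, Ideal.zero_eq_bot, Ideal.relNorm_eq_bot_iff]
    have hrq : Ideal.relNorm (sfR K x) q ≠ 0 := by
      rwa [Ne, Ideal.zero_eq_bot, Ideal.relNorm_eq_bot_iff]
    rw [map_mul, normalizedFactors_mul hrq hra, Multiset.count_add, normalizedFactors_mul hq0 ha]
    simp only [Multiset.count_add]
    rw [finsum_add_distrib (Set.toFinite _) (Set.toFinite _), sf_count_relNorm_prime hx c q hq,
      ih ha]

theorem sfZeroPlace_ord_coeR (hx : Transcendental K x) (c : K)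
    (Q₀ : (sfP K x c).primesOver (sfB K x)) (r : sfR K x) (hr : r ≠ 0) :
    (sfZeroPlace hx c Q₀).ord (r : F) = (sfZeroPlace hx c Q₀).ord (x - algebraMap K F c) *
        ((normalizedFactors (Ideal.span {r})).count (sfP K x c) : ℤ) := by
  classical
  obtain ⟨k, s, hs, rfl⟩ := WfDvdMonoid.max_power_factor hr (sfGen_prime hx c).irreducible
  have hs0 : s ≠ 0 := right_ne_zero_of_mul hr
  have hsP : s ∉ sfP K x c := by rw [sfP, Ideal.mem_span_singleton]; exact hs
  have hpP : Prime (sfP K x c) := Ideal.prime_of_isPrime (sfP_ne_bot hx c) (sfP_isPrime hx c)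
  have hsQ : algebraMap (sfR K x) (sfB K x) s ∉ Q₀.1 := by
    intro h
    apply hsP
    have := Q₀.2.2.over
    rw [this]; exact h
  have hords : (sfZeroPlace hx c Q₀).ord (s : F) = 0 := by
    have h2 := (sf_mem_asIdeal_iff x (sfPrimeOver hx c Q₀)
      (algebraMap (sfR K x) (sfB K x) s)).not.mp hsQ
    have h3 := sfPlace_ord_nonneg x (sfPrimeOver hx c Q₀) (algebraMap (sfR K x) (sfB K x) s)
    push Not at h2
    have h4 : (sfZeroPlace hx c Q₀).ord (s : F) ≤ 0 := h2.2
    have h5 : 0 ≤ (sfZeroPlace hx c Q₀).ord (s : F) := h3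
    omega
  have hg0 : (x - algebraMap K F c) ≠ 0 := by
    have := sfGen_ne_zero hx c
    intro h
    exact this (Subtype.ext h)
  have hsF : (s : F) ≠ 0 := fun h => hs0 (Subtype.ext h)
  have hcoe : ((sfGen K x c ^ k * s : sfR K x) : F) = (x - algebraMap K F c) ^ k * (s : F) := by
    push_cast; rfl
  rw [hcoe, Place.ord_mul _ (pow_ne_zero k hg0) hsF, hords, add_zero, sf_ord_pow]
  have hspan0 : (Ideal.span {s} : Ideal (sfR K x)) ≠ 0 := by
    rw [Ne, Ideal.zero_eq_bot, Ideal.span_singleton_eq_bot]; exact hs0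
  have hcount : (normalizedFactors (Ideal.span {sfGen K x c ^ k * s})).count (sfP K x c) = k := by
    rw [← Ideal.span_singleton_mul_span_singleton, ← Ideal.span_singleton_pow]
    change Multiset.count (sfP K x c) (normalizedFactors (sfP K x c ^ k * Ideal.span {s})) = k
    rw [normalizedFactors_mul (pow_ne_zero k hpP.ne_zero) hspan0, Multiset.count_add,
      normalizedFactors_pow, Multiset.count_nsmul,
      normalizedFactors_irreducible hpP.irreducible, normalize_eq,
      Multiset.count_singleton_self, mul_one]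
    have : (normalizedFactors (Ideal.span {s})).count (sfP K x c) = 0 := by
      rw [Multiset.count_eq_zero, Ideal.mem_normalizedFactors_iff hspan0]
      rintro ⟨-, hle⟩
      exact hsP (hle (Ideal.subset_span (Set.mem_singleton s)))
    rw [this, add_zero]
  rw [hcount]; ring

theorem sf_ord_norm_coe (hx : Transcendental K x) (c : K)
    (Q₀ : (sfP K x c).primesOver (sfB K x)) (b : sfB K x) (hb : b ≠ 0) :
    (sfZeroPlace hx c Q₀).ord (algebraMap K⟮x⟯ F (Algebra.norm K⟮x⟯ (b : F))) =
      (sfZeroPlace hx c Q₀).ord (x - algebraMap K F c) *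
        ∑ᶠ Q : (sfP K x c).primesOver (sfB K x), (sfZeroPlace hx c Q).ord (b : F) := by
  classical
  have hpm := sfP_isMaximal hx c
  set r := Algebra.intNorm (sfR K x) (sfB K x) b with hr
  have h1 : algebraMap (sfR K x) K⟮x⟯ r = Algebra.norm K⟮x⟯ (b : F) :=
    Algebra.algebraMap_intNorm (A := sfR K x) (K := K⟮x⟯) (L := F) (B := sfB K x) b
  have hbF : (b : F) ≠ 0 := fun h => hb (Subtype.ext h)
  have hr0 : r ≠ 0 := by
    intro h0
    rw [h0, map_zero] at h1
    exact hbF (Algebra.norm_eq_zero_iff.mp h1.symm)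
  have h2 : algebraMap K⟮x⟯ F (Algebra.norm K⟮x⟯ (b : F)) = (r : F) := by rw [← h1]; rfl
  rw [h2, sfZeroPlace_ord_coeR hx c Q₀ r hr0]
  congr 1
  have h3 : Ideal.span {r} = Ideal.relNorm (sfR K x) (Ideal.span {b}) :=
    (Ideal.relNorm_singleton (sfR K x) b).symm
  have hspan : (Ideal.span {b} : Ideal (sfB K x)) ≠ ⊥ := by
    rw [Ne, Ideal.span_singleton_eq_bot]; exact hb
  rw [h3, sf_count_relNorm hx c _ hspan, finsum_eq_sum_of_fintype, finsum_eq_sum_of_fintype]
  push_cast
  refine Finset.sum_congr rfl fun Q _ => ?_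
  rw [sfZeroPlace, sfPlace_ord_eq_count x (sfPrimeOver hx c Q) b hb]
  rfl

theorem sf_ord_norm (hx : Transcendental K x) (c : K)
    (Q₀ : (sfP K x c).primesOver (sfB K x)) (f : F) (hf : f ≠ 0) :
    (sfZeroPlace hx c Q₀).ord (algebraMap K⟮x⟯ F (Algebra.norm K⟮x⟯ f)) =
      (sfZeroPlace hx c Q₀).ord (x - algebraMap K F c) *
        ∑ᶠ Q : (sfP K x c).primesOver (sfB K x), (sfZeroPlace hx c Q).ord f := by
  have hfin := sf_finite_primesOver (F := F) hx c
  obtain ⟨a, s, hs, rfl⟩ := IsFractionRing.div_surjective (A := sfB K x) f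
  have hs0 : s ≠ 0 := nonZeroDivisors.ne_zero hs
  have hsF : algebraMap (sfB K x) F s ≠ 0 := fun h => hs0 (Subtype.ext h)
  have haF : algebraMap (sfB K x) F a ≠ 0 := by
    intro h
    apply hf
    rw [h, zero_div]
  have ha0 : a ≠ 0 := by
    rintro rfl
    exact haF rfl
  have hna : Algebra.norm K⟮x⟯ (algebraMap (sfB K x) F a) ≠ 0 := by
    rw [Ne, Algebra.norm_eq_zero_iff]; exact haF
  have hns : Algebra.norm K⟮x⟯ (algebraMap (sfB K x) F s) ≠ 0 := by
    rw [Ne, Algebra.norm_eq_zero_iff]; exact hsF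
  have hna' : algebraMap K⟮x⟯ F (Algebra.norm K⟮x⟯ (algebraMap (sfB K x) F a)) ≠ 0 := by
    rwa [Ne, map_eq_zero]
  have hns' : algebraMap K⟮x⟯ F (Algebra.norm K⟮x⟯ (algebraMap (sfB K x) F s)) ≠ 0 := by
    rwa [Ne, map_eq_zero]
  have hnf : Algebra.norm K⟮x⟯ (algebraMap (sfB K x) F a / algebraMap (sfB K x) F s) ≠ 0 := by
    rw [Ne, Algebra.norm_eq_zero_iff]; exact hf
  have hnf' : algebraMap K⟮x⟯ F (Algebra.norm K⟮x⟯
      (algebraMap (sfB K x) F a / algebraMap (sfB K x) F s)) ≠ 0 := by
    rwa [Ne, map_eq_zero]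
  have hmul : algebraMap K⟮x⟯ F (Algebra.norm K⟮x⟯
      (algebraMap (sfB K x) F a / algebraMap (sfB K x) F s)) *
      algebraMap K⟮x⟯ F (Algebra.norm K⟮x⟯ (algebraMap (sfB K x) F s)) =
      algebraMap K⟮x⟯ F (Algebra.norm K⟮x⟯ (algebraMap (sfB K x) F a)) := by
    rw [← map_mul, ← map_mul, div_mul_cancel₀ _ hsF]
  have e0 := congrArg (sfZeroPlace hx c Q₀).ord hmul
  rw [Place.ord_mul _ hnf' hns'] at e0
  have e1 := sf_ord_norm_coe hx c Q₀ a ha0
  have e2 := sf_ord_norm_coe hx c Q₀ s hs0
  have e3 : ∑ᶠ Q : (sfP K x c).primesOver (sfB K x),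
      (sfZeroPlace hx c Q).ord (algebraMap (sfB K x) F a / algebraMap (sfB K x) F s) =
      ∑ᶠ Q : (sfP K x c).primesOver (sfB K x), (sfZeroPlace hx c Q).ord (a : F) -
      ∑ᶠ Q : (sfP K x c).primesOver (sfB K x), (sfZeroPlace hx c Q).ord (s : F) := by
    rw [← finsum_sub_distrib (Set.toFinite _) (Set.toFinite _)]
    refine finsum_congr fun Q => ?_
    exact sf_ord_div _ haF hsF
  have e1' : (sfZeroPlace hx c Q₀).ord (algebraMap K⟮x⟯ F (Algebra.norm K⟮x⟯
      (algebraMap (sfB K x) F a))) = (sfZeroPlace hx c Q₀).ord (x - algebraMap K F c) *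
        ∑ᶠ Q : (sfP K x c).primesOver (sfB K x), (sfZeroPlace hx c Q).ord (a : F) := e1
  have e2' : (sfZeroPlace hx c Q₀).ord (algebraMap K⟮x⟯ F (Algebra.norm K⟮x⟯
      (algebraMap (sfB K x) F s))) = (sfZeroPlace hx c Q₀).ord (x - algebraMap K F c) *
        ∑ᶠ Q : (sfP K x c).primesOver (sfB K x), (sfZeroPlace hx c Q).ord (s : F) := e2
  rw [e3, mul_sub, ← e1', ← e2']
  omega

end norm

/-! ### finiteness over `K(f)` for every non-constant `f` -/

theorem sf_mem_range_of_isAlgebraic [IsAlgClosed K] {f : F} (h : IsAlgebraic K f) :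
    ∃ a : K, algebraMap K F a = f :=
  minpoly.mem_range_of_degree_eq_one K f
    (IsAlgClosed.degree_eq_one_of_irreducible K (minpoly.irreducible h.isIntegral))

/-- exchange: if `f` is transcendental over `K` and algebraic over `K(x)`, then `x` is algebraic
over `K(f)`. -/
theorem sf_isAlgebraic_exchange {x f : F} (hf : Transcendental K f)
    (hfx : IsAlgebraic K⟮x⟯ f) : IsAlgebraic K⟮f⟯ x := by
  rw [← IsFractionRing.isAlgebraic_iff (Algebra.adjoin K {f}) K⟮f⟯ F]
  have hfx' : IsAlgebraic (Algebra.adjoin K {x}) f :=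
    (IsFractionRing.isAlgebraic_iff (Algebra.adjoin K {x}) K⟮x⟯ F).mpr hfx
  by_contra hcon
  have hcon' : Transcendental (Algebra.adjoin K {f}) x := hcon
  have hxf : x ∉ ({f} : Set F) := by
    intro h
    rw [Set.mem_singleton_iff] at h
    subst h
    exact hcon (isAlgebraic_algebraMap (⟨x, Algebra.subset_adjoin (Set.mem_singleton x)⟩ :
      Algebra.adjoin K {x}))
  have hfx2 : f ∉ ({x} : Set F) := fun h => hxf (by
    rw [Set.mem_singleton_iff] at h ⊢; exact h.symm)
  have h1 : AlgebraicIndepOn K (id : F → F) ({f} : Set F) := by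
    rw [AlgebraicIndepOn, algebraicIndependent_singleton_iff (⟨f, Set.mem_singleton f⟩ : ({f} : Set F))]
    exact hf
  have h2 : AlgebraicIndepOn K (id : F → F) (insert x ({f} : Set F)) := by
    rw [AlgebraicIndepOn.insert_iff hxf]
    refine ⟨h1, ?_⟩
    rw [Set.image_id]
    exact hcon'
  have h3 : insert x ({f} : Set F) = insert f ({x} : Set F) := Set.pair_comm x f
  rw [h3, AlgebraicIndepOn.insert_iff hfx2, Set.image_id] at h2
  exact h2.2 hfx'

theorem sf_finite_of_le {A₁ A₂ : Type*} [Field A₁] [Field A₂] [Algebra A₁ F] [Algebra A₂ F]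
    (h : ∀ a : A₁, ∃ b : A₂, algebraMap A₂ F b = algebraMap A₁ F a) [hfin : Module.Finite A₁ F] :
    Module.Finite A₂ F := by
  obtain ⟨S, hS⟩ := Module.finite_def.mp hfin
  refine ⟨⟨S, ?_⟩⟩
  have key : ∀ y ∈ Submodule.span A₁ (S : Set F), y ∈ Submodule.span A₂ (S : Set F) := by
    intro y hy
    induction hy using Submodule.span_induction with
    | mem z hz => exact Submodule.subset_span hz
    | zero => exact Submodule.zero_mem _
    | add z w _ _ hz hw => exact Submodule.add_mem _ hz hw
    | smul a z _ hz =>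
      obtain ⟨b, hb⟩ := h a
      have : a • z = b • z := by
        rw [Algebra.smul_def, Algebra.smul_def, hb]
      rw [this]
      exact Submodule.smul_mem _ b hz
  rw [eq_top_iff]
  intro y _
  exact key y (by rw [hS]; exact Submodule.mem_top)

/-- `F` is finite over `K(f)` for every `f` transcendental over `K`. -/
theorem sf_finiteDimensional_of_transcendental (x : F) [FiniteDimensional K⟮x⟯ F] {f : F}
    (hf : Transcendental K f) : FiniteDimensional K⟮f⟯ F := by
  have hxalg : IsAlgebraic K⟮f⟯ x :=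
    sf_isAlgebraic_exchange hf (Algebra.IsAlgebraic.isAlgebraic f)
  have h1 : FiniteDimensional K⟮f⟯ K⟮f⟯⟮x⟯ :=
    IntermediateField.adjoin.finiteDimensional hxalg.isIntegral
  have hle : K⟮x⟯ ≤ (K⟮f⟯⟮x⟯).restrictScalars K := by
    rw [adjoin_simple_le_iff, IntermediateField.mem_restrictScalars]
    exact mem_adjoin_simple_self K⟮f⟯ x
  have h2 : Module.Finite K⟮f⟯⟮x⟯ F := by
    refine sf_finite_of_le (A₁ := K⟮x⟯) (A₂ := K⟮f⟯⟮x⟯) ?_
    intro a
    exact ⟨⟨(a : F), hle a.2⟩, rfl⟩
  exact Module.Finite.trans K⟮f⟯⟮x⟯ F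

section A
variable {K F : Type*} [Field K] [IsAlgClosed K] [CharZero K] [Field F] [Algebra K F]

/-- A2: every place is centred at a unique value of `x` or at infinity. -/
theorem place_center (x : F) (hx : Transcendental K x) [FiniteDimensional K⟮x⟯ F]
    (P : Place K F) :
    (∃ a : K, 0 < P.ord (x - algebraMap K F a)) ∨ 0 < P.ord x⁻¹ := by
  by_cases h : 0 ≤ P.ord x
  · left
    by_contra hcon
    push Not at hcon
    have hxm : x ∈ P.toValuationSubring := (sf_ord_nonneg_iff P x).mp h
    have hunit : ∀ c : K, IsUnit ((⟨x, hxm⟩ : P.toValuationSubring) -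
        algebraMap K P.toValuationSubring c) := by
      intro c
      by_contra hnu
      have hmem : (⟨x, hxm⟩ : P.toValuationSubring) - algebraMap K P.toValuationSubring c ∈
          IsLocalRing.maximalIdeal P.toValuationSubring := by
        rwa [IsLocalRing.mem_maximalIdeal, mem_nonunits_iff]
      rcases (sf_mem_maximalIdeal_iff_ord P _).mp hmem with h0 | h0
      · apply hx
        have h1 : x = algebraMap K F c := by
          have := congrArg (fun y : P.toValuationSubring => (y : F)) h0
          simpa [sub_eq_zero] using this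
        rw [h1]
        exact isAlgebraic_algebraMap c
      · have h1 := hcon c
        have h2 : 0 < P.ord (x - algebraMap K F c) := h0
        omega
    apply place_not_adjoin_le P x
    intro y hy
    obtain ⟨r, s, rfl⟩ := (mem_adjoin_simple_iff K _).mp hy
    by_cases hs : s = 0
    · rw [hs, map_zero, div_zero]
      exact zero_mem _
    · have hu := place_isUnit_aeval P ⟨x, hxm⟩ hunit s hs
      have h1 : (Polynomial.aeval x r : F) = ((Polynomial.aeval
          (⟨x, hxm⟩ : P.toValuationSubring) r : P.toValuationSubring) : F) :=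
        (Polynomial.aeval_algebraMap_apply F (⟨x, hxm⟩ : P.toValuationSubring) r)
      have h2 : (Polynomial.aeval x s : F) = ((Polynomial.aeval
          (⟨x, hxm⟩ : P.toValuationSubring) s : P.toValuationSubring) : F) :=
        (Polynomial.aeval_algebraMap_apply F (⟨x, hxm⟩ : P.toValuationSubring) s)
      rw [h1, h2, div_eq_mul_inv]
      exact mul_mem (Subtype.property _) (place_inv_mem_of_isUnit P _ hu)
  · right
    rw [P.ord_inv]
    omega

theorem place_center_unique (x : F) (P : Place K F) (a b : K)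
    (ha : 0 < P.ord (x - algebraMap K F a)) (hb : 0 < P.ord (x - algebraMap K F b)) : a = b := by
  by_contra hab
  have hne : algebraMap K F (a - b) ≠ 0 := by
    rw [Ne, map_eq_zero]
    exact sub_ne_zero.mpr hab
  have hsum : (x - algebraMap K F b) + -(x - algebraMap K F a) = algebraMap K F (a - b) := by
    rw [map_sub]; ring
  have h1 : (1 : ℤ) ≤ P.ord ((x - algebraMap K F b) + -(x - algebraMap K F a)) := by
    refine sf_ord_add_ge P (by rw [hsum]; exact hne) 1 (Or.inr (by omega)) (Or.inr ?_)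
    rw [sf_ord_neg]; omega
  rw [hsum, sf_ord_algebraMap] at h1
  omega

theorem place_center_not_infty (x : F) (P : Place K F) (a : K)
    (ha : 0 < P.ord (x - algebraMap K F a)) : ¬ 0 < P.ord x⁻¹ := by
  have h1 : x - algebraMap K F a ∈ P.toValuationSubring := (sf_ord_nonneg_iff P _).mp ha.le
  have h2 : x ∈ P.toValuationSubring := by
    have := add_mem h1 (P.algebraMap_mem' a)
    simpa using this
  have h3 := (sf_ord_nonneg_iff P x).mpr h2
  rw [P.ord_inv]
  omega

/-- A3: finitely many zeros, and the fundamental identity. -/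
theorem zeroPlaces_finite (x : F) (hx : Transcendental K x) [FiniteDimensional K⟮x⟯ F] :
    (zeroPlaces K x).Finite := by
  have h := sf_zeroPlaces_sub_finite hx (0 : K)
  simpa using h

theorem finsum_ord_zeroPlaces (x : F) (hx : Transcendental K x) [FiniteDimensional K⟮x⟯ F] :
    ∑ᶠ P ∈ zeroPlaces K x, P.ord x = (Module.finrank K⟮x⟯ F : ℤ) := by
  have h := sf_finsum_ord_zeroPlaces_sub hx (0 : K)
  simpa using h

/-- N2 (approximation): a function with a simple zero at one zero place of `x` and order zero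
at the others. -/
theorem exists_ord_eq_one (x : F) (hx : Transcendental K x) [FiniteDimensional K⟮x⟯ F]
    (P : Place K F) (hP : P ∈ zeroPlaces K x) :
    ∃ f : F, f ≠ 0 ∧ P.ord f = 1 ∧ ∀ P' ∈ zeroPlaces K x, P' ≠ P → P'.ord f = 0 := by
  have h0 : x - algebraMap K F 0 = x := by simp
  have hP' : 0 < P.ord (x - algebraMap K F 0) := by rw [h0]; exact hP
  obtain ⟨Q₀, rfl⟩ := (sf_zero_iff hx 0 P).mp hP'
  obtain ⟨y, hy1, hy2⟩ := sf_exists_ord_eq_one hx 0 Q₀
  refine ⟨(y : F), ?_, hy1, ?_⟩
  · intro h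
    rw [h] at hy1
    simp at hy1
  · intro P' hP' hne
    have hP'' : 0 < P'.ord (x - algebraMap K F 0) := by rw [h0]; exact hP'
    obtain ⟨Q, rfl⟩ := (sf_zero_iff hx 0 P').mp hP''
    exact hy2 Q (fun h => hne (by rw [h]))

/-- N1 (norm formula). -/
theorem ord_norm_eq (x : F) (hx : Transcendental K x) [FiniteDimensional K⟮x⟯ F] (P₀ : Place K F)
    (hP₀ : P₀ ∈ zeroPlaces K x) (f : F) (hf : f ≠ 0) :
    P₀.ord (algebraMap K⟮x⟯ F (Algebra.norm K⟮x⟯ f)) =
      P₀.ord x * ∑ᶠ P ∈ zeroPlaces K x, P.ord f := by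
  have h0 : x - algebraMap K F 0 = x := by simp
  have hP' : 0 < P₀.ord (x - algebraMap K F 0) := by rw [h0]; exact hP₀
  obtain ⟨Q₀, rfl⟩ := (sf_zero_iff hx 0 P₀).mp hP'
  have hz : zeroPlaces K x = Set.range (sfZeroPlace hx (0 : K)) := by
    rw [← sf_zeroPlaces_eq_range hx 0, h0]
  rw [hz, finsum_mem_range (sfZeroPlace_injective hx 0), sf_ord_norm hx 0 Q₀ f hf, h0]

theorem sf_support_ord_eq (f : F) :
    (Function.support fun P : Place K F => P.ord f) = zeroPlaces K f ∪ zeroPlaces K f⁻¹ := by
  ext P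
  simp only [Function.mem_support, Set.mem_union, zeroPlaces, Set.mem_ofPred_eq, P.ord_inv]
  omega

end A

end Fermat.Agent.S24
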