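import Mathlib
import Fermat.Prelude.Def_ModularCurve_GenusNumerics
import Fermat.Agent.S24.Cosets

/-!
# S24, step (3): the number of `T`-orbits on `SL(2, ℤ) ⧸ Γ₀(N)` is `cuspCount N`

The `T`-orbit of the coset with first column `(a, c)` is determined by `d = gcd(c, N)` and the
class of `a * (c / d)⁻¹` in `(ℤ / gcd(d, N / d))ˣ`.

* `card_orbits_T` : `Nat.card (orbitRel.Quotient (zpowers T) (SL(2, ℤ) ⧸ Γ₀(N))) = cuspCount N`;
* `card_orbits_toPerm_T` : the same for the cyclic group generated by the permutation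
  `MulAction.toPerm T`.
-/

set_option autoImplicit false

namespace Fermat.Agent.S24

open Matrix Matrix.SpecialLinearGroup CongruenceSubgroup ModularGroup

open scoped MatrixGroups

/-! ### Integer lemmas -/

theorem cusp_gcd_dvd {N a1 c1 a2 c2 k : ℤ} (h1 : IsCoprime a1 c1)
    (hR : N ∣ (a2 + k * c2) * c1 - c2 * a1) : (Int.gcd c1 N : ℤ) ∣ c2 := by
  have hD1 : (Int.gcd c1 N : ℤ) ∣ c1 := Int.gcd_dvd_left _ _
  have hD2 : (Int.gcd c1 N : ℤ) ∣ N := Int.gcd_dvd_right _ _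
  have h3 : (Int.gcd c1 N : ℤ) ∣ c2 * a1 := by
    have h4 : (Int.gcd c1 N : ℤ) ∣ (a2 + k * c2) * c1 := Dvd.dvd.mul_left hD1 _
    have h5 := dvd_sub h4 (hD2.trans hR)
    rwa [sub_sub_cancel] at h5
  have hcop : IsCoprime (Int.gcd c1 N : ℤ) a1 :=
    (h1.symm.of_isCoprime_of_dvd_left hD1)
  exact hcop.dvd_of_dvd_mul_right h3

theorem cusp_gcd_dvd' {N a1 c1 a2 c2 k : ℤ} (h2 : IsCoprime a2 c2)
    (hR : N ∣ (a2 + k * c2) * c1 - c2 * a1) : (Int.gcd c2 N : ℤ) ∣ c1 := by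
  have hD1 : (Int.gcd c2 N : ℤ) ∣ c2 := Int.gcd_dvd_left _ _
  have hD2 : (Int.gcd c2 N : ℤ) ∣ N := Int.gcd_dvd_right _ _
  have h3 : (Int.gcd c2 N : ℤ) ∣ c1 * a2 := by
    have h4 : (Int.gcd c2 N : ℤ) ∣ c2 * a1 - k * c2 * c1 :=
      dvd_sub (Dvd.dvd.mul_right hD1 _) (Dvd.dvd.mul_right (Dvd.dvd.mul_left hD1 _) _)
    have h5 := dvd_add (hD2.trans hR) h4
    have h6 : (a2 + k * c2) * c1 - c2 * a1 + (c2 * a1 - k * c2 * c1) = c1 * a2 := by ring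
    rwa [h6] at h5
  have hcop : IsCoprime (Int.gcd c2 N : ℤ) a2 :=
    (h2.symm.of_isCoprime_of_dvd_left hD1)
  exact hcop.dvd_of_dvd_mul_right h3

/-- The first invariant: `gcd(c, N)`. -/
theorem cusp_gcd_eq {N a1 c1 a2 c2 k : ℤ} (h1 : IsCoprime a1 c1) (h2 : IsCoprime a2 c2)
    (hR : N ∣ (a2 + k * c2) * c1 - c2 * a1) : Int.gcd c1 N = Int.gcd c2 N := by
  apply Nat.dvd_antisymm
  · exact Int.natCast_dvd_natCast.mp
      (Int.dvd_coe_gcd (cusp_gcd_dvd h1 hR) (Int.gcd_dvd_right _ _))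
  · exact Int.natCast_dvd_natCast.mp
      (Int.dvd_coe_gcd (cusp_gcd_dvd' h2 hR) (Int.gcd_dvd_right _ _))

/-- The second invariant. -/
theorem cusp_dvd_of_rel {N d m g a1 c1 e1 a2 c2 e2 k : ℤ} (hd : d ≠ 0) (hN : N = d * m)
    (hc1 : c1 = d * e1) (hc2 : c2 = d * e2) (hgd : g ∣ d) (hgm : g ∣ m)
    (hR : N ∣ (a2 + k * c2) * c1 - c2 * a1) : g ∣ a2 * e1 - e2 * a1 := by
  subst hN hc1 hc2
  have h1 : (a2 + k * (d * e2)) * (d * e1) - (d * e2) * a1 =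
      d * (a2 * e1 - e2 * a1 + k * d * e1 * e2) := by ring
  rw [h1, mul_dvd_mul_iff_left hd] at hR
  have h2 : g ∣ a2 * e1 - e2 * a1 + k * d * e1 * e2 := hgm.trans hR
  have h3 : g ∣ k * d * e1 * e2 :=
    Dvd.dvd.mul_right (Dvd.dvd.mul_right (Dvd.dvd.mul_left hgd _) _) _
  exact (dvd_add_left h3).mp h2

/-- Completeness of the two invariants. -/
theorem cusp_exists_rel {N d m a1 c1 e1 a2 c2 e2 : ℤ} (hN : N = d * m)
    (hc1 : c1 = d * e1) (hc2 : c2 = d * e2) (h1 : IsCoprime e1 m) (h2 : IsCoprime e2 m)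
    (hg : (Int.gcd d m : ℤ) ∣ a2 * e1 - e2 * a1) :
    ∃ k : ℤ, N ∣ (a2 + k * c2) * c1 - c2 * a1 := by
  subst hN hc1 hc2
  obtain ⟨t, ht⟩ := hg
  have hb := Int.gcd_eq_gcd_ab d m
  obtain ⟨r, s, hrs⟩ := h1.mul_left h2
  refine ⟨-(t * Int.gcdA d m * r), t * (d * Int.gcdA d m * s + Int.gcdB d m), ?_⟩
  linear_combination d * ht + d * t * hb - d * t * d * Int.gcdA d m * hrs

/-! ### The action of `T ^ k` on cosets -/

theorem isCoprime_col (g : SL(2, ℤ)) : IsCoprime (g 0 0) (g 1 0) :=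
  ⟨g 1 1, -(g 0 1), by linear_combination det_rel g⟩

theorem T_zpow_mul_00 (k : ℤ) (h : SL(2, ℤ)) : (T ^ k * h) 0 0 = h 0 0 + k * h 1 0 := by
  simp [coe_T_zpow, Matrix.mul_apply, Fin.sum_univ_two]

theorem T_zpow_mul_10 (k : ℤ) (h : SL(2, ℤ)) : (T ^ k * h) 1 0 = h 1 0 := by
  simp

theorem T_zpow_smul_mk_eq_iff (N : ℕ) (k : ℤ) (g h : SL(2, ℤ)) :
    (T ^ k) • (g : SL(2, ℤ) ⧸ Gamma0 N) = h ↔
      (N : ℤ) ∣ (g 0 0 + k * g 1 0) * h 1 0 - g 1 0 * h 0 0 := by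
  rw [smul_mk, mk_eq_mk_iff, T_zpow_mul_00, T_zpow_mul_10]

/-! ### The transversal -/

/-- The index set of the cusps of `Γ₀(N)`. -/
abbrev CuspIndex (N : ℕ) : Type := Σ d : ↥N.divisors, (ZMod (Nat.gcd d (N / d)))ˣ

theorem exists_cuspRep (d : ℕ) (hd : d ≠ 0) (g : ℕ) (hg : g ∣ d) (u : (ZMod g)ˣ) :
    ∃ h : SL(2, ℤ), h 1 0 = (d : ℤ) ∧ ((h 0 0 : ℤ) : ZMod g) = u := by
  haveI : NeZero d := ⟨hd⟩
  obtain ⟨v, hv⟩ := ZMod.unitsMap_surjective hg u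
  have hcop : IsCoprime (((v : ZMod d).val : ℕ) : ℤ) (d : ℤ) :=
    Nat.isCoprime_iff_coprime.mpr (ZMod.val_coe_unit_coprime v)
  obtain ⟨x, y, hxy⟩ := hcop
  refine ⟨⟨!![(((v : ZMod d).val : ℕ) : ℤ), -y; (d : ℤ), x], ?_⟩, rfl, ?_⟩
  · rw [Matrix.det_fin_two_of]
    linear_combination hxy
  · show ((((v : ZMod d).val : ℕ) : ℤ) : ZMod g) = u
    rw [← hv, ZMod.unitsMap_def, Units.coe_map, Int.cast_natCast, ZMod.natCast_val]
    rfl

/-- A chosen matrix with first column `(a, d)`, `a ≡ u` modulo `gcd(d, N / d)`. -/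
noncomputable def cuspRep (N : ℕ) (x : CuspIndex N) : SL(2, ℤ) :=
  Classical.choose (exists_cuspRep (x.1 : ℕ) (Nat.pos_of_mem_divisors x.1.2).ne'
    (Nat.gcd (x.1 : ℕ) (N / (x.1 : ℕ))) (Nat.gcd_dvd_left _ _) x.2)

theorem cuspRep_10 (N : ℕ) (x : CuspIndex N) : cuspRep N x 1 0 = ((x.1 : ℕ) : ℤ) :=
  (Classical.choose_spec (exists_cuspRep (x.1 : ℕ) (Nat.pos_of_mem_divisors x.1.2).ne'
    (Nat.gcd (x.1 : ℕ) (N / (x.1 : ℕ))) (Nat.gcd_dvd_left _ _) x.2)).1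

theorem cuspRep_00 (N : ℕ) (x : CuspIndex N) :
    ((cuspRep N x 0 0 : ℤ) : ZMod (Nat.gcd (x.1 : ℕ) (N / (x.1 : ℕ)))) = x.2 :=
  (Classical.choose_spec (exists_cuspRep (x.1 : ℕ) (Nat.pos_of_mem_divisors x.1.2).ne'
    (Nat.gcd (x.1 : ℕ) (N / (x.1 : ℕ))) (Nat.gcd_dvd_left _ _) x.2)).2

/-- Distinct representatives lie in distinct `T`-orbits. -/
theorem cuspRep_injective (N : ℕ) (x y : CuspIndex N) (k : ℤ)
    (h : (T ^ k) • ((cuspRep N y : SL(2, ℤ)) : SL(2, ℤ) ⧸ Gamma0 N) = cuspRep N x) : x = y := by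
  rw [T_zpow_smul_mk_eq_iff] at h
  have hgcd := cusp_gcd_eq (isCoprime_col (cuspRep N x)) (isCoprime_col (cuspRep N y)) h
  have hx10 := cuspRep_10 N x
  have hy10 := cuspRep_10 N y
  have hx00 := cuspRep_00 N x
  have hy00 := cuspRep_00 N y
  obtain ⟨⟨d, hd⟩, u⟩ := x
  obtain ⟨⟨d', hd'⟩, u'⟩ := y
  simp only at hx10 hy10 hx00 hy00
  have hdN : d ∣ N := (Nat.mem_divisors.mp hd).1
  have hdN' : d' ∣ N := (Nat.mem_divisors.mp hd').1
  rw [hx10, hy10, Int.gcd_natCast_natCast, Int.gcd_natCast_natCast, Nat.gcd_eq_left hdN,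
    Nat.gcd_eq_left hdN'] at hgcd
  subst hgcd
  have hd0 : (d : ℤ) ≠ 0 := Int.natCast_ne_zero.mpr (Nat.pos_of_mem_divisors hd).ne'
  have h2 := cusp_dvd_of_rel (N := (N : ℤ)) (d := (d : ℤ)) (m := ((N / d : ℕ) : ℤ))
    (g := ((Nat.gcd d (N / d) : ℕ) : ℤ)) (e1 := 1) (e2 := 1) hd0
    (by rw [← Nat.cast_mul, Nat.mul_div_cancel' hdN]) (by rw [hx10, mul_one])
    (by rw [hy10, mul_one]) (Int.natCast_dvd_natCast.mpr (Nat.gcd_dvd_left _ _))
    (Int.natCast_dvd_natCast.mpr (Nat.gcd_dvd_right _ _)) h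
  rw [mul_one, one_mul, ← ZMod.intCast_zmod_eq_zero_iff_dvd, Int.cast_sub, sub_eq_zero, hx00,
    hy00] at h2
  have h3 : u = u' := Units.ext h2.symm
  subst h3
  rfl

/-- Every coset lies in the `T`-orbit of a representative. -/
theorem cuspRep_surjective (N : ℕ) (hN : N ≠ 0) (q : SL(2, ℤ) ⧸ Gamma0 N) :
    ∃ (x : CuspIndex N) (k : ℤ), (T ^ k) • q = cuspRep N x := by
  induction q using QuotientGroup.induction_on with
  | H γ =>
    set d : ℕ := Int.gcd (γ 1 0) (N : ℤ) with hd_def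
    have hdN : d ∣ N := Int.natCast_dvd_natCast.mp (Int.gcd_dvd_right (γ 1 0) (N : ℤ))
    have hd0 : d ≠ 0 := fun h0 => hN (Nat.eq_zero_of_zero_dvd (h0 ▸ hdN))
    have hd : d ∈ N.divisors := Nat.mem_divisors.mpr ⟨hdN, hN⟩
    have hdc : (d : ℤ) ∣ γ 1 0 := Int.gcd_dvd_left (γ 1 0) (N : ℤ)
    obtain ⟨e, he⟩ := hdc
    have hNdm : (N : ℤ) = (d : ℤ) * ((N / d : ℕ) : ℤ) := by
      rw [← Nat.cast_mul, Nat.mul_div_cancel' hdN]
    have hcop : IsCoprime e ((N / d : ℕ) : ℤ) := by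
      rw [Int.isCoprime_iff_gcd_eq_one]
      have h1 := Int.gcd_div_gcd_div_gcd (i := γ 1 0) (j := (N : ℤ))
        (Nat.pos_of_ne_zero hd0)
      rw [← hd_def] at h1
      have h2 : γ 1 0 / (d : ℤ) = e := by
        rw [he, Int.mul_ediv_cancel_left _ (Int.natCast_ne_zero.mpr hd0)]
      have h3 : (N : ℤ) / (d : ℤ) = ((N / d : ℕ) : ℤ) := (Int.natCast_div N d).symm
      rw [h2, h3] at h1
      exact h1
    -- units modulo `g = gcd(d, N / d)`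
    have hgd : ((Nat.gcd d (N / d) : ℕ) : ZMod (Nat.gcd d (N / d))) = 0 := ZMod.natCast_self _
    have hc0 : ((γ 1 0 : ℤ) : ZMod (Nat.gcd d (N / d))) = 0 := by
      rw [he, Int.cast_mul, Int.cast_natCast,
        (ZMod.natCast_eq_zero_iff d (Nat.gcd d (N / d))).mpr (Nat.gcd_dvd_left _ _), zero_mul]
    have hm0 : (((N / d : ℕ) : ℤ) : ZMod (Nat.gcd d (N / d))) = 0 := by
      rw [Int.cast_natCast,
        (ZMod.natCast_eq_zero_iff (N / d) (Nat.gcd d (N / d))).mpr (Nat.gcd_dvd_right _ _)]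
    obtain ⟨xa, ya, hxya⟩ := isCoprime_col γ
    obtain ⟨xe, ye, hxye⟩ := id hcop
    have hua : ((γ 0 0 : ℤ) : ZMod (Nat.gcd d (N / d))) * (xa : ZMod (Nat.gcd d (N / d))) = 1 := by
      have := congrArg (Int.cast : ℤ → ZMod (Nat.gcd d (N / d))) hxya
      push_cast at this
      rw [hc0, mul_zero, add_zero] at this
      rw [mul_comm]; exact this
    have hue : ((e : ℤ) : ZMod (Nat.gcd d (N / d))) * (xe : ZMod (Nat.gcd d (N / d))) = 1 := by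
      have := congrArg (Int.cast : ℤ → ZMod (Nat.gcd d (N / d))) hxye
      rw [Int.cast_add, Int.cast_mul, Int.cast_mul, hm0, mul_zero, add_zero, Int.cast_one] at this
      rw [mul_comm]; exact this
    let ua : (ZMod (Nat.gcd d (N / d)))ˣ := Units.mkOfMulEqOne _ _ hua
    let ue : (ZMod (Nat.gcd d (N / d)))ˣ := Units.mkOfMulEqOne _ _ hue
    have hua' : (ua : ZMod (Nat.gcd d (N / d))) = ((γ 0 0 : ℤ) : ZMod (Nat.gcd d (N / d))) := rfl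
    have hue' : (ue : ZMod (Nat.gcd d (N / d))) = ((e : ℤ) : ZMod (Nat.gcd d (N / d))) := rfl
    let x : CuspIndex N := ⟨⟨d, hd⟩, ua * ue⁻¹⟩
    have hx10 : cuspRep N x 1 0 = (d : ℤ) := cuspRep_10 N x
    have hx00 : ((cuspRep N x 0 0 : ℤ) : ZMod (Nat.gcd d (N / d))) = ((ua * ue⁻¹ : (ZMod (Nat.gcd d (N / d)))ˣ) : ZMod (Nat.gcd d (N / d))) :=
      cuspRep_00 N x
    have hdvd : ((Int.gcd (d : ℤ) ((N / d : ℕ) : ℤ) : ℕ) : ℤ) ∣
        γ 0 0 * 1 - e * cuspRep N x 0 0 := by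
      rw [Int.gcd_natCast_natCast, ← ZMod.intCast_zmod_eq_zero_iff_dvd]
      push_cast
      rw [hx00, Units.val_mul, hua', ← hue']
      have h5 : (ue : ZMod (Nat.gcd d (N / d))) * ((ue⁻¹ : (ZMod (Nat.gcd d (N / d)))ˣ) : ZMod (Nat.gcd d (N / d))) = 1 := ue.mul_inv
      linear_combination (-((γ 0 0 : ℤ) : ZMod (Nat.gcd d (N / d)))) * h5
    obtain ⟨k, hk⟩ := cusp_exists_rel (N := (N : ℤ)) (d := (d : ℤ)) (m := ((N / d : ℕ) : ℤ))
      (a1 := cuspRep N x 0 0) (c1 := cuspRep N x 1 0) (e1 := 1) (a2 := γ 0 0) (c2 := γ 1 0)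
      (e2 := e) hNdm (by rw [hx10, mul_one]) he isCoprime_one_left hcop hdvd
    exact ⟨x, k, (T_zpow_smul_mk_eq_iff N k γ (cuspRep N x)).mpr hk⟩

/-! ### Counting -/

theorem card_quotient_of_transversal {X D : Type*} (r : Setoid X) (f : D → X)
    (hinj : ∀ a b, r (f a) (f b) → a = b) (hsurj : ∀ x, ∃ a, r (f a) x) :
    Nat.card (Quotient r) = Nat.card D := by
  refine (Nat.card_congr (Equiv.ofBijective (fun a => (Quotient.mk r (f a))) ⟨?_, ?_⟩)).symm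
  · intro a b h
    exact hinj a b (Quotient.exact h)
  · intro q
    induction q using Quotient.ind with
    | _ x =>
      obtain ⟨a, ha⟩ := hsurj x
      exact ⟨a, Quotient.sound ha⟩

theorem card_cuspIndex (N : ℕ) : Nat.card (CuspIndex N) = ModularCurve.cuspCount N := by
  unfold ModularCurve.cuspCount
  haveI : ∀ d : ↥N.divisors, NeZero (Nat.gcd (d : ℕ) (N / (d : ℕ))) := fun d =>
    ⟨Nat.gcd_ne_zero_left (Nat.pos_of_mem_divisors d.2).ne'⟩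
  rw [Nat.card_sigma, ← Finset.sum_coe_sort N.divisors (fun d => Nat.totient (Nat.gcd d (N / d)))]
  refine Finset.sum_congr rfl fun d _ => ?_
  rw [Nat.card_eq_fintype_card, ZMod.card_units_eq_totient]

theorem orbitRel_zpowers_T_iff (N : ℕ) (x y : SL(2, ℤ) ⧸ Gamma0 N) :
    MulAction.orbitRel (Subgroup.zpowers T) (SL(2, ℤ) ⧸ Gamma0 N) x y ↔
      ∃ k : ℤ, (T ^ k) • y = x := by
  rw [MulAction.orbitRel_apply, MulAction.mem_orbit_iff]
  constructor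
  · rintro ⟨⟨g, hg⟩, rfl⟩
    obtain ⟨k, rfl⟩ := Subgroup.mem_zpowers_iff.mp hg
    exact ⟨k, rfl⟩
  · rintro ⟨k, rfl⟩
    exact ⟨⟨T ^ k, k, rfl⟩, rfl⟩

theorem orbitRel_zpowers_toPerm_T_iff (N : ℕ) (x y : SL(2, ℤ) ⧸ Gamma0 N) :
    MulAction.orbitRel (Subgroup.zpowers (MulAction.toPerm T : Equiv.Perm (SL(2, ℤ) ⧸ Gamma0 N)))
      (SL(2, ℤ) ⧸ Gamma0 N) x y ↔ ∃ k : ℤ, (T ^ k) • y = x := by
  rw [MulAction.orbitRel_apply, MulAction.mem_orbit_iff]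
  have key : ∀ k : ℤ, ((MulAction.toPerm T : Equiv.Perm (SL(2, ℤ) ⧸ Gamma0 N)) ^ k) y =
      (T ^ k) • y := by
    intro k
    have h1 := map_zpow (MulAction.toPermHom SL(2, ℤ) (SL(2, ℤ) ⧸ Gamma0 N)) T k
    have h2 : ((MulAction.toPerm T : Equiv.Perm (SL(2, ℤ) ⧸ Gamma0 N)) ^ k) =
        MulAction.toPerm (T ^ k) := h1.symm
    rw [h2]
    rfl
  constructor
  · rintro ⟨⟨g, hg⟩, rfl⟩
    obtain ⟨k, rfl⟩ := Subgroup.mem_zpowers_iff.mp hg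
    exact ⟨k, (key k).symm⟩
  · rintro ⟨k, rfl⟩
    exact ⟨⟨_, k, rfl⟩, key k⟩

/-- The number of `T`-orbits on `SL(2, ℤ) ⧸ Γ₀(N)` is `cuspCount N`. -/
theorem card_orbits_T (N : ℕ) (hN : N ≠ 0) :
    Nat.card (MulAction.orbitRel.Quotient (Subgroup.zpowers T) (SL(2, ℤ) ⧸ Gamma0 N)) =
      ModularCurve.cuspCount N := by
  rw [← card_cuspIndex N]
  exact card_quotient_of_transversal _
    (fun x => ((cuspRep N x : SL(2, ℤ)) : SL(2, ℤ) ⧸ Gamma0 N))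
    (fun a b h => by
      obtain ⟨k, hk⟩ := (orbitRel_zpowers_T_iff N _ _).mp h
      exact cuspRep_injective N a b k hk)
    (fun q => by
      obtain ⟨x, k, hk⟩ := cuspRep_surjective N hN q
      exact ⟨x, (orbitRel_zpowers_T_iff N _ _).mpr ⟨k, hk⟩⟩)

/-- The number of cycles of the permutation `T` of `SL(2, ℤ) ⧸ Γ₀(N)` is `cuspCount N`. -/
theorem card_orbits_toPerm_T (N : ℕ) (hN : N ≠ 0) :
    Nat.card (MulAction.orbitRel.Quotient
      (Subgroup.zpowers (MulAction.toPerm T : Equiv.Perm (SL(2, ℤ) ⧸ Gamma0 N)))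
      (SL(2, ℤ) ⧸ Gamma0 N)) = ModularCurve.cuspCount N := by
  rw [← card_cuspIndex N]
  exact card_quotient_of_transversal _
    (fun x => ((cuspRep N x : SL(2, ℤ)) : SL(2, ℤ) ⧸ Gamma0 N))
    (fun a b h => by
      obtain ⟨k, hk⟩ := (orbitRel_zpowers_toPerm_T_iff N _ _).mp h
      exact cuspRep_injective N a b k hk)
    (fun q => by
      obtain ⟨x, k, hk⟩ := cuspRep_surjective N hN q
      exact ⟨x, (orbitRel_zpowers_toPerm_T_iff N _ _).mpr ⟨k, hk⟩⟩)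

end Fermat.Agent.S24
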