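import Fermat.Agent.S24.ClassifyBasics
import Fermat.Agent.S24.SumFormula

/-!
# S24: classification of the zero places of a function by a full system of Laurent points
-/

set_option autoImplicit false

open AlgebraicCurve IntermediateField

namespace Fermat.Agent.S24

section RatFun

variable {K F : Type*} [Field K] [Field F] [Algebra K F]

theorem cl_aeval_mem (x : F) (A : ValuationSubring F) (hK : ∀ c : K, algebraMap K F c ∈ A)
    (hx : x ∈ A) (p : Polynomial K) : Polynomial.aeval x p ∈ A := by
  rw [Polynomial.aeval_eq_sum_range]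
  refine A.toSubring.sum_mem fun i _ => ?_
  rw [Algebra.smul_def]
  exact A.mul_mem _ _ (hK _) (A.pow_mem hx i)

theorem cl_valuation_aeval (x : F) (A : ValuationSubring F)
    (hK : ∀ c : K, algebraMap K F c ∈ A) (hx : x ∈ A) (hx' : x⁻¹ ∉ A) (q : Polynomial K)
    (hq : q.coeff 0 ≠ 0) : A.valuation (Polynomial.aeval x q) = 1 := by
  have hv1 : A.valuation x < 1 := by
    refine lt_of_le_of_ne ((A.valuation_le_one_iff x).mpr hx) fun h1 => hx' ?_
    rw [← A.valuation_le_one_iff, map_inv₀, h1, inv_one]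
  have hc : A.valuation (algebraMap K F (q.coeff 0)) = 1 := by
    refine le_antisymm ((A.valuation_le_one_iff _).mpr (hK _)) ?_
    have h2 := (A.valuation_le_one_iff _).mpr (hK (q.coeff 0)⁻¹)
    rw [map_inv₀, map_inv₀] at h2
    have hne : A.valuation (algebraMap K F (q.coeff 0)) ≠ 0 :=
      (Valuation.ne_zero_iff _).mpr ((map_ne_zero _).mpr hq)
    exact (inv_le_one₀ (zero_lt_iff.mpr hne)).mp h2
  have hh : A.valuation (Polynomial.aeval x q.divX * x) < 1 := by
    rw [map_mul]
    exact lt_of_le_of_lt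
      (mul_le_of_le_one_left' ((A.valuation_le_one_iff _).mpr (cl_aeval_mem x A hK hx _))) hv1
  have e : Polynomial.aeval x q =
      Polynomial.aeval x q.divX * x + algebraMap K F (q.coeff 0) := by
    conv_lhs => rw [← Polynomial.divX_mul_X_add q]
    simp
  rw [e, Valuation.map_add_eq_of_lt_right _ (hc ▸ hh), hc]

theorem cl_exists_pow_mul (r : Polynomial K) (hr : r ≠ 0) :
    ∃ (n : ℕ) (r₁ : Polynomial K), r = Polynomial.X ^ n * r₁ ∧ r₁.coeff 0 ≠ 0 := by
  obtain ⟨r₁, hr₁, hr₁'⟩ := Polynomial.exists_eq_pow_rootMultiplicity_mul_and_not_dvd r hr 0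
  rw [Polynomial.C_0, sub_zero] at hr₁ hr₁'
  exact ⟨_, r₁, hr₁, fun h => hr₁' (Polynomial.X_dvd_iff.mpr h)⟩

/-- Elements of `K(x)` have valuation a power of the valuation of `x`, uniformly in the
valuation ring at which `x` is a non-unit. -/
theorem cl_exists_zpow (x : F) (g : F) (hg : g ∈ K⟮x⟯) (hg0 : g ≠ 0) :
    ∃ k : ℤ, ∀ A : ValuationSubring F, (∀ c : K, algebraMap K F c ∈ A) → x ∈ A → x⁻¹ ∉ A →
      A.valuation g = A.valuation x ^ k := by
  obtain ⟨r, s, rfl⟩ := (mem_adjoin_simple_iff K g).mp hg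
  have hr : r ≠ 0 := by rintro rfl; simp at hg0
  have hs : s ≠ 0 := by rintro rfl; simp at hg0
  obtain ⟨n, r₁, rfl, hr₁⟩ := cl_exists_pow_mul r hr
  obtain ⟨m, s₁, rfl, hs₁⟩ := cl_exists_pow_mul s hs
  refine ⟨(n : ℤ) - m, fun A hK hx hx' => ?_⟩
  have h1 := cl_valuation_aeval x A hK hx hx' r₁ hr₁
  have h2 := cl_valuation_aeval x A hK hx hx' s₁ hs₁
  have hx0 : A.valuation x ≠ 0 := by
    refine (Valuation.ne_zero_iff _).mpr ?_
    rintro rfl
    exact hx' (by simp [A.zero_mem])
  simp only [map_mul, map_pow, Polynomial.aeval_X, map_div₀]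
  rw [h1, h2, mul_one, mul_one, zpow_sub₀ hx0, zpow_natCast, zpow_natCast]

theorem cl_mem_of_valuation_eq_one (A : ValuationSubring F) (y : F) (h : A.valuation y = 1) :
    y ∈ A ∧ y⁻¹ ∈ A := by
  refine ⟨(A.valuation_le_one_iff _).mp h.le, (A.valuation_le_one_iff _).mp ?_⟩
  rw [map_inv₀, h, inv_one]

variable {L : Type*} [Field L]

/-- On `K(x)`, the order at a zero place of `x` and the order of a Laurent point at which `x` has
positive order are proportional. -/
theorem cl_order_ratfun (x : F) (P : Place K F) (hP : 0 < P.ord x) (φ : F →+* LaurentSeries L)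
    (hK : ∀ c : K, 0 ≤ (φ (algebraMap K F c)).order) (hx : 0 < (φ x).order) (g : F)
    (hg : g ∈ K⟮x⟯) (hg0 : g ≠ 0) :
    (φ g).order * P.ord x = (φ x).order * P.ord g := by
  obtain ⟨k, hk⟩ := cl_exists_zpow x g hg hg0
  have hx0 : x ≠ 0 := by rintro rfl; simp at hP
  have hxk : x ^ (-k) ≠ 0 := zpow_ne_zero _ hx0
  -- at the place
  have h1 : P.ord g = k * P.ord x := by
    have hA := hk P.toValuationSubring P.algebraMap_mem' ((cl_mem_iff P x).mpr hP.le)
      (by rw [cl_mem_iff, P.ord_inv]; omega)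
    have hv : P.toValuationSubring.valuation (g * x ^ (-k)) = 1 := by
      rw [map_mul, hA, map_zpow₀, ← zpow_add₀ ((Valuation.ne_zero_iff _).mpr hx0)]
      simp
    obtain ⟨ha, hb⟩ := cl_mem_of_valuation_eq_one _ _ hv
    rw [cl_mem_iff] at ha hb
    rw [P.ord_inv] at hb
    rw [P.ord_mul hg0 hxk, P.ord_zpow] at ha hb
    linarith
  -- at the Laurent point
  have h2 : (φ g).order = k * (φ x).order := by
    have hA := hk (laurentVS φ) hK hx.le
      (by rw [mem_laurentVS, cl_order_map_inv]; omega)
    have hv : (laurentVS φ).valuation (g * x ^ (-k)) = 1 := by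
      rw [map_mul, hA, map_zpow₀, ← zpow_add₀ ((Valuation.ne_zero_iff _).mpr hx0)]
      simp
    obtain ⟨ha, hb⟩ := cl_mem_of_valuation_eq_one _ _ hv
    rw [mem_laurentVS] at ha hb
    rw [cl_order_map_inv] at hb
    rw [cl_order_map_mul φ hg0 hxk, cl_order_map_zpow] at ha hb
    linarith
  rw [h1, h2]; ring

end RatFun


section NormProd

variable {K F : Type*} [Field K] [Field F] [Algebra K F]
variable {L : Type*} [Field L] {ι : Type*}

theorem LaurentSystem.map_eq_of_mem {x : F} (S : LaurentSystem K x L ι) (i j : ι) (g : F)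
    (hg : g ∈ K⟮x⟯) : S.φ i g = S.φ j g := by
  induction hg using IntermediateField.adjoin_induction with
  | mem y hy =>
    rw [Set.mem_singleton_iff] at hy
    subst hy
    exact S.map_x i j
  | algebraMap c => rw [S.map_const, S.map_const]
  | add y z _ _ hy hz => rw [map_add, map_add, hy, hz]
  | inv y _ hy => rw [map_inv₀, map_inv₀, hy]
  | mul y z _ _ hy hz => rw [map_mul, map_mul, hy, hz]

/-- The norm to `K(x)` is the product over the Laurent points of a full system. -/
theorem LaurentSystem.map_norm [CharZero K] {x : F} [FiniteDimensional K⟮x⟯ F] [Fintype ι]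
    (S : LaurentSystem K x L ι) (i : ι) (f : F) :
    S.φ i (algebraMap K⟮x⟯ F (Algebra.norm K⟮x⟯ f)) = ∏ j, S.φ j f := by
  classical
  let E := AlgebraicClosure (LaurentSeries L)
  let ψ₀ : K⟮x⟯ →+* E :=
    (algebraMap (LaurentSeries L) E).comp ((S.φ i).comp (algebraMap K⟮x⟯ F))
  let _ : Algebra K⟮x⟯ E := ψ₀.toAlgebra
  let σ : ι → (F →ₐ[K⟮x⟯] E) := fun j =>
    { toRingHom := (algebraMap (LaurentSeries L) E).comp (S.φ j)
      commutes' := fun g => by
        show algebraMap (LaurentSeries L) E (S.φ j (algebraMap K⟮x⟯ F g)) =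
          algebraMap (LaurentSeries L) E (S.φ i (algebraMap K⟮x⟯ F g))
        exact congrArg _ (S.map_eq_of_mem j i _ g.2) }
  have hσ : Function.Injective σ := by
    intro j j' h
    apply S.injective
    refine RingHom.ext fun f => ?_
    have := DFunLike.congr_fun h f
    exact (algebraMap (LaurentSeries L) E).injective this
  have hcard : Fintype.card (F →ₐ[K⟮x⟯] E) = Module.finrank K⟮x⟯ F := AlgHom.card K⟮x⟯ F E
  have hbij : Function.Bijective σ := by
    rw [Fintype.bijective_iff_injective_and_card]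
    exact ⟨hσ, by rw [hcard, ← S.card_eq, Nat.card_eq_fintype_card]⟩
  have hnorm := Algebra.norm_eq_prod_embeddings K⟮x⟯ E f
  rw [← Fintype.prod_bijective σ hbij (fun j => σ j f) (fun τ => τ f) (fun _ => rfl)] at hnorm
  apply (algebraMap (LaurentSeries L) E).injective
  rw [map_prod]
  exact hnorm

theorem cl_order_prod {ι' : Type*} (s : Finset ι') (y : ι' → LaurentSeries L)
    (hy : ∀ j ∈ s, y j ≠ 0) : (∏ j ∈ s, y j).order = ∑ j ∈ s, (y j).order := by
  classical
  induction s using Finset.induction_on with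
  | empty => simp
  | insert a s ha ih =>
    rw [Finset.prod_insert ha, Finset.sum_insert ha,
      HahnSeries.order_mul (hy a (Finset.mem_insert_self a s))
        (Finset.prod_ne_zero_iff.mpr fun j hj => hy j (Finset.mem_insert_of_mem hj)),
      ih fun j hj => hy j (Finset.mem_insert_of_mem hj)]

end NormProd

section Count

variable {K F : Type*} [Field K] [Field F] [Algebra K F]
variable {L : Type*} [Field L] {ι : Type*}

/-- The place of a member of a Laurent system. -/
noncomputable def LaurentSystem.place {x : F} (S : LaurentSystem K x L ι) (i : ι) : Place K F :=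
  laurentPlace (S.φ i) (fun c => by rw [S.map_const, HahnSeries.order_C]) x
    (by rw [S.order_x]; exact_mod_cast S.e₀_pos)

theorem LaurentSystem.isPlaceOf_place {x : F} (S : LaurentSystem K x L ι) (i : ι) :
    IsPlaceOf (S.place i) (S.φ i) := fun _ => Iff.rfl

theorem LaurentSystem.place_mem_zeroPlaces {x : F} (S : LaurentSystem K x L ι) (i : ι) :
    S.place i ∈ zeroPlaces K x := by
  obtain ⟨m, hm, h⟩ := (S.isPlaceOf_place i).exists_order_eq
  have hx0 : x ≠ 0 := by
    rintro rfl
    have := S.order_x i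
    rw [map_zero, HahnSeries.order_zero] at this
    have := S.e₀_pos
    omega
  have h1 := h x hx0
  rw [S.order_x] at h1
  show 0 < (S.place i).ord x
  have := S.e₀_pos
  by_contra hcon
  push Not at hcon
  have : m * (S.place i).ord x ≤ 0 := mul_nonpos_of_nonneg_of_nonpos hm.le hcon
  omega

theorem LaurentSystem.place_π {x : F} (S : LaurentSystem K x L ι) (i : ι) :
    S.place (S.π i) = S.place i := by
  apply Place.ext
  ext f
  show 0 ≤ (S.φ (S.π i) f).order ↔ 0 ≤ (S.φ i f).order
  rw [S.order_π]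

theorem LaurentSystem.place_zpow {x : F} (S : LaurentSystem K x L ι) (z : ℤ) (i : ι) :
    S.place ((S.π ^ z) i) = S.place i := by
  induction z using Int.induction_on with
  | zero => simp
  | succ n ih =>
    rw [add_comm, zpow_add, zpow_one, Equiv.Perm.mul_apply, S.place_π, ih]
  | pred n ih =>
    have h := S.place_π ((S.π ^ (-(n : ℤ) - 1)) i)
    rw [← Equiv.Perm.mul_apply, ← zpow_one_add] at h
    rw [← h, ← ih]
    congr 3
    ring

variable [IsAlgClosed K] [CharZero K]

/-- The sum of the orders over a full Laurent system. -/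
theorem LaurentSystem.sum_order_eq {x : F} (hx : Transcendental K x) [FiniteDimensional K⟮x⟯ F]
    [Fintype ι] (S : LaurentSystem K x L ι) (f : F) (hf : f ≠ 0) :
    ∑ j, (S.φ j f).order = S.e₀ * ∑ᶠ P ∈ zeroPlaces K x, P.ord f := by
  have hne : Nonempty ι := by
    have h1 : 0 < Nat.card ι := by
      rw [S.card_eq]; exact Module.finrank_pos
    exact (Nat.card_pos_iff.mp h1).1
  obtain ⟨i₀⟩ := hne
  have hP₀ := S.place_mem_zeroPlaces i₀
  have hN0 : algebraMap K⟮x⟯ F (Algebra.norm K⟮x⟯ f) ≠ 0 := by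
    rw [Ne, map_eq_zero_iff _ (algebraMap K⟮x⟯ F).injective, Algebra.norm_eq_zero_iff]
    exact hf
  have h1 := cl_order_ratfun x (S.place i₀) hP₀ (S.φ i₀)
    (fun c => by rw [S.map_const, HahnSeries.order_C])
    (by rw [S.order_x]; exact_mod_cast S.e₀_pos)
    (algebraMap K⟮x⟯ F (Algebra.norm K⟮x⟯ f)) (Algebra.norm K⟮x⟯ f).2 hN0
  rw [S.map_norm i₀ f, cl_order_prod _ _ (fun j _ => (map_ne_zero _).mpr hf), S.order_x,
    ord_norm_eq x hx _ hP₀ f hf] at h1
  have hpos : (0 : ℤ) < (S.place i₀).ord x := hP₀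
  have h2 : (∑ j, (S.φ j f).order) * (S.place i₀).ord x =
      ((S.e₀ : ℤ) * ∑ᶠ P ∈ zeroPlaces K x, P.ord f) * (S.place i₀).ord x := by
    rw [h1]; ring
  exact mul_right_cancel₀ hpos.ne' h2

end Count

section Count2

variable {K F : Type*} [Field K] [IsAlgClosed K] [CharZero K] [Field F] [Algebra K F]
variable {L : Type*} [Field L] {ι : Type*}

omit [IsAlgClosed K] [CharZero K] in
theorem LaurentSystem.order_pow {x : F} (S : LaurentSystem K x L ι) (a : ℕ) (i : ι) (f : F) :
    (S.φ ((S.π ^ a) i) f).order = (S.φ i f).order := by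
  induction a with
  | zero => simp
  | succ n ih => rw [pow_succ', Equiv.Perm.mul_apply, S.order_π, ih]

/-- The multiplicities of the Laurent points above a zero place add up to `e₀`. -/
theorem LaurentSystem.sum_mult_eq {x : F} (hx : Transcendental K x) [FiniteDimensional K⟮x⟯ F]
    [Fintype ι] (S : LaurentSystem K x L ι) (m : ι → ℤ)
    (hm : ∀ (i : ι) (f : F), f ≠ 0 → (S.φ i f).order = m i * (S.place i).ord f)
    (P : Place K F) (hP : P ∈ zeroPlaces K x) [DecidablePred fun j => S.place j = P] :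
    ∑ j with S.place j = P, m j = S.e₀ := by
  classical
  obtain ⟨f, hf0, hf1, hf2⟩ := exists_ord_eq_one x hx P hP
  have h := S.sum_order_eq hx f hf0
  have hR : ∑ᶠ P' ∈ zeroPlaces K x, P'.ord f = 1 := by
    rw [finsum_mem_eq_finite_toFinset_sum _ (zeroPlaces_finite x hx), Finset.sum_eq_single P]
    · exact hf1
    · intro b hb hbP
      exact hf2 b ((Set.Finite.mem_toFinset _).mp hb) hbP
    · intro hPn
      exact absurd ((Set.Finite.mem_toFinset _).mpr hP) hPn
  rw [hR, mul_one] at h
  rw [← h, Finset.sum_filter]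
  refine Finset.sum_congr rfl fun j _ => ?_
  rw [hm j f hf0]
  split_ifs with hj
  · rw [hj, hf1, mul_one]
  · rw [hf2 _ (S.place_mem_zeroPlaces j) hj, mul_zero]

/-- Every zero place of `x` is the place of a member of the system. -/
theorem LaurentSystem.exists_place_eq {x : F} (hx : Transcendental K x)
    [FiniteDimensional K⟮x⟯ F] [Finite ι] (S : LaurentSystem K x L ι) (P : Place K F)
    (hP : P ∈ zeroPlaces K x) : ∃ i, S.place i = P := by
  classical
  have := Fintype.ofFinite ι
  choose m hm0 hm using fun i => (S.isPlaceOf_place i).exists_order_eq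
  have h := S.sum_mult_eq hx m hm P hP
  by_contra hcon
  push Not at hcon
  rw [Finset.filter_false_of_mem (fun j _ => hcon j), Finset.sum_empty] at h
  have := S.e₀_pos
  omega

/-- A6: classification of the zero places of `x` by a full Laurent system. -/
theorem LaurentSystem.exists_isPlaceOf {x : F} (hx : Transcendental K x)
    [FiniteDimensional K⟮x⟯ F] [Finite ι] (S : LaurentSystem K x L ι)
    (P : Place K F) (hP : P ∈ zeroPlaces K x) : ∃ i, IsPlaceOf P (S.φ i) := by
  obtain ⟨i, rfl⟩ := S.exists_place_eq hx P hP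
  exact ⟨i, S.isPlaceOf_place i⟩

/-- Two members of the system with the same place lie in the same orbit of the symmetry. -/
theorem LaurentSystem.exists_pow_eq {x : F} (hx : Transcendental K x)
    [FiniteDimensional K⟮x⟯ F] [Finite ι] (S : LaurentSystem K x L ι) (i j : ι)
    (hij : S.place i = S.place j) : ∃ a : ℕ, i = (S.π ^ a) j := by
  classical
  have := Fintype.ofFinite ι
  choose m hm0 hm using fun i => (S.isPlaceOf_place i).exists_order_eq
  obtain ⟨π₀, hπ₀⟩ := IsDiscreteValuationRing.exists_irreducible (S.place j).toValuationSubring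
  have ht : (S.place j).ord (π₀ : F) = 1 := (S.place j).ord_coe_irreducible hπ₀
  have ht0 : (π₀ : F) ≠ 0 := by
    intro h0
    rw [h0, Place.ord_zero] at ht
    exact zero_ne_one ht
  have hplace : ∀ a : ℕ, S.place ((S.π ^ a) j) = S.place j := by
    intro a
    rw [← zpow_natCast]
    exact S.place_zpow _ _
  have hmπ : ∀ a : ℕ, m ((S.π ^ a) j) = m j := by
    intro a
    have h1 := hm ((S.π ^ a) j) _ ht0
    have h2 := hm j _ ht0
    rw [S.order_pow, hplace, ht, mul_one] at h1
    rw [ht, mul_one] at h2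
    rw [← h1, ← h2]
  set r := Function.minimalPeriod S.π j with hr_def
  have hr : 0 < r := by
    refine Function.IsPeriodicPt.minimalPeriod_pos (orderOf_pos S.π) ?_
    show (S.π)^[orderOf S.π] j = j
    rw [Equiv.Perm.iterate_eq_pow, pow_orderOf_eq_one]
    rfl
  have hdvd : (S.e₀ : ℤ) ∣ (r : ℤ) * m j := by
    have h := S.dvd j _ ht0
    rwa [hm j _ ht0, ht, mul_one] at h
  have hle : (S.e₀ : ℤ) ≤ (r : ℤ) * m j :=
    Int.le_of_dvd (mul_pos (by exact_mod_cast hr) (hm0 j)) hdvd
  by_contra hcon
  push Not at hcon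
  have hsum := S.sum_mult_eq hx m hm (S.place j) (S.place_mem_zeroPlaces j)
  let O : Finset ι := (Finset.range r).image (fun a => (S.π ^ a) j)
  have hO : ∑ k ∈ O, m k = (r : ℤ) * m j := by
    rw [Finset.sum_image]
    · rw [Finset.sum_congr rfl (fun a _ => hmπ a), Finset.sum_const, Finset.card_range,
        nsmul_eq_mul]
    · intro a ha b hb hab
      exact Function.iterate_injOn_Iio_minimalPeriod (f := S.π) (x := j)
        (by simpa using ha) (by simpa using hb) hab
  have hsub : insert i O ⊆ Finset.univ.filter (fun k => S.place k = S.place j) := by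
    intro k hk
    rw [Finset.mem_insert] at hk
    rw [Finset.mem_filter]
    refine ⟨Finset.mem_univ _, ?_⟩
    rcases hk with rfl | hk
    · exact hij
    · obtain ⟨a, _, rfl⟩ := Finset.mem_image.mp hk
      exact hplace a
  have hiO : i ∉ O := by
    intro h
    obtain ⟨a, _, ha⟩ := Finset.mem_image.mp h
    exact hcon a ha.symm
  have h3 := Finset.sum_le_sum_of_subset_of_nonneg hsub (f := m) (fun k _ _ => (hm0 k).le)
  rw [Finset.sum_insert hiO, hO, hsum] at h3
  have := hm0 i
  omega

/-- A6': the number of zero places of `x` is the number of orbits of the symmetry. -/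
theorem LaurentSystem.card_zeroPlaces {x : F} (hx : Transcendental K x)
    [FiniteDimensional K⟮x⟯ F] [Finite ι] (S : LaurentSystem K x L ι) :
    Nat.card (zeroPlaces K x) = orbCount S.π := by
  unfold orbCount
  symm
  let g : MulAction.orbitRel.Quotient (Subgroup.zpowers S.π) ι → zeroPlaces K x :=
    Quotient.lift (fun i => (⟨S.place i, S.place_mem_zeroPlaces i⟩ : zeroPlaces K x)) (by
      intro a b hab
      obtain ⟨⟨g, hg⟩, rfl⟩ := hab
      obtain ⟨z, rfl⟩ := Subgroup.mem_zpowers_iff.mp hg
      apply Subtype.ext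
      exact S.place_zpow z b)
  apply Nat.card_eq_of_bijective g
  constructor
  · intro q₁ q₂ h
    induction q₁ using Quotient.inductionOn with | _ a =>
    induction q₂ using Quotient.inductionOn with | _ b =>
    have h' : S.place a = S.place b := congrArg Subtype.val h
    obtain ⟨n, hn⟩ := S.exists_pow_eq hx a b h'
    apply Quotient.sound
    exact ⟨⟨S.π ^ n, Subgroup.pow_mem _ (Subgroup.mem_zpowers _) n⟩, hn.symm⟩
  · rintro ⟨P, hP⟩
    obtain ⟨i, hi⟩ := S.exists_place_eq hx P hP
    exact ⟨Quotient.mk'' i, Subtype.ext hi⟩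

/-- At every zero place, the order of `x` divides `e₀`. -/
theorem LaurentSystem.exists_mul_ord_eq {x : F} (hx : Transcendental K x)
    [FiniteDimensional K⟮x⟯ F] [Finite ι] (S : LaurentSystem K x L ι) (P : Place K F)
    (hP : P ∈ zeroPlaces K x) : ∃ m : ℤ, 0 < m ∧ m * P.ord x = S.e₀ := by
  obtain ⟨i, rfl⟩ := S.exists_place_eq hx P hP
  obtain ⟨m, hm0, hm⟩ := (S.isPlaceOf_place i).exists_order_eq
  have hx0 : x ≠ 0 := by
    rintro rfl
    have : (0 : ℤ) < (S.place i).ord 0 := hP
    simp at this
  refine ⟨m, hm0, ?_⟩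
  rw [← hm x hx0, S.order_x]

/-- An unramified fibre: all zero places are simple. -/
theorem LaurentSystem.ord_eq_one {x : F} (hx : Transcendental K x)
    [FiniteDimensional K⟮x⟯ F] [Finite ι] (S : LaurentSystem K x L ι) (h1 : S.e₀ = 1)
    (P : Place K F) (hP : P ∈ zeroPlaces K x) : P.ord x = 1 := by
  obtain ⟨m, hm0, hm⟩ := S.exists_mul_ord_eq hx P hP
  rw [h1] at hm
  have hP' : (0 : ℤ) < P.ord x := hP
  have hm' : m * P.ord x = 1 := by exact_mod_cast hm
  exact Int.eq_one_of_mul_eq_one_left hP'.le hm'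

end Count2

end Fermat.Agent.S24
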