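import Mathlib
import Fermat.Agent.S24.Defs
import Fermat.Agent.S24.Ree
import Fermat.Agent.S24.CosetsIndex
import Fermat.Agent.S24.CosetsCusps

/-!
# S24, step (3): summary of the counting on `SL(2, ℤ) ⧸ Γ₀(N)`

* `orbCount_T` : the number of cycles of `T` is `cuspCount N`;
* `two_mul_orbCount_S` : `2 * #cycles(S) = ψ(N) + ν₂(N)`;
* `three_mul_orbCount_ST` : `3 * #cycles(S T) = ψ(N) + 2 ν₃(N)`;
* `exists_genus_numerics` : `12 g + 3 ν₂ + 4 ν₃ + 6 c = 12 + ψ` for some natural number `g`;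
* `exists_genus_eq_genusFormula` : `genusFormula N` is a natural number.
-/

set_option autoImplicit false

namespace Fermat.Agent.S24

open Matrix Matrix.SpecialLinearGroup CongruenceSubgroup ModularGroup

open scoped MatrixGroups

/-- `S * S = -1` acts trivially on the cosets of `Γ₀(N)`. -/
theorem S_mul_S_smul (N : ℕ) (x : SL(2, ℤ) ⧸ Gamma0 N) : (S * S) • x = x := by
  induction x using QuotientGroup.induction_on with
  | H h =>
    rw [smul_mk, mk_eq_mk_iff, mul_assoc, S_mul_00, S_mul_10, S_mul_10, S_mul_00]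
    exact ⟨0, by ring⟩

theorem ST_smul_smul_smul (N : ℕ) (x : SL(2, ℤ) ⧸ Gamma0 N) :
    (S * T) • (S * T) • (S * T) • x = x := by
  induction x using QuotientGroup.induction_on with
  | H h =>
    rw [smul_mk, smul_mk, smul_mk, mk_eq_mk_iff]
    have e0 : ∀ g : SL(2, ℤ), (S * T * g) 0 0 = - g 1 0 := fun g => by
      rw [mul_assoc, S_mul_00, T_mul_10]
    have e1 : ∀ g : SL(2, ℤ), (S * T * g) 1 0 = g 0 0 + g 1 0 := fun g => by
      rw [mul_assoc, S_mul_10, T_mul_00]
    simp only [e0, e1]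
    exact ⟨0, by ring⟩

/-- `(S * T) ^ 3 = -1` acts trivially on the cosets of `Γ₀(N)`. -/
theorem ST_pow_three_smul (N : ℕ) (x : SL(2, ℤ) ⧸ Gamma0 N) : ((S * T) ^ 3) • x = x := by
  rw [pow_succ, pow_two, mul_smul, mul_smul]
  exact ST_smul_smul_smul N x

theorem toPerm_S_sq (N : ℕ) :
    (MulAction.toPerm S : Equiv.Perm (SL(2, ℤ) ⧸ Gamma0 N)) ^ 2 = 1 := by
  ext x
  rw [pow_two]
  show S • S • x = x
  rw [← mul_smul]
  exact S_mul_S_smul N x

theorem toPerm_ST_cube (N : ℕ) :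
    (MulAction.toPerm (S * T) : Equiv.Perm (SL(2, ℤ) ⧸ Gamma0 N)) ^ 3 = 1 := by
  ext x
  rw [pow_succ, pow_two]
  exact ST_smul_smul_smul N x

/-- The number of cycles of `T` on `SL(2, ℤ) ⧸ Γ₀(N)` is `cuspCount N`. -/
theorem orbCount_T (N : ℕ) [NeZero N] :
    orbCount (MulAction.toPerm ModularGroup.T : Equiv.Perm (SL(2, ℤ) ⧸ Gamma0 N)) =
      ModularCurve.cuspCount N :=
  card_orbits_toPerm_T N (NeZero.ne N)

/-- Orbit count of a permutation of prime order in terms of its fixed points (`Nat.card` form of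
`mul_cyc_of_pow_prime_eq_one`). -/
theorem mul_orbCount_of_pow_prime {X : Type*} [Finite X] (s : Equiv.Perm X) (p : ℕ)
    (hp : p.Prime) (hs : s ^ p = 1) :
    p * orbCount s = Nat.card X + (p - 1) * Nat.card {x : X // s x = x} := by
  classical
  let _ : Fintype X := Fintype.ofFinite X
  have h := mul_cyc_of_pow_prime_eq_one s p hp hs
  rw [Nat.card_eq_fintype_card, Nat.card_eq_fintype_card, Fintype.card_subtype]
  exact h

theorem two_mul_orbCount_S (N : ℕ) [NeZero N] :
    2 * orbCount (MulAction.toPerm S : Equiv.Perm (SL(2, ℤ) ⧸ Gamma0 N)) =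
      ModularCurve.dedekindPsi N + ModularCurve.nuTwo N := by
  have h := mul_orbCount_of_pow_prime (MulAction.toPerm S : Equiv.Perm (SL(2, ℤ) ⧸ Gamma0 N)) 2
    Nat.prime_two (toPerm_S_sq N)
  have h2 : Nat.card {x : SL(2, ℤ) ⧸ Gamma0 N //
      (MulAction.toPerm S : Equiv.Perm (SL(2, ℤ) ⧸ Gamma0 N)) x = x} = ModularCurve.nuTwo N :=
    card_fixed_S N
  rw [h2, card_cosets] at h
  omega

theorem three_mul_orbCount_ST (N : ℕ) [NeZero N] :
    3 * orbCount (MulAction.toPerm (S * T) : Equiv.Perm (SL(2, ℤ) ⧸ Gamma0 N)) =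
      ModularCurve.dedekindPsi N + 2 * ModularCurve.nuThree N := by
  have h := mul_orbCount_of_pow_prime
    (MulAction.toPerm (S * T) : Equiv.Perm (SL(2, ℤ) ⧸ Gamma0 N)) 3
    Nat.prime_three (toPerm_ST_cube N)
  have h2 : Nat.card {x : SL(2, ℤ) ⧸ Gamma0 N //
      (MulAction.toPerm (S * T) : Equiv.Perm (SL(2, ℤ) ⧸ Gamma0 N)) x = x} =
      ModularCurve.nuThree N :=
    card_fixed_ST N
  rw [h2, card_cosets] at h
  omega

/-- Integrality and non-negativity of the genus formula. -/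
theorem exists_genus_numerics (N : ℕ) [NeZero N] :
    ∃ g : ℕ, 12 * g + 3 * ModularCurve.nuTwo N + 4 * ModularCurve.nuThree N +
      6 * ModularCurve.cuspCount N = 12 + ModularCurve.dedekindPsi N := by
  obtain ⟨g, hg⟩ := exists_genus_of_action (G := SL(2, ℤ)) (X := SL(2, ℤ) ⧸ Gamma0 N) S T
    SpecialLinearGroup.SL2Z_generators (S_mul_S_smul N) (ST_pow_three_smul N)
  rw [card_fixed_S, card_fixed_ST, card_cosets] at hg
  have hg' : 12 * g + 3 * ModularCurve.nuTwo N + 4 * ModularCurve.nuThree N +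
      6 * Nat.card (MulAction.orbitRel.Quotient (Subgroup.zpowers T) (SL(2, ℤ) ⧸ Gamma0 N)) =
      12 + ModularCurve.dedekindPsi N := hg
  rw [card_orbits_T N (NeZero.ne N)] at hg'
  exact ⟨g, hg'⟩

/-- `genusFormula N` is a natural number. -/
theorem exists_genus_eq_genusFormula (N : ℕ) [NeZero N] :
    ∃ g : ℕ, (g : ℚ) = ModularCurve.genusFormula N := by
  obtain ⟨g, hg⟩ := exists_genus_numerics N
  refine ⟨g, ?_⟩
  have h : (12 * g + 3 * ModularCurve.nuTwo N + 4 * ModularCurve.nuThree N +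
      6 * ModularCurve.cuspCount N : ℚ) = 12 + ModularCurve.dedekindPsi N := by
    exact_mod_cast hg
  unfold ModularCurve.genusFormula
  linarith

end Fermat.Agent.S24
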