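import Fermat.Agent.S24.SysBase
import Fermat.Agent.S24.JFun
import Fermat.Agent.S24.Real
import Fermat.Agent.S24.Degree

/-!
# S24, module E (finite part): Laurent systems at interior points

For a point `τ₀` of the upper half plane, the Taylor expansions at `τ₀` of the conjugates
`f ∘ γ⁻¹`, `γ` running through representatives of `SL(2, ℤ) ⧸ Γ₀(N)`, form a full Laurent
system of the function field of `X₀(N)` above `j = j(τ₀)`.
-/

set_option autoImplicit false

open AlgebraicCurve IntermediateField UpperHalfPlane ModularForm EisensteinSeries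
open scoped MatrixGroups Manifold

namespace Fermat.Agent.S24

/-! ### The analytic ring -/

section Ana

variable (N : ℕ) [NeZero N]

local notation "Kb" => AlgebraicClosure ℚ
set_option quotPrecheck false in
local notation "Fb" => ↥(ModularCurve.modularFunctionFieldBar N)
local notation "Xc" => SL(2, ℤ) ⧸ CongruenceSubgroup.Gamma0 N

/-- `g ↦ g ∘ γ⁻¹` from the analytic ring to the ring of holomorphic functions. -/
noncomputable def sysfinTrans (γ : SL(2, ℤ)) : anaRing N →+* holSubring where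
  toFun g := ⟨fun τ => (g : ℍ → ℂ) (γ⁻¹ • τ), sysfin_mdiff_smul γ⁻¹ (sysfin_mdiff_of_mem N g.2)⟩
  map_one' := rfl
  map_mul' _ _ := rfl
  map_zero' := rfl
  map_add' _ _ := rfl

/-- The Taylor expansion at `τ₀` of `g ∘ γ⁻¹`, as a Laurent series. -/
noncomputable def sysfinTheta (τ₀ : ℍ) (γ : SL(2, ℤ)) : anaRing N →+* LaurentSeries ℂ :=
  (HahnSeries.ofPowerSeries ℤ ℂ).comp ((taylorHom τ₀).comp (sysfinTrans N γ))

theorem sysfinTheta_apply (τ₀ : ℍ) (γ : SL(2, ℤ)) (g : anaRing N) :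
    sysfinTheta N τ₀ γ g =
      HahnSeries.ofPowerSeries ℤ ℂ (taylorAt τ₀ (fun τ => (g : ℍ → ℂ) (γ⁻¹ • τ))) := rfl

theorem sysfinTheta_injective (τ₀ : ℍ) (γ : SL(2, ℤ)) :
    Function.Injective (sysfinTheta N τ₀ γ) := by
  refine (HahnSeries.ofPowerSeries_injective (Γ := ℤ) (R := ℂ)).comp
    ((taylorHom_injective τ₀).comp ?_)
  intro g h hgh
  apply Subtype.ext
  funext τ
  have h1 := congrArg (fun f : holSubring => (f : ℍ → ℂ) (γ • τ)) hgh
  simpa [sysfinTrans] using h1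

/-- The Laurent point of the function field attached to `τ₀` and the coset `q`. -/
noncomputable def sysfinPhi (τ₀ : ℍ) (q : Xc) : Fb →+* LaurentSeries ℂ :=
  liftAna N (sysfinTheta N τ₀ q.out) (sysfinTheta_injective N τ₀ q.out)

theorem sysfinPhi_def (τ₀ : ℍ) (q : Xc) :
    sysfinPhi N τ₀ q = liftAna N (sysfinTheta N τ₀ q.out) (sysfinTheta_injective N τ₀ q.out) := rfl

theorem sysfinPhi_const (τ₀ : ℍ) (q : Xc) (c : Kb) :
    sysfinPhi N τ₀ q (algebraMap Kb Fb c) = HahnSeries.C (ιc c) := by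
  rw [sysfinPhi_def, liftAna_const, sysfinTheta_apply]
  show HahnSeries.ofPowerSeries ℤ ℂ (taylorAt τ₀ (fun _ => ιc c)) = _
  rw [taylorAt_const, HahnSeries.ofPowerSeries_C]

theorem sysfinPhi_jdBar (τ₀ : ℍ) (q : Xc) (d : ℕ) [NeZero d] (hd : d ∣ N) :
    sysfinPhi N τ₀ q (jdBar N d hd) =
      HahnSeries.ofPowerSeries ℤ ℂ (taylorAt τ₀ (fun τ => jd d (q.out⁻¹ • τ))) := by
  rw [sysfinPhi_def, liftAna_jdBar, sysfinTheta_apply]

theorem sysfin_jd_one : jd 1 = jFun := by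
  funext τ
  simp [jd, jC, ofComplex_apply]

theorem sysfinPhi_jBar (τ₀ : ℍ) (q : Xc) :
    sysfinPhi N τ₀ q (jBar N) = HahnSeries.ofPowerSeries ℤ ℂ (taylorAt τ₀ jFun) := by
  rw [jBar_eq_jdBar_one, sysfinPhi_jdBar]
  have h : (fun τ => jd 1 (q.out⁻¹ • τ)) = jFun := by
    funext τ
    rw [sysfin_jd_one, jc_jFun_smul]
  rw [h]

theorem sysfinPhi_x (τ₀ : ℍ) (q : Xc) (a : Kb) :
    sysfinPhi N τ₀ q (jBar N - algebraMap Kb Fb a) =
      HahnSeries.ofPowerSeries ℤ ℂ (taylorAt τ₀ (fun τ => jFun τ - ιc a)) := by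
  rw [map_sub, sysfinPhi_jBar, sysfinPhi_const, ← HahnSeries.ofPowerSeries_C, ← map_sub]
  congr 1
  have h := map_sub (taylorHom τ₀) ⟨jFun, jc_jFun_mdiff⟩ ⟨fun _ => ιc a, mdifferentiable_const⟩
  simp only [taylorHom_apply] at h
  rw [taylorAt_const] at h
  exact h.symm

theorem sysfinPhi_fraction (f : Fb) : ∃ g h : anaRing N, h ≠ 0 ∧ ∀ (τ₀ : ℍ) (q : Xc),
    sysfinPhi N τ₀ q f = sysfinTheta N τ₀ q.out g / sysfinTheta N τ₀ q.out h := by
  obtain ⟨g, h, hh, H⟩ := exists_fraction N f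
  exact ⟨g, h, hh, fun τ₀ q => H _ _⟩

theorem sysfinPhi_injective (τ₀ : ℍ) : Function.Injective (sysfinPhi N τ₀) := by
  intro q q' h
  have h1 := congrArg (fun φ : Fb →+* LaurentSeries ℂ => φ (jdBar N N dvd_rfl)) h
  simp only [sysfinPhi_jdBar] at h1
  have h2 := HahnSeries.ofPowerSeries_injective (Γ := ℤ) (R := ℂ) h1
  have h3 : (fun τ => jd N (q.out⁻¹ • τ)) = fun τ => jd N (q'.out⁻¹ • τ) := by
    have h4 := taylorHom_injective τ₀
      (a₁ := ⟨_, sysfin_mdiff_smul q.out⁻¹ (jd_mdiff N)⟩)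
      (a₂ := ⟨_, sysfin_mdiff_smul q'.out⁻¹ (jd_mdiff N)⟩) h2
    exact congrArg Subtype.val h4
  have h4 : q.out⁻¹ * q'.out ∈ CongruenceSubgroup.Gamma0 N := by
    apply mem_Gamma0_of_jd_smul_eq
    intro τ
    have h5 := congrFun h3 (q'.out • τ)
    simp only [inv_smul_smul] at h5
    rw [mul_smul]
    exact h5
  rw [← QuotientGroup.out_eq' q, ← QuotientGroup.out_eq' q']
  exact QuotientGroup.eq.mpr h4

/-- Orders of the Taylor expansions of nonzero elements of the analytic ring. -/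
theorem sysfin_theta_order (τ₀ : ℍ) (γ : SL(2, ℤ)) (g : anaRing N) (hg : g ≠ 0) :
    ∃ n : ℕ, (taylorAt τ₀ (fun τ => (g : ℍ → ℂ) (γ⁻¹ • τ))).order = (n : ℕ∞) ∧
      (sysfinTheta N τ₀ γ g).order = (n : ℤ) := by
  have hmd : MDiff (fun τ => (g : ℍ → ℂ) (γ⁻¹ • τ)) :=
    sysfin_mdiff_smul γ⁻¹ (sysfin_mdiff_of_mem N g.2)
  have hne : (fun τ => (g : ℍ → ℂ) (γ⁻¹ • τ)) ≠ 0 := by
    intro h
    apply hg
    apply Subtype.ext
    funext τ
    have h1 := congrFun h (γ • τ)
    simpa using h1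
  obtain ⟨n, hn⟩ := ENat.ne_top_iff_exists.mp (ty_order_ne_top τ₀ hmd hne)
  exact ⟨n, hn.symm, by
    rw [sysfinTheta_apply]
    exact sysfin_order_ofPowerSeries _ n hn.symm⟩

theorem sysfin_order_smul_theta (τ₀ : ℍ) (δ : SL(2, ℤ)) (hδ : δ • τ₀ = τ₀) (q : Xc)
    (g : anaRing N) :
    (sysfinTheta N τ₀ (δ • q).out g).order = (sysfinTheta N τ₀ q.out g).order := by
  rcases eq_or_ne g 0 with rfl | hg
  · simp
  obtain ⟨n, hn, hn'⟩ := sysfin_theta_order N τ₀ q.out g hg
  obtain ⟨m, hm, hm'⟩ := sysfin_theta_order N τ₀ (δ • q).out g hg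
  have hmd : MDiff (fun τ => (g : ℍ → ℂ) (q.out⁻¹ • τ)) :=
    sysfin_mdiff_smul q.out⁻¹ (sysfin_mdiff_of_mem N g.2)
  have hδ' : δ⁻¹ • τ₀ = τ₀ := by
    conv_lhs => rw [← hδ]
    simp
  have h1 := order_taylorAt_smul τ₀ δ⁻¹ hδ' hmd
  have h2 : (fun τ => (g : ℍ → ℂ) ((δ • q).out⁻¹ • τ)) =
      fun τ => (fun τ => (g : ℍ → ℂ) (q.out⁻¹ • τ)) (δ⁻¹ • τ) := by
    funext τ
    exact sysfin_out_smul N δ q g τ
  rw [h2, h1, hn] at hm
  have : n = m := by exact_mod_cast hm
  rw [hn', hm', this]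

/-- Orders are invariant under the action of the stabiliser of `τ₀` on the cosets. -/
theorem sysfin_order_smul (τ₀ : ℍ) (δ : SL(2, ℤ)) (hδ : δ • τ₀ = τ₀) (q : Xc) (f : Fb) :
    (sysfinPhi N τ₀ (δ • q) f).order = (sysfinPhi N τ₀ q f).order := by
  obtain ⟨g, h, hh, H⟩ := sysfinPhi_fraction N f
  rw [H τ₀ q, H τ₀ (δ • q)]
  rcases eq_or_ne g 0 with rfl | hg
  · simp
  have hg1 := (sysfinTheta_injective N τ₀ q.out).ne hg
  have hh1 := (sysfinTheta_injective N τ₀ q.out).ne hh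
  have hg2 := (sysfinTheta_injective N τ₀ (δ • q).out).ne hg
  have hh2 := (sysfinTheta_injective N τ₀ (δ • q).out).ne hh
  rw [map_zero] at hg1 hh1 hg2 hh2
  rw [sysfin_order_div _ _ hg1 hh1, sysfin_order_div _ _ hg2 hh2,
    sysfin_order_smul_theta N τ₀ δ hδ q g, sysfin_order_smul_theta N τ₀ δ hδ q h]

/-- Divisibility of the orders at a fixed coset. -/
theorem sysfin_dvd (τ₀ : ℍ) (δ : SL(2, ℤ)) (e : ℕ) (he : e.Prime)
    (hpow : ∀ q : Xc, (δ ^ e) • q = q)
    (hinv : ∀ G : ℍ → ℂ, MDiff G → G ≠ 0 → (∀ τ, G (δ • τ) = G τ) →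
      ∃ k : ℕ, (taylorAt τ₀ G).order = ((e * k : ℕ) : ℕ∞))
    (q : Xc) (f : Fb) :
    (e : ℤ) ∣ (Function.minimalPeriod (MulAction.toPerm δ : Equiv.Perm Xc) q : ℤ) *
      (sysfinPhi N τ₀ q f).order := by
  have hper : Function.IsPeriodicPt (MulAction.toPerm δ : Equiv.Perm Xc) e q := by
    show (fun x : Xc => δ • x)^[e] q = q
    rw [smul_iterate]
    exact hpow q
  rcases (Nat.dvd_prime he).mp hper.minimalPeriod_dvd with h1 | h1
  · -- fixed coset
    rw [h1, Nat.cast_one, one_mul]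
    have hfix : δ • q = q := Function.minimalPeriod_eq_one_iff_isFixedPt.mp h1
    have hmem : q.out⁻¹ * (δ * q.out) ∈ CongruenceSubgroup.Gamma0 N :=
      sysfin_mem_of_smul_eq N δ q hfix
    have key : ∀ g : anaRing N, g ≠ 0 → (e : ℤ) ∣ (sysfinTheta N τ₀ q.out g).order := by
      intro g hg
      obtain ⟨n, hn, hn'⟩ := sysfin_theta_order N τ₀ q.out g hg
      have hmd : MDiff (fun τ => (g : ℍ → ℂ) (q.out⁻¹ • τ)) :=
        sysfin_mdiff_smul q.out⁻¹ (sysfin_mdiff_of_mem N g.2)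
      have hne : (fun τ => (g : ℍ → ℂ) (q.out⁻¹ • τ)) ≠ 0 := by
        intro h
        rw [h] at hn
        have h0 : taylorAt τ₀ (0 : ℍ → ℂ) = 0 := (ty_taylorAt_eq_zero_iff τ₀ mdifferentiable_const).mpr rfl
        rw [h0] at hn
        simp at hn
      have hGinv : ∀ τ, (fun τ => (g : ℍ → ℂ) (q.out⁻¹ • τ)) (δ • τ) =
          (fun τ => (g : ℍ → ℂ) (q.out⁻¹ • τ)) τ := by
        intro τ
        show (g : ℍ → ℂ) (q.out⁻¹ • (δ • τ)) = (g : ℍ → ℂ) (q.out⁻¹ • τ)
        have h3 : q.out⁻¹ • (δ • τ) = (q.out⁻¹ * (δ * q.out)) • (q.out⁻¹ • τ) := by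
          rw [← mul_smul, ← mul_smul]
          congr 1
          group
        rw [h3, sysfin_invariant N g.2 _ hmem]
      obtain ⟨k, hk⟩ := hinv _ hmd hne hGinv
      rw [hn] at hk
      have hnk : n = e * k := by exact_mod_cast hk
      rw [hn', hnk]
      exact ⟨k, by push_cast; ring⟩
    obtain ⟨g, h, hh, H⟩ := sysfinPhi_fraction N f
    rw [H τ₀ q]
    rcases eq_or_ne g 0 with rfl | hg
    · simp
    have hg1 := (sysfinTheta_injective N τ₀ q.out).ne hg
    have hh1 := (sysfinTheta_injective N τ₀ q.out).ne hh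
    rw [map_zero] at hg1 hh1
    rw [sysfin_order_div _ _ hg1 hh1]
    exact dvd_sub (key g hg) (key h hh)
  · rw [h1]
    exact dvd_mul_right _ _

theorem sysfin_S_smul_I : ModularGroup.S • UpperHalfPlane.I = UpperHalfPlane.I := by
  rw [UpperHalfPlane.modular_S_smul]
  ext
  simp

theorem sysfin_ST_smul_rho : (ModularGroup.S * ModularGroup.T) • rho = rho := by
  have hq := ty_rho_sq
  have hne1 : (rho : ℂ) + 1 ≠ 0 := by
    intro h
    have h1 : (rho : ℂ) ^ 2 = 0 := by linear_combination hq - h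
    have h2 : (rho : ℂ) = 0 := pow_eq_zero_iff (two_ne_zero) |>.mp h1
    rw [h2] at h
    norm_num at h
  apply UpperHalfPlane.ext
  rw [ty_coe_smul]
  unfold tyMob
  rw [ty_ST_entries.1, ty_ST_entries.2.1, ty_ST_entries.2.2.1, ty_ST_entries.2.2.2]
  rw [div_eq_iff (by simpa using hne1)]
  push_cast
  linear_combination (-1 : ℂ) * hq

/-- The Taylor system at `τ₀`. -/
theorem sysfin_exists (τ₀ : ℍ) (a : Kb) (e : ℕ) (he : 0 < e)
    (hord : (taylorAt τ₀ (fun τ => jFun τ - ιc a)).order = (e : ℕ∞))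
    (δ : SL(2, ℤ)) (hδ : δ • τ₀ = τ₀)
    (hdvd : ∀ (q : Xc) (f : Fb), f ≠ 0 →
      (e : ℤ) ∣ (Function.minimalPeriod (MulAction.toPerm δ : Equiv.Perm Xc) q : ℤ) *
        (sysfinPhi N τ₀ q f).order) :
    ∃ S : LaurentSystem Kb (jBar N - algebraMap Kb Fb a) ℂ Xc,
      S.e₀ = e ∧ S.π = MulAction.toPerm δ := by
  have hE := sysfin_transport (sysfin_adjoin_sub (K := Kb) (jBar N) a)
  have : FiniteDimensional Kb⟮jBar N - algebraMap Kb Fb a⟯ Fb := hE.1 (finiteDimensional_jBar' N)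
  have hcard : Nat.card Xc = Module.finrank Kb⟮jBar N - algebraMap Kb Fb a⟯ Fb := by
    apply le_antisymm
    · exact sysfin_card_le (jBar N - algebraMap Kb Fb a) (sysfinPhi N τ₀)
        (sysfinPhi_injective N τ₀)
        (fun i j c => by rw [sysfinPhi_const, sysfinPhi_const])
        (fun i j => by rw [sysfinPhi_x, sysfinPhi_x])
    · rw [hE.2]
      exact finrank_jBar_le N
  exact ⟨{ φ := sysfinPhi N τ₀
           base := ιc
           map_const := sysfinPhi_const N τ₀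
           injective := sysfinPhi_injective N τ₀
           map_x := fun i j => by rw [sysfinPhi_x, sysfinPhi_x]
           e₀ := e
           e₀_pos := he
           order_x := fun i => by
             rw [sysfinPhi_x]
             exact sysfin_order_ofPowerSeries _ e hord
           card_eq := hcard
           π := MulAction.toPerm δ
           order_π := fun i f => sysfin_order_smul N τ₀ δ hδ i f
           dvd := hdvd }, rfl, rfl⟩

/-- generic fibre: unramified -/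
theorem exists_laurentSystem_generic (a : Kb) (h0 : a ≠ 0) (h1 : a ≠ 1728) :
    ∃ S : LaurentSystem Kb (jBar N - algebraMap Kb Fb a) ℂ Xc, S.e₀ = 1 := by
  obtain ⟨τ₀, hτ₀⟩ := jFun_surjective (ιc a)
  have hinj : Function.Injective ιc := ιc.injective
  have hj0 : jFun τ₀ ≠ 0 := by
    rw [hτ₀]
    exact (map_ne_zero ιc).mpr h0
  have hj1 : jFun τ₀ ≠ 1728 := by
    rw [hτ₀]
    intro h
    apply h1
    apply hinj
    rw [h, map_ofNat]
  have hord := order_taylorAt_jFun_generic τ₀ hj0 hj1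
  rw [hτ₀] at hord
  obtain ⟨S, hS, -⟩ := sysfin_exists N τ₀ a 1 one_pos (by simpa using hord) 1 (one_smul _ _)
    (fun q f _ => by simp)
  exact ⟨S, hS⟩

/-- fibre over `j = 1728` (the point `i`, stabiliser generated by `S`) -/
theorem exists_laurentSystem_1728 :
    ∃ S : LaurentSystem Kb (jBar N - algebraMap Kb Fb 1728) ℂ Xc,
      S.e₀ = 2 ∧ S.π = MulAction.toPerm ModularGroup.S := by
  have hc : ιc (1728 : Kb) = 1728 := map_ofNat ιc 1728
  have hord : (taylorAt UpperHalfPlane.I (fun τ => jFun τ - ιc 1728)).order = ((2 : ℕ) : ℕ∞) := by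
    rw [hc]
    simpa using order_taylorAt_jFun_I
  have hS2 : (ModularGroup.S ^ 2 : SL(2, ℤ)) = -1 := by
    rw [pow_two]
    decide
  refine sysfin_exists N UpperHalfPlane.I 1728 2 two_pos hord ModularGroup.S sysfin_S_smul_I ?_
  intro q f _
  refine sysfin_dvd N UpperHalfPlane.I ModularGroup.S 2 Nat.prime_two ?_ ?_ q f
  · intro q
    rw [hS2]
    exact sysfin_neg_one_smul N q
  · intro G hG hne hinv
    exact two_dvd_order_taylorAt_I hG hne hinv

/-- fibre over `j = 0` (the point `ρ`, stabiliser generated by `S * T`) -/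
theorem exists_laurentSystem_zero :
    ∃ S : LaurentSystem Kb (jBar N) ℂ Xc,
      S.e₀ = 3 ∧ S.π = MulAction.toPerm (ModularGroup.S * ModularGroup.T) := by
  have hord : (taylorAt rho (fun τ => jFun τ - ιc 0)).order = ((3 : ℕ) : ℕ∞) := by
    have h : (fun τ => jFun τ - ιc 0) = jFun := by
      funext τ
      simp
    rw [h]
    simpa using order_taylorAt_jFun_rho
  have hST3 : ((ModularGroup.S * ModularGroup.T) ^ 3 : SL(2, ℤ)) = -1 := by
    rw [pow_succ, pow_two]
    decide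
  have key : ∃ S : LaurentSystem Kb (jBar N - algebraMap Kb Fb 0) ℂ Xc,
      S.e₀ = 3 ∧ S.π = MulAction.toPerm (ModularGroup.S * ModularGroup.T) := by
    refine sysfin_exists N rho 0 3 (by norm_num) hord (ModularGroup.S * ModularGroup.T)
      sysfin_ST_smul_rho ?_
    intro q f _
    refine sysfin_dvd N rho (ModularGroup.S * ModularGroup.T) 3 Nat.prime_three ?_ ?_ q f
    · intro q
      rw [hST3]
      exact sysfin_neg_one_smul N q
    · intro G hG hne hinv
      exact three_dvd_order_taylorAt_rho hG hne hinv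
  have hx : jBar N - algebraMap Kb Fb 0 = jBar N := by simp
  rw [hx] at key
  exact key

end Ana

end Fermat.Agent.S24
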