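import Fermat.Agent.S24.SumFormulaA4
import Fermat.Agent.S24.Differential

/-!
# S24: Riemann–Hurwitz bookkeeping

The degree of the divisor of a differential on a function field `F / K`, in terms of the numbers
of places above the (at most three) branch points of a function `x`.
-/

set_option autoImplicit false

open AlgebraicCurve IntermediateField KaehlerDifferential

namespace Fermat.Agent.S24

section Hurwitz

variable {K F : Type*} [Field K] [IsAlgClosed K] [CharZero K] [Field F] [Algebra K F]

theorem hw_finsum_const {α : Type*} (s : Set α) (hs : s.Finite) (c : ℤ) :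
    ∑ᶠ _v ∈ s, c = (Nat.card s : ℤ) * c := by
  rw [finsum_mem_eq_finite_toFinset_sum _ hs, Finset.sum_const, Nat.card_eq_card_finite_toFinset hs,
    nsmul_eq_mul]

theorem hw_finsum_sub_one (y : F) (hy : Transcendental K y) [FiniteDimensional K⟮y⟯ F] :
    ∑ᶠ P ∈ zeroPlaces K y, (P.ord y - 1) =
      (Module.finrank K⟮y⟯ F : ℤ) - Nat.card (zeroPlaces K y) := by
  have hfin := zeroPlaces_finite y hy
  rw [finsum_mem_sub_distrib _ _ hfin, finsum_ord_zeroPlaces y hy, hw_finsum_const _ hfin, mul_one]

/-- Riemann–Hurwitz bookkeeping for a function `x` unramified outside `0`, `c₁`, `∞`. -/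
theorem hw_degree (x : F) (hx : Transcendental K x) [FiniteDimensional K⟮x⟯ F]
    (c₁ : K) (hc₁ : c₁ ≠ 0)
    (hgen : ∀ a : K, a ≠ 0 → a ≠ c₁ → ∀ P ∈ zeroPlaces K (x - algebraMap K F a),
      P.ord (x - algebraMap K F a) = 1)
    (ω : Ω[F⁄K]) (hω : ω ≠ 0) (W : Divisor K F) (hW : ∀ v, W v = v.ordDifferential ω) :
    Divisor.degree W =
      ((Module.finrank K⟮x⟯ F : ℤ) - Nat.card (zeroPlaces K x)) +
      ((Module.finrank K⟮x⟯ F : ℤ) - Nat.card (zeroPlaces K (x - algebraMap K F c₁))) +
      (-(Module.finrank K⟮x⟯ F : ℤ) - Nat.card (zeroPlaces K x⁻¹)) := by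
  classical
  -- step 1: the degree is the sum of the coefficients
  have hdeg : Divisor.degree W = ∑ᶠ v, W v := by
    rw [finsum_eq_sum_of_support_subset (s := W.support) _ (by intro v hv; simpa using hv)]
    show (Finsupp.liftAddHom fun v : Place K F => AddMonoidHom.mulRight ((v.deg : ℕ) : ℤ)) W = _
    rw [Finsupp.liftAddHom_apply, Finsupp.sum]
    refine Finset.sum_congr rfl fun v _ => ?_
    simp [place_deg_eq_one v x]
  obtain ⟨g, hg0, -, hord⟩ := exists_eq_smul_D x ω hω
  have hx1 := sf_transcendental_sub hx c₁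
  have hxi := sf_transcendental_inv hx
  have _i1 := sf_finiteDimensional_sub x c₁
  have _i2 := sf_finiteDimensional_inv (K := K) x
  have hf0 : (zeroPlaces K x).Finite := zeroPlaces_finite x hx
  have hf1 : (zeroPlaces K (x - algebraMap K F c₁)).Finite := zeroPlaces_finite _ hx1
  have hfi : (zeroPlaces K x⁻¹).Finite := zeroPlaces_finite _ hxi
  -- the values of `ord (dx)`
  have h0 : ∀ v ∈ zeroPlaces K x, v.ordDifferential (D K F x) = v.ord x - 1 :=
    fun v hv => place_ordDifferential_D x v x (ne_of_gt hv)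
  have h1 : ∀ v ∈ zeroPlaces K (x - algebraMap K F c₁),
      v.ordDifferential (D K F x) = v.ord (x - algebraMap K F c₁) - 1 :=
    fun v hv => place_ordDifferential_D_sub x v c₁ (ne_of_gt hv)
  have hi : ∀ v ∈ zeroPlaces K x⁻¹, v.ordDifferential (D K F x) = -v.ord x⁻¹ - 1 := by
    intro v hv
    have hv' : (0 : ℤ) < v.ord x⁻¹ := hv
    rw [v.ord_inv] at hv' ⊢
    rw [place_ordDifferential_D x v x (by omega)]
    ring
  have hout : ∀ v : Place K F, v ∉ zeroPlaces K x → v ∉ zeroPlaces K (x - algebraMap K F c₁) →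
      v ∉ zeroPlaces K x⁻¹ → v.ordDifferential (D K F x) = 0 := by
    intro v hv0 hv1 hvi
    rcases place_center x hx v with ⟨a, ha⟩ | hinf
    · have ha0 : a ≠ 0 := by
        rintro rfl
        apply hv0
        show 0 < v.ord x
        simpa using ha
      have ha1 : a ≠ c₁ := by
        rintro rfl
        exact hv1 ha
      have h := hgen a ha0 ha1 v ha
      rw [place_ordDifferential_D_sub x v a (by omega), h]
      norm_num
    · exact absurd hinf hvi
  -- disjointness
  have hd01 : Disjoint (zeroPlaces K x) (zeroPlaces K (x - algebraMap K F c₁)) := by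
    rw [Set.disjoint_left]
    intro v hv0 hv1
    have hv0' : 0 < v.ord (x - algebraMap K F 0) := by
      have : (0 : ℤ) < v.ord x := hv0
      simpa using this
    exact hc₁ (place_center_unique x v 0 c₁ hv0' hv1).symm
  have hd0i : Disjoint (zeroPlaces K x) (zeroPlaces K x⁻¹) := by
    rw [Set.disjoint_left]
    intro v hv0 hvi
    have hv0' : 0 < v.ord (x - algebraMap K F 0) := by
      have : (0 : ℤ) < v.ord x := hv0
      simpa using this
    exact place_center_not_infty x v 0 hv0' hvi
  have hd1i : Disjoint (zeroPlaces K (x - algebraMap K F c₁)) (zeroPlaces K x⁻¹) := by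
    rw [Set.disjoint_left]
    intro v hv1 hvi
    exact place_center_not_infty x v c₁ hv1 hvi
  -- support
  have hsupp : Function.support (fun v : Place K F => v.ordDifferential (D K F x)) ⊆
      (zeroPlaces K x ∪ zeroPlaces K (x - algebraMap K F c₁)) ∪ zeroPlaces K x⁻¹ := by
    intro v hv
    by_contra hcon
    simp only [Set.mem_union, not_or] at hcon
    exact hv (hout v hcon.1.1 hcon.1.2 hcon.2)
  have hhfin : (Function.support (fun v : Place K F => v.ordDifferential (D K F x))).Finite :=
    ((hf0.union hf1).union hfi).subset hsupp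
  have hsum_h : ∑ᶠ v : Place K F, v.ordDifferential (D K F x) =
      ∑ᶠ v ∈ (zeroPlaces K x ∪ zeroPlaces K (x - algebraMap K F c₁)) ∪ zeroPlaces K x⁻¹,
        v.ordDifferential (D K F x) := by
    rw [← finsum_mem_inter_support _ ((zeroPlaces K x ∪ zeroPlaces K (x - algebraMap K F c₁)) ∪
      zeroPlaces K x⁻¹), Set.inter_eq_right.mpr hsupp, finsum_mem_support]
  have hcongr : ∑ᶠ v, W v = ∑ᶠ v : Place K F, (v.ord g + v.ordDifferential (D K F x)) :=
    finsum_congr fun v => by rw [hW, hord]
  rw [hdeg, hcongr, finsum_add_distrib (ord_support_finite x hx g hg0) hhfin,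
    finsum_ord_eq_zero x hx g hg0, zero_add, hsum_h,
    finsum_mem_union (Set.disjoint_union_left.mpr ⟨hd0i, hd1i⟩) (hf0.union hf1) hfi,
    finsum_mem_union hd01 hf0 hf1, finsum_mem_congr rfl h0, finsum_mem_congr rfl h1,
    finsum_mem_congr rfl hi, hw_finsum_sub_one x hx, hw_finsum_sub_one _ hx1, sf_finrank_sub,
    finsum_mem_sub_distrib _ _ hfi, finsum_mem_neg_distrib _ hfi, finsum_ord_zeroPlaces _ hxi,
    sf_finrank_inv, hw_finsum_const _ hfi, mul_one]

end Hurwitz

end Fermat.Agent.S24
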