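import Fermat.Agent.S24.Defs
import Fermat.Agent.S24.Differential

set_option autoImplicit false

open AlgebraicCurve IntermediateField

namespace Fermat.Agent.S24

section ClassifyBasics

variable {K F : Type*} [Field K] [Field F] [Algebra K F]

/-- Elements of the valuation ring have nonnegative order. -/
theorem cl_ord_nonneg_of_mem (v : Place K F) {f : F} (hf : f ∈ v.toValuationSubring) :
    0 ≤ v.ord f := by
  rcases eq_or_ne f 0 with rfl | hf0
  · simp
  by_contra hneg
  push Not at hneg
  obtain ⟨π, hπ⟩ := IsDiscreteValuationRing.exists_irreducible v.toValuationSubring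
  obtain ⟨u, hu⟩ := v.exists_unit_mul_zpow hf0 hπ
  obtain ⟨n, hn⟩ : ∃ n : ℕ, v.ord f = -((n : ℤ) + 1) := ⟨(-v.ord f - 1).toNat, by omega⟩
  have hπF : (π : F) ≠ 0 := by
    simpa [ne_eq, ZeroMemClass.coe_eq_zero] using hπ.ne_zero
  have h1 : ((⟨f, hf⟩ : v.toValuationSubring) * π ^ (n + 1) : v.toValuationSubring) = u := by
    apply Subtype.ext
    push_cast
    rw [hu, hn, zpow_neg, ← zpow_natCast]
    push_cast
    rw [mul_assoc, inv_mul_cancel₀ (zpow_ne_zero _ hπF), mul_one]
  have h2 : IsUnit (π ^ (n + 1)) := isUnit_of_mul_isUnit_right (h1 ▸ u.isUnit)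
  exact hπ.not_isUnit (isUnit_of_mul_isUnit_left (pow_succ' π n ▸ h2))

theorem cl_mem_iff (v : Place K F) (f : F) : f ∈ v.toValuationSubring ↔ 0 ≤ v.ord f :=
  ⟨cl_ord_nonneg_of_mem v, place_mem_of_ord_nonneg v⟩

variable {L : Type*} [Field L]

theorem cl_order_map_inv (φ : F →+* LaurentSeries L) (f : F) :
    (φ f⁻¹).order = -(φ f).order := by
  rcases eq_or_ne f 0 with rfl | hf
  · simp
  have h1 : φ f * φ f⁻¹ = 1 := by rw [← map_mul, mul_inv_cancel₀ hf, map_one]
  have h2 := HahnSeries.order_mul (left_ne_zero_of_mul_eq_one h1) (right_ne_zero_of_mul_eq_one h1)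
  rw [h1, HahnSeries.order_one] at h2
  omega

theorem cl_order_map_mul (φ : F →+* LaurentSeries L) {f g : F} (hf : f ≠ 0) (hg : g ≠ 0) :
    (φ (f * g)).order = (φ f).order + (φ g).order := by
  rw [map_mul]
  exact HahnSeries.order_mul ((map_ne_zero φ).mpr hf) ((map_ne_zero φ).mpr hg)

theorem cl_order_map_zpow (φ : F →+* LaurentSeries L) (f : F) (k : ℤ) :
    (φ (f ^ k)).order = k * (φ f).order := by
  obtain ⟨n, rfl | rfl⟩ := Int.eq_nat_or_neg k
  · rw [zpow_natCast, map_pow, HahnSeries.order_pow]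
    simp
  · rw [zpow_neg, cl_order_map_inv, zpow_natCast, map_pow, HahnSeries.order_pow]
    simp

/-- The valuation subring cut out by a ring homomorphism into Laurent series. -/
def laurentVS (φ : F →+* LaurentSeries L) : ValuationSubring F where
  carrier := {f | 0 ≤ (φ f).order}
  mul_mem' := by
    intro a b ha hb
    rcases eq_or_ne a 0 with rfl | ha0
    · simp
    rcases eq_or_ne b 0 with rfl | hb0
    · simp
    show 0 ≤ (φ (a * b)).order
    rw [cl_order_map_mul φ ha0 hb0]
    exact add_nonneg ha hb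
  one_mem' := by
    show 0 ≤ (φ 1).order
    rw [map_one, HahnSeries.order_one]
  add_mem' := by
    intro a b ha hb
    show 0 ≤ (φ (a + b)).order
    rcases eq_or_ne (a + b) 0 with h0 | h0
    · rw [h0, map_zero, HahnSeries.order_zero]
    have h1 : φ a + φ b ≠ 0 := by rw [← map_add]; exact (map_ne_zero φ).mpr h0
    have h2 := HahnSeries.min_order_le_order_add h1
    rw [map_add]
    exact le_trans (le_min ha hb) h2
  zero_mem' := by
    show 0 ≤ (φ 0).order
    rw [map_zero, HahnSeries.order_zero]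
  neg_mem' := by
    intro a ha
    show 0 ≤ (φ (-a)).order
    rw [map_neg, HahnSeries.order_neg]
    exact ha
  mem_or_inv_mem' := by
    intro a
    show 0 ≤ (φ a).order ∨ 0 ≤ (φ a⁻¹).order
    rw [cl_order_map_inv]
    omega

theorem mem_laurentVS (φ : F →+* LaurentSeries L) (f : F) :
    f ∈ laurentVS φ ↔ 0 ≤ (φ f).order := Iff.rfl

theorem cl_isPrincipalIdealRing (φ : F →+* LaurentSeries L) :
    IsPrincipalIdealRing (laurentVS φ) := by
  refine ⟨fun I => ?_⟩
  by_cases hI : I = ⊥
  · rw [hI]; exact bot_isPrincipal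
  classical
  have hex : ∃ n : ℕ, ∃ a ∈ I, a ≠ 0 ∧ (φ (a : F)).order = n := by
    obtain ⟨a, haI, ha0⟩ := Submodule.exists_mem_ne_zero_of_ne_bot hI
    have h := a.2
    rw [mem_laurentVS] at h
    exact ⟨(φ (a : F)).order.toNat, a, haI, ha0, by omega⟩
  obtain ⟨a, haI, ha0, han⟩ := Nat.find_spec hex
  refine ⟨a, le_antisymm ?_ ?_⟩
  · intro b hb
    rcases eq_or_ne b 0 with rfl | hb0
    · exact Submodule.zero_mem _
    have haF : (a : F) ≠ 0 := by simpa [ne_eq, ZeroMemClass.coe_eq_zero] using ha0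
    have hbF : (b : F) ≠ 0 := by simpa [ne_eq, ZeroMemClass.coe_eq_zero] using hb0
    have hbn : (Nat.find hex : ℤ) ≤ (φ (b : F)).order := by
      have h := b.2
      rw [mem_laurentVS] at h
      have := Nat.find_min' hex ⟨b, hb, hb0, (Int.toNat_of_nonneg h).symm⟩
      omega
    have hq : (b : F) * (a : F)⁻¹ ∈ laurentVS φ := by
      rw [mem_laurentVS, cl_order_map_mul φ hbF (inv_ne_zero haF), cl_order_map_inv]
      omega
    rw [Submodule.mem_span_singleton]
    refine ⟨⟨_, hq⟩, ?_⟩
    apply Subtype.ext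
    show (b : F) * (a : F)⁻¹ * (a : F) = b
    rw [mul_assoc, inv_mul_cancel₀ haF, mul_one]
  · rw [Submodule.span_le]
    intro b hb
    rw [Set.mem_singleton_iff] at hb
    rw [hb]; exact haI

/-- The place cut out by a ring homomorphism into Laurent series which is constant on `K` and
takes a value of positive order. -/
def laurentPlace (φ : F →+* LaurentSeries L) (hK : ∀ c : K, 0 ≤ (φ (algebraMap K F c)).order)
    (x : F) (hx : 0 < (φ x).order) : Place K F where
  toValuationSubring := laurentVS φ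
  algebraMap_mem' := hK
  ne_top' := by
    intro h
    have h1 : x⁻¹ ∈ laurentVS φ := by rw [h]; exact ValuationSubring.mem_top _
    rw [mem_laurentVS, cl_order_map_inv] at h1
    omega
  isPrincipalIdealRing' := cl_isPrincipalIdealRing φ

theorem isPlaceOf_laurentPlace (φ : F →+* LaurentSeries L)
    (hK : ∀ c : K, 0 ≤ (φ (algebraMap K F c)).order) (x : F) (hx : 0 < (φ x).order) :
    IsPlaceOf (laurentPlace φ hK x hx) φ := fun _ => Iff.rfl

theorem IsPlaceOf.toValuationSubring_eq {P : Place K F} {φ : F →+* LaurentSeries L}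
    (h : IsPlaceOf P φ) : P.toValuationSubring = laurentVS φ := by
  ext f
  exact h f

/-- A5: a place cut out by a Laurent point: orders are proportional. -/
theorem IsPlaceOf.exists_order_eq {P : Place K F}
    {φ : F →+* LaurentSeries L} (h : IsPlaceOf P φ) :
    ∃ m : ℤ, 0 < m ∧ ∀ f : F, f ≠ 0 → (φ f).order = m * P.ord f := by
  obtain ⟨π, hπ⟩ := IsDiscreteValuationRing.exists_irreducible P.toValuationSubring
  have hπF : (π : F) ≠ 0 := by
    simpa [ne_eq, ZeroMemClass.coe_eq_zero] using hπ.ne_zero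
  have hunit : ∀ u : P.toValuationSubringˣ, (φ ((u : P.toValuationSubring) : F)).order = 0 := by
    intro u
    have h1 := (h _).mp (u : P.toValuationSubring).2
    have h2 := (h _).mp (place_inv_mem_of_isUnit P _ u.isUnit)
    rw [cl_order_map_inv] at h2
    omega
  have hm0 : 0 ≤ (φ (π : F)).order := (h _).mp π.2
  have hm1 : (φ (π : F)).order ≠ 0 := by
    intro h0
    have h1 : (π : F)⁻¹ ∈ P.toValuationSubring := by
      rw [h, cl_order_map_inv, h0, neg_zero]
    apply hπ.not_isUnit
    refine IsUnit.of_mul_eq_one ⟨_, h1⟩ ?_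
    apply Subtype.ext
    show (π : F) * (π : F)⁻¹ = 1
    exact mul_inv_cancel₀ hπF
  refine ⟨(φ (π : F)).order, by omega, fun f hf => ?_⟩
  obtain ⟨u, hu⟩ := P.exists_unit_mul_zpow hf hπ
  have hu0 : ((u : P.toValuationSubring) : F) ≠ 0 := by
    simp [ne_eq, ZeroMemClass.coe_eq_zero]
  conv_lhs => rw [hu]
  rw [cl_order_map_mul φ hu0 (zpow_ne_zero _ hπF), hunit, zero_add, cl_order_map_zpow, mul_comm]

end ClassifyBasics

end Fermat.Agent.S24
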