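import Fermat.Agent.S24.Taylor
import Fermat.Agent.S24.JConj

/-!
# S24, module E: shared lemmas for the Laurent systems

Pieces used by both the Taylor systems at interior points (`SysFin`) and the cusp system
(`SysCusp`): orders of Laurent series, counting of embeddings, invariance of the analytic ring
under `Γ₀(N)`, bookkeeping of coset representatives.
-/

set_option autoImplicit false

open AlgebraicCurve IntermediateField UpperHalfPlane ModularForm EisensteinSeries
open scoped MatrixGroups Manifold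

namespace Fermat.Agent.S24

/-! ### Generalities on Laurent series -/

theorem sysfin_order_ofPowerSeries (p : PowerSeries ℂ) (n : ℕ) (hp : p.order = (n : ℕ∞)) :
    (HahnSeries.ofPowerSeries ℤ ℂ p).order = (n : ℤ) := by
  have hp0 : p ≠ 0 := by
    rintro rfl
    simp at hp
  have hy0 : HahnSeries.ofPowerSeries ℤ ℂ p ≠ 0 := by
    intro h
    exact hp0 (HahnSeries.ofPowerSeries_injective (Γ := ℤ) (R := ℂ) (a₁ := p) (a₂ := 0)
      (by rw [h, map_zero]))
  have hcn : PowerSeries.coeff n p ≠ 0 := (PowerSeries.order_eq_nat.mp hp).1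
  apply le_antisymm
  · apply HahnSeries.order_le_of_coeff_ne_zero
    rw [HahnSeries.ofPowerSeries_apply_coeff]
    exact hcn
  · by_contra hlt
    rw [not_le] at hlt
    have hc : (HahnSeries.ofPowerSeries ℤ ℂ p).coeff (HahnSeries.ofPowerSeries ℤ ℂ p).order ≠ 0 :=
      fun h => hy0 (HahnSeries.coeff_order_eq_zero.mp h)
    rcases lt_or_ge (HahnSeries.ofPowerSeries ℤ ℂ p).order 0 with hneg | hnn
    · exact hc (ModularCurve.ofPowerSeries_coeff_of_neg p hneg)
    · obtain ⟨m, hm⟩ := Int.eq_ofNat_of_zero_le hnn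
      rw [hm] at hc hlt
      rw [HahnSeries.ofPowerSeries_apply_coeff] at hc
      have : m < n := by exact_mod_cast hlt
      exact hc ((PowerSeries.order_eq_nat.mp hp).2 m this)

theorem sysfin_order_div (a b : LaurentSeries ℂ) (ha : a ≠ 0) (hb : b ≠ 0) :
    (a / b).order = a.order - b.order := by
  have h : a = a / b * b := by field_simp
  have h2 := HahnSeries.order_mul (div_ne_zero ha hb) hb
  rw [← h] at h2
  omega

/-! ### Generalities on fields -/

theorem sysfin_adjoin_sub {K F : Type*} [Field K] [Field F] [Algebra K F] (x : F) (a : K) :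
    K⟮x - algebraMap K F a⟯ = K⟮x⟯ := by
  apply le_antisymm
  · rw [IntermediateField.adjoin_simple_le_iff]
    exact sub_mem (IntermediateField.mem_adjoin_simple_self K x)
      (IntermediateField.algebraMap_mem _ a)
  · rw [IntermediateField.adjoin_simple_le_iff]
    have hx : x - algebraMap K F a + algebraMap K F a ∈ K⟮x - algebraMap K F a⟯ :=
      add_mem (IntermediateField.mem_adjoin_simple_self K _)
        (IntermediateField.algebraMap_mem _ a)
    simpa using hx

theorem sysfin_transport {K F : Type*} [Field K] [Field F] [Algebra K F]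
    {E1 E2 : IntermediateField K F} (h : E1 = E2) :
    (FiniteDimensional E2 F → FiniteDimensional E1 F) ∧
      Module.finrank E1 F = Module.finrank E2 F := by
  subst h
  exact ⟨id, rfl⟩

/-- Distinct ring homomorphisms agreeing on `K(x)` are at most `[F : K(x)]` many. -/
theorem sysfin_card_le {K F E : Type*} [Field K] [Field F] [Field E] [Algebra K F] (x : F)
    [FiniteDimensional K⟮x⟯ F] {ι : Type*} (φ : ι → F →+* E) (hφ : Function.Injective φ)
    (hK : ∀ i j (c : K), φ i (algebraMap K F c) = φ j (algebraMap K F c))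
    (hx : ∀ i j, φ i x = φ j x) : Nat.card ι ≤ Module.finrank K⟮x⟯ F := by
  rcases isEmpty_or_nonempty ι with hι | ⟨⟨i0⟩⟩
  · simp
  let _ : Algebra K⟮x⟯ E := ((φ i0).comp (algebraMap K⟮x⟯ F)).toAlgebra
  have hagree : ∀ i (r : K⟮x⟯), φ i (algebraMap K⟮x⟯ F r) = φ i0 (algebraMap K⟮x⟯ F r) := by
    intro i r
    have hr : (r : F) ∈ Subfield.closure (Set.range (algebraMap K F) ∪ {x}) := r.2
    have heq : Set.EqOn (φ i) (φ i0) (Set.range (algebraMap K F) ∪ {x}) := by
      rintro y (⟨c, rfl⟩ | rfl)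
      · exact hK i i0 c
      · exact hx i i0
    exact RingHom.eqOn_field_closure heq hr
  let ψ : ι → (F →ₐ[K⟮x⟯] E) := fun i =>
    { φ i with
      commutes' := fun r => hagree i r }
  have hψ : Function.Injective ψ := by
    intro i j hij
    apply hφ
    ext y
    exact congrArg (fun f : F →ₐ[K⟮x⟯] E => f y) hij
  calc Nat.card ι ≤ Nat.card (F →ₐ[K⟮x⟯] E) := Nat.card_le_card_of_injective ψ hψ
    _ ≤ Module.finrank K⟮x⟯ F := card_algHom_le_finrank K⟮x⟯ F E

theorem sysfin_adjoin_inv {K F : Type*} [Field K] [Field F] [Algebra K F] (x : F) :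
    K⟮x⁻¹⟯ = K⟮x⟯ := by
  apply le_antisymm
  · rw [IntermediateField.adjoin_simple_le_iff]
    exact inv_mem (IntermediateField.mem_adjoin_simple_self K x)
  · rw [IntermediateField.adjoin_simple_le_iff]
    have hx : (x⁻¹)⁻¹ ∈ K⟮x⁻¹⟯ := inv_mem (IntermediateField.mem_adjoin_simple_self K _)
    simpa using hx

/-! ### The analytic ring -/

section Ana

variable (N : ℕ) [NeZero N]

local notation "Xc" => SL(2, ℤ) ⧸ CongruenceSubgroup.Gamma0 N

theorem sysfin_mdiff_of_mem {g : ℍ → ℂ} (hg : g ∈ anaRing N) : MDiff g := by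
  have h : anaRing N ≤ holSubring := by
    apply Subring.closure_le.mpr
    rintro g (⟨c, rfl⟩ | ⟨d, hd, rfl⟩)
    · exact mdifferentiable_const
    · have : NeZero d := ⟨fun h => by
        subst h
        exact NeZero.ne N (Nat.eq_zero_of_zero_dvd hd)⟩
      exact jd_mdiff d
  exact h hg

theorem sysfin_invariant {g : ℍ → ℂ} (hg : g ∈ anaRing N) (γ : SL(2, ℤ))
    (hγ : γ ∈ CongruenceSubgroup.Gamma0 N) (τ : ℍ) : g (γ • τ) = g τ := by
  induction hg using Subring.closure_induction with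
  | mem g hg =>
    rcases hg with ⟨c, rfl⟩ | ⟨d, hd, rfl⟩
    · rfl
    · exact jd_smul_of_mem_Gamma0 N d hd γ hγ τ
  | zero => rfl
  | one => rfl
  | add f g _ _ hf hg => simp only [Pi.add_apply, hf, hg]
  | neg f _ hf => simp only [Pi.neg_apply, hf]
  | mul f g _ _ hf hg => simp only [Pi.mul_apply, hf, hg]

theorem sysfin_mdiff_smul (γ : SL(2, ℤ)) {g : ℍ → ℂ} (hg : MDiff g) :
    MDiff (fun τ => g (γ • τ)) := by
  rw [UpperHalfPlane.mdifferentiable_iff]
  intro z hz
  have h1 := ty_comp_eventuallyEq γ ⟨z, hz⟩ g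
  have h2 : AnalyticAt ℂ ((g ∘ ofComplex) ∘ tyMob γ) z := by
    refine AnalyticAt.comp ?_ (ty_mob_analyticAt γ ⟨z, hz⟩)
    have h3 := ty_analyticAt hg (γ • (⟨z, hz⟩ : ℍ))
    rw [ty_coe_smul] at h3
    exact h3
  have h4 : AnalyticAt ℂ ((fun τ => g (γ • τ)) ∘ ofComplex) z := h2.congr h1.symm
  exact h4.differentiableAt.differentiableWithinAt

/-- Change of representative: the expansion attached to `δ • q` is the expansion attached to `q`
precomposed with `δ⁻¹`. -/
theorem sysfin_out_smul (δ : SL(2, ℤ)) (q : Xc) (g : anaRing N) (τ : ℍ) :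
    (g : ℍ → ℂ) ((δ • q).out⁻¹ • τ) = (g : ℍ → ℂ) (q.out⁻¹ • (δ⁻¹ • τ)) := by
  have h1 : ((δ * q.out : SL(2, ℤ)) : Xc) = ((δ • q).out : Xc) := by
    rw [QuotientGroup.out_eq']
    conv_rhs => rw [← QuotientGroup.out_eq' q]
    rfl
  have h2 : (δ * q.out)⁻¹ * (δ • q).out ∈ CongruenceSubgroup.Gamma0 N := QuotientGroup.eq.mp h1
  have h3 : ((δ * q.out)⁻¹ * (δ • q).out)⁻¹ ∈ CongruenceSubgroup.Gamma0 N := inv_mem h2
  have h4 : (δ • q).out⁻¹ • τ =
      ((δ * q.out)⁻¹ * (δ • q).out)⁻¹ • (q.out⁻¹ • (δ⁻¹ • τ)) := by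
    rw [← mul_smul, ← mul_smul]
    congr 1
    group
  rw [h4, sysfin_invariant N g.2 _ h3]

omit [NeZero N] in
/-- A coset fixed by `δ` gives an element of `Γ₀(N)`. -/
theorem sysfin_mem_of_smul_eq (δ : SL(2, ℤ)) (q : Xc) (hfix : δ • q = q) :
    q.out⁻¹ * (δ * q.out) ∈ CongruenceSubgroup.Gamma0 N := by
  apply QuotientGroup.eq.mp
  have h2 : ((δ * q.out : SL(2, ℤ)) : Xc) = δ • (q.out : Xc) := rfl
  rw [h2, QuotientGroup.out_eq', hfix]

omit [NeZero N] in
theorem sysfin_neg_one_smul (q : Xc) : (-1 : SL(2, ℤ)) • q = q := by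
  have hmem : (-1 : SL(2, ℤ)) ∈ CongruenceSubgroup.Gamma0 N := by
    rw [CongruenceSubgroup.Gamma0_mem]
    simp
  rw [← QuotientGroup.out_eq' q]
  show (((-1 : SL(2, ℤ)) * q.out : SL(2, ℤ)) : Xc) = (q.out : Xc)
  apply QuotientGroup.eq.mpr
  have h : ((-1 : SL(2, ℤ)) * q.out)⁻¹ * q.out = -1 := by
    simp
  rw [h]
  exact hmem

end Ana

end Fermat.Agent.S24
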