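import Fermat.Agent.S24.ADefs

/-!
# S24, module T: Taylor expansions at interior points of the upper half plane

`taylorAt τ₀ g` (defined in `ADefs`) is the formal Taylor series of a function `g : ℍ → ℂ` at
`τ₀` in the coordinate `τ - τ₀`. On holomorphic functions it is an injective ring homomorphism
`taylorHom τ₀`, its order is the order of vanishing, it is invariant under precomposition with
elements of `SL(2, ℤ)` fixing `τ₀`, and invariance of `g` under the stabiliser of `i` (resp. `ρ`)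
forces the order at `i` (resp. `ρ`) to be even (resp. divisible by `3`).
-/

set_option autoImplicit false

open UpperHalfPlane ModularForm EisensteinSeries
open scoped MatrixGroups Manifold Topology

namespace Fermat.Agent.S24

open Filter

/-! ### Taylor series of functions on `ℂ` -/

/-- The Taylor series of `f : ℂ → ℂ` at `z0` as a formal power series. -/
noncomputable def tySeries (f : ℂ → ℂ) (z0 : ℂ) : PowerSeries ℂ :=
  PowerSeries.mk fun k => iteratedDeriv k f z0 / (k.factorial : ℂ)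

theorem ty_coeff (f : ℂ → ℂ) (z0 : ℂ) (k : ℕ) :
    PowerSeries.coeff k (tySeries f z0) = iteratedDeriv k f z0 / (k.factorial : ℂ) := by
  simp [tySeries]

theorem ty_congr {f g : ℂ → ℂ} {z0 : ℂ} (h : f =ᶠ[𝓝 z0] g) :
    tySeries f z0 = tySeries g z0 := by
  ext k
  simp [ty_coeff, h.iteratedDeriv_eq k]

theorem ty_const (c z0 : ℂ) : tySeries (fun _ => c) z0 = PowerSeries.C c := by
  ext k
  rw [ty_coeff, iteratedDeriv_const, PowerSeries.coeff_C]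
  split_ifs with h
  · subst h; simp
  · simp

theorem ty_add {f g : ℂ → ℂ} {z0 : ℂ} (hf : AnalyticAt ℂ f z0)
    (hg : AnalyticAt ℂ g z0) :
    tySeries (f + g) z0 = tySeries f z0 + tySeries g z0 := by
  ext k
  simp [ty_coeff, iteratedDeriv_add hf.contDiffAt hg.contDiffAt, add_div]

theorem ty_mul {f g : ℂ → ℂ} {z0 : ℂ} (hf : AnalyticAt ℂ f z0)
    (hg : AnalyticAt ℂ g z0) :
    tySeries (f * g) z0 = tySeries f z0 * tySeries g z0 := by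
  ext k
  rw [ty_coeff, PowerSeries.coeff_mul, iteratedDeriv_mul hf.contDiffAt hg.contDiffAt,
    Finset.Nat.sum_antidiagonal_eq_sum_range_succ_mk, Finset.sum_div]
  refine Finset.sum_congr rfl fun i hi => ?_
  have hik : i ≤ k := Nat.lt_succ_iff.mp (Finset.mem_range.mp hi)
  simp only [ty_coeff]
  have h1 : ((k.choose i : ℕ) : ℂ) =
      (k.factorial : ℂ) / ((i.factorial : ℂ) * ((k - i).factorial : ℂ)) := by
    rw [Nat.choose_eq_factorial_div_factorial hik]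
    rw [Nat.cast_div (Nat.factorial_mul_factorial_dvd_factorial hik)
      (by exact_mod_cast (Nat.mul_pos i.factorial_pos (k - i).factorial_pos).ne')]
    push_cast
    rfl
  rw [h1]
  have hk : (k.factorial : ℂ) ≠ 0 := Nat.cast_ne_zero.mpr k.factorial_ne_zero
  have hi' : (i.factorial : ℂ) ≠ 0 := Nat.cast_ne_zero.mpr i.factorial_ne_zero
  have hki : ((k - i).factorial : ℂ) ≠ 0 := Nat.cast_ne_zero.mpr (k - i).factorial_ne_zero
  field_simp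

theorem ty_eq_zero_iff {f : ℂ → ℂ} {z0 : ℂ} (hf : AnalyticAt ℂ f z0) :
    tySeries f z0 = 0 ↔ f =ᶠ[𝓝 z0] 0 := by
  constructor
  · intro h
    have h1 : analyticOrderAt f z0 = ⊤ := by
      rw [ENat.eq_top_iff_forall_ge]
      intro n
      rw [natCast_le_analyticOrderAt_iff_iteratedDeriv_eq_zero hf]
      intro i _
      have := congrArg (PowerSeries.coeff i) h
      rw [ty_coeff, map_zero, div_eq_zero_iff] at this
      rcases this with h2 | h2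
      · exact h2
      · exact absurd h2 (Nat.cast_ne_zero.mpr i.factorial_ne_zero)
    exact analyticOrderAt_eq_top.mp h1
  · intro h
    rw [ty_congr h]
    have : (0 : ℂ → ℂ) = fun _ => (0 : ℂ) := rfl
    rw [this, ty_const]
    simp

theorem ty_order {f : ℂ → ℂ} {z0 : ℂ} (hf : AnalyticAt ℂ f z0) :
    (tySeries f z0).order = analyticOrderAt f z0 := by
  apply le_antisymm
  · by_contra hlt
    rw [not_le] at hlt
    have hne : analyticOrderAt f z0 ≠ ⊤ := ne_top_of_lt hlt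
    obtain ⟨n, hn⟩ := ENat.ne_top_iff_exists.mp hne
    rw [← hn] at hlt
    have h0 : PowerSeries.coeff n (tySeries f z0) = 0 := PowerSeries.coeff_of_lt_order n hlt
    have h1 := (analyticOrderAt_eq_nat_iff_iteratedDeriv_eq_zero hf).mp hn.symm
    rw [ty_coeff, div_eq_zero_iff] at h0
    rcases h0 with h2 | h2
    · exact h1.2 h2
    · exact absurd h2 (Nat.cast_ne_zero.mpr n.factorial_ne_zero)
  · refine PowerSeries.le_order _ _ fun i hi => ?_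
    rw [ty_coeff]
    have h1 : ((i + 1 : ℕ) : ℕ∞) ≤ analyticOrderAt f z0 := by
      exact Order.add_one_le_of_lt hi
    rw [natCast_le_analyticOrderAt_iff_iteratedDeriv_eq_zero hf] at h1
    rw [h1 i (Nat.lt_succ_self i)]
    simp

/-! ### Holomorphic functions on the upper half plane -/

theorem ty_taylorAt_eq (τ₀ : ℍ) (g : ℍ → ℂ) :
    taylorAt τ₀ g = tySeries (g ∘ ofComplex) (τ₀ : ℂ) := by
  ext k
  simp [taylorAt, ty_coeff, div_eq_inv_mul]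

theorem ty_analyticAt {g : ℍ → ℂ} (hg : MDiff g) (τ₀ : ℍ) :
    AnalyticAt ℂ (g ∘ ofComplex) (τ₀ : ℂ) :=
  (UpperHalfPlane.mdifferentiable_iff.mp hg).analyticAt
    (isOpen_upperHalfPlaneSet.mem_nhds τ₀.im_pos)

theorem ty_analyticOnNhd {g : ℍ → ℂ} (hg : MDiff g) :
    AnalyticOnNhd ℂ (g ∘ ofComplex) {z : ℂ | 0 < z.im} := fun z hz =>
  ty_analyticAt hg ⟨z, hz⟩

/-- The identity theorem on the upper half plane. -/
theorem ty_eq_zero_of_eventuallyEq {g : ℍ → ℂ} (hg : MDiff g) (τ₀ : ℍ)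
    (h : (g ∘ ofComplex) =ᶠ[𝓝 (τ₀ : ℂ)] 0) : g = 0 := by
  have hpre : IsPreconnected {z : ℂ | 0 < z.im} := (convex_halfSpace_im_gt 0).isPreconnected
  have h1 := (ty_analyticOnNhd hg).eqOn_zero_of_preconnected_of_eventuallyEq_zero hpre
    (show (τ₀ : ℂ) ∈ {z : ℂ | 0 < z.im} from τ₀.im_pos) h
  funext τ
  have h2 := h1 (show (τ : ℂ) ∈ {z : ℂ | 0 < z.im} from τ.im_pos)
  simpa [Function.comp, ofComplex_apply] using h2

/-- The ring of holomorphic functions on the upper half plane. -/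
def holSubring : Subring (ℍ → ℂ) where
  carrier := {g | MDiff g}
  mul_mem' := fun {_ _} ha hb => MDifferentiable.mul ha hb
  one_mem' := mdifferentiable_const
  add_mem' := fun {_ _} ha hb => MDifferentiable.add ha hb
  zero_mem' := mdifferentiable_const
  neg_mem' := fun {_} ha => MDifferentiable.neg ha

theorem ty_mem_holSubring {g : ℍ → ℂ} : g ∈ holSubring ↔ MDiff g := Iff.rfl

/-- Taylor expansion at `τ₀` as a ring homomorphism on holomorphic functions. -/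
noncomputable def taylorHom (τ₀ : ℍ) : holSubring →+* PowerSeries ℂ where
  toFun g := taylorAt τ₀ g
  map_one' := by
    rw [ty_taylorAt_eq]
    have : ((1 : holSubring) : ℍ → ℂ) ∘ ofComplex = fun _ => (1 : ℂ) := rfl
    rw [this, ty_const]
    simp
  map_mul' := fun a b => by
    rw [ty_taylorAt_eq, ty_taylorAt_eq, ty_taylorAt_eq]
    exact ty_mul (ty_analyticAt a.2 τ₀) (ty_analyticAt b.2 τ₀)
  map_zero' := by
    rw [ty_taylorAt_eq]
    have : ((0 : holSubring) : ℍ → ℂ) ∘ ofComplex = fun _ => (0 : ℂ) := rfl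
    rw [this, ty_const]
    simp
  map_add' := fun a b => by
    rw [ty_taylorAt_eq, ty_taylorAt_eq, ty_taylorAt_eq]
    exact ty_add (ty_analyticAt a.2 τ₀) (ty_analyticAt b.2 τ₀)

theorem taylorHom_apply (τ₀ : ℍ) (g : holSubring) : taylorHom τ₀ g = taylorAt τ₀ g := rfl

theorem ty_taylorAt_eq_zero_iff (τ₀ : ℍ) {g : ℍ → ℂ} (hg : MDiff g) :
    taylorAt τ₀ g = 0 ↔ g = 0 := by
  constructor
  · intro h
    rw [ty_taylorAt_eq, ty_eq_zero_iff (ty_analyticAt hg τ₀)] at h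
    exact ty_eq_zero_of_eventuallyEq hg τ₀ h
  · rintro rfl
    rw [ty_taylorAt_eq]
    have : ((0 : ℍ → ℂ)) ∘ ofComplex = fun _ => (0 : ℂ) := rfl
    rw [this, ty_const]
    simp

theorem taylorHom_injective (τ₀ : ℍ) : Function.Injective (taylorHom τ₀) := by
  rw [injective_iff_map_eq_zero]
  intro g hg
  apply Subtype.ext
  exact (ty_taylorAt_eq_zero_iff τ₀ g.2).mp hg

theorem taylorAt_const (τ₀ : ℍ) (c : ℂ) : taylorAt τ₀ (fun _ => c) = PowerSeries.C c := by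
  rw [ty_taylorAt_eq]
  have : ((fun _ => c : ℍ → ℂ)) ∘ ofComplex = fun _ => c := rfl
  rw [this, ty_const]

/-- The order of the Taylor series is the analytic order of vanishing. -/
theorem ty_order_taylorAt (τ₀ : ℍ) {g : ℍ → ℂ} (hg : MDiff g) :
    (taylorAt τ₀ g).order = analyticOrderAt (g ∘ ofComplex) (τ₀ : ℂ) := by
  rw [ty_taylorAt_eq, ty_order (ty_analyticAt hg τ₀)]

theorem ty_order_ne_top (τ₀ : ℍ) {g : ℍ → ℂ} (hg : MDiff g) (hne : g ≠ 0) :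
    (taylorAt τ₀ g).order ≠ ⊤ := by
  intro h
  rw [PowerSeries.order_eq_top] at h
  exact hne ((ty_taylorAt_eq_zero_iff τ₀ hg).mp h)

/-- order 1 criterion through the derivative -/
theorem order_taylorAt_eq_one (τ₀ : ℍ) {g : ℍ → ℂ} (hg : MDiff g) (h0 : g τ₀ = 0)
    (h1 : deriv (g ∘ ofComplex) τ₀ ≠ 0) : (taylorAt τ₀ g).order = 1 := by
  have h : (taylorAt τ₀ g).order = ((1 : ℕ) : ℕ∞) := by
    rw [PowerSeries.order_eq_nat]
    constructor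
    · rw [ty_taylorAt_eq, ty_coeff, iteratedDeriv_one]
      simpa using h1
    · intro i hi
      have hi0 : i = 0 := by omega
      subst hi0
      rw [ty_taylorAt_eq, ty_coeff, iteratedDeriv_zero]
      simp [Function.comp, ofComplex_apply, h0]
  simpa using h

/-! ### Möbius maps -/

/-- The Möbius map of `γ` on `ℂ`. -/
noncomputable def tyMob (γ : SL(2, ℤ)) (z : ℂ) : ℂ :=
  (((γ 0 0 : ℤ) : ℂ) * z + ((γ 0 1 : ℤ) : ℂ)) / (((γ 1 0 : ℤ) : ℂ) * z + ((γ 1 1 : ℤ) : ℂ))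

theorem ty_coe_smul (γ : SL(2, ℤ)) (τ : ℍ) : ((γ • τ : ℍ) : ℂ) = tyMob γ τ := by
  rw [UpperHalfPlane.coe_specialLinearGroup_apply]
  simp [tyMob]

theorem ty_denom_ne_zero (γ : SL(2, ℤ)) (τ : ℍ) :
    ((γ 1 0 : ℤ) : ℂ) * (τ : ℂ) + ((γ 1 1 : ℤ) : ℂ) ≠ 0 := by
  have h := UpperHalfPlane.denom_ne_zero (γ : GL (Fin 2) ℝ) τ
  simpa [UpperHalfPlane.denom] using h

theorem ty_det (γ : SL(2, ℤ)) :
    ((γ 0 0 : ℤ) : ℂ) * ((γ 1 1 : ℤ) : ℂ) - ((γ 0 1 : ℤ) : ℂ) * ((γ 1 0 : ℤ) : ℂ) = 1 := by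
  have h := γ.det_coe
  rw [Matrix.det_fin_two] at h
  exact_mod_cast h

theorem ty_mob_eventually (γ : SL(2, ℤ)) (τ₀ : ℍ) :
    ∀ᶠ z in 𝓝 (τ₀ : ℂ), tyMob γ z = ((γ • ofComplex z : ℍ) : ℂ) := by
  filter_upwards [isOpen_upperHalfPlaneSet.mem_nhds τ₀.im_pos] with z hz
  rw [ty_coe_smul, ofComplex_apply_of_im_pos hz]

theorem ty_comp_eventuallyEq (γ : SL(2, ℤ)) (τ₀ : ℍ) (g : ℍ → ℂ) :
    ((fun τ => g (γ • τ)) ∘ ofComplex) =ᶠ[𝓝 (τ₀ : ℂ)] (g ∘ ofComplex) ∘ tyMob γ := by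
  filter_upwards [ty_mob_eventually γ τ₀] with z hz
  simp only [Function.comp]
  rw [hz, ofComplex_apply]

theorem ty_mob_analyticAt (γ : SL(2, ℤ)) (τ₀ : ℍ) : AnalyticAt ℂ (tyMob γ) (τ₀ : ℂ) := by
  unfold tyMob
  refine AnalyticAt.div ?_ ?_ (ty_denom_ne_zero γ τ₀)
  · fun_prop
  · fun_prop

theorem ty_mob_sub (γ : SL(2, ℤ)) (τ₀ : ℍ) (z : ℂ)
    (hz : ((γ 1 0 : ℤ) : ℂ) * z + ((γ 1 1 : ℤ) : ℂ) ≠ 0) :
    tyMob γ z - tyMob γ (τ₀ : ℂ) =
      (z - (τ₀ : ℂ)) * ((((γ 1 0 : ℤ) : ℂ) * z + ((γ 1 1 : ℤ) : ℂ)) *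
        (((γ 1 0 : ℤ) : ℂ) * (τ₀ : ℂ) + ((γ 1 1 : ℤ) : ℂ)))⁻¹ := by
  have h0 := ty_denom_ne_zero γ τ₀
  have hd := ty_det γ
  unfold tyMob
  rw [← div_eq_mul_inv, div_sub_div _ _ hz h0, div_eq_div_iff (mul_ne_zero hz h0) (mul_ne_zero hz h0)]
  linear_combination (z - (τ₀ : ℂ)) * ((((γ 1 0 : ℤ) : ℂ) * z + ((γ 1 1 : ℤ) : ℂ)) *
        (((γ 1 0 : ℤ) : ℂ) * (τ₀ : ℂ) + ((γ 1 1 : ℤ) : ℂ))) * hd

theorem ty_mob_hasDerivAt (γ : SL(2, ℤ)) (τ₀ : ℍ) :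
    HasDerivAt (tyMob γ) ((((γ 1 0 : ℤ) : ℂ) * (τ₀ : ℂ) + ((γ 1 1 : ℤ) : ℂ)) ^ 2)⁻¹ (τ₀ : ℂ) := by
  have h0 := ty_denom_ne_zero γ τ₀
  have hd := ty_det γ
  have hnum : HasDerivAt (fun z : ℂ => ((γ 0 0 : ℤ) : ℂ) * z + ((γ 0 1 : ℤ) : ℂ))
      ((γ 0 0 : ℤ) : ℂ) (τ₀ : ℂ) := by
    simpa using ((hasDerivAt_id (τ₀ : ℂ)).const_mul ((γ 0 0 : ℤ) : ℂ)).add_const ((γ 0 1 : ℤ) : ℂ)
  have hden : HasDerivAt (fun z : ℂ => ((γ 1 0 : ℤ) : ℂ) * z + ((γ 1 1 : ℤ) : ℂ))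
      ((γ 1 0 : ℤ) : ℂ) (τ₀ : ℂ) := by
    simpa using ((hasDerivAt_id (τ₀ : ℂ)).const_mul ((γ 1 0 : ℤ) : ℂ)).add_const ((γ 1 1 : ℤ) : ℂ)
  have h := hnum.div hden h0
  have e : (((γ 0 0 : ℤ) : ℂ) * (((γ 1 0 : ℤ) : ℂ) * (τ₀ : ℂ) + ((γ 1 1 : ℤ) : ℂ)) -
      (((γ 0 0 : ℤ) : ℂ) * (τ₀ : ℂ) + ((γ 0 1 : ℤ) : ℂ)) * ((γ 1 0 : ℤ) : ℂ)) /
      (((γ 1 0 : ℤ) : ℂ) * (τ₀ : ℂ) + ((γ 1 1 : ℤ) : ℂ)) ^ 2 =
      ((((γ 1 0 : ℤ) : ℂ) * (τ₀ : ℂ) + ((γ 1 1 : ℤ) : ℂ)) ^ 2)⁻¹ := by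
    rw [div_eq_iff (pow_ne_zero 2 h0), inv_mul_cancel₀ (pow_ne_zero 2 h0)]
    linear_combination hd
  rw [e] at h
  exact h

theorem ty_mob_fixed (γ : SL(2, ℤ)) (τ₀ : ℍ) (hγ : γ • τ₀ = τ₀) : tyMob γ (τ₀ : ℂ) = τ₀ := by
  rw [← ty_coe_smul, hγ]

/-- precomposition with an element of SL(2,ℤ) fixing `τ₀` preserves the order -/
theorem order_taylorAt_smul (τ₀ : ℍ) (γ : SL(2, ℤ)) (hγ : γ • τ₀ = τ₀) {g : ℍ → ℂ} (hg : MDiff g) :
    (taylorAt τ₀ (fun τ => g (γ • τ))).order = (taylorAt τ₀ g).order := by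
  have h0 := ty_denom_ne_zero γ τ₀
  have hder : deriv (tyMob γ) (τ₀ : ℂ) ≠ 0 := by
    rw [(ty_mob_hasDerivAt γ τ₀).deriv]
    exact inv_ne_zero (pow_ne_zero 2 h0)
  rw [ty_order_taylorAt τ₀ hg, ty_taylorAt_eq, ty_congr (ty_comp_eventuallyEq γ τ₀ g)]
  have han : AnalyticAt ℂ ((g ∘ ofComplex) ∘ tyMob γ) (τ₀ : ℂ) := by
    refine AnalyticAt.comp ?_ (ty_mob_analyticAt γ τ₀)
    rw [ty_mob_fixed γ τ₀ hγ]
    exact ty_analyticAt hg τ₀
  rw [ty_order han, analyticOrderAt_comp_of_deriv_ne_zero (ty_mob_analyticAt γ τ₀) hder,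
    ty_mob_fixed γ τ₀ hγ]

/-- If `g` is invariant under `γ` fixing `τ₀`, and `n` is the order of `g` at `τ₀`, then
`(c τ₀ + d) ^ (2 n) = 1`. -/
theorem ty_rotation (τ₀ : ℍ) (γ : SL(2, ℤ)) (hγ : γ • τ₀ = τ₀) {g : ℍ → ℂ} (hg : MDiff g)
    (hinv : ∀ τ : ℍ, g (γ • τ) = g τ) (n : ℕ) (hn : (taylorAt τ₀ g).order = (n : ℕ∞)) :
    (((γ 1 0 : ℤ) : ℂ) * (τ₀ : ℂ) + ((γ 1 1 : ℤ) : ℂ)) ^ (2 * n) = 1 := by
  set w : ℂ := ((γ 1 0 : ℤ) : ℂ) * (τ₀ : ℂ) + ((γ 1 1 : ℤ) : ℂ) with hw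
  have h0 : w ≠ 0 := ty_denom_ne_zero γ τ₀
  set f : ℂ → ℂ := g ∘ ofComplex with hf
  have hfa : AnalyticAt ℂ f (τ₀ : ℂ) := ty_analyticAt hg τ₀
  rw [ty_order_taylorAt τ₀ hg, hfa.analyticOrderAt_eq_natCast] at hn
  obtain ⟨h, hha, hh0, hfh⟩ := hn
  -- invariance
  have hinv' : f ∘ tyMob γ =ᶠ[𝓝 (τ₀ : ℂ)] f := by
    have h1 := ty_comp_eventuallyEq γ τ₀ g
    have h2 : ((fun τ => g (γ • τ)) ∘ ofComplex) = f := by
      funext z
      exact hinv (ofComplex z)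
    rw [h2] at h1
    exact h1.symm
  have hfix := ty_mob_fixed γ τ₀ hγ
  have hmob_cont : Tendsto (tyMob γ) (𝓝 (τ₀ : ℂ)) (𝓝 (τ₀ : ℂ)) := by
    have := (ty_mob_analyticAt γ τ₀).continuousAt
    rw [ContinuousAt, hfix] at this
    exact this
  have hfh' : ∀ᶠ z in 𝓝 (τ₀ : ℂ), f (tyMob γ z) = (tyMob γ z - (τ₀ : ℂ)) ^ n • h (tyMob γ z) :=
    hmob_cont.eventually hfh
  have hden : ∀ᶠ z in 𝓝 (τ₀ : ℂ), ((γ 1 0 : ℤ) : ℂ) * z + ((γ 1 1 : ℤ) : ℂ) ≠ 0 := by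
    have hc : ContinuousAt (fun z : ℂ => ((γ 1 0 : ℤ) : ℂ) * z + ((γ 1 1 : ℤ) : ℂ)) (τ₀ : ℂ) := by
      fun_prop
    exact hc.eventually_ne h0
  -- the two cofactors
  set h2 : ℂ → ℂ := fun z =>
    ((((γ 1 0 : ℤ) : ℂ) * z + ((γ 1 1 : ℤ) : ℂ)) * w)⁻¹ ^ n * h (tyMob γ z) with hh2
  have hh2a : AnalyticAt ℂ h2 (τ₀ : ℂ) := by
    have ha1 : AnalyticAt ℂ (fun z : ℂ => (((γ 1 0 : ℤ) : ℂ) * z + ((γ 1 1 : ℤ) : ℂ)) * w)
        (τ₀ : ℂ) := by fun_prop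
    have ha2 : AnalyticAt ℂ (fun z : ℂ => ((((γ 1 0 : ℤ) : ℂ) * z + ((γ 1 1 : ℤ) : ℂ)) * w)⁻¹)
        (τ₀ : ℂ) := ha1.inv (mul_ne_zero h0 h0)
    have ha3 : AnalyticAt ℂ (fun z : ℂ => h (tyMob γ z)) (τ₀ : ℂ) := by
      have : AnalyticAt ℂ h (tyMob γ (τ₀ : ℂ)) := by rw [hfix]; exact hha
      exact this.comp (ty_mob_analyticAt γ τ₀)
    exact (ha2.pow n).mul ha3
  have hkey : ∀ᶠ z in 𝓝 (τ₀ : ℂ), (z - (τ₀ : ℂ)) ^ n * (h z - h2 z) = 0 := by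
    filter_upwards [hfh, hfh', hinv', hden] with z hz1 hz2 hz3 hz4
    have e1 : f z = (z - (τ₀ : ℂ)) ^ n * h z := by simpa using hz1
    have e2 : f (tyMob γ z) = (tyMob γ z - (τ₀ : ℂ)) ^ n * h (tyMob γ z) := by simpa using hz2
    have e3 : f (tyMob γ z) = f z := hz3
    have e4 : tyMob γ z - (τ₀ : ℂ) =
        (z - (τ₀ : ℂ)) * ((((γ 1 0 : ℤ) : ℂ) * z + ((γ 1 1 : ℤ) : ℂ)) * w)⁻¹ := by
      have := ty_mob_sub γ τ₀ z hz4
      rw [hfix] at this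
      exact this
    rw [e4, mul_pow] at e2
    have : (z - (τ₀ : ℂ)) ^ n * h2 z = f z := by
      rw [← e3, e2, hh2]
      ring
    rw [mul_sub, this, e1]
    ring
  have hdiff : AnalyticAt ℂ (fun z => h z - h2 z) (τ₀ : ℂ) := hha.sub hh2a
  have hzero : (fun z => h z - h2 z) =ᶠ[𝓝 (τ₀ : ℂ)] 0 := by
    rcases hdiff.eventually_eq_zero_or_eventually_ne_zero with h1 | h1
    · exact h1
    · exfalso
      have h3 : ∀ᶠ z in 𝓝[≠] (τ₀ : ℂ), (z - (τ₀ : ℂ)) ^ n * (h z - h2 z) = 0 :=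
        hkey.filter_mono nhdsWithin_le_nhds
      have h4 : ∀ᶠ z in 𝓝[≠] (τ₀ : ℂ), z ≠ (τ₀ : ℂ) := eventually_mem_nhdsWithin
      have h5 : ∀ᶠ z in 𝓝[≠] (τ₀ : ℂ), False := by
        filter_upwards [h1, h3, h4] with z hz1 hz3 hz4
        rcases mul_eq_zero.mp hz3 with h6 | h6
        · exact hz4 (sub_eq_zero.mp (by
            by_contra hne'
            exact pow_ne_zero n hne' h6))
        · exact hz1 h6
      exact (eventually_false_iff_eq_bot.mp h5 ▸ (inferInstance : (𝓝[≠] (τ₀ : ℂ)).NeBot)).ne rfl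
  have hval : h (τ₀ : ℂ) - h2 (τ₀ : ℂ) = 0 := hzero.self_of_nhds
  have hval2 : h2 (τ₀ : ℂ) = (w * w)⁻¹ ^ n * h (τ₀ : ℂ) := by
    simp only [hh2]
    rw [hfix]
  rw [hval2] at hval
  have hw2 : (w * w)⁻¹ ^ n = 1 := by
    have : h (τ₀ : ℂ) * (1 - (w * w)⁻¹ ^ n) = 0 := by
      rw [← hval]; ring
    rcases mul_eq_zero.mp this with h6 | h6
    · exact absurd h6 hh0
    · exact (sub_eq_zero.mp h6).symm
  rw [pow_mul, sq]
  rw [inv_pow] at hw2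
  exact inv_eq_one.mp hw2

/-- an `S`-invariant holomorphic function has even order at `i` -/
theorem two_dvd_order_taylorAt_I {g : ℍ → ℂ} (hg : MDiff g) (hne : g ≠ 0)
    (hinv : ∀ τ : ℍ, g (ModularGroup.S • τ) = g τ) :
    ∃ k : ℕ, (taylorAt UpperHalfPlane.I g).order = ((2 * k : ℕ) : ℕ∞) := by
  obtain ⟨n, hn⟩ := ENat.ne_top_iff_exists.mp (ty_order_ne_top UpperHalfPlane.I hg hne)
  have hfix : ModularGroup.S • UpperHalfPlane.I = UpperHalfPlane.I := by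
    rw [UpperHalfPlane.modular_S_smul]
    ext
    simp
  have h := ty_rotation UpperHalfPlane.I ModularGroup.S hfix hg hinv n hn.symm
  have hc : ((ModularGroup.S 1 0 : ℤ) : ℂ) = 1 := by simp [ModularGroup.S]
  have hd : ((ModularGroup.S 1 1 : ℤ) : ℂ) = 0 := by simp [ModularGroup.S]
  rw [hc, hd] at h
  have h2 : ((-1 : ℂ)) ^ n = 1 := by
    have : ((1 : ℂ) * (UpperHalfPlane.I : ℂ) + 0) ^ (2 * n) = (-1) ^ n := by
      rw [pow_mul]
      simp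
    rw [← this]
    exact h
  have heven : Even n := by
    rcases Nat.even_or_odd n with he | ho
    · exact he
    · exfalso
      rw [ho.neg_one_pow] at h2
      norm_num at h2
  obtain ⟨k, hk⟩ := heven
  exact ⟨k, by rw [← hn, hk, two_mul]⟩

theorem ty_rho_coe : (rho : ℂ) = ⟨-1 / 2, Real.sqrt 3 / 2⟩ := rfl

theorem ty_ST_entries :
    (ModularGroup.S * ModularGroup.T) 0 0 = 0 ∧ (ModularGroup.S * ModularGroup.T) 0 1 = -1 ∧
    (ModularGroup.S * ModularGroup.T) 1 0 = 1 ∧ (ModularGroup.S * ModularGroup.T) 1 1 = 1 := by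
  decide

theorem ty_rho_sq : (rho : ℂ) ^ 2 + (rho : ℂ) + 1 = 0 := by
  rw [ty_rho_coe]
  apply Complex.ext
  · simp [pow_two]
    have h3 : Real.sqrt 3 * Real.sqrt 3 = 3 := Real.mul_self_sqrt (by norm_num)
    nlinarith
  · simp [pow_two]
    ring

/-- an `ST`-invariant holomorphic function has order divisible by 3 at `ρ` -/
theorem three_dvd_order_taylorAt_rho {g : ℍ → ℂ} (hg : MDiff g) (hne : g ≠ 0)
    (hinv : ∀ τ : ℍ, g ((ModularGroup.S * ModularGroup.T) • τ) = g τ) :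
    ∃ k : ℕ, (taylorAt rho g).order = ((3 * k : ℕ) : ℕ∞) := by
  obtain ⟨n, hn⟩ := ENat.ne_top_iff_exists.mp (ty_order_ne_top rho hg hne)
  have hq := ty_rho_sq
  have hc : (((ModularGroup.S * ModularGroup.T) 1 0 : ℤ) : ℂ) = 1 := by
    rw [ty_ST_entries.2.2.1]; simp
  have hd : (((ModularGroup.S * ModularGroup.T) 1 1 : ℤ) : ℂ) = 1 := by
    rw [ty_ST_entries.2.2.2]; simp
  have ha : (((ModularGroup.S * ModularGroup.T) 0 0 : ℤ) : ℂ) = 0 := by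
    rw [ty_ST_entries.1]; simp
  have hb : (((ModularGroup.S * ModularGroup.T) 0 1 : ℤ) : ℂ) = -1 := by
    rw [ty_ST_entries.2.1]; simp
  have hne1 : (rho : ℂ) + 1 ≠ 0 := by
    intro h
    have : (rho : ℂ) ^ 2 = 0 := by linear_combination hq - h
    have h2 : (rho : ℂ) = 0 := pow_eq_zero_iff (two_ne_zero) |>.mp this
    rw [h2] at h
    norm_num at h
  have hfix : (ModularGroup.S * ModularGroup.T) • rho = rho := by
    apply UpperHalfPlane.ext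
    rw [ty_coe_smul]
    unfold tyMob
    rw [ha, hb, hc, hd]
    rw [div_eq_iff (by simpa using hne1)]
    linear_combination (-1 : ℂ) * hq
  have h := ty_rotation rho (ModularGroup.S * ModularGroup.T) hfix hg hinv n hn.symm
  rw [hc, hd] at h
  have h2 : (rho : ℂ) ^ n = 1 := by
    have : ((1 : ℂ) * (rho : ℂ) + 1) ^ (2 * n) = (rho : ℂ) ^ n := by
      rw [pow_mul]
      congr 1
      linear_combination hq
    rw [← this]
    exact h
  have h3 : (rho : ℂ) ^ 3 = 1 := by linear_combination ((rho : ℂ) - 1) * hq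
  have hne1' : (rho : ℂ) ≠ 1 := by
    intro h1
    rw [h1] at hq
    norm_num at hq
  have hord : orderOf (rho : ℂ) = 3 := orderOf_eq_prime h3 hne1'
  have hdvd : 3 ∣ n := by
    rw [← hord]
    exact orderOf_dvd_of_pow_eq_one h2
  obtain ⟨k, hk⟩ := hdvd
  exact ⟨k, by rw [← hn, hk]⟩

end Fermat.Agent.S24
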